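import Fermat.Agent.F4.Loc.Cyclic
import Fermat.Agent.MU.F4.Cf.Defs

section MergeWrap_F4_Cf_CycMul -- from F4/Cf/CycMul.lean

/-!
# F4 / Cf / CycMul : the cyclic layer with prime-to-`p` slack, multiplicative form
(seat ACF-2 of GLOB, helper71; statements of the seat are in `F4/Cf/Statements.lean`, the
additive translation is `F4/Cf/Cyc.lean`)

Variants of `Loc.infl_injective` and `Loc.infRes_step3` in which Hilbert 90 is replaced by the
hypothesis that the (finitely many) 1-cocycles that occur are coboundaries, and the two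
consequences with slack:

* `cf_norm_of_cyc_slack` : `c_a = ∂s` and `(s|_H / s 1) ^ m` a coboundary, `p ∤ m`  ⇒  `a` is a norm;
* `cf_exact_slack`       : `c` a 2-cocycle, `c|_H = ∂t`, `c ^ p = ∂s_p`, `H¹(H, M)` prime-to-`p`
                           torsion  ⇒  `c = c_a * ∂s`.
-/

set_option autoImplicit false
set_option linter.unusedSectionVars false
set_option linter.style.haveILetI false

open groupCohomology

namespace Fermat.Agent.F4Cf

open Fermat.Agent.F4.Loc

variable {Γ M : Type*} [Group Γ] [CommGroup M] [MulDistribMulAction Γ M]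

/-! ### powers and quotients of cochains -/

theorem cf_mulD1_pow (s : Γ → M) (m : ℕ) : mulD1 (s ^ m) = mulD1 s ^ m := by
  funext ⟨g, h⟩
  simp only [mulD1_apply, Pi.pow_apply, smul_pow']
  rw [mul_pow, div_pow]

theorem cf_mulD1_inv (s : Γ → M) : mulD1 s⁻¹ = (mulD1 s)⁻¹ := by
  funext ⟨g, h⟩
  simp only [mulD1_apply, Pi.inv_apply, smul_inv']
  exact (by intros; abel : ∀ a b c : Additive M, -a - -b + -c = -(a - b + c)) _ _ _

theorem cf_mulD1_div (s s' : Γ → M) : mulD1 (s / s') = mulD1 s / mulD1 s' := by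
  rw [div_eq_mul_inv, mulD1_mul, cf_mulD1_inv, div_eq_mul_inv]

theorem cf_isConst1_pow {V : Subgroup Γ} {s : Γ → M} (hs : IsConst1 V s) (m : ℕ) :
    IsConst1 V (s ^ m) := fun g v hv => by
  simp only [Pi.pow_apply, hs g v hv]

theorem cf_isConst1_mul {V : Subgroup Γ} {s s' : Γ → M} (hs : IsConst1 V s)
    (hs' : IsConst1 V s') : IsConst1 V (s * s') := fun g v hv => by
  simp only [Pi.mul_apply, hs g v hv, hs' g v hv]

theorem cf_isConst1_div {V : Subgroup Γ} {s s' : Γ → M} (hs : IsConst1 V s)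
    (hs' : IsConst1 V s') : IsConst1 V (s / s') := fun g v hv => by
  simp only [Pi.div_apply, hs g v hv, hs' g v hv]

theorem cf_isConst1_mono {V H : Subgroup Γ} (hVH : V ≤ H) {s : Γ → M} (hs : IsConst1 H s) :
    IsConst1 V s := fun g v hv => hs g v (hVH hv)

theorem cf_isInfl1_pow {V : Subgroup Γ} {s : Γ → M} (hs : IsInfl1 V s) (m : ℕ) :
    IsInfl1 V (s ^ m) :=
  ⟨cf_isConst1_pow hs.1 m, fun g h hh => by
    simp only [Pi.pow_apply, smul_pow', hs.2 g h hh]⟩

theorem cf_isInfl2_pow {V : Subgroup Γ} {c : Γ × Γ → M} (hc : IsInfl2 V c) (m : ℕ) :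
    IsInfl2 V (c ^ m) :=
  ⟨fun g g' v v' hv hv' => by simp only [Pi.pow_apply, hc.1 g g' v v' hv hv'],
    fun g g' h hh => by simp only [Pi.pow_apply, smul_pow', hc.2 g g' h hh]⟩

theorem cf_isMulCocycle₂_pow {c : Γ × Γ → M} (hc : IsMulCocycle₂ c) (m : ℕ) :
    IsMulCocycle₂ (c ^ m) := by
  intro g h j
  simp only [Pi.pow_apply, smul_pow', ← mul_pow, hc g h j]

theorem cf_cycCocycle_pow {n : ℕ} (χ : Γ →* Multiplicative (ZMod n)) (a : M) (m : ℕ) :
    cycCocycle χ (a ^ m) = cycCocycle χ a ^ m := by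
  funext q
  simp only [cycCocycle, Pi.pow_apply, ← pow_mul, mul_comm]

theorem cf_cycCocycle_div {n : ℕ} (χ : Γ →* Multiplicative (ZMod n)) (a b : M) :
    cycCocycle χ (a / b) = cycCocycle χ a / cycCocycle χ b := by
  funext q
  simp only [cycCocycle, Pi.div_apply, div_pow]

/-! ### the norm -/

theorem cf_cycNorm_mul (n : ℕ) (σ : Γ) (x y : M) :
    cycNorm n σ (x * y) = cycNorm n σ x * cycNorm n σ y := by
  simp only [cycNorm, smul_mul', Finset.prod_mul_distrib]

theorem cf_cycNorm_pow (n : ℕ) (σ : Γ) (x : M) (m : ℕ) :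
    cycNorm n σ (x ^ m) = cycNorm n σ x ^ m := by
  simp only [cycNorm, smul_pow', Finset.prod_pow]

theorem cf_cycNorm_inv (n : ℕ) (σ : Γ) (x : M) :
    cycNorm n σ x⁻¹ = (cycNorm n σ x)⁻¹ := by
  simp only [cycNorm, smul_inv', Finset.prod_inv_distrib]

theorem cf_cycNorm_div (n : ℕ) (σ : Γ) (x y : M) :
    cycNorm n σ (x / y) = cycNorm n σ x / cycNorm n σ y := by
  rw [div_eq_mul_inv, cf_cycNorm_mul, cf_cycNorm_inv, div_eq_mul_inv]

theorem cf_cycNorm_of_fixed (n : ℕ) (σ : Γ) (a : M) (ha : ∀ g : Γ, g • a = a) :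
    cycNorm n σ a = a ^ n := by
  simp only [cycNorm, ha, Finset.prod_const, Finset.card_range]

/-! ### injectivity of inflation, with an explicit coboundary hypothesis -/

/-- If `c = ∂s` is `H`-inflated, `h ↦ s h / s 1` is a 1-cocycle of `H`. -/
theorem cf_res_cocycle (H : Subgroup Γ) [H.Normal] (c : Γ × Γ → M) (hc : IsInfl2 H c)
    (s : Γ → M) (hcs : c = mulD1 s) : IsMulCocycle₁ (fun h : H => s h / s 1) := by
  have hce : c (1, 1) = s 1 := by
    rw [hcs, mulD1_apply, one_smul, one_mul, div_self', one_mul]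
  have hefix : ∀ h ∈ H, h • s 1 = s 1 := fun h hh => by rw [← hce]; exact hc.2 1 1 h hh
  have hcHH : ∀ h h' : Γ, h ∈ H → h' ∈ H → c (h, h') = s 1 := by
    intro h h' hh hh'
    have := hc.1 1 1 h h' hh hh'
    rw [one_mul, one_mul] at this
    rw [this, hce]
  intro h h'
  have h2 := hcHH h h' h.2 h'.2
  rw [hcs, mulD1_apply] at h2
  show s ((h : Γ) * (h' : Γ)) / s 1 = (h : Γ) • (s h' / s 1) * (s h / s 1)
  rw [smul_div', hefix h h.2]
  exact (by intro a b c d h; rw [← h]; abel :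
    ∀ a b c d : Additive M, a - b + c = d → b - d = (a - d) + (c - d)) _ _ _ _ h2

/-- **Inflation is injective** in degree 2, when the cocycle `s|_H / s 1` is the coboundary
of `x`. -/
theorem cf_infl_injective_of_cob (H : Subgroup Γ) [H.Normal] (c : Γ × Γ → M)
    (hc : IsInfl2 H c) (s : Γ → M) (hcs : c = mulD1 s) (x : M)
    (hx' : ∀ h ∈ H, h • x / x = s h / s 1) :
    ∃ s' : Γ → M, IsInfl1 H s' ∧ c = mulD1 s' := by
  set e : M := s 1 with he
  have hce : c (1, 1) = e := by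
    rw [hcs, mulD1_apply, one_smul, one_mul, div_self', one_mul]
  -- the new cochain
  set s' : Γ → M := fun g => s g * (x / g • x) with hs'
  have hcs' : c = mulD1 s' := by
    rw [hcs]
    funext ⟨g, h⟩
    simp only [mulD1_apply, hs', smul_mul', smul_div', mul_smul]
    exact (by intros; abel :
      ∀ a b c X Y Z : Additive M, a - b + c = (a + (Y - Z)) - (b + (X - Z)) + (c + (X - Y)))
      _ _ _ _ _ _
  have hs'H : ∀ h ∈ H, s' h = e := by
    intro h hh
    have := hx' h hh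
    show s h * (x / h • x) = e
    exact (by intro a b c d h; rw [sub_eq_iff_eq_add] at h; rw [h]; abel :
      ∀ a b c d : Additive M, a - b = c - d → c + (b - a) = d) _ _ _ _ this
  have hs'1 : s' 1 = e := hs'H 1 (one_mem _)
  have hconst' : IsConst1 H s' := by
    intro g h hh
    have h2 : c (g, h) = c (g, 1) := by
      have := hc.1 g 1 1 h (one_mem _) hh
      rw [mul_one, one_mul] at this
      exact this
    rw [hcs', mulD1_apply, mulD1_apply, hs'H h hh, hs'1, mul_one] at h2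
    exact (by intro a b c h
              have h3 := h
              rw [sub_add_cancel] at h3
              have h4 : a - b + c - a = 0 := by rw [h3]; abel
              have h5 : a - b + c - a = c - b := by abel
              rw [h5, sub_eq_zero] at h4
              exact h4.symm :
      ∀ a b c : Additive M, a - b + c = a - c + c → b = c) _ _ _ h2
  refine ⟨s', ⟨hconst', ?_⟩, hcs'⟩
  intro g h hh
  have h2 : c (h, g) = e := by
    have := hc.1 1 g h 1 hh (one_mem _)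
    rw [one_mul, mul_one] at this
    rw [this, hcs', mulD1_apply, one_smul, one_mul, div_self', one_mul, hs'1]
  rw [hcs', mulD1_apply, hs'H h hh] at h2
  have h3 : s' (h * g) = s' g := by
    have h4 : h * g = g * (g⁻¹ * h * g) := by group
    have h5 : g⁻¹ * h * g ∈ H := by
      simpa using Subgroup.Normal.conj_mem inferInstance h hh g⁻¹
    rw [h4, hconst' _ _ h5]
  rw [h3] at h2
  exact (by intro a b c h
            have h4 : a - b + c - c = 0 := by rw [h]; abel
            have h5 : a - b + c - c = a - b := by abel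
            rw [h5, sub_eq_zero] at h4
            exact h4 :
    ∀ a b c : Additive M, a - b + c = c → a = b) _ _ _ h2

/-! ### step 3 of inflation–restriction, with explicit coboundary hypotheses -/

/-- For a 2-cocycle trivial on `Γ × H`, `w ↦ c₂ (w, g)` is a 1-cocycle of `H`. -/
theorem cf_step3_cocycle (H : Subgroup Γ) [H.Normal] (c₂ : Γ × Γ → M) (hc : IsMulCocycle₂ c₂)
    (hr : ∀ g w, w ∈ H → c₂ (g, w) = 1) (g : Γ) :
    IsMulCocycle₁ (fun w : H => c₂ ((w : Γ), g)) := by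
  have h2 : ∀ x y w, w ∈ H → c₂ (x, y * w) = c₂ (x, y) := by
    intro x y w hw
    have := hc x y w
    rw [hr _ _ hw, hr _ _ hw, smul_one, one_mul, one_mul] at this
    exact this.symm
  have hconj : ∀ (w g : Γ), w ∈ H → g⁻¹ * w * g ∈ H := fun w g hw => by
    simpa using Subgroup.Normal.conj_mem (inferInstance : H.Normal) w hw g⁻¹
  have h2' : ∀ x y w, w ∈ H → c₂ (x, w * y) = c₂ (x, y) := by
    intro x y w hw
    have h3 : w * y = y * (y⁻¹ * w * y) := by group
    rw [h3, h2 _ _ _ (hconj w y hw)]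
  intro w w'
  have := hc w w' g
  rw [hr _ _ w'.2, mul_one, h2' _ _ _ w'.2] at this
  exact this

/-- For a 2-cocycle trivial on `Γ × H`, `c₂ (x, y)` depends only on `y H`. -/
theorem cf_step3_dep (H : Subgroup Γ) (c₂ : Γ × Γ → M) (hc : IsMulCocycle₂ c₂)
    (hr : ∀ g w, w ∈ H → c₂ (g, w) = 1) (x y w : Γ) (hw : w ∈ H) :
    c₂ (x, y * w) = c₂ (x, y) := by
  have := hc x y w
  rw [hr _ _ hw, hr _ _ hw, smul_one, one_mul, one_mul] at this
  exact this.symm

/-- Step 3 of inflation–restriction, when the cocycles `w ↦ c₂ (w, g)` are coboundaries. -/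
theorem cf_infRes_step3_of_cob (H V : Subgroup Γ) [H.Normal] [V.Normal] (hVH : V ≤ H)
    (c₂ : Γ × Γ → M) (hc : IsMulCocycle₂ c₂) (hcV : IsInfl2 V c₂)
    (hr : ∀ g w, w ∈ H → c₂ (g, w) = 1)
    (hex : ∀ g : Γ, ∃ x : M, ∀ w : H, (w : Γ) • x / x = c₂ (w, g)) :
    ∃ s₃ : Γ → M, IsInfl1 V s₃ ∧ (∀ g w, w ∈ H → (c₂ * mulD1 s₃) (g, w) = 1) ∧
      ∀ g w, w ∈ H → (c₂ * mulD1 s₃) (w, g) = 1 := by
  classical
  obtain ⟨r, hr1, hr2, hr3⟩ := exists_transversal H
  have h2 : ∀ x y w, w ∈ H → c₂ (x, y * w) = c₂ (x, y) := fun x y w hw =>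
    cf_step3_dep H c₂ hc hr x y w hw
  have hconj : ∀ (w g : Γ), w ∈ H → g⁻¹ * w * g ∈ H := fun w g hw => by
    simpa using Subgroup.Normal.conj_mem (inferInstance : H.Normal) w hw g⁻¹
  choose X hX using hex
  set m : Γ → M := fun g => if g ∈ H then 1 else X (r g) with hm
  have hmH : ∀ g, g ∈ H → m g = 1 := fun g hg => by simp only [hm, hg, if_true]
  have hm1 : ∀ g w, w ∈ H → m (g * w) = m g := by
    intro g w hw
    have e1 : g * w ∈ H ↔ g ∈ H := Subgroup.mul_mem_cancel_right H hw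
    simp only [hm, e1, hr3 g w hw]
  have hm2 : ∀ g w, w ∈ H → w • m g / m g = c₂ (w, g) := by
    intro g w hw
    by_cases hg : g ∈ H
    · rw [hmH g hg, smul_one, div_one, hr _ _ hg]
    · have e1 : m g = X (r g) := by simp only [hm, hg, if_false]
      have e2 := hX (r g) ⟨w, hw⟩
      have e3 : c₂ (w, g) = c₂ (w, r g) := by
        have := h2 w (r g) _ (hr2 g)
        rw [mul_inv_cancel_left] at this
        exact this
      rw [e1, e2, e3]
  have hc11 : c₂ (1, 1) = 1 := hr 1 1 (one_mem _)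
  have hm4 : ∀ g v, v ∈ V → v • m g = m g := by
    intro g v hv
    have e1 := hm2 g v (hVH hv)
    have e2 : c₂ (v, g) = 1 := by
      have := hcV.1 1 g v 1 hv (one_mem _)
      rw [one_mul, mul_one] at this
      rw [this, IsMulCocycle₂_one_left hc, hc11]
    rw [e2, div_eq_one] at e1
    exact e1
  refine ⟨fun g => (m g)⁻¹, ⟨?_, ?_⟩, ?_, ?_⟩
  · intro g v hv
    show (m (g * v))⁻¹ = (m g)⁻¹
    rw [hm1 g v (hVH hv)]
  · intro g v hv
    show v • (m g)⁻¹ = (m g)⁻¹
    rw [smul_inv', hm4 g v hv]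
  · intro g w hw
    simp only [Pi.mul_apply, mulD1_apply]
    rw [hr g w hw, hm1 g w hw, hmH w hw, inv_one, smul_one]
    exact (by intros; abel : ∀ a : Additive M, 0 + (0 - -a + -a) = 0) _
  · intro g w hw
    simp only [Pi.mul_apply, mulD1_apply]
    have e1 : m (w * g) = m g := by
      have h3 : w * g = g * (g⁻¹ * w * g) := by group
      rw [h3, hm1 _ _ (hconj w g hw)]
    rw [e1, hmH w hw, inv_one, smul_inv', ← hm2 g w hw]
    exact (by intros; abel : ∀ a b : Additive M, (a - b) + (-a - -b + 0) = 0) _ _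

/-! ### the two statements with slack -/

/-- `m u = p k + 1` for some `u, k`, when `p` is prime and `p ∤ m`. -/
theorem cf_bezout {p : ℕ} (hp : p.Prime) {m : ℕ} (hm : ¬ p ∣ m) :
    ∃ u k : ℕ, m * u = p * k + 1 := by
  have hcop : Nat.Coprime m p := ((Nat.Prime.coprime_iff_not_dvd hp).2 hm).symm
  obtain ⟨u, -, hu⟩ := Nat.exists_mul_mod_eq_one_of_coprime hcop hp.one_lt
  refine ⟨u, m * u / p, ?_⟩
  have := Nat.div_add_mod (m * u) p
  omega

/-- **Injectivity with slack.**  If the cyclic cocycle of `a ∈ M^Γ` is `∂s` and the `m`-th power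
of the 1-cocycle `s|_H / s 1` of `H = ker χ` is a coboundary, `p ∤ m`, then `a` is a norm. -/
theorem cf_norm_of_cyc_slack {p : ℕ} [Fact p.Prime] (χ : Γ →* Multiplicative (ZMod p)) (σ : Γ)
    (hσ : χ σ = Multiplicative.ofAdd 1) (a : M) (ha : ∀ g : Γ, g • a = a)
    (s : Γ → M) (hcs : cycCocycle χ a = mulD1 s) (m : ℕ) (hm : ¬ p ∣ m) (x : M)
    (hx : ∀ h ∈ χ.ker, h • x / x = (s h / s 1) ^ m) :
    ∃ y : M, (∀ h ∈ χ.ker, h • y = y) ∧ a = cycNorm p σ y := by
  have hp := (Fact.out : p.Prime)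
  haveI : NeZero p := ⟨hp.ne_zero⟩
  have ham : ∀ g : Γ, g • a ^ m = a ^ m := fun g => by rw [smul_pow', ha]
  have hcs' : cycCocycle χ (a ^ m) = mulD1 (s ^ m) := by
    rw [cf_cycCocycle_pow, hcs, cf_mulD1_pow]
  obtain ⟨s', hs', hc'⟩ := cf_infl_injective_of_cob χ.ker _
    (cycCocycle_isInfl2 χ (a ^ m) ham) (s ^ m) hcs' x (fun h hh => by
      rw [hx h hh]; simp only [Pi.pow_apply, div_pow])
  obtain ⟨y', hy', hay'⟩ := norm_of_cycCocycle_eq_mulD1 χ σ hσ (a ^ m) ham s' hs' hc'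
  obtain ⟨u, k, hk⟩ := cf_bezout hp hm
  refine ⟨y' ^ u / a ^ k, ?_, ?_⟩
  · intro h hh
    rw [smul_div', smul_pow', smul_pow', hy' h hh, ha]
  · rw [cf_cycNorm_div, cf_cycNorm_pow, cf_cycNorm_pow, ← hay', cf_cycNorm_of_fixed p σ a ha,
      ← pow_mul, ← pow_mul, hk, pow_succ, mul_div_cancel_left]

/-- **Exactness with slack.**  Let `H = ker χ`, `V ≤ H` a level.  A `V`-constant 2-cocycle `c`
whose restriction to `H` is a coboundary and whose `p`-th power is a coboundary is a cyclic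
cocycle times a coboundary, provided `H¹(H, M)` is torsion prime to `p`. -/
theorem cf_exact_slack {p : ℕ} [Fact p.Prime] (χ : Γ →* Multiplicative (ZMod p)) (σ : Γ)
    (hσ : χ σ = Multiplicative.ofAdd 1) (H : Subgroup Γ) (hH : H = χ.ker)
    (V : Subgroup Γ) [V.Normal] (hVH : V ≤ H)
    (hsl : ∀ t : H → M, IsMulCocycle₁ t →
      (∀ h v : H, (v : Γ) ∈ V → t (h * v) = t h) →
      ∃ m : ℕ, ¬ p ∣ m ∧ ∃ x : M, ∀ h : H, (h : Γ) • x / x = t h ^ m)
    (c : Γ × Γ → M) (hc : IsMulCocycle₂ c) (hcV : IsConst2 V c)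
    (t : H → M) (ht : ∀ h v : H, (v : Γ) ∈ V → t (h * v) = t h)
    (hct : ∀ h h' : H, c (h, h') = (h : Γ) • t h' / t (h * h') * t h)
    (sp : Γ → M) (hsp : IsConst1 V sp) (hcp : c ^ p = mulD1 sp) :
    ∃ (a : M) (s : Γ → M), (∀ g : Γ, g • a = a) ∧ IsConst1 V s ∧
      c = cycCocycle χ a * mulD1 s := by
  subst hH
  have hp := (Fact.out : p.Prime)
  haveI : NeZero p := ⟨hp.ne_zero⟩
  -- steps 1 and 2
  obtain ⟨s₁, hs₁, h11⟩ := infRes_step1 χ.ker V hVH c hcV t ht hct
  have hc₁ : IsMulCocycle₂ (c * mulD1 s₁) := isMulCocycle₂_mul hc (isMulCocycle₂_mulD1 s₁)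
  have hcV₁ : IsInfl2 V (c * mulD1 s₁) := (isInfl2_of_isConst2 hc hcV).mul hs₁.mulD1
  obtain ⟨s₂, hs₂, hr₂⟩ := infRes_step2 χ.ker V hVH _ hc₁ hcV₁ h11
  have hc₂ : IsMulCocycle₂ (c * mulD1 s₁ * mulD1 s₂) :=
    isMulCocycle₂_mul hc₁ (isMulCocycle₂_mulD1 s₂)
  have hcV₂ : IsInfl2 V (c * mulD1 s₁ * mulD1 s₂) := hcV₁.mul hs₂.mulD1
  set c₂ : Γ × Γ → M := c * mulD1 s₁ * mulD1 s₂ with hc₂def
  -- the slack
  have hslg : ∀ g : Γ, ∃ m : ℕ, ¬ p ∣ m ∧ ∃ x : M, ∀ w : χ.ker,
      (w : Γ) • x / x = c₂ ((w : Γ), g) ^ m := fun g =>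
    hsl _ (cf_step3_cocycle χ.ker c₂ hc₂ hr₂ g) (fun h v hv => by
      have := hcV₂.1 h g v 1 hv (one_mem _)
      rw [mul_one] at this
      exact this)
  choose mm hmm X hX using hslg
  set m : ℕ := ∏ i ∈ Finset.range p, mm (σ ^ i) with hmdef
  have hm : ¬ p ∣ m := by
    intro hdvd
    obtain ⟨i, -, hi⟩ := (Prime.dvd_finsetProd_iff (Nat.Prime.prime hp) _).1 hdvd
    exact hmm _ hi
  have hex : ∀ g : Γ, ∃ x : M, ∀ w : χ.ker, (w : Γ) • x / x = (c₂ ^ m) ((w : Γ), g) := by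
    intro g
    have hi : cycExp χ g ∈ Finset.range p := Finset.mem_range.2 (cycExp_lt χ g)
    obtain ⟨m', hm'⟩ := Finset.dvd_prod_of_mem (fun i => mm (σ ^ i)) hi
    refine ⟨X (σ ^ cycExp χ g) ^ m', fun w => ?_⟩
    have e1 : c₂ ((w : Γ), g) = c₂ ((w : Γ), σ ^ cycExp χ g) := by
      have := cf_step3_dep χ.ker c₂ hc₂ hr₂ (w : Γ) (σ ^ cycExp χ g) _ (cyc_decomp (χ := χ) hσ g)
      rw [mul_inv_cancel_left] at this
      exact this
    rw [Pi.pow_apply, e1, smul_pow', ← div_pow, hX, ← pow_mul, hmdef, hm']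
  -- step 3 for `c₂ ^ m`
  obtain ⟨s₃, hs₃, hr₃, hl₃⟩ := cf_infRes_step3_of_cob χ.ker V hVH (c₂ ^ m)
    (cf_isMulCocycle₂_pow hc₂ m) (cf_isInfl2_pow hcV₂ m)
    (fun g w hw => by rw [Pi.pow_apply, hr₂ g w hw, one_pow]) hex
  have hc₃ : IsMulCocycle₂ (c₂ ^ m * mulD1 s₃) :=
    isMulCocycle₂_mul (cf_isMulCocycle₂_pow hc₂ m) (isMulCocycle₂_mulD1 s₃)
  have hinf₃ : IsInfl2 χ.ker (c₂ ^ m * mulD1 s₃) := isInfl2_of_trivial χ.ker hc₃ hr₃ hl₃
  -- normal form
  obtain ⟨a', s₄, ha', hs₄, h4⟩ := exists_cycCocycle_mul_mulD1 χ σ hσ _ hc₃ hinf₃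
  have e1 : c ^ m = cycCocycle χ a' * mulD1 (s₄ / (s₁ ^ m * s₂ ^ m * s₃)) := by
    rw [cf_mulD1_div, mulD1_mul, mulD1_mul, cf_mulD1_pow, cf_mulD1_pow, ← mul_div_assoc, ← h4,
      hc₂def, mul_pow, mul_pow]
    exact (by intros; abel : ∀ A B C D : Additive (Γ × Γ → M),
      A = (A + B + C + D) - (B + C + D)) _ _ _ _
  obtain ⟨u, k, hk⟩ := cf_bezout hp hm
  have e2 : c = (c ^ m) ^ u / (c ^ p) ^ k := by
    rw [← pow_mul, ← pow_mul, hk, pow_succ, mul_div_cancel_left]
  refine ⟨a' ^ u, (s₄ / (s₁ ^ m * s₂ ^ m * s₃)) ^ u / sp ^ k,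
    fun g => by rw [smul_pow', ha'], ?_, ?_⟩
  · refine cf_isConst1_div (cf_isConst1_pow (cf_isConst1_div (cf_isConst1_mono hVH hs₄.1)
      (cf_isConst1_mul (cf_isConst1_mul (cf_isConst1_pow hs₁.1 m) (cf_isConst1_pow hs₂.1 m))
        hs₃.1)) u) (cf_isConst1_pow hsp k)
  · conv_lhs => rw [e2, e1, hcp]
    rw [mul_pow, ← cf_cycCocycle_pow, ← cf_mulD1_pow, ← cf_mulD1_pow, mul_div_assoc,
      ← cf_mulD1_div]

end Fermat.Agent.F4Cf
end MergeWrap_F4_Cf_CycMul

section MergeWrap_F4_Cf_Cyc -- from F4/Cf/Cyc.lean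

/-!
# F4 / Cf / Cyc : the cyclic layer of an abstract class formation mod `p` (seat ACF-2)
(helper71; the statements are those of `F4/Cf/Statements.lean`, with the hypothesis
`h : PCF p 𝓤 C U₀` replaced by what is used: Hilbert 90 with slack for `V = ker χ`)

* `carryCo_of_norm_pf` : the cyclic cocycle of a norm is a smooth coboundary;
* `carryCo_inj_pf`     : if the cyclic cocycle of `x ∈ C^G` is a smooth coboundary, `x` is a norm;
* `carryCo_exact_pf`   : a `p`-torsion class whose restriction to `ker χ` vanishes is cyclic.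

Proofs: translation to the multiplicative module `Multiplicative C` and `F4/Cf/CycMul.lean`
(= `F4/Loc/InfRes.lean`, `F4/Loc/Cyclic.lean` with prime-to-`p` slack).
-/

set_option autoImplicit false
set_option linter.unusedSectionVars false
set_option linter.unusedVariables false
set_option linter.style.haveILetI false

open CategoryTheory groupCohomology

namespace Fermat.Agent.F4Cf

open Fermat.Agent.F4 Fermat.Agent.F4.Loc

variable {G : Type} [Group G]

/-- The multiplicative `G`-module attached to `C`. -/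
@[reducible] def cfMulAct (C : Rep.{0} ℤ G) : MulDistribMulAction G (Multiplicative C) where
  smul g x := Multiplicative.ofAdd (C.ρ g (Multiplicative.toAdd x))
  one_smul x := by
    show Multiplicative.ofAdd (C.ρ 1 (Multiplicative.toAdd x)) = x
    simp
  mul_smul g h x := by
    show Multiplicative.ofAdd (C.ρ (g * h) _) = Multiplicative.ofAdd (C.ρ g (C.ρ h _))
    simp [map_mul]
  smul_mul g x y := by
    show Multiplicative.ofAdd (C.ρ g (Multiplicative.toAdd (x * y))) =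
      Multiplicative.ofAdd (C.ρ g (Multiplicative.toAdd x)) *
        Multiplicative.ofAdd (C.ρ g (Multiplicative.toAdd y))
    rw [toAdd_mul, map_add, ofAdd_add]
  smul_one g := by
    show Multiplicative.ofAdd (C.ρ g 0) = 1
    simp

attribute [local instance] cfMulAct

variable {p : ℕ} {𝓤 : Levels G} {C : Rep.{0} ℤ G}

/-! ### characters -/

theorem cf_char_one {χ : G → ZMod p} (hχ : ∀ g h : G, χ (g * h) = χ g + χ h) : χ 1 = 0 := by
  have h := hχ 1 1
  rw [mul_one] at h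
  have h2 : χ 1 + 0 = χ 1 + χ 1 := by rw [add_zero]; exact h
  exact (add_left_cancel h2).symm

/-- The multiplicative character attached to an additive one. -/
def cfChar (χ : G → ZMod p) (hχ : ∀ g h : G, χ (g * h) = χ g + χ h) :
    G →* Multiplicative (ZMod p) where
  toFun g := Multiplicative.ofAdd (χ g)
  map_one' := by
    show Multiplicative.ofAdd (χ 1) = 1
    rw [cf_char_one hχ]
    rfl
  map_mul' g h := by
    show Multiplicative.ofAdd (χ (g * h)) = Multiplicative.ofAdd (χ g) * Multiplicative.ofAdd (χ h)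
    rw [hχ]
    rfl

theorem cfChar_ker (χ : G → ZMod p) (hχ : ∀ g h : G, χ (g * h) = χ g + χ h) :
    (cfChar χ hχ).ker = charKer χ hχ := by
  ext g
  rw [MonoidHom.mem_ker]
  show Multiplicative.ofAdd (χ g) = 1 ↔ χ g = 0
  exact ofAdd_eq_one

theorem cf_charKer_normal (χ : G → ZMod p) (hχ : ∀ g h : G, χ (g * h) = χ g + χ h) :
    (charKer χ hχ).Normal := by
  rw [← cfChar_ker]
  infer_instance

theorem cf_exists_level_le_charKer {χ : G → ZMod p} (hχ : IsSmChar 𝓤 χ) :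
    ∃ U ∈ 𝓤.sets, U ≤ charKer χ hχ.1 := by
  obtain ⟨U, hU, h⟩ := hχ.2
  refine ⟨U, hU, fun s hs => ?_⟩
  have := h 1 s hs
  rw [one_mul, cf_char_one hχ.1] at this
  exact this

/-- The kernel of a smooth character is open. -/
theorem cf_isOpen_charKer {χ : G → ZMod p} (hχ : IsSmChar 𝓤 χ) :
    𝓤.IsOpen (charKer χ hχ.1) := cf_exists_level_le_charKer hχ

/-! ### dictionary -/

theorem cf_toAdd_cycNorm (σ : G) (y : Multiplicative C) :
    Multiplicative.toAdd (cycNorm p σ y) = cnorm C p σ (Multiplicative.toAdd y) := by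
  unfold cycNorm cnorm
  rw [toAdd_prod]
  rfl

theorem cf_mem_B1_iff (A : Rep.{0} ℤ G) (c : G → A) :
    c ∈ B1 A ↔ ∃ x : A, ∀ g, A.ρ g x - x = c g := by
  rw [UC.mem_B1]
  constructor
  · rintro ⟨x, hx⟩
    exact ⟨x, fun g => congrFun hx g⟩
  · rintro ⟨x, hx⟩
    exact ⟨x, funext hx⟩

/-- Hilbert 90 with slack for a subgroup, in multiplicative form. -/
theorem cf_slack_mul (H V : Subgroup G) (hV : V ∈ 𝓤.sets)
    (h1 : H1slack p (𝓤.sub H) (Rep.res H.subtype C))
    (t : H → Multiplicative C) (ht : IsMulCocycle₁ t)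
    (htV : ∀ h v : H, (v : G) ∈ V → t (h * v) = t h) :
    ∃ m : ℕ, ¬ p ∣ m ∧ ∃ x : Multiplicative C, ∀ h : H, (h : G) • x / x = t h ^ m := by
  have hZ : (fun h : H => Multiplicative.toAdd (t h)) ∈
      Z1 (𝓤.sub H) (Rep.res H.subtype C) := by
    rw [UC.mem_Z1]
    refine ⟨?_, ⟨V.comap H.subtype, ⟨V, hV, rfl⟩, fun g s hs => ?_⟩⟩
    · funext q
      obtain ⟨g, h⟩ := q
      have := congrArg Multiplicative.toAdd (ht g h)
      show C.ρ (g : G) (Multiplicative.toAdd (t h)) - Multiplicative.toAdd (t (g * h))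
        + Multiplicative.toAdd (t g) = 0
      rw [this]
      show C.ρ (g : G) (Multiplicative.toAdd (t h))
        - (C.ρ (g : G) (Multiplicative.toAdd (t h)) + Multiplicative.toAdd (t g))
        + Multiplicative.toAdd (t g) = 0
      abel
    · show Multiplicative.toAdd (t (g * s)) = Multiplicative.toAdd (t g)
      rw [htV g s hs]
  obtain ⟨m, hm, hB⟩ := h1 _ hZ
  obtain ⟨x, hx⟩ := (cf_mem_B1_iff _ _).1 hB
  exact ⟨m, hm, Multiplicative.ofAdd x, fun h => congrArg Multiplicative.ofAdd (hx h)⟩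

/-! ### the three statements of the seat -/

variable [Fact p.Prime]

/-- The cyclic cocycle of a norm is a smooth coboundary. -/
theorem carryCo_of_norm_pf (hC : IsSmooth 𝓤 C) {χ : G → ZMod p} (hχ : IsSmChar 𝓤 χ) {σ : G}
    (hσ : χ σ = 1) {y : C} (hy : Fix C (charKer χ hχ.1) y) :
    UC.carryCo C χ (cnorm C p σ y) ∈ B2 𝓤 C := by
  haveI : NeZero p := ⟨(Fact.out : p.Prime).ne_zero⟩
  obtain ⟨U, hU, hUle⟩ := cf_exists_level_le_charKer hχ
  have hσm : cfChar χ hχ.1 σ = Multiplicative.ofAdd 1 := by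
    show Multiplicative.ofAdd (χ σ) = Multiplicative.ofAdd 1
    rw [hσ]
  obtain ⟨s, hs, hcs⟩ := cycCocycle_eq_mulD1_of_norm (cfChar χ hχ.1) σ hσm
    (Multiplicative.ofAdd y) (fun h hh => by
      rw [cfChar_ker] at hh
      exact congrArg Multiplicative.ofAdd (hy h hh))
  rw [UC.mem_B2]
  refine ⟨fun g => Multiplicative.toAdd (s g), ⟨U, hU, fun g u hu => ?_⟩, ?_⟩
  · show Multiplicative.toAdd (s (g * u)) = Multiplicative.toAdd (s g)
    rw [hs.1 g u (by rw [cfChar_ker]; exact hUle hu)]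
  · funext q
    have h1 := congrArg Multiplicative.toAdd (congrFun hcs q)
    have h2 : cycNorm p σ (Multiplicative.ofAdd y) = Multiplicative.ofAdd (cnorm C p σ y) :=
      congrArg Multiplicative.ofAdd (cf_toAdd_cycNorm σ (Multiplicative.ofAdd y))
    rw [h2] at h1
    exact h1.symm

/-- **T2a, injectivity.**  If the cyclic cocycle of `x ∈ C^G` is a smooth coboundary, then `x`
is a norm from the cyclic layer of `χ` (given Hilbert 90 with slack for `ker χ`). -/
theorem carryCo_inj_pf {χ : G → ZMod p} (hχ : IsSmChar 𝓤 χ)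
    (h1 : H1slack p (𝓤.sub (charKer χ hχ.1)) (Rep.res (charKer χ hχ.1).subtype C))
    {σ : G} (hσ : χ σ = 1) {x : C} (hx : Fix C ⊤ x) (hcob : UC.carryCo C χ x ∈ B2 𝓤 C) :
    IsNormFrom C p (charKer χ hχ.1) σ x := by
  haveI : NeZero p := ⟨(Fact.out : p.Prime).ne_zero⟩
  obtain ⟨e, ⟨U, hU, hUe⟩, he⟩ := (UC.mem_B2 𝓤 C _).1 hcob
  have hker : (cfChar χ hχ.1).ker = charKer χ hχ.1 := cfChar_ker _ _
  haveI : (charKer χ hχ.1).Normal := cf_charKer_normal _ _
  have hσm : cfChar χ hχ.1 σ = Multiplicative.ofAdd 1 := by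
    show Multiplicative.ofAdd (χ σ) = Multiplicative.ofAdd 1
    rw [hσ]
  have ha : ∀ g : G, g • (Multiplicative.ofAdd x) = Multiplicative.ofAdd x := fun g =>
    congrArg Multiplicative.ofAdd (hx g (Subgroup.mem_top g))
  have hcs : cycCocycle (cfChar χ hχ.1) (Multiplicative.ofAdd x)
      = mulD1 (fun g => Multiplicative.ofAdd (e g)) := by
    funext q
    exact congrArg Multiplicative.ofAdd (congrFun he q).symm
  have hinfl : IsInfl2 (charKer χ hχ.1) (cycCocycle (cfChar χ hχ.1) (Multiplicative.ofAdd x)) := by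
    rw [← hker]
    exact cycCocycle_isInfl2 _ _ ha
  have hcoc := cf_res_cocycle (charKer χ hχ.1) _ hinfl _ hcs
  obtain ⟨m, hm, X, hX⟩ := cf_slack_mul (charKer χ hχ.1) U hU h1 _ hcoc (fun h v hv => by
    show Multiplicative.ofAdd (e ((h : G) * (v : G))) / Multiplicative.ofAdd (e 1)
      = Multiplicative.ofAdd (e (h : G)) / Multiplicative.ofAdd (e 1)
    rw [hUe _ _ hv])
  obtain ⟨y, hy, hay⟩ := cf_norm_of_cyc_slack (cfChar χ hχ.1) σ hσm (Multiplicative.ofAdd x) ha
    (fun g => Multiplicative.ofAdd (e g)) hcs m hm X (fun h hh => hX ⟨h, hker ▸ hh⟩)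
  refine ⟨Multiplicative.toAdd y, fun g hg => ?_, ?_⟩
  · exact congrArg Multiplicative.toAdd (hy g (hker.symm ▸ hg))
  · have := congrArg Multiplicative.toAdd hay
    rw [cf_toAdd_cycNorm] at this
    exact this

/-- **T2a, exactness.**  A `p`-torsion class whose restriction to `V = ker χ` vanishes is a
cyclic class of `χ` (given Hilbert 90 with slack for `ker χ`). -/
theorem carryCo_exact_pf {χ : G → ZMod p} (hχ : IsSmChar 𝓤 χ)
    (h1 : H1slack p (𝓤.sub (charKer χ hχ.1)) (Rep.res (charKer χ hχ.1).subtype C))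
    {σ : G} (hσ : χ σ = 1) {w : G × G → C} (hw : w ∈ Z2 𝓤 C)
    (hpw : (fun q => (p : ℤ) • w q) ∈ B2 𝓤 C)
    (hres : (fun q : ↥(charKer χ hχ.1) × ↥(charKer χ hχ.1) => w ((q.1 : G), (q.2 : G)))
      ∈ B2 (𝓤.sub (charKer χ hχ.1)) (Rep.res (charKer χ hχ.1).subtype C)) :
    ∃ x : C, Fix C ⊤ x ∧ (fun q => w q - UC.carryCo C χ x q) ∈ B2 𝓤 C := by
  haveI : NeZero p := ⟨(Fact.out : p.Prime).ne_zero⟩
  obtain ⟨U₁, hU₁, hw₁⟩ := hw.2
  obtain ⟨sp, ⟨U₂, hU₂, hsp⟩, hsp'⟩ := (UC.mem_B2 𝓤 C _).1 hpw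
  obtain ⟨t, ⟨U₃', ⟨U₃, hU₃, rfl⟩, ht⟩, ht'⟩ := (UC.mem_B2 _ _ _).1 hres
  obtain ⟨U₄, hU₄, hU₄le⟩ := cf_exists_level_le_charKer hχ
  obtain ⟨W₁, hW₁, hW₁le⟩ := 𝓤.directed U₁ hU₁ U₂ hU₂
  obtain ⟨W₂, hW₂, hW₂le⟩ := 𝓤.directed U₃ hU₃ U₄ hU₄
  obtain ⟨W, hW, hWle⟩ := 𝓤.directed W₁ hW₁ W₂ hW₂
  haveI : W.Normal := 𝓤.normal W hW
  have hWU₁ : W ≤ U₁ := fun g hg => (hW₁le (hWle hg).1).1
  have hWU₂ : W ≤ U₂ := fun g hg => (hW₁le (hWle hg).1).2
  have hWU₃ : W ≤ U₃ := fun g hg => (hW₂le (hWle hg).2).1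
  have hWH : W ≤ charKer χ hχ.1 := fun g hg => hU₄le (hW₂le (hWle hg).2).2
  have hσm : cfChar χ hχ.1 σ = Multiplicative.ofAdd 1 := by
    show Multiplicative.ofAdd (χ σ) = Multiplicative.ofAdd 1
    rw [hσ]
  have hc : IsMulCocycle₂ (M := Multiplicative C) (fun q => Multiplicative.ofAdd (w q)) := by
    intro g h j
    exact congrArg Multiplicative.ofAdd ((mem_cocycles₂_iff w).1 hw.1 g h j)
  have hcV : IsConst2 W (fun q : G × G => Multiplicative.ofAdd (w q)) := fun g g' v v' hv hv' =>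
    congrArg Multiplicative.ofAdd (hw₁ g g' v v' (hWU₁ hv) (hWU₁ hv'))
  have htm : ∀ h v : charKer χ hχ.1, (v : G) ∈ W →
      (fun h : charKer χ hχ.1 => Multiplicative.ofAdd (t h)) (h * v)
        = (fun h : charKer χ hχ.1 => Multiplicative.ofAdd (t h)) h := fun h v hv =>
    congrArg Multiplicative.ofAdd (ht h v (hWU₃ hv))
  have hct : ∀ h h' : charKer χ hχ.1,
      (fun q : G × G => Multiplicative.ofAdd (w q)) ((h : G), (h' : G))
        = (h : G) • (fun h : charKer χ hχ.1 => Multiplicative.ofAdd (t h)) h'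
          / (fun h : charKer χ hχ.1 => Multiplicative.ofAdd (t h)) (h * h')
          * (fun h : charKer χ hχ.1 => Multiplicative.ofAdd (t h)) h := fun h h' =>
    congrArg Multiplicative.ofAdd (congrFun ht' (h, h')).symm
  have hspm : IsConst1 W (fun g : G => Multiplicative.ofAdd (sp g)) := fun g v hv =>
    congrArg Multiplicative.ofAdd (hsp g v (hWU₂ hv))
  have hcp : (fun q : G × G => Multiplicative.ofAdd (w q)) ^ p
      = mulD1 (fun g : G => Multiplicative.ofAdd (sp g)) := by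
    funext q
    have := congrFun hsp' q
    rw [natCast_zsmul] at this
    exact congrArg Multiplicative.ofAdd this.symm
  obtain ⟨a, s, ha, hs, hcas⟩ := cf_exact_slack (cfChar χ hχ.1) σ hσm (charKer χ hχ.1)
    (cfChar_ker _ _).symm W hWH (cf_slack_mul (charKer χ hχ.1) W hW h1) _ hc hcV _ htm hct _
    hspm hcp
  refine ⟨Multiplicative.toAdd a, fun g _ => congrArg Multiplicative.toAdd (ha g), ?_⟩
  rw [UC.mem_B2]
  refine ⟨fun g => Multiplicative.toAdd (s g), ⟨W, hW, fun g u hu =>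
    congrArg Multiplicative.toAdd (hs g u hu)⟩, ?_⟩
  funext q
  have h3 : w q = UC.carryCo C χ (Multiplicative.toAdd a) q
      + δ1 C (fun g => Multiplicative.toAdd (s g)) q :=
    congrArg Multiplicative.toAdd (congrFun hcas q)
  rw [h3]
  abel

end Fermat.Agent.F4Cf
end MergeWrap_F4_Cf_Cyc
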