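import Mathlib
import Fermat.Agent.MU.F4.Cf.Defs

section MergeWrap_F4_CfCore_H1Vanish -- from F4/CfCore/H1Vanish.lean

/-!
# F4 / CfCore / H1Vanish : `H¹(Γ, A)[p] = 0` from the Hasse norm property of the cyclic layers

Abstract core of package ACF-1 (T1) of the GLOB blueprint (abstract class formation mod `p`).

`Γ` a group acting on an abelian group `A`, `V ⊴ Γ` of finite index.  A 1-cochain `f : Γ → A`
is considered on subgroups `H ≥ V` of `Γ` (`CocOn H f`: cocycle identity on `H`; `InvOn H V f`: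
right-`V`-invariance on `H`; `CobOn H f`: coboundary on `H`).

`HasseAt p H H' A`: for the layer `H' ⊴ H` of index `p` and `σ ∈ H ∖ H'`, every
`y ∈ A^{H'}` with `N_σ y = ∑_{i<p} σ^i y = 0` is `σ z - z` with `z ∈ A^{H'}`.

* `cobOn_of_cyclic` (PROVED, Step A): a right-`H'`-invariant cocycle on `H` is a coboundary
  (`H¹(H/H', A^{H'}) = 0`).
* TODO Step B (`cobOn_of_pgroup`): the same for `V ⊴ H` with `[H : V] = p^k`.  Induction on `k`:
  `Q = ↥H ⧸ V.subgroupOf H` has a subgroup `Q'` of order `p^(k-1)`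
  (`Sylow.exists_subgroup_card_pow_prime`), normal by `Subgroup.normal_of_index_eq_minFac_card`;
  `H' :=` its preimage; `f|H' = cob c` by induction, `f - cob c` vanishes on `H'`, so it is
  right-`H'`-invariant (`invOn_of_vanish`), apply Step A.
* TODO Step C (`cobOn_top_of_pTorsion`): `f` right-`V`-invariant cocycle on `Γ`, `p • f` a
  coboundary => `f` a coboundary.  `P` a Sylow `p`-subgroup of `Γ ⧸ V`, `H` its preimage, Step B on
  `H`; `e = f - cob c` is right-`H`-invariant; `b = ∑_{t ∈ Γ/H} e t`, `n • e g = b - g • b`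
  (`n = [Γ : H]`), Bezout with `p`.
-/

set_option autoImplicit false
set_option linter.unusedSectionVars false

namespace Fermat.Agent.F4CfCore

open Finset

variable {Γ : Type*} [Group Γ] {A : Type*} [AddCommGroup A] [DistribMulAction Γ A]

/-- `f` satisfies the cocycle identity on the subgroup `H`. -/
def CocOn (H : Subgroup Γ) (f : Γ → A) : Prop :=
  ∀ g ∈ H, ∀ h ∈ H, f (g * h) = f g + g • f h

/-- `f` is right-`V`-invariant on `H`. -/
def InvOn (H V : Subgroup Γ) (f : Γ → A) : Prop :=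
  ∀ g ∈ H, ∀ v ∈ V, f (g * v) = f g

/-- `f` is a coboundary on `H`. -/
def CobOn (H : Subgroup Γ) (f : Γ → A) : Prop :=
  ∃ c : A, ∀ g ∈ H, f g = g • c - c

/-- The Hasse norm property (`Ĥ⁻¹ = 0`) of the layer `H' ≤ H` (to be used when `H' ⊴ H` has
index `p`). -/
def HasseAt (p : ℕ) (H H' : Subgroup Γ) (A : Type*) [AddCommGroup A] [DistribMulAction Γ A] :
    Prop :=
  ∀ σ ∈ H, σ ∉ H' → ∀ y : A, (∀ x ∈ H', x • y = y) → ∑ i ∈ range p, σ ^ i • y = 0 →
    ∃ z : A, (∀ x ∈ H', x • z = z) ∧ y = σ • z - z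

/-- `H'` is normalised by `H`. -/
def NormalIn (H H' : Subgroup Γ) : Prop := ∀ h ∈ H, ∀ x ∈ H', h * x * h⁻¹ ∈ H'

/-! ### elementary facts on cocycles -/

lemma CocOn.map_one {H : Subgroup Γ} {f : Γ → A} (hf : CocOn H f) : f 1 = 0 := by
  have h := hf 1 H.one_mem 1 H.one_mem
  rw [one_mul, one_smul] at h
  exact (add_eq_left.1 h.symm)

lemma CocOn.mono {H K : Subgroup Γ} {f : Γ → A} (hf : CocOn H f) (hKH : K ≤ H) : CocOn K f :=
  fun g hg h hh => hf g (hKH hg) h (hKH hh)

lemma InvOn.mono {H K V : Subgroup Γ} {f : Γ → A} (hf : InvOn H V f) (hKH : K ≤ H) :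
    InvOn K V f :=
  fun g hg v hv => hf g (hKH hg) v hv

lemma InvOn.mono_right {H V W : Subgroup Γ} {f : Γ → A} (hf : InvOn H V f) (hWV : W ≤ V) :
    InvOn H W f :=
  fun g hg v hv => hf g hg v (hWV hv)

/-- A right-`V`-invariant cocycle vanishes on `V`. -/
lemma eq_zero_of_mem {H V : Subgroup Γ} {f : Γ → A} (hf : CocOn H f) (hinv : InvOn H V f)
    {v : Γ} (hv : v ∈ V) : f v = 0 := by
  have := hinv 1 H.one_mem v hv
  rw [one_mul, hf.map_one] at this
  exact this

/-- A cocycle on `H` vanishing on `H' ≤ H` is right-`H'`-invariant. -/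
lemma invOn_of_vanish {H H' : Subgroup Γ} (hle : H' ≤ H) {f : Γ → A} (hf : CocOn H f)
    (h0 : ∀ x ∈ H', f x = 0) : InvOn H H' f := by
  intro g hg x hx
  rw [hf g hg x (hle hx), h0 x hx, smul_zero, add_zero]

/-- The coboundary of `c`. -/
def cob (c : A) : Γ → A := fun g => g • c - c

lemma cocOn_cob (H : Subgroup Γ) (c : A) : CocOn H (cob (Γ := Γ) c) := by
  intro g _ h _
  simp only [cob, mul_smul, smul_sub]
  abel

lemma cob_eq_zero_of_fixed {c : A} {x : Γ} (hx : x • c = c) : cob c x = 0 := by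
  simp [cob, hx]

lemma CocOn.sub {H : Subgroup Γ} {f f' : Γ → A} (hf : CocOn H f) (hf' : CocOn H f') :
    CocOn H (fun g => f g - f' g) := by
  intro g hg h hh
  simp only [hf g hg h hh, hf' g hg h hh, smul_sub]
  abel

lemma cocOn_pow_succ {H : Subgroup Γ} {f : Γ → A} (hf : CocOn H f) {σ : Γ} (hσ : σ ∈ H)
    (i : ℕ) : f (σ ^ (i + 1)) = f (σ ^ i) + σ ^ i • f σ := by
  rw [_root_.pow_succ]
  exact hf _ (H.pow_mem hσ i) _ hσ

lemma cocOn_pow_eq_sum {H : Subgroup Γ} {f : Γ → A} (hf : CocOn H f) {σ : Γ} (hσ : σ ∈ H)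
    (i : ℕ) : f (σ ^ i) = ∑ j ∈ range i, σ ^ j • f σ := by
  induction i with
  | zero => simp [hf.map_one]
  | succ i ih => rw [cocOn_pow_succ hf hσ i, ih, sum_range_succ]

lemma cocOn_pow_eq_zero {H : Subgroup Γ} {f : Γ → A} (hf : CocOn H f) {σ : Γ} (hσ : σ ∈ H)
    (h0 : f σ = 0) (i : ℕ) : f (σ ^ i) = 0 := by
  rw [cocOn_pow_eq_sum hf hσ, h0]
  simp

/-! ### Step A: a cyclic layer of index `p` -/

section Cyclic

variable {p : ℕ} [hp : Fact p.Prime] {H H' : Subgroup Γ}

/-- The normal subgroup `H'` of `H`, as an instance. -/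
lemma normal_subgroupOf (hnorm : NormalIn H H') : (H'.subgroupOf H).Normal := by
  refine ⟨fun x hx g => ?_⟩
  rw [Subgroup.mem_subgroupOf] at hx ⊢
  simpa using hnorm g g.2 x hx

/-- In a layer of prime index, every element of `H` is `σ ^ i * x` with `x ∈ H'`. -/
lemma exists_pow_mul (hnorm : NormalIn H H') (hidx : H'.relIndex H = p)
    {σ : Γ} (hσ : σ ∈ H) (hσ' : σ ∉ H') {g : Γ} (hg : g ∈ H) :
    ∃ i : ℕ, ∃ x ∈ H', g = σ ^ i * x := by
  have := normal_subgroupOf hnorm
  have hcard : Nat.card (↥H ⧸ H'.subgroupOf H) = p := hidx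
  have : Finite (↥H ⧸ H'.subgroupOf H) :=
    Nat.finite_of_card_ne_zero (by rw [hcard]; exact hp.out.ne_zero)
  set s : ↥H ⧸ H'.subgroupOf H := ((⟨σ, hσ⟩ : H) : ↥H ⧸ H'.subgroupOf H) with hs
  have hs1 : s ≠ 1 := by
    intro h
    rw [hs, QuotientGroup.eq_one_iff, Subgroup.mem_subgroupOf] at h
    exact hσ' h
  have htop := zpowers_eq_top_of_prime_card (G := ↥H ⧸ H'.subgroupOf H) hcard hs1
  have hmem : ((⟨g, hg⟩ : H) : ↥H ⧸ H'.subgroupOf H) ∈ Submonoid.powers s := by
    rw [mem_powers_iff_mem_zpowers, htop]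
    exact Subgroup.mem_top _
  obtain ⟨i, hi⟩ := hmem
  refine ⟨i, (σ ^ i)⁻¹ * g, ?_, by group⟩
  have h2 : (((⟨σ, hσ⟩ : H) ^ i : H) : ↥H ⧸ H'.subgroupOf H) = ((⟨g, hg⟩ : H) : _) := by
    rw [← hi, hs]; rfl
  rw [QuotientGroup.eq, Subgroup.mem_subgroupOf] at h2
  simpa using h2

/-- In a layer of prime index `p`, `σ ^ p ∈ H'`. -/
lemma pow_prime_mem (hnorm : NormalIn H H') (hidx : H'.relIndex H = p)
    {σ : Γ} (hσ : σ ∈ H) : σ ^ p ∈ H' := by
  have := normal_subgroupOf hnorm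
  have hcard : Nat.card (↥H ⧸ H'.subgroupOf H) = p := hidx
  have : Finite (↥H ⧸ H'.subgroupOf H) :=
    Nat.finite_of_card_ne_zero (by rw [hcard]; exact hp.out.ne_zero)
  have h1 : (((⟨σ, hσ⟩ : H) : ↥H ⧸ H'.subgroupOf H)) ^ p = 1 := by
    rw [← hcard]; exact pow_card_eq_one'
  have h2 : ((((⟨σ, hσ⟩ : H) ^ p : H)) : ↥H ⧸ H'.subgroupOf H) = 1 := h1
  rw [QuotientGroup.eq_one_iff, Subgroup.mem_subgroupOf] at h2
  simpa using h2

/-- There is an element of `H` outside `H'` when the index is a prime. -/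
lemma exists_not_mem (hidx : H'.relIndex H = p) : ∃ σ ∈ H, σ ∉ H' := by
  by_contra hcon
  push Not at hcon
  have hle : H ≤ H' := hcon
  have := Subgroup.relIndex_eq_one.2 hle
  rw [hidx] at this
  exact hp.out.one_lt.ne' this

/-- **Step A.**  For a layer `H' ⊴ H` of prime index `p` with the Hasse norm property, every
right-`H'`-invariant cocycle on `H` is a coboundary on `H`, of an `H'`-fixed element. -/
theorem cobOn_of_cyclic (hle : H' ≤ H) (hnorm : NormalIn H H') (hidx : H'.relIndex H = p)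
    (hH : HasseAt p H H' A) {f : Γ → A} (hf : CocOn H f) (hinv : InvOn H H' f) :
    ∃ z : A, (∀ x ∈ H', x • z = z) ∧ ∀ g ∈ H, f g = g • z - z := by
  obtain ⟨σ, hσ, hσ'⟩ := exists_not_mem (p := p) hidx
  have h0 : ∀ x ∈ H', f x = 0 := fun x hx => eq_zero_of_mem hf hinv hx
  -- `y = f σ` is `H'`-fixed
  have hy : ∀ x ∈ H', x • f σ = f σ := by
    intro x hx
    have h1 := hf x (hle hx) σ hσ
    rw [h0 x hx, zero_add] at h1
    have h2 : x * σ = σ * (σ⁻¹ * x * σ) := by group
    have h3 : σ⁻¹ * x * σ ∈ H' := by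
      have := hnorm σ⁻¹ (H.inv_mem hσ) x hx
      simpa using this
    rw [← h1, h2, hinv σ hσ _ h3]
  -- the norm of `y` vanishes
  have hN : ∑ i ∈ range p, σ ^ i • f σ = 0 := by
    rw [← cocOn_pow_eq_sum hf hσ]
    exact h0 _ (pow_prime_mem hnorm hidx hσ)
  obtain ⟨z, hz, hyz⟩ := hH σ hσ hσ' (f σ) hy hN
  refine ⟨z, hz, fun g hg => ?_⟩
  -- `e = f - cob z` is a right-`H'`-invariant cocycle on `H` vanishing at `σ`
  have he : CocOn H (fun g => f g - cob z g) := hf.sub (cocOn_cob H z)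
  have heσ : (fun g => f g - cob z g) σ = 0 := by
    simp only [cob]
    rw [hyz]; abel
  obtain ⟨i, x, hx, rfl⟩ := exists_pow_mul hnorm hidx hσ hσ' hg
  have h1 := he (σ ^ i) (H.pow_mem hσ i) x (hle hx)
  have h2 : (fun g => f g - cob z g) x = 0 := by
    simp only
    rw [h0 x hx, cob_eq_zero_of_fixed (hz x hx), sub_zero]
  rw [h2, smul_zero, add_zero] at h1
  have h4 := cocOn_pow_eq_zero he hσ heσ i
  have h3 : f (σ ^ i * x) - cob z (σ ^ i * x) = 0 := h1.trans h4
  rw [sub_eq_zero] at h3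
  rw [h3]; rfl

end Cyclic

end Fermat.Agent.F4CfCore
end MergeWrap_F4_CfCore_H1Vanish

section MergeWrap_F4_CfCore_H1VanishBC -- from F4/CfCore/H1VanishBC.lean

/-!
# F4 / CfCore / H1VanishBC : Steps B and C of `H¹(Γ, A)[p] = 0` (package ACF-1 / T1)

On top of `F4/CfCore/H1Vanish.lean` (helper87: `CocOn`, `InvOn`, `CobOn`, `HasseAt`, Step A).

* `cobOn_of_pgroup` (Step B): `V ≤ H ≤ U₀`, `V` normalised by `H`, `[H : V] = p ^ k`, Hasse norm
  property for all layers of index `p` between `V` and `U₀`: every right-`V`-invariant cocycle on `H` is the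
  coboundary of a `V`-fixed element.
* `cobOn_of_pTorsion` (Step C): `V ≤ U` of finite index, `V` normalised by `U`: a right-`V`-invariant
  cocycle `f` on `U` such that `p • f` is a coboundary on `U` is a coboundary on `U`.
-/

set_option autoImplicit false
set_option linter.unusedSectionVars false

namespace Fermat.Agent.F4CfCore

open Finset

variable {Γ : Type*} [Group Γ] {A : Type*} [AddCommGroup A] [DistribMulAction Γ A]

/-! ### Subgroups between `V` and `H` from subgroups of the quotient -/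

section Lift

variable {H V : Subgroup Γ}

/-- The subgroup of `Γ` between `V` and `H` attached to a subgroup of `H/V`. -/
def liftSub (hn : (V.subgroupOf H).Normal) (Q' : Subgroup (↥H ⧸ V.subgroupOf H)) :
    Subgroup Γ :=
  (Q'.comap (QuotientGroup.mk' (V.subgroupOf H))).map H.subtype

lemma liftSub_le (hn : (V.subgroupOf H).Normal) (Q' : Subgroup (↥H ⧸ V.subgroupOf H)) :
    liftSub hn Q' ≤ H := by
  rintro _ ⟨x, -, rfl⟩
  exact x.2

lemma mem_liftSub (hn : (V.subgroupOf H).Normal) (Q' : Subgroup (↥H ⧸ V.subgroupOf H))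
    {g : Γ} (hg : g ∈ H) :
    g ∈ liftSub hn Q' ↔ ((⟨g, hg⟩ : H) : ↥H ⧸ V.subgroupOf H) ∈ Q' := by
  constructor
  · rintro ⟨x, hx, hxg⟩
    have : x = ⟨g, hg⟩ := Subtype.ext hxg
    rw [← this]
    exact hx
  · intro h
    exact ⟨⟨g, hg⟩, h, rfl⟩

lemma le_liftSub (hVH : V ≤ H) (hn : (V.subgroupOf H).Normal)
    (Q' : Subgroup (↥H ⧸ V.subgroupOf H)) : V ≤ liftSub hn Q' := by
  intro v hv
  rw [mem_liftSub hn Q' (hVH hv)]
  have : ((⟨v, hVH hv⟩ : H) : ↥H ⧸ V.subgroupOf H) = 1 := by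
    rw [QuotientGroup.eq_one_iff, Subgroup.mem_subgroupOf]
    exact hv
  rw [this]
  exact Q'.one_mem

lemma liftSub_subgroupOf (hn : (V.subgroupOf H).Normal) (Q' : Subgroup (↥H ⧸ V.subgroupOf H)) :
    (liftSub hn Q').subgroupOf H = Q'.comap (QuotientGroup.mk' (V.subgroupOf H)) := by
  ext x
  rw [Subgroup.mem_subgroupOf, mem_liftSub hn Q' x.2]
  rfl

lemma relIndex_liftSub (hn : (V.subgroupOf H).Normal) (Q' : Subgroup (↥H ⧸ V.subgroupOf H)) :
    (liftSub hn Q').relIndex H = Q'.index := by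
  rw [Subgroup.relIndex, liftSub_subgroupOf]
  exact Subgroup.index_comap_of_surjective Q' (QuotientGroup.mk'_surjective _)

lemma normalIn_liftSub (hn : (V.subgroupOf H).Normal) (Q' : Subgroup (↥H ⧸ V.subgroupOf H))
    [hQ' : Q'.Normal] : NormalIn H (liftSub hn Q') := by
  intro h hh x hx
  have hxH : x ∈ H := liftSub_le hn Q' hx
  have hmem : h * x * h⁻¹ ∈ H := H.mul_mem (H.mul_mem hh hxH) (H.inv_mem hh)
  rw [mem_liftSub hn Q' hmem]
  have h1 := (mem_liftSub hn Q' hxH).1 hx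
  have h2 := hQ'.conj_mem _ h1 ((⟨h, hh⟩ : H) : ↥H ⧸ V.subgroupOf H)
  exact h2

lemma NormalIn.mono {H K V : Subgroup Γ} (h : NormalIn H V) (hKH : K ≤ H) : NormalIn K V :=
  fun g hg x hx => h g (hKH hg) x hx

end Lift

/-! ### Step B -/

section StepB

variable {p : ℕ} [hp : Fact p.Prime]

/-- **Step B.**  Every right-`V`-invariant cocycle on `H`, `[H : V] = p ^ k`, is the coboundary of
a `V`-fixed element. -/
theorem cobOn_of_pgroup (V U₀ : Subgroup Γ)
    (hHasse : ∀ H H' : Subgroup Γ, V ≤ H' → H' ≤ H → H ≤ U₀ → NormalIn H H' →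
      H'.relIndex H = p → HasseAt p H H' A) :
    ∀ (k : ℕ) (H : Subgroup Γ), V ≤ H → H ≤ U₀ → NormalIn H V → V.relIndex H = p ^ k →
      ∀ f : Γ → A, CocOn H f → InvOn H V f →
        ∃ z : A, (∀ x ∈ V, x • z = z) ∧ ∀ g ∈ H, f g = g • z - z := by
  intro k
  induction k with
  | zero =>
    intro H hVH _ _ hidx f hf hinv
    have hle : H ≤ V := Subgroup.relIndex_eq_one.1 (by simpa using hidx)
    refine ⟨0, fun _ _ => smul_zero _, fun g hg => ?_⟩
    rw [smul_zero, sub_zero]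
    exact eq_zero_of_mem hf hinv (hle hg)
  | succ k ih =>
    intro H hVH hHU hnorm hidx f hf hinv
    have hn : (V.subgroupOf H).Normal := normal_subgroupOf hnorm
    have hcard : Nat.card (↥H ⧸ V.subgroupOf H) = p ^ (k + 1) := hidx
    have hfin : Finite (↥H ⧸ V.subgroupOf H) :=
      Nat.finite_of_card_ne_zero (by rw [hcard]; exact pow_ne_zero _ hp.out.ne_zero)
    obtain ⟨Q', hQ'⟩ := Sylow.exists_subgroup_card_pow_prime (G := ↥H ⧸ V.subgroupOf H) p
      (n := k) (by rw [hcard]; exact pow_dvd_pow p (Nat.le_succ k))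
    have hQidx : Q'.index = p := by
      have h1 := Q'.card_mul_index
      rw [hQ', hcard, pow_succ] at h1
      exact Nat.eq_of_mul_eq_mul_left (pow_pos hp.out.pos k) h1
    have hQn : Q'.Normal := by
      apply Subgroup.normal_of_index_eq_minFac_card
      rw [hQidx, hcard, Nat.Prime.pow_minFac hp.out (Nat.succ_ne_zero k)]
    set H' : Subgroup Γ := liftSub hn Q' with hH'
    have hle : H' ≤ H := liftSub_le hn Q'
    have hVH' : V ≤ H' := le_liftSub hVH hn Q'
    have hnorm' : NormalIn H H' := normalIn_liftSub hn Q'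
    have hidx' : H'.relIndex H = p := by rw [hH', relIndex_liftSub, hQidx]
    have hidxV : V.relIndex H' = p ^ k := by
      have h1 := Subgroup.relIndex_mul_relIndex V H' H hVH' hle
      rw [hidx, hidx', pow_succ] at h1
      exact Nat.eq_of_mul_eq_mul_right hp.out.pos h1
    obtain ⟨z₁, hz₁, hfz₁⟩ := ih H' hVH' (hle.trans hHU) (hnorm.mono hle) hidxV f (hf.mono hle)
      (hinv.mono hle)
    have he : CocOn H (fun g => f g - cob z₁ g) := hf.sub (cocOn_cob H z₁)
    have he0 : ∀ x ∈ H', (fun g => f g - cob z₁ g) x = 0 := by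
      intro x hx
      simp only [cob]
      rw [hfz₁ x hx, sub_self]
    obtain ⟨z₂, hz₂, hez₂⟩ := cobOn_of_cyclic hle hnorm' hidx'
      (hHasse H H' hVH' hle hHU hnorm' hidx') he (invOn_of_vanish hle he he0)
    refine ⟨z₁ + z₂, fun x hx => ?_, fun g hg => ?_⟩
    · rw [smul_add, hz₁ x hx, hz₂ x (hVH' hx)]
    · have := hez₂ g hg
      simp only [cob] at this
      rw [smul_add]
      have h2 : f g = (g • z₂ - z₂) + (g • z₁ - z₁) := by
        rw [← this]
        abel
      rw [h2]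
      abel

end StepB

/-! ### Step C -/

section StepC

variable {p : ℕ} [hp : Fact p.Prime]

/-- Averaging over the cosets of `H` in `U`: a cocycle on `U` which is right-`H`-invariant is killed
by `[U : H]` up to a coboundary. -/
lemma exists_index_smul_eq (U H : Subgroup Γ) (hfin : H.relIndex U ≠ 0) {e : Γ → A}
    (he : CocOn U e) (hinv : InvOn U H e) :
    ∃ b : A, ∀ g ∈ U, (H.relIndex U) • e g = b - g • b := by
  classical
  have : Finite (↥U ⧸ H.subgroupOf U) := Nat.finite_of_card_ne_zero hfin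
  let _ : Fintype (↥U ⧸ H.subgroupOf U) := Fintype.ofFinite _
  let E : (↥U ⧸ H.subgroupOf U) → A := fun t => e ((t.out : ↥U) : Γ)
  have hE : ∀ u : ↥U, E (u : ↥U ⧸ H.subgroupOf U) = e u := by
    intro u
    obtain ⟨h, hh⟩ := QuotientGroup.mk_out_eq_mul (H.subgroupOf U) u
    show e (((QuotientGroup.mk u : ↥U ⧸ H.subgroupOf U).out : ↥U) : Γ) = e u
    rw [hh]
    exact hinv u u.2 h (Subgroup.mem_subgroupOf.1 h.2)
  refine ⟨∑ t, E t, fun g hg => ?_⟩
  have h1 : ∑ t, E ((⟨g, hg⟩ : U) • t) = ∑ t, E t :=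
    Equiv.sum_comp (MulAction.toPerm (⟨g, hg⟩ : U)) E
  have h2 : ∀ t : ↥U ⧸ H.subgroupOf U, E ((⟨g, hg⟩ : U) • t) = e g + g • E t := by
    intro t
    induction t using QuotientGroup.induction_on with
    | H u =>
      rw [show (⟨g, hg⟩ : U) • (u : ↥U ⧸ H.subgroupOf U) =
        (((⟨g, hg⟩ : U) * u : U) : ↥U ⧸ H.subgroupOf U) from rfl, hE, hE]
      exact he g hg u u.2
  have h4 : ∑ t, E ((⟨g, hg⟩ : U) • t) = (H.relIndex U) • e g + g • ∑ t, E t := by
    simp only [h2]
    rw [Finset.sum_add_distrib, Finset.sum_const, Finset.card_univ, ← Finset.smul_sum,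
      ← Nat.card_eq_fintype_card]
    rfl
  rw [eq_sub_iff_add_eq]
  exact h4.symm.trans h1

/-- **Step C.**  `V ≤ U` of finite index, normalised by `U`, with the Hasse norm property for the
layers of index `p` above `V`: a right-`V`-invariant cocycle `f` on `U` such that `p • f` is a
coboundary on `U` is a coboundary on `U`  (`H¹(U/V, A^V)[p] = 0`). -/
theorem cobOn_of_pTorsion (V U : Subgroup Γ) (hVU : V ≤ U) (hnorm : NormalIn U V)
    (hfin : V.relIndex U ≠ 0)
    (hHasse : ∀ H H' : Subgroup Γ, V ≤ H' → H' ≤ H → H ≤ U → NormalIn H H' →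
      H'.relIndex H = p → HasseAt p H H' A)
    {f : Γ → A} (hf : CocOn U f) (hinv : InvOn U V f) (hpf : CobOn U (fun g => p • f g)) :
    CobOn U f := by
  have hn : (V.subgroupOf U).Normal := normal_subgroupOf hnorm
  have hfinQ : Finite (↥U ⧸ V.subgroupOf U) := Nat.finite_of_card_ne_zero hfin
  obtain ⟨P⟩ : Nonempty (Sylow p (↥U ⧸ V.subgroupOf U)) := inferInstance
  set H : Subgroup Γ := liftSub hn (P : Subgroup (↥U ⧸ V.subgroupOf U)) with hH
  have hle : H ≤ U := liftSub_le hn _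
  have hVH : V ≤ H := le_liftSub hVU hn _
  have hidxH : H.relIndex U = (P : Subgroup (↥U ⧸ V.subgroupOf U)).index := relIndex_liftSub hn _
  have hndvd : ¬ p ∣ H.relIndex U := by
    rw [hidxH]
    exact P.not_dvd_index
  have hidx0 : H.relIndex U ≠ 0 := fun h0 => hndvd (by rw [h0]; exact dvd_zero p)
  have hidxV : V.relIndex H = p ^ (Nat.card (↥U ⧸ V.subgroupOf U)).factorization p := by
    have h1 := Subgroup.relIndex_mul_relIndex V H U hVH hle
    have h2 := (P : Subgroup (↥U ⧸ V.subgroupOf U)).card_mul_index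
    rw [P.card_eq_multiplicity, ← hidxH] at h2
    have h3 : V.relIndex U = Nat.card (↥U ⧸ V.subgroupOf U) := rfl
    rw [h3, ← h2] at h1
    exact Nat.eq_of_mul_eq_mul_right (Nat.pos_of_ne_zero hidx0) h1
  -- Step B on `H`
  obtain ⟨c, -, hfc⟩ := cobOn_of_pgroup V U hHasse _ H hVH hle (hnorm.mono hle) hidxV f
    (hf.mono hle) (hinv.mono hle)
  -- `e = f - cob c` is right-`H`-invariant on `U`
  have he : CocOn U (fun g => f g - cob c g) := hf.sub (cocOn_cob U c)
  have he0 : ∀ x ∈ H, (fun g => f g - cob c g) x = 0 := by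
    intro x hx
    simp only [cob]
    rw [hfc x hx, sub_self]
  obtain ⟨b, hb⟩ := exists_index_smul_eq U H hidx0 he (invOn_of_vanish hle he he0)
  obtain ⟨a, ha⟩ := hpf
  -- Bezout
  have hcop : IsCoprime (p : ℤ) ((H.relIndex U : ℕ) : ℤ) :=
    Nat.isCoprime_iff_coprime.2 ((Nat.Prime.coprime_iff_not_dvd hp.out).2 hndvd)
  obtain ⟨u, v, huv⟩ := hcop
  refine ⟨u • (a - (p : ℤ) • c) - v • b + c, fun g hg => ?_⟩
  have hX : (p : ℤ) • (f g - (g • c - c)) = (g • a - a) - (p : ℤ) • (g • c - c) := by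
    have ha' : p • f g = g • a - a := ha g hg
    rw [smul_sub, natCast_zsmul, ha']
  have hZ : ((H.relIndex U : ℕ) : ℤ) • (f g - (g • c - c)) = b - g • b := by
    rw [natCast_zsmul]
    exact hb g hg
  have hE : f g - (g • c - c) =
      u • ((g • a - a) - (p : ℤ) • (g • c - c)) + v • (b - g • b) := by
    rw [← hX, ← hZ, smul_smul, smul_smul, ← add_smul, huv, one_smul]
  have hF : f g = u • ((g • a - a) - (p : ℤ) • (g • c - c)) + v • (b - g • b) + (g • c - c) := by
    rw [← hE]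
    abel
  rw [hF]
  simp only [smul_add, smul_sub, smul_comm g u, smul_comm g v, smul_comm g (p : ℤ)]
  abel

end StepC

end Fermat.Agent.F4CfCore
end MergeWrap_F4_CfCore_H1VanishBC

section MergeWrap_F4_CfCore_H1Slack -- from F4/CfCore/H1Slack.lean

/-!
# F4 / CfCore / H1Slack : `H¹(Γ, A)` is torsion prime to `p` (package ACF-1 / T1, with slack)

Same setting as `H1Vanish.lean`, `H1VanishBC.lean`, but the Hasse norm property of the layers of
index `p` is only assumed up to a multiple prime to `p` (`HasseSlackAt`).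

* `slack_of_cyclic` (Step A), `slack_of_pgroup` (Step B), `slack_of_finiteIndex` (Step C):
  for `V ≤ U` of finite index, normalised by `U`, every right-`V`-invariant cocycle `f` on `U` has a
  multiple `m • f`, `p ∤ m`, which is a coboundary on `U`.
-/

set_option autoImplicit false
set_option linter.unusedSectionVars false

namespace Fermat.Agent.F4CfCore

open Finset

variable {Γ : Type*} [Group Γ] {A : Type*} [AddCommGroup A] [DistribMulAction Γ A]

/-- The Hasse norm property of the layer `H' ≤ H`, up to a multiple prime to `p`. -/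
def HasseSlackAt (p : ℕ) (H H' : Subgroup Γ) (A : Type*) [AddCommGroup A]
    [DistribMulAction Γ A] : Prop :=
  ∀ σ ∈ H, σ ∉ H' → ∀ y : A, (∀ x ∈ H', x • y = y) → ∑ i ∈ range p, σ ^ i • y = 0 →
    ∃ (m : ℕ) (z : A), ¬ p ∣ m ∧ (∀ x ∈ H', x • z = z) ∧ m • y = σ • z - z

lemma CocOn.nsmul {H : Subgroup Γ} {f : Γ → A} (hf : CocOn H f) (m : ℕ) :
    CocOn H (fun g => m • f g) := by
  intro g hg h hh
  simp only [hf g hg h hh, smul_add, smul_comm g m]

lemma InvOn.nsmul {H V : Subgroup Γ} {f : Γ → A} (hf : InvOn H V f) (m : ℕ) :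
    InvOn H V (fun g => m • f g) := by
  intro g hg v hv
  simp only [hf g hg v hv]

section Slack

variable {p : ℕ} [hp : Fact p.Prime]

/-- **Step A with slack.** -/
theorem slack_of_cyclic {H H' : Subgroup Γ} (hle : H' ≤ H) (hnorm : NormalIn H H')
    (hidx : H'.relIndex H = p) (hH : HasseSlackAt p H H' A) {f : Γ → A} (hf : CocOn H f)
    (hinv : InvOn H H' f) :
    ∃ (m : ℕ) (z : A), ¬ p ∣ m ∧ (∀ x ∈ H', x • z = z) ∧ ∀ g ∈ H, m • f g = g • z - z := by
  obtain ⟨σ, hσ, hσ'⟩ := exists_not_mem (p := p) hidx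
  have h0 : ∀ x ∈ H', f x = 0 := fun x hx => eq_zero_of_mem hf hinv hx
  have hy : ∀ x ∈ H', x • f σ = f σ := by
    intro x hx
    have h1 := hf x (hle hx) σ hσ
    rw [h0 x hx, zero_add] at h1
    have h2 : x * σ = σ * (σ⁻¹ * x * σ) := by group
    have h3 : σ⁻¹ * x * σ ∈ H' := by
      have := hnorm σ⁻¹ (H.inv_mem hσ) x hx
      simpa using this
    rw [← h1, h2, hinv σ hσ _ h3]
  have hN : ∑ i ∈ range p, σ ^ i • f σ = 0 := by
    rw [← cocOn_pow_eq_sum hf hσ]
    exact h0 _ (pow_prime_mem hnorm hidx hσ)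
  obtain ⟨m, z, hm, hz, hyz⟩ := hH σ hσ hσ' (f σ) hy hN
  refine ⟨m, z, hm, hz, fun g hg => ?_⟩
  have he : CocOn H (fun g => m • f g - cob z g) := (hf.nsmul m).sub (cocOn_cob H z)
  have heσ : (fun g => m • f g - cob z g) σ = 0 := by
    simp only [cob]
    rw [hyz]
    abel
  obtain ⟨i, x, hx, rfl⟩ := exists_pow_mul hnorm hidx hσ hσ' hg
  have h1 := he (σ ^ i) (H.pow_mem hσ i) x (hle hx)
  have h2 : (fun g => m • f g - cob z g) x = 0 := by
    simp only
    rw [h0 x hx, cob_eq_zero_of_fixed (hz x hx), smul_zero, sub_zero]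
  rw [h2, smul_zero, add_zero] at h1
  have h4 := cocOn_pow_eq_zero he hσ heσ i
  have h3 : m • f (σ ^ i * x) - cob z (σ ^ i * x) = 0 := h1.trans h4
  rw [sub_eq_zero] at h3
  rw [h3]
  rfl

/-- **Step B with slack.** -/
theorem slack_of_pgroup (V U₀ : Subgroup Γ)
    (hHasse : ∀ H H' : Subgroup Γ, V ≤ H' → H' ≤ H → H ≤ U₀ → NormalIn H H' →
      H'.relIndex H = p → HasseSlackAt p H H' A) :
    ∀ (k : ℕ) (H : Subgroup Γ), V ≤ H → H ≤ U₀ → NormalIn H V → V.relIndex H = p ^ k →
      ∀ f : Γ → A, CocOn H f → InvOn H V f →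
        ∃ (m : ℕ) (z : A), ¬ p ∣ m ∧ (∀ x ∈ V, x • z = z) ∧
          ∀ g ∈ H, m • f g = g • z - z := by
  intro k
  induction k with
  | zero =>
    intro H hVH _ _ hidx f hf hinv
    have hle : H ≤ V := Subgroup.relIndex_eq_one.1 (by simpa using hidx)
    refine ⟨1, 0, fun h => hp.out.one_lt.ne' (Nat.dvd_one.1 h), fun _ _ => smul_zero _,
      fun g hg => ?_⟩
    rw [smul_zero, sub_zero, one_smul]
    exact eq_zero_of_mem hf hinv (hle hg)
  | succ k ih =>
    intro H hVH hHU hnorm hidx f hf hinv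
    have hn : (V.subgroupOf H).Normal := normal_subgroupOf hnorm
    have hcard : Nat.card (↥H ⧸ V.subgroupOf H) = p ^ (k + 1) := hidx
    have hfin : Finite (↥H ⧸ V.subgroupOf H) :=
      Nat.finite_of_card_ne_zero (by rw [hcard]; exact pow_ne_zero _ hp.out.ne_zero)
    obtain ⟨Q', hQ'⟩ := Sylow.exists_subgroup_card_pow_prime (G := ↥H ⧸ V.subgroupOf H) p
      (n := k) (by rw [hcard]; exact pow_dvd_pow p (Nat.le_succ k))
    have hQidx : Q'.index = p := by
      have h1 := Q'.card_mul_index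
      rw [hQ', hcard, pow_succ] at h1
      exact Nat.eq_of_mul_eq_mul_left (pow_pos hp.out.pos k) h1
    have hQn : Q'.Normal := by
      apply Subgroup.normal_of_index_eq_minFac_card
      rw [hQidx, hcard, Nat.Prime.pow_minFac hp.out (Nat.succ_ne_zero k)]
    set H' : Subgroup Γ := liftSub hn Q' with hH'
    have hle : H' ≤ H := liftSub_le hn Q'
    have hVH' : V ≤ H' := le_liftSub hVH hn Q'
    have hnorm' : NormalIn H H' := normalIn_liftSub hn Q'
    have hidx' : H'.relIndex H = p := by rw [hH', relIndex_liftSub, hQidx]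
    have hidxV : V.relIndex H' = p ^ k := by
      have h1 := Subgroup.relIndex_mul_relIndex V H' H hVH' hle
      rw [hidx, hidx', pow_succ] at h1
      exact Nat.eq_of_mul_eq_mul_right hp.out.pos h1
    obtain ⟨m₁, z₁, hm₁, hz₁, hfz₁⟩ := ih H' hVH' (hle.trans hHU) (hnorm.mono hle) hidxV f
      (hf.mono hle) (hinv.mono hle)
    have he : CocOn H (fun g => m₁ • f g - cob z₁ g) := (hf.nsmul m₁).sub (cocOn_cob H z₁)
    have he0 : ∀ x ∈ H', (fun g => m₁ • f g - cob z₁ g) x = 0 := by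
      intro x hx
      simp only [cob]
      rw [hfz₁ x hx, sub_self]
    obtain ⟨m₂, z₂, hm₂, hz₂, hez₂⟩ := slack_of_cyclic hle hnorm' hidx'
      (hHasse H H' hVH' hle hHU hnorm' hidx') he (invOn_of_vanish hle he he0)
    refine ⟨m₂ * m₁, m₂ • z₁ + z₂, ?_, fun x hx => ?_, fun g hg => ?_⟩
    · intro hdvd
      rcases (Nat.Prime.dvd_mul hp.out).1 hdvd with h | h
      · exact hm₂ h
      · exact hm₁ h
    · rw [smul_add, smul_comm x m₂, hz₁ x hx, hz₂ x (hVH' hx)]
    · have := hez₂ g hg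
      simp only [cob, smul_sub] at this
      rw [mul_smul, smul_add, smul_comm g m₂]
      have h2 : m₂ • m₁ • f g = (g • z₂ - z₂) + (m₂ • g • z₁ - m₂ • z₁) := by
        rw [← this]
        abel
      rw [h2]
      abel

/-- **Step C with slack.**  `V ≤ U` of finite index, normalised by `U`, with the Hasse norm
property (up to prime-to-`p` slack) for the layers of index `p` between `V` and `U`: every
right-`V`-invariant cocycle on `U` has a multiple prime to `p` which is a coboundary on `U`. -/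
theorem slack_of_finiteIndex (V U : Subgroup Γ) (hVU : V ≤ U) (hnorm : NormalIn U V)
    (hfin : V.relIndex U ≠ 0)
    (hHasse : ∀ H H' : Subgroup Γ, V ≤ H' → H' ≤ H → H ≤ U → NormalIn H H' →
      H'.relIndex H = p → HasseSlackAt p H H' A)
    {f : Γ → A} (hf : CocOn U f) (hinv : InvOn U V f) :
    ∃ (m : ℕ) (z : A), ¬ p ∣ m ∧ ∀ g ∈ U, m • f g = g • z - z := by
  have hn : (V.subgroupOf U).Normal := normal_subgroupOf hnorm
  have hfinQ : Finite (↥U ⧸ V.subgroupOf U) := Nat.finite_of_card_ne_zero hfin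
  obtain ⟨P⟩ : Nonempty (Sylow p (↥U ⧸ V.subgroupOf U)) := inferInstance
  set H : Subgroup Γ := liftSub hn (P : Subgroup (↥U ⧸ V.subgroupOf U)) with hH
  have hle : H ≤ U := liftSub_le hn _
  have hVH : V ≤ H := le_liftSub hVU hn _
  have hidxH : H.relIndex U = (P : Subgroup (↥U ⧸ V.subgroupOf U)).index := relIndex_liftSub hn _
  have hndvd : ¬ p ∣ H.relIndex U := by
    rw [hidxH]
    exact P.not_dvd_index
  have hidx0 : H.relIndex U ≠ 0 := fun h0 => hndvd (by rw [h0]; exact dvd_zero p)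
  have hidxV : V.relIndex H = p ^ (Nat.card (↥U ⧸ V.subgroupOf U)).factorization p := by
    have h1 := Subgroup.relIndex_mul_relIndex V H U hVH hle
    have h2 := (P : Subgroup (↥U ⧸ V.subgroupOf U)).card_mul_index
    rw [P.card_eq_multiplicity, ← hidxH] at h2
    have h3 : V.relIndex U = Nat.card (↥U ⧸ V.subgroupOf U) := rfl
    rw [h3, ← h2] at h1
    exact Nat.eq_of_mul_eq_mul_right (Nat.pos_of_ne_zero hidx0) h1
  obtain ⟨m₁, c, hm₁, -, hfc⟩ := slack_of_pgroup V U hHasse _ H hVH hle (hnorm.mono hle) hidxV f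
    (hf.mono hle) (hinv.mono hle)
  have he : CocOn U (fun g => m₁ • f g - cob c g) := (hf.nsmul m₁).sub (cocOn_cob U c)
  have he0 : ∀ x ∈ H, (fun g => m₁ • f g - cob c g) x = 0 := by
    intro x hx
    simp only [cob]
    rw [hfc x hx, sub_self]
  obtain ⟨b, hb⟩ := exists_index_smul_eq U H hidx0 he (invOn_of_vanish hle he he0)
  refine ⟨H.relIndex U * m₁, (H.relIndex U) • c - b, ?_, fun g hg => ?_⟩
  · intro hdvd
    rcases (Nat.Prime.dvd_mul hp.out).1 hdvd with h | h
    · exact hndvd h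
    · exact hm₁ h
  · have := hb g hg
    simp only [cob, smul_sub] at this
    rw [mul_smul, smul_sub, smul_comm g (H.relIndex U)]
    have h2 : H.relIndex U • m₁ • f g =
        (b - g • b) + (H.relIndex U • g • c - H.relIndex U • c) := by
      rw [← this]
      abel
    rw [h2]
    abel

end Slack

end Fermat.Agent.F4CfCore
end MergeWrap_F4_CfCore_H1Slack

section MergeWrap_F4_Cf_H1 -- from F4/Cf/H1.lean

/-!
# F4 / Cf / H1 : seat ACF-1 — `H¹(C)` is torsion prime to `p` for a class formation mod `p`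
(owner helper49; statements of `F4/Cf/Statements.lean`, proved here under the names
`h1slack_pf`, `h1p0_pf`)

* `h1slack_pf : PCF p 𝓤 C U₀ → H1slack p 𝓤 C`  (only the field `hasse` is used);
* `h1p0_pf    : H1slack p 𝓤 C → UC.H1p0 p 𝓤 C`.

The work is done in `F4/CfCore/H1Slack.lean` (`slack_of_finiteIndex`: Sylow + induction on
`p`-groups + averaging); here it is transported to `Rep ℤ G`.
-/

set_option autoImplicit false

open CategoryTheory groupCohomology

namespace Fermat.Agent.F4Cf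

open Fermat.Agent.F4 Fermat.Agent.F4CfCore

variable {G : Type} [Group G] {p : ℕ} [Fact p.Prime] {𝓤 : Levels G} {C : Rep.{0} ℤ G}
  {U₀ : Subgroup G}

/-- The action of `G` on the module of a representation, as a `DistribMulAction`
(`g • a = C.ρ g a` by definition). -/
@[reducible] def repDMA (C : Rep.{0} ℤ G) : DistribMulAction G C where
  smul g a := C.ρ g a
  one_smul a := by
    show C.ρ 1 a = a
    rw [map_one]
    rfl
  mul_smul g h a := by
    show C.ρ (g * h) a = C.ρ g (C.ρ h a)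
    rw [map_mul]
    rfl
  smul_zero g := map_zero (C.ρ g)
  smul_add g a b := map_add (C.ρ g) a b

/-- A layer of prime index with a chosen generator is an `IsCyc`. -/
lemma isCyc_of_relIndex {H H' : Subgroup G} (hle : H' ≤ H) (hn : NormalIn H H')
    (hidx : H'.relIndex H = p) {σ : G} (hσ : σ ∈ H) (hσ' : σ ∉ H') : IsCyc p H H' σ where
  le := hle
  normal := hn
  mem := hσ
  not_mem := hσ'
  pow_mem := pow_prime_mem hn hidx hσ
  gen := by
    intro u hu
    obtain ⟨i, x, hx, rfl⟩ := exists_pow_mul hn hidx hσ hσ' hu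
    have hp : 0 < p := (Fact.out : p.Prime).pos
    refine ⟨i % p, Nat.mod_lt i hp, ?_⟩
    have h1 : σ ^ i = σ ^ (i % p) * (σ ^ p) ^ (i / p) := by
      rw [← pow_mul, ← pow_add, Nat.mod_add_div]
    have h2 : (σ ^ (i % p))⁻¹ * (σ ^ i * x) = (σ ^ p) ^ (i / p) * x := by
      rw [h1]
      group
    rw [h2]
    exact H'.mul_mem (H'.pow_mem (pow_prime_mem hn hidx hσ) _) hx

/-- **T1** (seat ACF-1).  `H¹(C)` is torsion prime to `p`. -/
theorem h1slack_pf (h : PCF p 𝓤 C U₀) : H1slack p 𝓤 C := by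
  intro c hc
  have hcoc : ∀ g k : G, c (g * k) = C.ρ g (c k) + c g := (mem_cocycles₁_iff c).1 hc.1
  obtain ⟨V, hV, hinvV⟩ : IsLC₁ 𝓤 c := hc.2
  let _ : DistribMulAction G C := repDMA C
  have hVn : V.Normal := 𝓤.normal V hV
  have hVfi : V.FiniteIndex := 𝓤.finiteIndex V hV
  have hf : CocOn (⊤ : Subgroup G) c := by
    intro g _ k _
    rw [hcoc g k, add_comm]
    rfl
  have hinv : InvOn (⊤ : Subgroup G) V c := fun g _ v hv => hinvV g v hv
  have hnorm : NormalIn (⊤ : Subgroup G) V := fun g _ x hx => hVn.conj_mem x hx g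
  have hfin : V.relIndex ⊤ ≠ 0 := by
    rw [Subgroup.relIndex_top_right]
    exact hVfi.index_ne_zero
  have hHasse : ∀ H H' : Subgroup G, V ≤ H' → H' ≤ H → H ≤ ⊤ → NormalIn H H' →
      H'.relIndex H = p → HasseSlackAt p H H' C := by
    intro H H' hVH' hle _ hn hidx σ hσ hσ' y hy hN
    have hcyc : IsCyc p H H' σ := isCyc_of_relIndex hle hn hidx hσ hσ'
    obtain ⟨m, z, hm, hz, hmy⟩ := h.hasse H H' σ ⟨V, hV, hVH'⟩ hcyc y hy hN
    exact ⟨m, z, hm, hz, hmy⟩
  obtain ⟨m, z, hm, hmz⟩ := slack_of_finiteIndex V ⊤ le_top hnorm hfin hHasse hf hinv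
  refine ⟨m, hm, z, ?_⟩
  funext g
  rw [d₀₁_hom_apply]
  exact (hmz g (Subgroup.mem_top g)).symm

/-- In an abelian group, an element with two coprime multiples in a subgroup lies in it. -/
lemma mem_of_coprime_smul_mem {M : Type*} [AddCommGroup M] (S : AddSubgroup M)
    {c : M} {m n : ℕ} (hcop : Nat.Coprime m n) (h1 : m • c ∈ S) (h2 : (n : ℤ) • c ∈ S) :
    c ∈ S := by
  obtain ⟨u, v, huv⟩ := Nat.Coprime.isCoprime hcop
  have h3 := S.add_mem (S.zsmul_mem h1 u) (S.zsmul_mem h2 v)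
  have h4 : c = u • (m • c) + v • ((n : ℤ) • c) := by
    rw [← natCast_zsmul c m, ← mul_smul, ← mul_smul, ← add_smul, huv, one_smul]
  rw [h4]
  exact h3

/-- `H1slack` implies `H¹(C)[p] = 0` (seat ACF-1). -/
theorem h1p0_pf (h : H1slack p 𝓤 C) : UC.H1p0 p 𝓤 C := by
  intro c hc hpc
  obtain ⟨m, hm, hmc⟩ := h c hc
  have hcop : Nat.Coprime m p :=
    ((Nat.Prime.coprime_iff_not_dvd (Fact.out : p.Prime)).2 hm).symm
  exact mem_of_coprime_smul_mem (B1 C).toAddSubgroup hcop hmc hpc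

end Fermat.Agent.F4Cf
end MergeWrap_F4_Cf_H1
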