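import Fermat.Agent.MU.F4.Datum

section MergeWrap_F4_Cf_RecipA -- from F4/Cf/RecipA.lean

/-!
# F4 / Cf / RecipA : seat R-A (first half) — the Prop-fields of `rescaleLoc`
(owner helper49; statements = the five `sorry`-fields of `rescaleLoc` in `F4/Cf/Recip.lean`)

Rescaling an invariant by a unit `c` of `𝔽_p` preserves the duality properties:
* `A2Inj_smul`, `A1Surj_smul`, `A1Inj_smul` (generic);
* `rescaleLoc_a2inj_pf`, `rescaleLoc_a1surj_pf`, `rescaleLoc_a2injAll_pf`,
  `rescaleLoc_a1surjAll_pf`, `rescaleLoc_inv_ε_pf` : the five fields, for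
  `inv := c • l.inv`, `invAll := c • l.invAll`.
This file imports only `F4/Datum.lean`, so `F4/Cf/Recip.lean` may import it.
-/

set_option autoImplicit false

open CategoryTheory groupCohomology ExtCitation

namespace Fermat.Agent.F4Cf

open Fermat.Agent.F4

section Generic

variable {k G : Type} [Field k] [Group G] (𝓤 : Levels G) (K : Cx k G) (N : Rep.{0} k G)
  (inv : HH2 𝓤 K →ₗ[k] k)

/-- `A2Inj` is invariant under rescaling of the invariant by a nonzero scalar. -/
theorem A2Inj_smul {c : k} (hc : c ≠ 0) (h : A2Inj 𝓤 K N inv) : A2Inj 𝓤 K N (c • inv) := by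
  intro z hz
  refine h z fun n hn => ?_
  have h1 := hz n hn
  rw [LinearMap.smul_apply, smul_eq_mul] at h1
  exact (mul_eq_zero.1 h1).resolve_left hc

/-- `A1Surj` is invariant under rescaling of the invariant by a nonzero scalar. -/
theorem A1Surj_smul {c : k} (hc : c ≠ 0) (hN : IsSmooth 𝓤 N) (hfin : Module.Finite k N)
    (h : A1Surj 𝓤 K N inv hN hfin) : A1Surj 𝓤 K N (c • inv) hN hfin := by
  intro φ
  obtain ⟨z, hz⟩ := h (c⁻¹ • φ)
  refine ⟨z, fun y => ?_⟩
  rw [LinearMap.smul_apply, hz y, LinearMap.smul_apply, smul_smul, mul_inv_cancel₀ hc, one_smul]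

/-- `A1Inj` is invariant under rescaling of the invariant by a nonzero scalar. -/
theorem A1Inj_smul {c : k} (hc : c ≠ 0) (hN : IsSmooth 𝓤 N) (hfin : Module.Finite k N)
    (h : A1Inj 𝓤 K N inv hN hfin) : A1Inj 𝓤 K N (c • inv) hN hfin := by
  intro z hz
  refine h z fun y => ?_
  have h1 := hz y
  rw [LinearMap.smul_apply, smul_eq_mul] at h1
  exact (mul_eq_zero.1 h1).resolve_left hc

end Generic

section Rescale

variable {p : ℕ} [Fact p.Prime] {S : Finset Nat.Primes} {q : Nat.Primes}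
  (l : LocalDatum p S q) (c : (ZMod p)ˣ)

theorem rescaleLoc_a2inj_pf :
    ∀ U : Subgroup (primeLocalGaloisGroup q), (locLevelsS S q).IsOpen U → ¬ p ∣ U.index →
      A2Inj (locLevelsS S q) l.K (permRep (ZMod p) U) ((c : ZMod p) • l.inv) :=
  fun U hU hidx => A2Inj_smul _ _ _ _ c.ne_zero (l.a2inj U hU hidx)

theorem rescaleLoc_a1surj_pf :
    ∀ (U : Subgroup (primeLocalGaloisGroup q)) (hU : (locLevelsS S q).IsOpen U),
      ¬ p ∣ U.index →
      A1Surj (locLevelsS S q) l.K (permRep (ZMod p) U) ((c : ZMod p) • l.inv)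
        (permRep_smooth _ hU) (permRep_finite _ hU) :=
  fun U hU hidx => A1Surj_smul _ _ _ _ c.ne_zero _ _ (l.a1surj U hU hidx)

theorem rescaleLoc_a2injAll_pf :
    ∀ U : Subgroup (primeLocalGaloisGroup q), (locLevelsAll q).IsOpen U →
      ¬ p ∣ U.index →
      A2Inj (locLevelsAll q) (locMu p q) (permRep (ZMod p) U) ((c : ZMod p) • l.invAll) :=
  fun U hU hidx => A2Inj_smul _ _ _ _ c.ne_zero (l.a2injAll U hU hidx)

theorem rescaleLoc_a1surjAll_pf :
    ∀ (U : Subgroup (primeLocalGaloisGroup q)) (hU : (locLevelsAll q).IsOpen U),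
      ¬ p ∣ U.index →
      A1Surj (locLevelsAll q) (locMu p q) (permRep (ZMod p) U) ((c : ZMod p) • l.invAll)
        (permRep_smooth _ hU) (permRep_finite _ hU) :=
  fun U hU hidx => A1Surj_smul _ _ _ _ c.ne_zero _ _ (l.a1surjAll U hU hidx)

theorem rescaleLoc_inv_ε_pf :
    ∀ (z : T2 (locMu p q)) (hz : z ∈ ZZ2 (locLevelsS S q) (locMu p q))
      (hz' : z ∈ ZZ2 (locLevelsAll q) (locMu p q)),
      ((c : ZMod p) • l.inv) (HH2π _ _ (l.ε.mapZZ2 _ ⟨z, hz⟩)) =
        ((c : ZMod p) • l.invAll) (HH2π _ _ ⟨z, hz'⟩) := by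
  intro z hz hz'
  rw [LinearMap.smul_apply, LinearMap.smul_apply, l.inv_ε z hz hz']

end Rescale

end Fermat.Agent.F4Cf
end MergeWrap_F4_Cf_RecipA
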