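import Mathlib
import Fermat.Agent.MU.F4.Dict.TwoNT
import Fermat.Agent.MU.F4.Glob.FIRPrelim
import Fermat.Agent.MU.F4.Glob.FirstIneqRayMain
import Fermat.Agent.MU.S17.W.Final
import Fermat.Agent.MU.F4.Dict.HasseAbs
import Fermat.Agent.MU.F4.Dict.KappaPres
import Fermat.Agent.MU.F4.Dict.DivNorm
import Fermat.Agent.MU.F4.Dict.DivFin
import Fermat.Agent.MU.F4.Dict.PlaceSurj
import Fermat.Agent.MU.F4.Dict.KappaAbs
import Fermat.Agent.MU.F4.Cf.Lines
import Fermat.Agent.MU.F4.Dict.Level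
import Fermat.Agent.MU.F4.Dict.JH90
import Fermat.Agent.MU.F4.Dict.Div
import Fermat.Agent.MU.F4.Dict.LocNorm
import Fermat.Agent.MU.F4.Dict.CapitLevel
import Fermat.Agent.MU.F4.Dict.PlacesWire
import Fermat.Agent.MU.F4.Dict.JApprox
import Fermat.Agent.MU.F4.Dict.JHensel
import Fermat.Agent.MU.F4.Glob.RayBridge
import Fermat.Agent.MU.F4.Ray.Main
import Fermat.Agent.MU.F4.Kum.Interface2
import Fermat.Agent.MU.F4.Kum.Pairing
import Fermat.Agent.MU.S14.SI.TameNonNorm
import Fermat.Agent.MU.S14.SI.PowMod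
import Fermat.Agent.MU.F4.Kum.Level
import Fermat.Agent.MU.F4.Kum.Defs
import Fermat.Agent.MU.E.S12.Main
import Fermat.Agent.MU.F4.Kum.RecInterface
import Fermat.Agent.MU.F4.Kum.Rec1
import Fermat.Agent.MU.F4.Kum.RayApprox
import Fermat.Agent.MU.F4.Recip.Main
import Fermat.Agent.MU.F4.Recip.ArtinMap
import Fermat.Agent.MU.F4.Glob.NormDefs
import Fermat.Agent.MU.F4.Dict.DivTopBot
import Fermat.Agent.MU.F4.Dict.ExistKummer
import Fermat.Agent.MU.F4.Dict.Exist
import Fermat.Agent.MU.F4.Dict.ExistEnd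
import Fermat.Agent.MU.F4.Cf.Defs
import Fermat.Agent.MU.F4.Dict.Formation
import Fermat.Agent.MU.F4.Cf.DictU0
import Fermat.Agent.MU.F4.Dict.ArtinMain
import Fermat.Agent.MU.F4.Cf.RecipA
import Fermat.Agent.MU.F4.Coind.Datum
import Fermat.Agent.MU.F4.UC.Coind
import Fermat.Agent.MU.F4.UC.Quot
import Fermat.Agent.MU.F4.Dict.Kummer

section MergeWrap_F4_Dict_Two -- from F4/Dict/Two.lean

/-!
# F4 / Dict / Two : two distinct cyclic layers of degree `p` below `Gal(ℚ̄/ℚ(μ_p))` (seat TWO)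

`dict_two_pf` : the statement of the stub `dict_two` of `F4/Cf/Dict.lean`
(`U0 p = MonoidHom.ker (cycloChar p)`).

Proof (Kummer theory, `F = ℚ̄^U ⊇ ℚ(μ_p)` a number field inside `ℚ_S`, `p ∈ S`):
* `ζ ∈ μ_{p^∞}(F)`, not a `p`-th power in `F` (`two_exists_zeta`);
* `y ∈ F` with `p = ω y ^ p ^ n`, `y ∉ μ_{p^∞}(F) · F^p` (`two_exists_y`);
* `α₁ ^ p = ζ`, `α₂ ^ p = y`: the layers `{g ∈ U | g α_i = α_i}` are cyclic of degree `p`
  (`two_isCyc`), open in `G_S` (`ζ`, `y` are `S`-units of `ℚ_S`: `dk1_root_sUnit`), and distinct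
  (`two_eq_of_stab_eq`).
-/

set_option autoImplicit false

open CategoryTheory groupCohomology ExtCitation

namespace Fermat.Agent.F4Cf

open Fermat.Agent.F4

variable (p : ℕ) [Fact p.Prime] (S : Finset Nat.Primes)

/-- A natural number prime to `q` is a unit at every valuation subring over `q`. -/
lemma two_isUnitAt_natCast {q : ℕ} (hq : q.Prime) (hpq : p ≠ q)
    (A : ValuationSubring (AlgebraicClosure ℚ)) (hA : A.LiesOverPrime q) :
    IsUnitAt A (p : AlgebraicClosure ℚ) := by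
  have hp : p.Prime := Fact.out
  have hp0 : (p : AlgebraicClosure ℚ) ≠ 0 := Nat.cast_ne_zero.2 hp.ne_zero
  have hle : A.valuation (p : AlgebraicClosure ℚ) ≤ 1 :=
    (A.valuation_le_one_iff _).2 (natCast_mem A p)
  suffices hv1 : A.valuation (p : AlgebraicClosure ℚ) = 1 by
    refine ⟨natCast_mem A p, ?_⟩
    rw [← A.valuation_le_one_iff, map_inv₀, hv1, inv_one]
  refine le_antisymm hle (not_lt.1 fun hlt => ?_)
  -- `1 = a p + b q` would be a non-unit
  have hcop : IsCoprime (p : ℤ) (q : ℤ) := by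
    rw [Int.isCoprime_iff_gcd_eq_one]
    exact (Nat.coprime_primes hp hq).2 hpq
  obtain ⟨a, b, hab⟩ := hcop
  have hq1 : A.valuation (q : AlgebraicClosure ℚ) < 1 :=
    (ValuationSubring.mem_nonunits_iff A).1 hA
  have ha : A.valuation ((a : ℤ) : AlgebraicClosure ℚ) ≤ 1 :=
    (A.valuation_le_one_iff _).2 (intCast_mem A a)
  have hb : A.valuation ((b : ℤ) : AlgebraicClosure ℚ) ≤ 1 :=
    (A.valuation_le_one_iff _).2 (intCast_mem A b)
  have h1 : A.valuation ((a : AlgebraicClosure ℚ) * p) < 1 := by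
    rw [map_mul]
    exact mul_lt_one_of_nonneg_of_lt_one_right ha zero_le hlt
  have h2 : A.valuation ((b : AlgebraicClosure ℚ) * q) < 1 := by
    rw [map_mul]
    exact mul_lt_one_of_nonneg_of_lt_one_right hb zero_le hq1
  have h3 : A.valuation ((a : AlgebraicClosure ℚ) * p + (b : AlgebraicClosure ℚ) * q) < 1 :=
    lt_of_le_of_lt (A.valuation.map_add _ _) (max_lt h1 h2)
  have h4 : ((a : AlgebraicClosure ℚ) * p + (b : AlgebraicClosure ℚ) * q) = 1 := by
    have := congrArg (fun z : ℤ => (z : AlgebraicClosure ℚ)) hab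
    simpa using this
  rw [h4, map_one] at h3
  exact lt_irrefl _ h3

/-- `p` is an `S`-unit if `p ∈ S`. -/
lemma two_isSUnit_p (hpS : pPrime p ∈ S) : IsSUnit S (p : AlgebraicClosure ℚ) := by
  intro q hq A hA
  refine two_isUnitAt_natCast p q.2 ?_ A hA
  rintro h
  apply hq
  have : pPrime p = q := Subtype.ext h
  rwa [← this]

/-- Roots of unity are `S`-units. -/
lemma two_isSUnit_root {ω : AlgebraicClosure ℚ} {k : ℕ} (hk : k ≠ 0) (h : ω ^ k = 1) :
    IsSUnit S ω := fun _ _ A _ =>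
  dk1_isUnitAt_of_pow hk (by rw [h]; exact IsUnitAt.one A)

/-- The layer of a `p`-th root of an `S`-unit of `F` is open in `G_S`. -/
lemma two_stab_isOpen (hpS : pPrime p ∈ S) {U : Subgroup GQ} (hU : (levelsS S).IsOpen U)
    {α : AlgebraicClosure ℚ} (hα : α ≠ 0) (hx : ∀ g ∈ U, g (α ^ p) = α ^ p)
    (hS : IsSUnit S (α ^ p)) : (levelsS S).IsOpen (two_stab U α) := by
  obtain ⟨W, hW, hle⟩ := hU
  have hu : Units.mk0 (α ^ p) (pow_ne_zero _ hα) ∈ smUnitsSub (levelsS S) galAct :=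
    ⟨W, hW, fun v hv => hx v (hle hv)⟩
  have hw : (Units.mk0 α hα) ^ p = Units.mk0 (α ^ p) (pow_ne_zero _ hα) := by
    apply Units.ext
    simp
  obtain ⟨⟨V', hV', hfix⟩, -⟩ := dk1_root_sUnit S hpS _ _ hu hS hw
  obtain ⟨X, hX, hXle⟩ := (levelsS S).directed W hW V' hV'
  exact ⟨X, hX, fun g hg => ⟨hle (hXle hg).1, hfix g (hXle hg).2⟩⟩

/-- **Kummer** (seat TWO; the statement of the stub `dict_two`, `U0 p = ker (cycloChar p)`):
a number field `F ⊇ ℚ(μ_p)` inside `ℚ_S` (`p ∈ S`) has two distinct cyclic extensions of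
degree `p` inside `ℚ_S`. -/
theorem dict_two_pf (_hp2 : p ≠ 2) (hpS : pPrime p ∈ S) (U : Subgroup GQ)
    (hU : (levelsS S).IsOpen U) (hU0 : U ≤ MonoidHom.ker (cycloChar p)) :
    ∃ (V V' : Subgroup GQ) (σ σ' : GQ), (levelsS S).IsOpen V ∧ (levelsS S).IsOpen V' ∧
      IsCyc p U V σ ∧ IsCyc p U V' σ' ∧ V ≠ V' := by
  have hp : p.Prime := Fact.out
  have hU' := hU
  obtain ⟨W, ⟨L₀, hL₀, -, rfl⟩, hle⟩ := hU'
  have : FiniteDimensional ℚ L₀ := hL₀.1
  have hμ := two_fix_mu hU0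
  obtain ⟨ζ, m, hζm, hζfix, hζnp⟩ := two_exists_zeta L₀ hle hμ
  obtain ⟨y, ω, n, m', hyfix, hωfix, hωm, hpy, hynp⟩ := two_exists_y (p := p) L₀ hle
  have hp0 : (p : AlgebraicClosure ℚ) ≠ 0 := Nat.cast_ne_zero.2 hp.ne_zero
  have hζ0 : ζ ≠ 0 := by
    rintro rfl
    rw [zero_pow (pow_ne_zero _ hp.ne_zero)] at hζm
    exact zero_ne_one hζm
  have hω0 : ω ≠ 0 := by
    rintro rfl
    rw [zero_mul] at hpy
    exact hp0 hpy
  have hy0 : y ≠ 0 := by
    rintro rfl
    rw [zero_pow (pow_ne_zero _ hp.ne_zero), mul_zero] at hpy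
    exact hp0 hpy
  obtain ⟨α₁, hα₁⟩ := IsAlgClosed.exists_pow_nat_eq ζ hp.pos
  obtain ⟨α₂, hα₂⟩ := IsAlgClosed.exists_pow_nat_eq y hp.pos
  have hα₁0 : α₁ ≠ 0 := by
    rintro rfl
    rw [zero_pow hp.ne_zero] at hα₁
    exact hζ0 hα₁.symm
  have hα₂0 : α₂ ≠ 0 := by
    rintro rfl
    rw [zero_pow hp.ne_zero] at hα₂
    exact hy0 hα₂.symm
  have hx₁ : ∀ g ∈ U, g (α₁ ^ p) = α₁ ^ p := fun g hg => by rw [hα₁]; exact hζfix g hg
  have hx₂ : ∀ g ∈ U, g (α₂ ^ p) = α₂ ^ p := fun g hg => by rw [hα₂]; exact hyfix g hg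
  -- the two roots are moved by `U`
  have hσ₁ : ∃ σ ∈ U, σ α₁ ≠ α₁ := by
    by_contra hcon
    push Not at hcon
    exact hζnp α₁ hcon hα₁
  have hσ₂ : ∃ σ ∈ U, σ α₂ ≠ α₂ := by
    by_contra hcon
    push Not at hcon
    refine hynp 1 α₂ 0 (fun g _ => map_one g) (one_pow _) hcon ?_
    rw [one_mul, hα₂]
  obtain ⟨σ₁, hσ₁U, hσ₁⟩ := hσ₁
  obtain ⟨σ₂, hσ₂U, hσ₂⟩ := hσ₂
  -- `S`-units
  have hSζ : IsSUnit S (α₁ ^ p) := by
    rw [hα₁]
    exact two_isSUnit_root S (pow_ne_zero _ hp.ne_zero) hζm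
  have hSy : IsSUnit S (α₂ ^ p) := by
    rw [hα₂]
    intro q hq A hA
    refine dk1_isUnitAt_of_pow (pow_ne_zero n hp.ne_zero) ?_
    have e : y ^ p ^ n = ω⁻¹ * (p : AlgebraicClosure ℚ) := by
      rw [hpy, ← mul_assoc, inv_mul_cancel₀ hω0, one_mul]
    rw [e]
    exact ((two_isSUnit_root S (pow_ne_zero _ hp.ne_zero) hωm).inv q hq A hA).mul
      (two_isSUnit_p p S hpS q hq A hA)
  refine ⟨two_stab U α₁, two_stab U α₂, σ₁, σ₂, two_stab_isOpen p S hpS hU hα₁0 hx₁ hSζ,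
    two_stab_isOpen p S hpS hU hα₂0 hx₂ hSy, two_isCyc hp hμ hα₁0 hx₁ hσ₁U hσ₁,
    two_isCyc hp hμ hα₂0 hx₂ hσ₂U hσ₂, fun heq => ?_⟩
  obtain ⟨b, β, hβ, hαβ⟩ := two_eq_of_stab_eq hp hμ hα₁0 hx₁ hα₂0 hx₂ heq hσ₁U hσ₁
  refine hynp (ζ ^ b) β m (fun g hg => by rw [map_pow, hζfix g hg]) ?_ hβ ?_
  · rw [← pow_mul, mul_comm, pow_mul, hζm, one_pow]
  · rw [← hα₂, hαβ, mul_pow, ← pow_mul, mul_comm b p, pow_mul, hα₁]

end Fermat.Agent.F4Cf
end MergeWrap_F4_Dict_Two

section MergeWrap_F4_Glob_HasseFull -- from F4/Glob/HasseFull.lean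

/-!
# F4 / GLOB : the Hasse norm theorem for elements of `Fˣ`, at finite level (helper56)

`M/F` Galois of odd prime degree `p`, unramified outside the finite set `T` of primes of `F`.
If `a ∈ Fˣ` is a local norm to every precision at every prime of `T`, and `p ∣ ord_v a` at every
non-split prime `v ∉ T`, then `a` is a norm from `M` (`hasseNormFull`).

Proof: enlarge `T` to a finite set `S ⊇ T ∪ supp(a)` generating the class groups of `F` and of `M`
(`fir_exists_S`); then `a` is an `S`-unit, a local norm at all `v ∈ S` (ULN at the primes outside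
`T`: `localNormGroup_eq_top_of_splitsCompletely`, `unit_mem_localNormGroup`), hence the norm of
an `S`-unit by `hasseNorm`.
-/

set_option autoImplicit false

open NumberField IsDedekindDomain

namespace Fermat.Agent.F4G

open Fermat.Agent.S14SI

variable {F M : Type} [Field F] [NumberField F] [Field M] [NumberField M] [Algebra F M]
  [IsGalois F M]

/-- **The Hasse norm theorem** (cyclic of odd prime degree), finite-level form, conditional on
the second inequality and the properness of the local norm groups. -/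
theorem hasseNormFull_of (h2 : SecondIneqNorm) (hP : LocalNormProperAll) {p : ℕ} (hp : p.Prime)
    (hp2 : p ≠ 2) (hdeg : Module.finrank F M = p) (T : Finset (HeightOneSpectrum (𝓞 F)))
    (hunr : ∀ w : HeightOneSpectrum (𝓞 M),
      w ∉ primesAboveSet F M (T : Set (HeightOneSpectrum (𝓞 F))) →
      w.asIdeal.ramificationIdx (𝓞 F) = 1)
    (a : Fˣ) (hT : ∀ v ∈ T, ∀ k : ℕ, a ∈ localNormGroup F M v k)
    (hout : ∀ v : HeightOneSpectrum (𝓞 F), v ∉ T → ¬ SplitsCompletely F M v →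
      ∃ n : ℤ, v.valuation F (a : F) = WithZero.exp ((p : ℤ) * n)) :
    a ∈ (normUnits F M).range := by
  classical
  have hfd : FiniteDimensional F M := by
    apply FiniteDimensional.of_finrank_pos
    rw [hdeg]; exact hp.pos
  -- the support of `a`
  have hfin := Fermat.Agent.KFin.finite_valuation_ne_one (K := F) a
  obtain ⟨S, hTS, hgen, hgenM⟩ := fir_exists_S (M := M) (T ∪ hfin.toFinset)
  obtain ⟨k, hk⟩ := fir_exists_k (F := F) (M := M) hP hp hp2 hdeg S
  have hT_S : T ⊆ S := Finset.subset_union_left.trans hTS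
  have hunrS : ∀ w : HeightOneSpectrum (𝓞 M),
      w ∉ primesAboveSet F M (S : Set (HeightOneSpectrum (𝓞 F))) →
      w.asIdeal.ramificationIdx (𝓞 F) = 1 := by
    intro w hw
    apply hunr w
    intro hwT
    apply hw
    rw [mem_primesAboveSet_iff] at hwT ⊢
    exact hT_S hwT
  -- `a` is an `S`-unit
  have haS : a ∈ sUnits F (S : Set (HeightOneSpectrum (𝓞 F))) := by
    rw [mem_sUnits]
    intro v hv
    by_contra hne
    apply hv
    apply hTS
    exact Finset.mem_union_right _ (hfin.mem_toFinset.2 hne)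
  -- `a` is a local norm at every prime of `S`
  have haL : a ∈ localNormsAt F M S k := by
    rw [mem_localNormsAt]
    intro v hv
    by_cases hvT : v ∈ T
    · exact hT v hvT k
    by_cases hsp : SplitsCompletely F M v
    · rw [localNormGroup_eq_top_of_splitsCompletely h2 hp hp2 hdeg S k hunrS hgen hgenM hk hv hsp]
      trivial
    · obtain ⟨n, hn⟩ := hout v hvT hsp
      obtain ⟨w, hw⟩ := exists_primeBelow_eq (M := M) v
      have he : w.asIdeal.ramificationIdx (𝓞 F) = 1 := by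
        apply hunr w
        intro hwT
        rw [mem_primesAboveSet_iff, hw] at hwT
        exact hvT hwT
      obtain ⟨π, hπ⟩ := v.valuation_exists_uniformizer F
      have hπ0 : π ≠ 0 := by
        rintro rfl
        rw [map_zero] at hπ
        exact WithZero.exp_ne_zero hπ.symm
      set πu : Fˣ := Units.mk0 π hπ0 with hπu
      -- `y = π ^ (-n)`, `v (y ^ p) = exp (p n)`
      set y : Fˣ := πu ^ (-n) with hy
      have hyp : v.valuation F ((y ^ p : Fˣ) : F) = WithZero.exp ((p : ℤ) * n) := by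
        rw [hy, Units.val_pow_eq_pow_val, Units.val_zpow_eq_zpow_val, hπu, Units.val_mk0,
          map_pow, map_zpow₀, hπ, ← WithZero.exp_zsmul, ← WithZero.exp_nsmul]
        congr 1
        simp only [smul_eq_mul, nsmul_eq_mul]
        ring
      have hunit : v.valuation F ((a / y ^ p : Fˣ) : F) = 1 := by
        rw [Units.val_div_eq_div_val, map_div₀, hn, hyp]
        exact div_self WithZero.exp_ne_zero
      have h1 : a / y ^ p ∈ localNormGroup F M v k :=
        unit_mem_localNormGroup h2 hp hp2 hdeg S k hunrS hgen hgenM hk hv hsp w hw he hunit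
      have h2' : y ^ p ∈ localNormGroup F M v k := pow_mem_localNormGroup v k hdeg y
      have := Subgroup.mul_mem _ h1 h2'
      rwa [div_mul_cancel] at this
  obtain ⟨z, -, hz⟩ := hasseNorm h2 hp hp2 hdeg S k hunrS hgen hgenM hk ⟨haS, haL⟩
  exact ⟨z, hz⟩

/-- **The Hasse norm theorem** (cyclic of odd prime degree), finite-level form, unconditional. -/
theorem hasseNormFull {p : ℕ} (hp : p.Prime) (hp2 : p ≠ 2) (hdeg : Module.finrank F M = p)
    (T : Finset (HeightOneSpectrum (𝓞 F)))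
    (hunr : ∀ w : HeightOneSpectrum (𝓞 M),
      w ∉ primesAboveSet F M (T : Set (HeightOneSpectrum (𝓞 F))) →
      w.asIdeal.ramificationIdx (𝓞 F) = 1)
    (a : Fˣ) (hT : ∀ v ∈ T, ∀ k : ℕ, a ∈ localNormGroup F M v k)
    (hout : ∀ v : HeightOneSpectrum (𝓞 F), v ∉ T → ¬ SplitsCompletely F M v →
      ∃ n : ℤ, v.valuation F (a : F) = WithZero.exp ((p : ℤ) * n)) :
    a ∈ (normUnits F M).range :=
  hasseNormFull_of secondIneqNorm_uncond localNormProperAll hp hp2 hdeg T hunr a hT hout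

end Fermat.Agent.F4G
end MergeWrap_F4_Glob_HasseFull

section MergeWrap_F4_Dict_HasseNorm -- from F4/Dict/HasseNorm.lean

/-!
# F4 / Dict / HasseNorm : the Hasse norm theorem for the layers of `ℚ_S` (piece D' of
`dict_hasse`; helper56)

`ℓ : LayerS p S` a cyclic layer `F = ℓ.bot.field ⊂ M = ℓ.top.field` of degree `p` inside `ℚ_S`.

* `LayerS.comap_primeBelow`      : the prime of `F` below `A ∩ M` is `A ∩ F`;
* `LayerS.ramificationIdx_eq_one`: `M / F` is unramified outside `S` (U1);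
* `LayerS.valuation_eq_exp_of_not_split` : the order of `a ∈ Fˣ` at a non-split prime outside `S`
  is divisible by `p`, if the ideal of `a` is a norm (U3);
* `LayerS.hasseNormAt_of`        : `HasseNormAt` of `HasseAbs.lean` for `kfS`, from the local norm
  property `LocNormAt` (K3iv, `F4/Dict/LocNorm.lean`) and `F4G.hasseNormFull`.
-/

set_option autoImplicit false
set_option synthInstance.maxHeartbeats 400000
set_option linter.unusedSectionVars false
set_option linter.style.haveILetI false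
set_option linter.unusedVariables false

open CategoryTheory groupCohomology ExtCitation
open scoped Pointwise
open NumberField IsDedekindDomain

namespace Fermat.Agent.F4

open Fermat.Agent.F4Cf

namespace LayerS

variable {p : ℕ} {S : Finset Nat.Primes} (ℓ : LayerS p S)

/-- The prime of `F` below the prime `A ∩ M` of `M` is `A ∩ F`. -/
lemma comap_primeBelow (A : ValuationSubring (AlgebraicClosure ℚ)) :
    (Fermat.Agent.KFin.primeBelow ℓ.top.field A).comap
        (algebraMap (𝓞 ℓ.bot.field) (𝓞 ℓ.top.field)) =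
      Fermat.Agent.KFin.primeBelow ℓ.bot.field A := by
  ext x
  rw [Ideal.mem_comap, Fermat.Agent.KFin.mem_primeBelow_iff, Fermat.Agent.KFin.mem_primeBelow_iff]
  rfl

/-- `exp (-1) ^ e = exp (-1)` forces `e = 1`. -/
lemma exp_neg_one_pow_eq {e : ℕ} (h : (WithZero.exp (-1 : ℤ)) ^ e = WithZero.exp (-1 : ℤ)) :
    e = 1 := by
  rw [← WithZero.exp_nsmul] at h
  have h1 := WithZero.exp_injective h
  simp only [nsmul_eq_mul] at h1
  omega

/-- **U1**: `M / F` is unramified outside `S`. -/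
theorem ramificationIdx_eq_one (w : HeightOneSpectrum (𝓞 ℓ.top.field))
    (hw : w ∉ Fermat.Agent.S14SI.primesAboveSet ℓ.bot.field ℓ.top.field
      (ℓ.bot.T : Set (HeightOneSpectrum (𝓞 ℓ.bot.field)))) :
    w.asIdeal.ramificationIdx (𝓞 ℓ.bot.field) = 1 := by
  set v : HeightOneSpectrum (𝓞 ℓ.bot.field) :=
    Fermat.Agent.S14SI.primeBelow (F := ℓ.bot.field) w with hv
  have hvT : v ∉ ℓ.bot.T := by
    intro h
    apply hw
    rw [Fermat.Agent.S14SI.mem_primesAboveSet_iff]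
    exact h
  obtain ⟨q, hqS, hq⟩ := ℓ.bot.exists_natCast_mem_of_not_mem_T v hvT
  have hqw : (((q : ℕ) : ℕ) : 𝓞 ℓ.top.field) ∈ w.asIdeal := by
    have h1 : algebraMap (𝓞 ℓ.bot.field) (𝓞 ℓ.top.field) (((q : ℕ) : ℕ) : 𝓞 ℓ.bot.field) ∈
        w.asIdeal := hq
    rwa [map_natCast] at h1
  obtain ⟨A, hA, hwA⟩ := ℓ.top.exists_primeBelowAt_of_mem w q hqw
  have hwA' : w.asIdeal = Fermat.Agent.KFin.primeBelow ℓ.top.field A := by
    rw [hwA]; rfl
  have hvA : v.asIdeal = Fermat.Agent.KFin.primeBelow ℓ.bot.field A := by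
    rw [← ℓ.comap_primeBelow A, ← hwA']
    rfl
  have h1 := ℓ.top.capit_valuation_natCast_field q hqS A hA w hwA'
  have h2 := ℓ.bot.capit_valuation_natCast_field q hqS A hA v hvA
  haveI : w.asIdeal.LiesOver v.asIdeal := ⟨rfl⟩
  have h3 := HeightOneSpectrum.valuation_liesOver (K := ℓ.bot.field) ℓ.top.field v w
    ((q : ℕ) : ℓ.bot.field)
  have e : algebraMap ℓ.bot.field ℓ.top.field ((q : ℕ) : ℓ.bot.field) =
      ((q : ℕ) : ℓ.top.field) := map_natCast _ _
  rw [e, h1, h2] at h3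
  rw [← Ideal.ramificationIdx'_eq_ramificationIdx v.asIdeal w.asIdeal v.ne_bot]
  exact exp_neg_one_pow_eq h3

/-- The prime of `F` below `g⁻¹ • A` is the prime below `A`, for `g ∈ U`. -/
lemma primeBelow_bot_inv_smul (g : GQ) (hg : g ∈ ℓ.bot.U)
    (A : ValuationSubring (AlgebraicClosure ℚ)) :
    Fermat.Agent.KFin.primeBelow ℓ.bot.field (g⁻¹ • A) =
      Fermat.Agent.KFin.primeBelow ℓ.bot.field A := by
  ext x
  rw [Fermat.Agent.KFin.mem_primeBelow_iff, Fermat.Agent.KFin.mem_primeBelow_iff]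
  have hx : g (((x : ℓ.bot.field) : AlgebraicClosure ℚ)) =
      ((x : ℓ.bot.field) : AlgebraicClosure ℚ) :=
    (ℓ.bot.mem_field_iff _).1 (x : ℓ.bot.field).2 g hg
  constructor
  · intro h1
    have := Fermat.Agent.KFin.kf_smul_mem_nonunits (g⁻¹ • A) g h1
    rwa [smul_inv_smul, hx] at this
  · intro h1
    have := Fermat.Agent.KFin.kf_smul_mem_nonunits A g⁻¹ h1
    have e : g⁻¹ (((x : ℓ.bot.field) : AlgebraicClosure ℚ)) =
        ((x : ℓ.bot.field) : AlgebraicClosure ℚ) := by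
      conv_lhs => rw [← hx]
      exact g.symm_apply_apply _
    rwa [e] at this

/-- **U3**: if the ideal of `a ∈ Fˣ` is a norm from `M` outside `S`, the order of `a` at a
non-split prime outside `S` is divisible by `p`. -/
theorem valuation_eq_exp_of_not_split [Fact p.Prime] (a : (ℓ.bot.field)ˣ) {t : QSx S}
    (ht : t ∈ ℓ.top.TU) (hat : ℓ.bot.toQS a + cnorm (QSx S) p ℓ.σ t ∈ sUnitsAdd S)
    (v : HeightOneSpectrum (𝓞 ℓ.bot.field)) (hv : v ∉ ℓ.bot.T)
    (hns : ¬ Fermat.Agent.S14SI.SplitsCompletely ℓ.bot.field ℓ.top.field v) :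
    ∃ n : ℤ, v.valuation ℓ.bot.field (a : ℓ.bot.field) = WithZero.exp ((p : ℤ) * n) := by
  obtain ⟨q, hq, A, hA, rfl⟩ := ℓ.bot.exists_primeBelowAt v hv
  obtain ⟨d, hd⟩ := ℓ.top.exists_isDivS t ht
  have h1 := ℓ.hasOrdAt_cnorm hd q hq A hA
  have h2 := ℓ.bot.capit_isDivS_toQS a q hq A hA (ℓ.bot.primeBelowAt q A hA) rfl
  have h3 := ℓ.bot.isDivS_of_mem_sUnitsAdd hat q hq A hA (ℓ.bot.primeBelowAt q A hA) rfl
  have h4 := HasOrdAt.mul q.2 h2 h1
  rw [← Units.val_mul, ← smUnits.val_add] at h4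
  have h5 := hasOrdAt_unique q.2 hA (smUnits.val _).ne_zero h4 h3
  -- the unique prime above `v`
  have hfib : (Fermat.Agent.S14TH.fiber ℓ.bot.field ℓ.top.field
      (ℓ.bot.primeBelowAt q A hA)).ncard = 1 := by
    rcases Fermat.Agent.S14TH.ncard_fiber_eq (F := ℓ.bot.field) (M := ℓ.top.field)
      (Fact.out : p.Prime) ℓ.finrank_eq (ℓ.bot.primeBelowAt q A hA) with h | h
    · exact absurd h.1 hns
    · exact h.2
  obtain ⟨w₀, hw₀⟩ := Set.ncard_eq_one.mp hfib
  have hwi : ∀ i : ℕ, ℓ.top.primeBelowAt q ((ℓ.σ ^ i)⁻¹ • A) (liesOverPrime_smul A _ q hA) =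
      w₀ := by
    intro i
    have hmem : ℓ.top.primeBelowAt q ((ℓ.σ ^ i)⁻¹ • A) (liesOverPrime_smul A _ q hA) ∈
        Fermat.Agent.S14TH.fiber ℓ.bot.field ℓ.top.field (ℓ.bot.primeBelowAt q A hA) := by
      show (Fermat.Agent.KFin.primeBelow ℓ.top.field ((ℓ.σ ^ i)⁻¹ • A)).comap
        (algebraMap (𝓞 ℓ.bot.field) (𝓞 ℓ.top.field)) =
          Fermat.Agent.KFin.primeBelow ℓ.bot.field A
      rw [ℓ.comap_primeBelow]
      exact ℓ.primeBelow_bot_inv_smul _ (ℓ.bot.U.pow_mem ℓ.cyc.mem i) A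
    rw [hw₀] at hmem
    exact hmem
  have hsum : (∑ i ∈ Finset.range p,
      d (ℓ.top.primeBelowAt q ((ℓ.σ ^ i)⁻¹ • A) (liesOverPrime_smul A _ q hA))) =
      (p : ℤ) * d w₀ := by
    rw [Finset.sum_congr rfl (fun i _ => by rw [hwi i]), Finset.sum_const, Finset.card_range,
      nsmul_eq_mul]
  rw [hsum] at h5
  refine ⟨d w₀, ?_⟩
  have ha0 : (ℓ.bot.primeBelowAt q A hA).valuation ℓ.bot.field (a : ℓ.bot.field) ≠ 0 :=
    (Valuation.ne_zero_iff _).mpr a.ne_zero
  have h6 : WithZero.log ((ℓ.bot.primeBelowAt q A hA).valuation ℓ.bot.field (a : ℓ.bot.field)) =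
      (p : ℤ) * d w₀ := by
    have h7 : -(WithZero.log ((ℓ.bot.primeBelowAt q A hA).valuation ℓ.bot.field
      (a : ℓ.bot.field))) + (p : ℤ) * d w₀ = 0 := h5
    linarith
  rw [← h6, WithZero.exp_log ha0]

/-- **K3iv** in the form used here: an element of `Fˣ` which is a norm from `J^V` is a local norm
to every precision at the primes over `S`. -/
def LocNormAt (ℓ : LayerS p S) : Prop :=
  ∀ x ∈ ℓ.top.JU, ∀ f : (ℓ.bot.field)ˣ, diagJ S (ℓ.bot.toQS f) = cnorm (Jrep S) p ℓ.σ x →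
    ∀ v ∈ ℓ.bot.T, ∀ k : ℕ, f ∈ Fermat.Agent.F4G.localNormGroup ℓ.bot.field ℓ.top.field v k

/-- **The Hasse norm theorem** for the layer `ℓ` of `ℚ_S` (piece D' of `dict_hasse`). -/
theorem hasseNormAt_of [Fact p.Prime] (hp2 : p ≠ 2) (hS : S.Nonempty) (hloc : ℓ.LocNormAt) :
    (kfS S hS).HasseNormAt p ℓ.bot.U ℓ.top.U ℓ.σ := by
  intro (f : QSx S) hf hx ht
  obtain ⟨x, hx, hNx⟩ := hx
  obtain ⟨t, ht, hft⟩ := ht
  have hx' : x ∈ ℓ.top.JU := hx
  have ht' : t ∈ ℓ.top.TU := ht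
  have hNx' : cnorm (Jrep S) p ℓ.σ x = diagJ S f := hNx
  have hft' : f + cnorm (QSx S) p ℓ.σ t ∈ sUnitsAdd S := hft
  have hf' : ∀ g ∈ ℓ.bot.U, (QSx S).ρ g f = f := hf
  obtain ⟨a, rfl⟩ := ℓ.bot.exists_toQS_of_fixed f hf'
  have hnorm : a ∈ (Fermat.Agent.S14SI.normUnits ℓ.bot.field ℓ.top.field).range :=
    Fermat.Agent.F4G.hasseNormFull (Fact.out : p.Prime) hp2 ℓ.finrank_eq ℓ.bot.T
      (fun w hw => ℓ.ramificationIdx_eq_one w hw) a
      (fun v hv k => hloc x hx' a hNx'.symm v hv k)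
      (fun v hv hns => ℓ.valuation_eq_exp_of_not_split a ht' hft' v hv hns)
  obtain ⟨b, hb⟩ := hnorm
  refine ⟨ℓ.top.toQS b, fun g hg => ℓ.top.toQS_fixed b g hg, ?_⟩
  show cnorm (QSx S) p ℓ.σ (ℓ.top.toQS b) = ℓ.bot.toQS a
  rw [← ℓ.toQS_norm, ← hb]
  rfl

end LayerS

end Fermat.Agent.F4
end MergeWrap_F4_Dict_HasseNorm

section MergeWrap_F4_Dict_CycH90 -- from F4/Dict/CycH90.lean

/-!
# F4 / Dict / CycH90 : from `H¹(U, A) = 0` to `Ĥ⁻¹(U/V, A^V) = 0` for a cyclic layer (helper56)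

`A` a `ℤ[G]`-module, `(U, V, σ)` a cyclic layer of degree `p`, `V` open.  If every smooth
1-cocycle of `U` in `A` is a coboundary (`UC.H90sm`), then every `x ∈ A^V` with
`N x = Σ_{i<p} σ^i x = 0` is `σ z - z` with `z ∈ A^V` (`cyc_h90_of_H90sm`).

Proof: the cocycle `u ↦ Σ_{j < i(u)} σ^j x`, where `u ∈ σ^{i(u)} V`.
-/

set_option autoImplicit false

open CategoryTheory groupCohomology

namespace Fermat.Agent.F4

open Fermat.Agent.F4Cf

section

variable {G : Type} [Group G] (A : Rep.{0} ℤ G)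

/-- `P_{m + n} = P_m + σ^m P_n` for the partial norms `P_n = Σ_{j<n} σ^j x`. -/
lemma cnorm_add_index (m n : ℕ) (σ : G) (x : A) :
    cnorm A (m + n) σ x = cnorm A m σ x + A.ρ (σ ^ m) (cnorm A n σ x) := by
  unfold cnorm
  rw [Finset.sum_range_add, map_sum]
  congr 1
  refine Finset.sum_congr rfl fun j _ => ?_
  rw [← kf_ρ_mul, ← pow_add]

variable {A} {p : ℕ} {U V : Subgroup G} {σ : G}

/-- `σ^j` normalises `V`: `v σ^j = σ^j v'`. -/
lemma isCyc_fix_pow (hc : IsCyc p U V σ) {x : A} (hx : Fix A V x) (j : ℕ) :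
    Fix A V (A.ρ (σ ^ j) x) := by
  intro v hv
  have hmem : (σ ^ j)⁻¹ * v * ((σ ^ j)⁻¹)⁻¹ ∈ V :=
    hc.normal _ (U.inv_mem (U.pow_mem hc.mem j)) v hv
  have e : v * σ ^ j = σ ^ j * ((σ ^ j)⁻¹ * v * ((σ ^ j)⁻¹)⁻¹) := by group
  rw [← kf_ρ_mul, e, kf_ρ_mul, hx _ hmem]

/-- The partial norms of a `V`-fixed element are `V`-fixed. -/
lemma isCyc_fix_cnorm (hc : IsCyc p U V σ) {x : A} (hx : Fix A V x) (n : ℕ) :
    Fix A V (cnorm A n σ x) := by
  intro v hv
  unfold cnorm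
  rw [map_sum]
  exact Finset.sum_congr rfl fun j _ => isCyc_fix_pow hc hx j v hv

/-- `P_{n + p k} = P_n` if `N x = 0`. -/
lemma cnorm_add_mul (hc : IsCyc p U V σ) {x : A} (hx : Fix A V x) (hN : cnorm A p σ x = 0)
    (n k : ℕ) : cnorm A (n + p * k) σ x = cnorm A n σ x := by
  induction k with
  | zero => rw [Nat.mul_zero, Nat.add_zero]
  | succ k ih =>
    have e : n + p * (k + 1) = p + (n + p * k) := by ring
    rw [e, cnorm_add_index, hN, zero_add, ih]
    exact isCyc_fix_cnorm hc hx n _ hc.pow_mem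

lemma cnorm_mod (hc : IsCyc p U V σ) {x : A} (hx : Fix A V x) (hN : cnorm A p σ x = 0)
    (n : ℕ) : cnorm A (n % p) σ x = cnorm A n σ x := by
  have h := cnorm_add_mul hc hx hN (n % p) (n / p)
  rw [Nat.mod_add_div] at h
  exact h.symm

/-- Uniqueness of the exponent of a coset. -/
lemma isCyc_index_unique (hp : p.Prime) (hc : IsCyc p U V σ) {u : G} {i j : ℕ} (hi : i < p)
    (hj : j < p) (hiu : (σ ^ i)⁻¹ * u ∈ V) (hju : (σ ^ j)⁻¹ * u ∈ V) : i = j := by
  have key : ∀ a b : ℕ, a < b → b < p → (σ ^ a)⁻¹ * u ∈ V → (σ ^ b)⁻¹ * u ∈ V → False := by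
    intro a b hab hb ha hb'
    have hpos : σ ^ (b - a) ∉ V := isCyc_pow_not_mem hp hc (b - a) (by omega) (by omega)
    apply hpos
    have e : σ ^ (b - a) = ((σ ^ a)⁻¹ * u) * ((σ ^ b)⁻¹ * u)⁻¹ := by
      have hba : σ ^ b = σ ^ a * σ ^ (b - a) := by rw [← pow_add]; congr 1; omega
      rw [hba]
      group
    rw [e]
    exact V.mul_mem ha (V.inv_mem hb')
  by_contra hne
  rcases Nat.lt_or_gt_of_ne hne with h | h
  · exact key i j h hj hiu hju
  · exact key j i h hi hju hiu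

/-- `u = σ^i v` acts on `A^V` like `σ^i`. -/
lemma isCyc_ρ_eq {u : G} {i : ℕ} (hiu : (σ ^ i)⁻¹ * u ∈ V) {y : A} (hy : Fix A V y) :
    A.ρ u y = A.ρ (σ ^ i) y := by
  have e : u = σ ^ i * ((σ ^ i)⁻¹ * u) := by group
  rw [e, kf_ρ_mul, hy _ hiu]

/-- **`Ĥ⁻¹(U/V, A^V) = 0` from `H¹(U, A) = 0`.** -/
theorem cyc_h90_of_H90sm [Fact p.Prime] (𝓤 : Levels G) (hc : IsCyc p U V σ) (hV : 𝓤.IsOpen V)
    (h90 : UC.H90sm (𝓤.sub U) (Rep.res U.subtype A)) (x : A) (hx : Fix A V x)
    (hN : cnorm A p σ x = 0) : ∃ z : A, Fix A V z ∧ x = A.ρ σ z - z := by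
  classical
  have hp : p.Prime := Fact.out
  have hidx : ∀ u : ↥U, ∃ i : ℕ, i < p ∧ (σ ^ i)⁻¹ * (u : G) ∈ V := fun u => hc.gen u.1 u.2
  choose idx hidx_lt hidx_mem using hidx
  let c : ↥U → A := fun u => cnorm A (idx u) σ x
  -- a general exponent
  have hgen : ∀ (u : ↥U) (n : ℕ), (σ ^ n)⁻¹ * (u : G) ∈ V → c u = cnorm A n σ x := by
    intro u n hn
    have hmod : (σ ^ (n % p))⁻¹ * (u : G) ∈ V := by
      have e : σ ^ n = σ ^ (n % p) * (σ ^ p) ^ (n / p) := by
        rw [← pow_mul, ← pow_add, Nat.mod_add_div]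
      have e2 : (σ ^ (n % p))⁻¹ * (u : G) = (σ ^ p) ^ (n / p) * ((σ ^ n)⁻¹ * (u : G)) := by
        rw [e]; group
      rw [e2]
      exact V.mul_mem (V.pow_mem hc.pow_mem _) hn
    have := isCyc_index_unique hp hc (hidx_lt u) (Nat.mod_lt n hp.pos) (hidx_mem u) hmod
    show cnorm A (idx u) σ x = cnorm A n σ x
    rw [this, cnorm_mod hc hx hN]
  have hcoc : δ1 (Rep.res U.subtype A) c = 0 := by
    funext q
    rw [δ1_apply]
    show A.ρ (q.1 : G) (c q.2) - c (q.1 * q.2) + c q.1 = 0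
    have h1 : A.ρ (q.1 : G) (c q.2) = A.ρ (σ ^ idx q.1) (c q.2) :=
      isCyc_ρ_eq (hidx_mem q.1) (isCyc_fix_cnorm hc hx _)
    have h2 : c (q.1 * q.2) = cnorm A (idx q.1 + idx q.2) σ x := by
      apply hgen
      -- `(σ^(i+j))⁻¹ u u' = (σ^j)⁻¹ ((σ^i)⁻¹ u) σ^j · (σ^j)⁻¹ u'`
      have hconj : (σ ^ idx q.2)⁻¹ * ((σ ^ idx q.1)⁻¹ * (q.1 : G)) * ((σ ^ idx q.2)⁻¹)⁻¹ ∈ V :=
        hc.normal _ (U.inv_mem (U.pow_mem hc.mem _)) _ (hidx_mem q.1)
      have e : (σ ^ (idx q.1 + idx q.2))⁻¹ * ((q.1 * q.2 : ↥U) : G) =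
          ((σ ^ idx q.2)⁻¹ * ((σ ^ idx q.1)⁻¹ * (q.1 : G)) * ((σ ^ idx q.2)⁻¹)⁻¹) *
            ((σ ^ idx q.2)⁻¹ * (q.2 : G)) := by
        rw [pow_add]
        show (σ ^ idx q.1 * σ ^ idx q.2)⁻¹ * ((q.1 : G) * (q.2 : G)) = _
        group
      rw [e]
      exact V.mul_mem hconj (hidx_mem q.2)
    rw [h1, h2, cnorm_add_index]
    show A.ρ (σ ^ idx q.1) (cnorm A (idx q.2) σ x) -
      (cnorm A (idx q.1) σ x + A.ρ (σ ^ idx q.1) (cnorm A (idx q.2) σ x)) +
        cnorm A (idx q.1) σ x = 0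
    abel
  obtain ⟨W, hW, hWV⟩ := hV
  have hLC : IsLC₁ (𝓤.sub U) c := by
    refine ⟨W.comap U.subtype, ⟨W, hW, rfl⟩, fun g s hs => ?_⟩
    apply hgen
    have e : (σ ^ idx g)⁻¹ * ((g * s : ↥U) : G) = ((σ ^ idx g)⁻¹ * (g : G)) * (s : G) := by
      show (σ ^ idx g)⁻¹ * ((g : G) * (s : G)) = _
      group
    rw [e]
    exact V.mul_mem (hidx_mem g) (hWV hs)
  have hZ : c ∈ Z1 (𝓤.sub U) (Rep.res U.subtype A) :=
    (UC.mem_Z1 (𝓤.sub U) (Rep.res U.subtype A) c).2 ⟨hcoc, hLC⟩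
  obtain ⟨z, hz⟩ := (UC.mem_B1 (Rep.res U.subtype A) c).1 (h90 c hZ)
  have hz' : ∀ u : ↥U, A.ρ (u : G) z - z = c u := fun u => congrFun hz u
  refine ⟨z, fun v hv => ?_, ?_⟩
  · have h1 := hz' ⟨v, hc.le hv⟩
    have h2 : c ⟨v, hc.le hv⟩ = cnorm A 0 σ x := by
      apply hgen
      rw [pow_zero, inv_one, one_mul]
      exact hv
    rw [h2] at h1
    have h3 : cnorm A 0 σ x = 0 := by
      unfold cnorm
      rw [Finset.range_zero, Finset.sum_empty]
    rw [h3] at h1
    exact sub_eq_zero.mp h1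
  · have h1 := hz' ⟨σ, hc.mem⟩
    have h2 : c ⟨σ, hc.mem⟩ = cnorm A 1 σ x := by
      apply hgen
      rw [pow_one, inv_mul_cancel]
      exact V.one_mem
    rw [h2] at h1
    have h3 : cnorm A 1 σ x = x := by
      unfold cnorm
      rw [Finset.sum_range_one, pow_zero, map_one]
      rfl
    rw [h3] at h1
    exact h1.symm

end

end Fermat.Agent.F4
end MergeWrap_F4_Dict_CycH90

section MergeWrap_F4_Dict_JH90Cyc -- from F4/Dict/JH90Cyc.lean

/-!
# F4 / Dict / JH90Cyc : semi-local Hilbert 90 for a cyclic layer (seat K3v, helper89)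

`(U, V, σ)` a cyclic layer of degree `p` of `G_S`, `V` open.  Every `x ∈ J^V` with
`N x = Σ_{i<p} σ^i x = 0` is `σ z - z` with `z ∈ J^V` (`h90_Jrep_cyc`): `h90_Jrep`
(`F4/Dict/JH90.lean`) and `cyc_h90_of_H90sm` (`F4/Dict/CycH90.lean`, helper56).
The same for the local modules `L_q` (`h90_LqS_cyc`).
-/

set_option autoImplicit false

open CategoryTheory groupCohomology ExtCitation

namespace Fermat.Agent.F4

open Fermat.Agent.F4Cf

variable {p : ℕ} [Fact p.Prime] (S : Finset Nat.Primes)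

/-- **Semi-local Hilbert 90 for a cyclic layer**: `Ĥ⁻¹(U/V, J^V) = 0`. -/
theorem h90_Jrep_cyc {U V : Subgroup GQ} {σ : GQ} (hc : IsCyc p U V σ)
    (hV : (levelsS S).IsOpen V) (x : Jrep S) (hx : Fix (Jrep S) V x)
    (hN : cnorm (Jrep S) p σ x = 0) :
    ∃ z : Jrep S, Fix (Jrep S) V z ∧ x = (Jrep S).ρ σ z - z := by
  have hU : (levelsS S).IsOpen U := by
    obtain ⟨W, hW, hWV⟩ := hV
    exact ⟨W, hW, hWV.trans hc.le⟩
  exact cyc_h90_of_H90sm (levelsS S) hc hV (h90_Jrep S U hU) x hx hN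

/-- **Local Hilbert 90 for a cyclic layer** of the local group at `q`. -/
theorem h90_LqS_cyc (q : Nat.Primes) {U V : Subgroup (primeLocalGaloisGroup q)}
    {σ : primeLocalGaloisGroup q} (hc : IsCyc p U V σ) (hV : (locLevelsS S q).IsOpen V)
    (x : LqS S q) (hx : Fix (LqS S q) V x) (hN : cnorm (LqS S q) p σ x = 0) :
    ∃ z : LqS S q, Fix (LqS S q) V z ∧ x = (LqS S q).ρ σ z - z := by
  have hU : (locLevelsS S q).IsOpen U := by
    obtain ⟨W, hW, hWV⟩ := hV
    exact ⟨W, hW, hWV.trans hc.le⟩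
  exact cyc_h90_of_H90sm (locLevelsS S q) hc hV (h90_LqS S q U hU) x hx hN

end Fermat.Agent.F4
end MergeWrap_F4_Dict_JH90Cyc

section MergeWrap_F4_Dict_IdealH -- from F4/Dict/IdealH.lean

set_option autoImplicit false

namespace Fermat.Agent.F4

namespace IdealH

variable {X : Type*} (τ : Equiv.Perm X) {p : ℕ}

/-- The orbit relation of `τ` (with natural exponents; `τ` has finite order). -/
def orbSetoid (hpos : 0 < p) (hτ : τ ^ p = 1) : Setoid X where
  r x y := ∃ k : ℕ, (τ ^ k) x = y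
  iseqv :=
    { refl := fun x => ⟨0, by simp⟩
      symm := by
        rintro x y ⟨k, rfl⟩
        refine ⟨(p - 1) * k, ?_⟩
        rw [← Equiv.Perm.mul_apply, ← pow_add]
        have : (p - 1) * k + k = p * k := by
          have : p - 1 + 1 = p := Nat.sub_add_cancel hpos
          calc (p - 1) * k + k = (p - 1 + 1) * k := by ring
            _ = p * k := by rw [this]
        rw [this, pow_mul, hτ, one_pow]
        rfl
      trans := by
        rintro x y z ⟨k, rfl⟩ ⟨l, rfl⟩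
        exact ⟨l + k, by rw [pow_add, Equiv.Perm.mul_apply]⟩ }

end IdealH

open IdealH in
theorem exists_sub_of_norm_zero {X : Type*} (τ : Equiv.Perm X) {p : ℕ} (hp : p.Prime)
    (hτ : τ ^ p = 1)
    (d : X → ℤ) (hfin : (Function.support d).Finite)
    (hN : ∀ x, ∑ i ∈ Finset.range p, d ((τ ^ i) x) = 0)
    (P : X → Prop) (hP : ∀ x, P x → P (τ x)) (hdP : ∀ x, d x ≠ 0 → P x) :
    ∃ d' : X → ℤ, (Function.support d').Finite ∧ (∀ x, d' x ≠ 0 → P x) ∧
      ∀ x, d x = d' (τ⁻¹ x) - d' x := by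
  classical
  have hpos : 0 < p := hp.pos
  let s : Setoid X := orbSetoid τ hpos hτ
  -- representative of the orbit
  let r : X → X := fun x => (Quotient.mk s x).out
  have hr : ∀ x, ∃ k : ℕ, k < p ∧ (τ ^ k) (r x) = x := by
    intro x
    have h1 : s.r (r x) x := Quotient.mk_out (s := s) x
    obtain ⟨k, hk⟩ := h1
    refine ⟨k % p, Nat.mod_lt _ hpos, ?_⟩
    have h2 : τ ^ k = τ ^ (k % p) := by
      conv_lhs => rw [← Nat.div_add_mod k p, pow_add, pow_mul, hτ, one_pow, one_mul]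
    rw [← h2]; exact hk
  have hrτ : ∀ x, r (τ⁻¹ x) = r x := by
    intro x
    have : Quotient.mk s (τ⁻¹ x) = Quotient.mk s x := by
      apply Quotient.sound
      exact ⟨1, by simp⟩
    show (Quotient.mk s (τ⁻¹ x)).out = (Quotient.mk s x).out
    rw [this]
  -- least exponent
  let κ : X → ℕ := fun x => Nat.find (hr x)
  have hκlt : ∀ x, κ x < p := fun x => (Nat.find_spec (hr x)).1
  have hκ : ∀ x, (τ ^ κ x) (r x) = x := fun x => (Nat.find_spec (hr x)).2
  have hκmin : ∀ x (k : ℕ), k < p → (τ ^ k) (r x) = x → κ x ≤ k :=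
    fun x k hk hkx => Nat.find_min' (hr x) ⟨hk, hkx⟩
  -- powers of `τ` preserve `P`
  have hPpow : ∀ (k : ℕ) x, P x → P ((τ ^ k) x) := by
    intro k
    induction k with
    | zero => intro x hx; simpa using hx
    | succ k ih =>
      intro x hx
      rw [pow_succ', Equiv.Perm.mul_apply]
      exact hP _ (ih x hx)
  -- fixed points carry no mass
  have hfix : ∀ x, τ x = x → d x = 0 := by
    intro x hx
    have h1 : ∀ i : ℕ, (τ ^ i) x = x := by
      intro i
      induction i with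
      | zero => simp
      | succ i ih => rw [pow_succ, Equiv.Perm.mul_apply, hx, ih]
    have h2 := hN x
    simp only [h1, Finset.sum_const, Finset.card_range, nsmul_eq_mul] at h2
    rcases mul_eq_zero.mp h2 with h | h
    · exact absurd (by exact_mod_cast h) hpos.ne'
    · exact h
  let d' : X → ℤ := fun x => - ∑ i ∈ Finset.range (κ x), d ((τ ^ (i + 1)) (r x))
  refine ⟨d', ?_, ?_, ?_⟩
  · -- finite support
    have hsub : Function.support d' ⊆
        ⋃ i ∈ Finset.range p, (fun y => (τ ^ i) y) '' (Function.support d) := by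
      intro x hx
      have hx' : d' x ≠ 0 := hx
      have h1 : ∑ i ∈ Finset.range (κ x), d ((τ ^ (i + 1)) (r x)) ≠ 0 := by
        intro h; apply hx'; show - _ = (0 : ℤ); rw [h, neg_zero]
      obtain ⟨i, hi, hne⟩ := Finset.exists_ne_zero_of_sum_ne_zero h1
      rw [Finset.mem_range] at hi
      simp only [Set.mem_iUnion, Set.mem_image, Finset.mem_range]
      refine ⟨κ x - (i + 1), by have := hκlt x; omega, (τ ^ (i + 1)) (r x), hne, ?_⟩
      rw [← Equiv.Perm.mul_apply, ← pow_add]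
      have : κ x - (i + 1) + (i + 1) = κ x := by omega
      rw [this]; exact hκ x
    refine Set.Finite.subset ?_ hsub
    exact Set.Finite.biUnion (Finset.finite_toSet _) fun i _ => hfin.image _
  · -- support inside `P`
    intro x hx
    have h1 : ∑ i ∈ Finset.range (κ x), d ((τ ^ (i + 1)) (r x)) ≠ 0 := by
      intro h; apply hx; show - _ = (0 : ℤ); rw [h, neg_zero]
    obtain ⟨i, hi, hne⟩ := Finset.exists_ne_zero_of_sum_ne_zero h1
    rw [Finset.mem_range] at hi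
    have h2 : P ((τ ^ (i + 1)) (r x)) := hdP _ hne
    have h3 := hPpow (κ x - (i + 1)) _ h2
    rw [← Equiv.Perm.mul_apply, ← pow_add] at h3
    have : κ x - (i + 1) + (i + 1) = κ x := by omega
    rw [this, hκ x] at h3
    exact h3
  · -- the coboundary relation
    intro x
    show d x = - ∑ i ∈ Finset.range (κ (τ⁻¹ x)), d ((τ ^ (i + 1)) (r (τ⁻¹ x)))
      - - ∑ i ∈ Finset.range (κ x), d ((τ ^ (i + 1)) (r x))
    rw [hrτ x]
    set x₀ := r x with hx₀
    have hy : (τ ^ κ (τ⁻¹ x)) x₀ = τ⁻¹ x := by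
      have := hκ (τ⁻¹ x)
      rw [hrτ x] at this
      exact this
    have hymin : ∀ k : ℕ, k < p → (τ ^ k) x₀ = τ⁻¹ x → κ (τ⁻¹ x) ≤ k := by
      intro k hk hkx
      have := hκmin (τ⁻¹ x) k hk (by rw [hrτ x]; exact hkx)
      exact this
    rcases Nat.eq_zero_or_pos (κ x) with h0 | hk
    · -- `x = x₀`
      have hxx : x₀ = x := by
        have := hκ x
        rw [h0, pow_zero] at this
        exact this
      rw [h0, Finset.sum_range_zero, neg_zero, sub_zero]
      by_cases hfx : τ x = x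
      · -- fixed point
        have hd0 : d x = 0 := hfix x hfx
        have hinv : τ⁻¹ x = x := by
          rw [Equiv.Perm.inv_eq_iff_eq]; exact hfx.symm
        have hk0 : κ (τ⁻¹ x) = 0 := by
          have := hymin 0 hpos (by rw [pow_zero, hinv]; exact hxx)
          omega
        rw [hk0, Finset.sum_range_zero, neg_zero, hd0]
      · -- free orbit: the least exponent of `τ⁻¹ x` is `p - 1`
        have hm : κ (τ⁻¹ x) = p - 1 := by
          set m := κ (τ⁻¹ x) with hmdef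
          have hmlt : m < p := hκlt _
          by_contra hne
          have hm1 : m + 1 < p := by omega
          -- `τ ^ (m+1)` fixes `x`
          have h1 : (τ ^ (m + 1)) x = x := by
            rw [pow_succ', Equiv.Perm.mul_apply, ← hxx, hy, hxx]
            simp
          have hcop : Nat.Coprime (m + 1) p :=
            Nat.Coprime.symm ((Nat.Prime.coprime_iff_not_dvd hp).mpr
              (Nat.not_dvd_of_pos_of_lt (by omega) hm1))
          obtain ⟨a, -, ha⟩ := Nat.exists_mul_mod_eq_one_of_coprime hcop hp.one_lt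
          have h2 : ∀ j : ℕ, (τ ^ ((m + 1) * j)) x = x := by
            intro j
            induction j with
            | zero => simp
            | succ j ih =>
              rw [Nat.mul_succ, pow_add, Equiv.Perm.mul_apply, h1, ih]
          have h3 : τ ^ ((m + 1) * a) = τ := by
            conv_lhs => rw [← Nat.div_add_mod ((m + 1) * a) p, ha, pow_add, pow_mul, hτ, one_pow,
              one_mul, pow_one]
          have h4 := h2 a
          rw [h3] at h4
          exact hfx h4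
        rw [hm]
        have h5 := hN x₀
        have hp1 : p = (p - 1) + 1 := by omega
        rw [hp1, Finset.sum_range_succ'] at h5
        simp only [pow_zero, Equiv.Perm.coe_one, id_eq] at h5
        rw [hxx] at h5 ⊢
        linarith
    · -- `κ x ≥ 1`
      have hk1 : κ (τ⁻¹ x) = κ x - 1 := by
        apply le_antisymm
        · apply hymin _ (by have := hκlt x; omega)
          have h1 := hκ x
          have h2 : κ x = (κ x - 1) + 1 := by omega
          rw [h2, pow_succ', Equiv.Perm.mul_apply] at h1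
          rw [Equiv.Perm.eq_inv_iff_eq]
          exact h1
        · by_contra hlt
          push Not at hlt
          have h1 : κ x ≤ κ (τ⁻¹ x) + 1 := by
            apply hκmin x _ (by have := hκlt x; omega)
            rw [pow_succ', Equiv.Perm.mul_apply, hy]
            simp
          omega
      obtain ⟨m, hm⟩ : ∃ m, κ x = m + 1 := ⟨κ x - 1, by omega⟩
      have h3 : (τ ^ (m + 1)) x₀ = x := by rw [← hm]; exact hκ x
      rw [hk1, hm, Nat.add_sub_cancel, Finset.sum_range_succ, h3]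
      ring

/-- The opposite convention: `d x = d' (τ x) - d' x`. -/
theorem exists_sub_of_norm_zero' {X : Type*} (τ : Equiv.Perm X) {p : ℕ} (hp : p.Prime)
    (hτ : τ ^ p = 1)
    (d : X → ℤ) (hfin : (Function.support d).Finite)
    (hN : ∀ x, ∑ i ∈ Finset.range p, d ((τ ^ i) x) = 0)
    (P : X → Prop) (hP : ∀ x, P x → P (τ x)) (hdP : ∀ x, d x ≠ 0 → P x) :
    ∃ d' : X → ℤ, (Function.support d').Finite ∧ (∀ x, d' x ≠ 0 → P x) ∧
      ∀ x, d x = d' (τ x) - d' x := by
  have hpos : 0 < p := hp.pos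
  have hτ' : τ⁻¹ ^ p = 1 := by rw [inv_pow, hτ, inv_one]
  have hinv : τ⁻¹ = τ ^ (p - 1) := by
    rw [inv_eq_iff_mul_eq_one, ← pow_succ', Nat.sub_add_cancel hpos, hτ]
  have hPpow : ∀ (k : ℕ) x, P x → P ((τ ^ k) x) := by
    intro k
    induction k with
    | zero => intro x hx; simpa using hx
    | succ k ih =>
      intro x hx
      rw [pow_succ', Equiv.Perm.mul_apply]
      exact hP _ (ih x hx)
  have hP' : ∀ x, P x → P (τ⁻¹ x) := by
    intro x hx
    rw [hinv]
    exact hPpow _ x hx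
  have hN' : ∀ x, ∑ i ∈ Finset.range p, d ((τ⁻¹ ^ i) x) = 0 := by
    intro x
    have h1 := hN ((τ⁻¹ ^ (p - 1)) x)
    rw [← Finset.sum_range_reflect] at h1
    rw [← h1]
    refine Finset.sum_congr rfl fun i hi => ?_
    rw [Finset.mem_range] at hi
    congr 1
    rw [← Equiv.Perm.mul_apply]
    congr 1
    obtain ⟨j, hj⟩ : ∃ j, p - 1 = j + i := ⟨p - 1 - i, by omega⟩
    have hj' : p - 1 - i = j := by omega
    rw [hj', hj, pow_add, ← mul_assoc, inv_pow τ j, mul_inv_cancel, one_mul]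
  obtain ⟨d', h1, h2, h3⟩ := exists_sub_of_norm_zero τ⁻¹ hp hτ' d hfin hN' P hP' hdP
  refine ⟨d', h1, h2, fun x => ?_⟩
  have := h3 x
  rwa [inv_inv] at this

end Fermat.Agent.F4
end MergeWrap_F4_Dict_IdealH

section MergeWrap_F4_Dict_IdealH90 -- from F4/Dict/IdealH90.lean

/-!
# F4 / Dict / IdealH90 : `Ĥ⁻¹` of the invariant ideals vanishes up to capitulation
(piece C' of `dict_hasse`, owner helper49; statement and plan by helper56)

`ℓ : LayerS p S` a cyclic layer `V ⊴ U`, `M = ℓ.top.field`, `τ = σ⁻¹` acting on the primes of `M`.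
For `t ∈ T_V` with `N t ∈ E`: the divisor `d` of `t` has norm `0`, hence `d = d' ∘ τ - d'`
(`IdealH.exists_sub_of_norm_zero'`), `m • d'` is the divisor of some `s ∈ T_V`
(capitulation), and `m • t - (σ s - s)` has divisor `0`, so it is an `S`-unit.

* `LayerS.primePerm`                : `τ` as a permutation of the primes of `M`;
* `LayerS.idealH90At_of`            : the statement, from the three inputs R1, R2, R3 of
                                      `F4/Dict/DivFin.lean` (helper32) as hypotheses.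
-/

set_option autoImplicit false
set_option synthInstance.maxHeartbeats 400000
set_option linter.style.haveILetI false

open CategoryTheory groupCohomology ExtCitation
open NumberField IsDedekindDomain

namespace Fermat.Agent.F4

open Fermat.Agent.F4Cf

namespace OpenS

variable {S : Finset Nat.Primes} (L : OpenS S)

/-- `primeComap (g * h) = primeComap h ∘ primeComap g`. -/
lemma primeComap_mul (g h : GQ) (hg : g ∈ Subgroup.normalizer (L.U : Set GQ))
    (hh : h ∈ Subgroup.normalizer (L.U : Set GQ))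
    (hgh : g * h ∈ Subgroup.normalizer (L.U : Set GQ)) (v : HeightOneSpectrum (𝓞 L.field)) :
    L.primeComap (g * h) hgh v = L.primeComap h hh (L.primeComap g hg v) := by
  ext x
  rw [mem_primeComap, mem_primeComap, mem_primeComap]
  have e : L.conjHom (g * h) hgh x = L.conjHom g hg (L.conjHom h hh x) := by
    apply NumberField.RingOfIntegers.ext
    apply Subtype.ext
    rw [coe_conjHom, coe_conjHom, coe_conjHom]
    rfl
  rw [e]

/-- `primeComap g = id` for `g ∈ U`. -/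
lemma primeComap_of_mem (g : GQ) (hg : g ∈ Subgroup.normalizer (L.U : Set GQ)) (hgU : g ∈ L.U)
    (v : HeightOneSpectrum (𝓞 L.field)) : L.primeComap g hg v = v := by
  ext x
  rw [mem_primeComap]
  have e : L.conjHom g hg x = x := by
    apply NumberField.RingOfIntegers.ext
    apply Subtype.ext
    rw [coe_conjHom]
    exact (L.mem_field_iff _).1 ((x : 𝓞 L.field) : L.field).2 g hgU
  rw [e]

/-- `primeComap g` preserves the primes over `S`. -/
lemma primeComap_mem_T_iff (g : GQ) (hg : g ∈ Subgroup.normalizer (L.U : Set GQ))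
    (v : HeightOneSpectrum (𝓞 L.field)) : L.primeComap g hg v ∈ L.T ↔ v ∈ L.T := by
  rw [mem_T, mem_T]
  refine exists_congr fun q => and_congr_right fun _ => ?_
  rw [mem_primeComap, map_natCast]

end OpenS

namespace LayerS

variable {p : ℕ} {S : Finset Nat.Primes} (ℓ : LayerS p S)

/-- `σ` normalises `V`. -/
lemma σ_mem_normalizer : ℓ.σ ∈ Subgroup.normalizer (ℓ.top.U : Set GQ) :=
  ℓ.mem_normalizer ℓ.σ ℓ.cyc.mem

/-- The permutation `w ↦ σ⁻¹ (w)` of the primes of `M`. -/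
noncomputable def primePerm : Equiv.Perm (HeightOneSpectrum (𝓞 ℓ.top.field)) where
  toFun := ℓ.top.primeComap ℓ.σ ℓ.σ_mem_normalizer
  invFun := ℓ.top.primeComap ℓ.σ⁻¹
    ((Subgroup.normalizer (ℓ.top.U : Set GQ)).inv_mem ℓ.σ_mem_normalizer)
  left_inv := ℓ.top.primeComap_inv_primeComap ℓ.σ ℓ.σ_mem_normalizer
  right_inv := ℓ.top.primeComap_primeComap_inv ℓ.σ ℓ.σ_mem_normalizer

lemma primePerm_apply (w : HeightOneSpectrum (𝓞 ℓ.top.field)) :
    ℓ.primePerm w = ℓ.top.primeComap ℓ.σ ℓ.σ_mem_normalizer w := rfl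

/-- (i) `τ ^ i = primeComap (σ ^ i)`. -/
lemma primePerm_pow (i : ℕ) (w : HeightOneSpectrum (𝓞 ℓ.top.field)) :
    (ℓ.primePerm ^ i) w = ℓ.top.primeComap (ℓ.σ ^ i)
      (ℓ.mem_normalizer _ (ℓ.bot.U.pow_mem ℓ.cyc.mem i)) w := by
  induction i with
  | zero =>
    rw [pow_zero, Equiv.Perm.one_apply]
    symm
    have h1 : (ℓ.σ ^ 0 : GQ) ∈ ℓ.top.U := by rw [pow_zero]; exact ℓ.top.U.one_mem
    exact ℓ.top.primeComap_of_mem _ _ h1 w
  | succ i ih =>
    rw [pow_succ', Equiv.Perm.mul_apply, ih, primePerm_apply]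
    have e : ℓ.σ ^ (i + 1) = ℓ.σ ^ i * ℓ.σ := pow_succ ℓ.σ i
    have hn : ℓ.σ ^ i * ℓ.σ ∈ Subgroup.normalizer (ℓ.top.U : Set GQ) := by
      rw [← e]
      exact ℓ.mem_normalizer _ (ℓ.bot.U.pow_mem ℓ.cyc.mem (i + 1))
    have h2 := ℓ.top.primeComap_mul (ℓ.σ ^ i) ℓ.σ
      (ℓ.mem_normalizer _ (ℓ.bot.U.pow_mem ℓ.cyc.mem i)) ℓ.σ_mem_normalizer hn w
    rw [← h2]
    congr 1

/-- (ii) `τ ^ p = 1`. -/
lemma primePerm_pow_p : ℓ.primePerm ^ p = 1 := by
  ext1 w
  rw [primePerm_pow, Equiv.Perm.one_apply]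
  exact ℓ.top.primeComap_of_mem _ _ ℓ.cyc.pow_mem w

/-- (iii) `τ` preserves the primes over `S`. -/
lemma primePerm_mem_T_iff (w : HeightOneSpectrum (𝓞 ℓ.top.field)) :
    ℓ.primePerm w ∈ ℓ.top.T ↔ w ∈ ℓ.top.T :=
  ℓ.top.primeComap_mem_T_iff _ _ w

lemma primePerm_pow_mem_T_iff (i : ℕ) (w : HeightOneSpectrum (𝓞 ℓ.top.field)) :
    (ℓ.primePerm ^ i) w ∈ ℓ.top.T ↔ w ∈ ℓ.top.T := by
  rw [primePerm_pow]
  exact ℓ.top.primeComap_mem_T_iff _ _ w

/-- **Piece C' of `dict_hasse`**, from the inputs R1 (finite divisors), R2 (capitulation prime to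
`p`) and R3 (every prime outside `T` lies below a valuation subring over some `q ∉ S`). -/
theorem idealH90At_of [Fact p.Prime] (hS : S.Nonempty)
    (R1 : ∀ t ∈ ℓ.top.TU, ∃ d : HeightOneSpectrum (𝓞 ℓ.top.field) → ℤ,
      ℓ.top.IsDivS t d ∧ (Function.support d).Finite ∧ ∀ v ∈ ℓ.top.T, d v = 0)
    (R2 : ∃ m : ℕ, ¬ p ∣ m ∧ ∀ d : HeightOneSpectrum (𝓞 ℓ.top.field) → ℤ,
      (Function.support d).Finite → ∃ s ∈ ℓ.top.TU, ℓ.top.IsDivS s (m • d))
    (R3 : ∀ v : HeightOneSpectrum (𝓞 ℓ.top.field), v ∉ ℓ.top.T →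
      ∃ q : Nat.Primes, q ∉ S ∧ ∃ (A : ValuationSubring (AlgebraicClosure ℚ))
        (hA : A.LiesOverPrime (q : ℕ)), v = ℓ.top.primeBelowAt q A hA) :
    (kfS S hS).IdealH90At p ℓ.top.U ℓ.σ := by
  intro (t : QSx S) ht hNt
  have ht' : t ∈ ℓ.top.TU := ht
  have hNt' : cnorm (QSx S) p ℓ.σ t ∈ sUnitsAdd S := hNt
  obtain ⟨d, hd, hfin, hdT⟩ := R1 t ht'
  set τ := ℓ.primePerm with hτ
  -- the norm of the divisor vanishes
  have hN : ∀ w, ∑ i ∈ Finset.range p, d ((τ ^ i) w) = 0 := by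
    intro w
    by_cases hw : w ∈ ℓ.top.T
    · refine Finset.sum_eq_zero fun i _ => ?_
      exact hdT _ ((ℓ.primePerm_pow_mem_T_iff i w).2 hw)
    · obtain ⟨q, hq, A, hA, rfl⟩ := R3 w hw
      have h1 := ℓ.isDivS_cnorm hd
      have h0 := ℓ.top.isDivS_of_mem_sUnitsAdd hNt'
      have h2 := h1.eq_of_primeBelow h0 q hq A hA (ℓ.top.primeBelowAt q A hA) rfl
      rw [Finset.sum_apply, Pi.zero_apply] at h2
      rw [← h2]
      refine Finset.sum_congr rfl fun i _ => ?_
      rw [hτ, ℓ.primePerm_pow]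
  -- `d = d' ∘ τ - d'`
  obtain ⟨d', hfin', -, hdd'⟩ := exists_sub_of_norm_zero' τ (Fact.out : p.Prime)
    ℓ.primePerm_pow_p d hfin hN (fun w => w ∉ ℓ.top.T)
    (fun w hw h => hw ((ℓ.primePerm_mem_T_iff w).1 h))
    (fun w hw h => hw (hdT w h))
  -- capitulation
  obtain ⟨m, hm, hcap⟩ := R2
  obtain ⟨s, hs, hsd⟩ := hcap d' hfin'
  have h3 := (hd.nsmul m).sub ((ℓ.isDivS_ρ hsd ℓ.σ ℓ.cyc.mem).sub hsd)
  have h5 : ℓ.top.IsDivS (m • t - ((QSx S).ρ ℓ.σ s - s) : QSx S) 0 := by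
    convert h3 using 1
    funext w
    simp only [Pi.zero_apply, Pi.sub_apply, Pi.smul_apply]
    have h4 := hdd' w
    rw [hτ, primePerm_apply] at h4
    rw [h4, smul_sub]
    abel
  have key : (m • t - ((QSx S).ρ ℓ.σ s - s) : QSx S) ∈ sUnitsAdd S := h5.mem_sUnitsAdd
  exact ⟨m, s, hm, hs, key⟩

/-- **Piece C' of `dict_hasse`**: Hilbert 90 for divisors at a cyclic layer (with helper32's
`DivFin`: finite divisors, capitulation prime to `p`, surjectivity of `A ↦ A ∩ F`). -/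
theorem idealH90At [Fact p.Prime] (hS : S.Nonempty) (hpS : pPrime p ∈ S) :
    (kfS S hS).IdealH90At p ℓ.top.U ℓ.σ :=
  ℓ.idealH90At_of hS ℓ.top.exists_isDivS_fin (ℓ.top.capit_div hpS) ℓ.top.exists_primeBelowAt

end LayerS

end Fermat.Agent.F4
end MergeWrap_F4_Dict_IdealH90

section MergeWrap_F4_Dict_HasseDict -- from F4/Dict/HasseDict.lean

/-!
# F4 / Dict / HasseDict : the Hasse norm axiom of `PCF` for `C = J / E` (derivation
`dict_hasse`; helper56)

`dict_hasse_pf` : for a cyclic layer `(U, V, σ)` of degree `p` of `G_S` (`p` odd, `p ∈ S`),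
`y ∈ C^V` with `N y = 0` satisfies `m y = σ z - z` with `p ∤ m`, `z ∈ C^V`.

Assembly (`KForm.hasse_of`, `F4/Dict/HasseAbs.lean`) of
* K1, the presentation `C^V = pr (J^V + d T_V)` (`KForm.pres`, `KappaAbs.lean`);
* the Hasse norm theorem `LayerS.hasseNormAt_of` (`HasseNorm.lean`, from `F4G.hasseNormFull`)
  with the local norm property `LayerS.exists_norm_oneMod` (`LocNorm.lean`, helper90);
* semi-local Hilbert 90 `h90_Jrep_cyc` (`JH90Cyc.lean`, helper89);
* Hilbert 90 for divisors `LayerS.idealH90At` (`IdealH90.lean`, helper49; `DivFin.lean`, helper32).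
-/

set_option autoImplicit false
set_option synthInstance.maxHeartbeats 400000
set_option linter.unusedSectionVars false
set_option linter.style.haveILetI false
set_option linter.unusedVariables false

open CategoryTheory groupCohomology ExtCitation
open NumberField IsDedekindDomain

namespace Fermat.Agent.F4

open Fermat.Agent.F4Cf

namespace LayerS

variable {p : ℕ} {S : Finset Nat.Primes} (ℓ : LayerS p S)

/-- **K3iv**: the local norm property of the layer. -/
theorem locNormAt [Fact p.Prime] : ℓ.LocNormAt := by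
  intro x hx f hf v hv k
  rw [Fermat.Agent.F4G.mem_localNormGroup]
  obtain ⟨y, hy⟩ := ℓ.exists_norm_oneMod hx f hf k
  exact ⟨y, hy v hv⟩

/-- **The Hasse norm theorem** for the layer `ℓ`, unconditional. -/
theorem hasseNormAt [Fact p.Prime] (hp2 : p ≠ 2) (hS : S.Nonempty) :
    (kfS S hS).HasseNormAt p ℓ.bot.U ℓ.top.U ℓ.σ :=
  ℓ.hasseNormAt_of hp2 hS ℓ.locNormAt

/-- Semi-local Hilbert 90 for the layer `ℓ`. -/
theorem jH90At [Fact p.Prime] (hS : S.Nonempty) : (kfS S hS).JH90At p ℓ.top.U ℓ.σ := by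
  intro (x : Jrep S) hx hN
  have hx' : Fix (Jrep S) ℓ.top.U x := hx
  have hN' : cnorm (Jrep S) p ℓ.σ x = 0 := hN
  obtain ⟨z, hz, hxz⟩ := h90_Jrep_cyc S ℓ.cyc ℓ.top.isOpen x hx' hN'
  exact ⟨z, hz, hxz⟩

/-- The presentation of `C^V`. -/
theorem presAt (hS : S.Nonempty) : (kfS S hS).PresAt ℓ.top.U := by
  intro (c : Crep S) hc
  exact kappa_pres S hS ℓ.top.U ℓ.top.isOpen c hc

/-- **The Hasse norm axiom** for the layer `ℓ`. -/
theorem hasse [Fact p.Prime] (hp2 : p ≠ 2) (hpS : pPrime p ∈ S) (y : Crep S)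
    (hy : Fix (Crep S) ℓ.top.U y) (hN : cnorm (Crep S) p ℓ.σ y = 0) :
    ∃ (m : ℕ) (z : Crep S), ¬ p ∣ m ∧ Fix (Crep S) ℓ.top.U z ∧
      m • y = (Crep S).ρ ℓ.σ z - z := by
  have hS : S.Nonempty := ⟨_, hpS⟩
  exact (kfS S hS).hasse_of ℓ.cyc (ℓ.presAt hS) (ℓ.hasseNormAt hp2 hS) (ℓ.jH90At hS)
    (ℓ.idealH90At hS hpS) y hy hN

end LayerS

/-- **`dict_hasse`**: the Hasse norm axiom of `PCF` for `C = J / E`. -/
theorem dict_hasse_pf (p : ℕ) [Fact p.Prime] (S : Finset Nat.Primes) (hp2 : p ≠ 2)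
    (hpS : pPrime p ∈ S) (U V : Subgroup GQ) (σ : GQ)
    (hV : (levelsS S).IsOpen V) (hc : IsCyc p U V σ) (y : Crep S) (hy : Fix (Crep S) V y)
    (hN : cnorm (Crep S) p σ y = 0) :
    ∃ (m : ℕ) (z : Crep S), ¬ p ∣ m ∧ Fix (Crep S) V z ∧ m • y = (Crep S).ρ σ z - z :=
  (LayerS.ofCyc hV hc).hasse hp2 hpS y hy hN

end Fermat.Agent.F4
end MergeWrap_F4_Dict_HasseDict

section MergeWrap_F4_Dict_SecondAlg -- from F4/Dict/SecondAlg.lean

/-!
# F4 / Dict / SecondAlg : the linear algebra of the second inequality (helper74's seat `second`,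
sub-lemma SL-1; proof by helper31)

`C` a `ℤ[G]`-module, `(U, V, σ)` a cyclic layer of degree `p`.  The norm group `N (C^V)` contains
`p • C^U`, so `C^U / N (C^V)` is an `𝔽_p`-vector space.  If `a ∉ N (C^V)` and `b - k • a ∉ N (C^V)`
for all `k`, then `a`, `b` are linearly independent in it, and there is a surjection of `C^U` onto
`𝔽_p × 𝔽_p` killing the norms.

* `cfFixSub C U` : the subgroup `C^U`;
* `cfNormSub C p U V σ hc` : the subgroup `N (C^V)` of `C^U`;
* `exists_functional_of_not_second` : the statement above.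
-/

set_option autoImplicit false

open CategoryTheory groupCohomology

namespace Fermat.Agent.F4Cf

variable {G : Type} [Group G]

/-- The subgroup `C^U` of the elements fixed by `U`. -/
def cfFixSub (C : Rep.{0} ℤ G) (U : Subgroup G) : AddSubgroup C where
  carrier := {x | ∀ g ∈ U, C.ρ g x = x}
  zero_mem' := fun g _ => map_zero _
  add_mem' := fun {a b} ha hb g hg => by rw [map_add, ha g hg, hb g hg]
  neg_mem' := fun {a} ha g hg => by rw [map_neg, ha g hg]

lemma mem_cfFixSub {C : Rep.{0} ℤ G} {U : Subgroup G} {x : C} : x ∈ cfFixSub C U ↔ Fix C U x :=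
  Iff.rfl

/-- The cyclic norm is additive. -/
lemma sl1_cnorm_add (C : Rep.{0} ℤ G) (n : ℕ) (σ : G) (x y : C) :
    cnorm C n σ (x + y) = cnorm C n σ x + cnorm C n σ y := by
  unfold cnorm
  rw [← Finset.sum_add_distrib]
  exact Finset.sum_congr rfl fun i _ => map_add _ _ _

lemma sl1_cnorm_zero (C : Rep.{0} ℤ G) (n : ℕ) (σ : G) : cnorm C n σ (0 : C) = 0 := by
  unfold cnorm
  exact Finset.sum_eq_zero fun i _ => map_zero _

lemma sl1_cnorm_neg (C : Rep.{0} ℤ G) (n : ℕ) (σ : G) (x : C) :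
    cnorm C n σ (-x) = - cnorm C n σ x := by
  unfold cnorm
  rw [← Finset.sum_neg_distrib]
  exact Finset.sum_congr rfl fun i _ => map_neg _ _

/-- The norm of an element fixed by `σ` is its `n`-th multiple. -/
lemma sl1_cnorm_of_fix (C : Rep.{0} ℤ G) (n : ℕ) {U : Subgroup G} {σ : G} (hσ : σ ∈ U) {x : C}
    (hx : Fix C U x) : cnorm C n σ x = n • x := by
  unfold cnorm
  rw [Finset.sum_congr rfl fun i _ => hx (σ ^ i) (U.pow_mem hσ i)]
  simp

/-- The norm group `N (C^V)`, as a subgroup of `C^U`. -/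
def cfNormSub (C : Rep.{0} ℤ G) (p : ℕ) (V : Subgroup G) (σ : G) (U : Subgroup G) :
    AddSubgroup ↥(cfFixSub C U) where
  carrier := {x | IsNormFrom C p V σ (x : C)}
  zero_mem' := ⟨0, fun g _ => map_zero _, (sl1_cnorm_zero C p σ).symm⟩
  add_mem' := by
    rintro x y ⟨u, hu, hxu⟩ ⟨v, hv, hyv⟩
    refine ⟨u + v, fun g hg => ?_, ?_⟩
    · rw [map_add, hu g hg, hv g hg]
    · show ((x + y : ↥(cfFixSub C U)) : C) = _
      rw [AddSubgroup.coe_add, hxu, hyv, sl1_cnorm_add]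
  neg_mem' := by
    rintro x ⟨u, hu, hxu⟩
    refine ⟨-u, fun g hg => ?_, ?_⟩
    · rw [map_neg, hu g hg]
    · show ((-x : ↥(cfFixSub C U)) : C) = _
      rw [AddSubgroup.coe_neg, hxu, sl1_cnorm_neg]

lemma mem_cfNormSub {C : Rep.{0} ℤ G} {p : ℕ} {V : Subgroup G} {σ : G} {U : Subgroup G}
    {x : ↥(cfFixSub C U)} : x ∈ cfNormSub C p V σ U ↔ IsNormFrom C p V σ (x : C) :=
  Iff.rfl

/-- `p • C^U ⊆ N (C^V)`. -/
lemma sl1_nsmul_mem (C : Rep.{0} ℤ G) (p : ℕ) {U V : Subgroup G} {σ : G} (hc : IsCyc p U V σ)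
    (x : ↥(cfFixSub C U)) : p • x ∈ cfNormSub C p V σ U := by
  refine ⟨(x : C), fun g hg => x.2 g (hc.le hg), ?_⟩
  rw [sl1_cnorm_of_fix C p hc.mem x.2]
  exact AddSubgroup.coe_nsmul _ _ _

/-- Two elements `ā`, `b̄` of an `𝔽_p`-vector space with `ā ≠ 0` and `b̄ ∉ 𝔽_p ā` span a plane
which is a direct summand. -/
lemma sl1_linalg (p : ℕ) [Fact p.Prime] {Q : Type*} [AddCommGroup Q] [Module (ZMod p) Q]
    (a₀ b₀ : Q) (ha0 : a₀ ≠ 0) (hb0 : ∀ k : ℕ, b₀ - k • a₀ ≠ 0) :
    ∃ g : Q →+ ZMod p × ZMod p, ∀ z : ZMod p × ZMod p, ∃ m n : ℕ, g (m • a₀ + n • b₀) = z := by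
  classical
  have hnat : ∀ (k : ℕ) (q : Q), (k : ZMod p) • q = k • q := fun k q =>
    Nat.cast_smul_eq_nsmul (ZMod p) k q
  -- the map `(x, y) ↦ x ā + y b̄`
  set f : (ZMod p × ZMod p) →ₗ[ZMod p] Q :=
    (LinearMap.fst (ZMod p) (ZMod p) (ZMod p)).smulRight a₀ +
      (LinearMap.snd (ZMod p) (ZMod p) (ZMod p)).smulRight b₀ with hf
  have hfapp : ∀ x y : ZMod p, f (x, y) = x • a₀ + y • b₀ := fun x y => rfl
  have hker : LinearMap.ker f = ⊥ := by
    rw [LinearMap.ker_eq_bot']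
    rintro ⟨x, y⟩ hxy
    rw [hfapp] at hxy
    by_cases hy : y = 0
    · subst hy
      rw [zero_smul, add_zero] at hxy
      rcases smul_eq_zero.1 hxy with hx | hx
      · rw [hx]; rfl
      · exact absurd hx ha0
    · exfalso
      -- `b̄ = -(x / y) ā`
      have h1 : b₀ = (-(y⁻¹ * x)) • a₀ := by
        have h2 : y • b₀ = -(x • a₀) := eq_neg_of_add_eq_zero_right hxy
        have h3 : b₀ = y⁻¹ • (y • b₀) := by
          rw [smul_smul, inv_mul_cancel₀ hy, one_smul]
        rw [h3, h2, smul_neg, smul_smul, neg_smul]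
      apply hb0 (-(y⁻¹ * x)).val
      rw [← hnat, ZMod.natCast_zmod_val, ← h1, sub_self]
  obtain ⟨g, hg⟩ := LinearMap.exists_leftInverse_of_injective f hker
  refine ⟨g.toAddMonoidHom, ?_⟩
  rintro ⟨x, y⟩
  refine ⟨x.val, y.val, ?_⟩
  show g (x.val • a₀ + y.val • b₀) = (x, y)
  rw [← hnat, ← hnat, ZMod.natCast_zmod_val, ZMod.natCast_zmod_val, ← hfapp]
  exact congrArg (fun h : (ZMod p × ZMod p) →ₗ[ZMod p] (ZMod p × ZMod p) => h (x, y)) hg

/-- **SL-1** (pure algebra).  If `a ∉ N (C^V)` and `b - k • a ∉ N (C^V)` for all `k`, there is a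
surjective homomorphism `C^U → 𝔽_p × 𝔽_p` killing the norms from `C^V`. -/
theorem exists_functional_of_not_second (C : Rep.{0} ℤ G) (p : ℕ) [Fact p.Prime]
    (U V : Subgroup G) (σ : G) (hc : IsCyc p U V σ) (a b : C) (ha : Fix C U a) (hb : Fix C U b)
    (hna : ¬ IsNormFrom C p V σ a) (hnb : ∀ k : ℕ, ¬ IsNormFrom C p V σ (b - k • a)) :
    ∃ ψ : ↥(cfFixSub C U) →+ ZMod p × ZMod p, Function.Surjective ψ ∧
      ∀ (y : C) (hy : Fix C V y), ψ ⟨cnorm C p σ y, acf3_fix_cnorm hc hy⟩ = 0 := by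
  classical
  have hp : p.Prime := Fact.out
  set 𝒩 : AddSubgroup ↥(cfFixSub C U) := cfNormSub C p V σ U with h𝒩
  set π : ↥(cfFixSub C U) →+ (↥(cfFixSub C U) ⧸ 𝒩) := QuotientAddGroup.mk' 𝒩 with hπ
  have hπsurj : Function.Surjective π := QuotientAddGroup.mk'_surjective 𝒩
  have hπ0 : ∀ x : ↥(cfFixSub C U), π x = 0 ↔ x ∈ 𝒩 := fun x =>
    QuotientAddGroup.eq_zero_iff x
  have hkill : ∀ q : ↥(cfFixSub C U) ⧸ 𝒩, p • q = 0 := by
    intro q
    obtain ⟨x, rfl⟩ := hπsurj q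
    rw [← map_nsmul, hπ0]
    exact sl1_nsmul_mem C p hc x
  set a' : ↥(cfFixSub C U) := ⟨a, ha⟩ with ha'
  set b' : ↥(cfFixSub C U) := ⟨b, hb⟩ with hb'
  have ha0 : π a' ≠ 0 := fun h => hna ((hπ0 a').1 h)
  have hb0 : ∀ k : ℕ, π b' - k • π a' ≠ 0 := by
    intro k h
    apply hnb k
    have h1 : π (b' - k • a') = 0 := by rw [map_sub, map_nsmul]; exact h
    have h2 := (hπ0 _).1 h1
    have h3 : ((b' - k • a' : ↥(cfFixSub C U)) : C) = b - k • a := by
      rw [AddSubgroup.coe_sub, AddSubgroup.coe_nsmul]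
    rw [mem_cfNormSub, h3] at h2
    exact h2
  obtain ⟨g, hg⟩ := @sl1_linalg p _ (↥(cfFixSub C U) ⧸ 𝒩) _ (AddCommGroup.zmodModule hkill)
    (π a') (π b') ha0 hb0
  refine ⟨g.comp π, ?_, ?_⟩
  · intro z
    obtain ⟨m, n, hmn⟩ := hg z
    refine ⟨m • a' + n • b', ?_⟩
    show g (π (m • a' + n • b')) = z
    rw [map_add, map_nsmul, map_nsmul]
    exact hmn
  · intro y hy
    show g (π _) = 0
    have : π (⟨cnorm C p σ y, acf3_fix_cnorm hc hy⟩ : ↥(cfFixSub C U)) = 0 := by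
      rw [hπ0]
      exact ⟨y, hy, rfl⟩
    rw [this, map_zero]

end Fermat.Agent.F4Cf
end MergeWrap_F4_Dict_SecondAlg

section MergeWrap_F4_Dict_SecondIdeal -- from F4/Dict/SecondIdeal.lean

/-!
# F4 / Dict / SecondIdeal : every `t ∈ T_U` is, up to `p`-th powers of `Fˣ`, the divisor of an
integral ideal prime to `S` (helper74's seat `second`, sub-lemma SL-2; proof by helper49)

`L : OpenS S`, `F = L.field`.  For `s ∈ T_U` there are `n ∈ Fˣ` (a positive integer) and a nonzero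
ideal `I` of `𝓞 F`, prime to the primes over `S`, such that the divisor outside `S` of
`s · n ^ p` is `v ↦ ord_v I`.

Proof: `x = val s` is algebraic, so `n x` is integral over `ℤ` for some integer `n > 0`
(`divfin_exists_integral_multiple`); then `y = x n ^ p` is integral (`p > 0`), hence has order `≥ 0`
at every `A`.  The divisor `δ` of `s + p • toQS n` has finite support and vanishes on `L.T`
(helper32's `exists_isDivS_fin`); it is `≥ 0` everywhere, and `I = ∏ v ^ (δ v).toNat` over the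
support of `δ` has `ord_v I = δ v` for all `v`.
-/

set_option autoImplicit false

open CategoryTheory groupCohomology ExtCitation
open scoped Pointwise
open NumberField IsDedekindDomain

namespace Fermat.Agent.F4

open Classical in
/-- The multiplicity of a prime in a finite product of prime powers (Dedekind domain). -/
lemma secondIdeal_multiplicity_prod {R : Type*} [CommRing R] [IsDedekindDomain R]
    (Sg : Finset (HeightOneSpectrum R)) (e : HeightOneSpectrum R → ℕ) (v : HeightOneSpectrum R) :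
    multiplicity v.asIdeal (∏ w ∈ Sg, w.asIdeal ^ e w) = if v ∈ Sg then e v else 0 := by
  classical
  apply multiplicity_eq_of_emultiplicity_eq_some
  have hv : Prime v.asIdeal := v.prime
  rw [Finset.emultiplicity_prod hv]
  have h1 : ∀ w ∈ Sg, emultiplicity v.asIdeal (w.asIdeal ^ e w) =
      if w = v then ((e v : ℕ) : ℕ∞) else 0 := by
    intro w _
    rw [emultiplicity_pow hv]
    by_cases hwv : w = v
    · subst hwv
      rw [if_pos rfl, (FiniteMultiplicity.of_prime_left hv hv.ne_zero).emultiplicity_self, mul_one]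
    · rw [if_neg hwv]
      have : emultiplicity v.asIdeal w.asIdeal = 0 := by
        rw [emultiplicity_eq_zero, Ideal.dvd_iff_le]
        intro hle
        apply hwv
        ext1
        exact (w.isMaximal.eq_of_le v.isPrime.ne_top hle)
      rw [this, mul_zero]
  rw [Finset.sum_congr rfl h1, Finset.sum_ite_eq' Sg v]
  split_ifs <;> simp

namespace OpenS

variable {S : Finset Nat.Primes} (L : OpenS S)

/-- The order of an algebraic integer at a valuation subring over `q` is `≥ 0`. -/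
lemma secondIdeal_nonneg (A : ValuationSubring (AlgebraicClosure ℚ)) {q : ℕ} (hq : q.Prime)
    (hA : A.LiesOverPrime q) {y : AlgebraicClosure ℚ} (hy0 : y ≠ 0) (hy : IsIntegral ℤ y) {k : ℤ}
    (h : HasOrdAt A q y k) : 0 ≤ k := by
  by_contra hk
  rw [not_le] at hk
  have hq0 : (q : AlgebraicClosure ℚ) ≠ 0 := by exact_mod_cast hq.ne_zero
  have hvq : A.valuation (q : AlgebraicClosure ℚ) < 1 :=
    (ValuationSubring.mem_nonunits_iff A).mp hA
  have hvq0 : 0 < A.valuation (q : AlgebraicClosure ℚ) :=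
    zero_lt_iff.mpr ((Valuation.ne_zero_iff _).mpr hq0)
  have hyA : A.valuation y ≤ 1 :=
    (A.valuation_le_one_iff _).2 (Fermat.Agent.FrobExists.mem_valuationSubring_of_isIntegral A hy)
  unfold HasOrdAt at h
  rw [isUnitAt_iff_valuation_eq_one A (mul_ne_zero hy0 (zpow_ne_zero _ hq0)), map_mul,
    map_zpow₀] at h
  have h2 : A.valuation (q : AlgebraicClosure ℚ) ^ (-k) < 1 :=
    zpow_lt_one₀ hvq0 hvq (by omega)
  have h3 : A.valuation y * A.valuation (q : AlgebraicClosure ℚ) ^ (-k) < 1 := by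
    calc A.valuation y * A.valuation (q : AlgebraicClosure ℚ) ^ (-k)
        ≤ 1 * A.valuation (q : AlgebraicClosure ℚ) ^ (-k) := by gcongr
      _ < 1 := by rwa [one_mul]
  rw [h] at h3
  exact lt_irrefl _ h3

/-- **SL-2.**  Every `s ∈ T_U` has, up to the `p`-th power of an element of `Fˣ`, the divisor of
an integral ideal prime to `S`. -/
theorem exists_ideal_isDivS (p : ℕ) (hp : 0 < p) (s : QSx S) (hs : s ∈ L.TU) :
    ∃ (n : (L.field)ˣ) (I : Ideal (𝓞 L.field)), I ≠ ⊥ ∧ (∀ v ∈ L.T, ¬ I ≤ v.asIdeal) ∧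
      L.IsDivS (s + p • L.toQS n) (fun v => ((multiplicity v.asIdeal I : ℕ) : ℤ)) := by
  classical
  obtain ⟨N, hN0, hNint⟩ := divfin_exists_integral_multiple
    ((smUnits.val s : (AlgebraicClosure ℚ)ˣ) : AlgebraicClosure ℚ)
  have hNF : ((N : ℕ) : L.field) ≠ 0 := Nat.cast_ne_zero.2 hN0
  have hs' : s + p • L.toQS (Units.mk0 ((N : ℕ) : L.field) hNF) ∈ L.TU :=
    L.TU.add_mem hs (L.TU.nsmul_mem (L.toQS_mem_TU _) p)
  -- the value of `s + p • n`
  have hval : ((smUnits.val (s + p • L.toQS (Units.mk0 ((N : ℕ) : L.field) hNF)) :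
      (AlgebraicClosure ℚ)ˣ) : AlgebraicClosure ℚ) =
      ((smUnits.val s : (AlgebraicClosure ℚ)ˣ) : AlgebraicClosure ℚ) *
        ((N : ℕ) : AlgebraicClosure ℚ) ^ p := by
    rw [smUnits.val_add, smUnits.val_nsmul, Units.val_mul, Units.val_pow_eq_pow_val, val_toQS]
    simp
  -- it is an algebraic integer
  have hyint : IsIntegral ℤ (((smUnits.val s : (AlgebraicClosure ℚ)ˣ) : AlgebraicClosure ℚ) *
      ((N : ℕ) : AlgebraicClosure ℚ) ^ p) := by
    obtain ⟨k, rfl⟩ : ∃ k, p = k + 1 := ⟨p - 1, by omega⟩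
    have e : ((smUnits.val s : (AlgebraicClosure ℚ)ˣ) : AlgebraicClosure ℚ) *
        ((N : ℕ) : AlgebraicClosure ℚ) ^ (k + 1) =
        (((N : ℕ) : AlgebraicClosure ℚ) *
          ((smUnits.val s : (AlgebraicClosure ℚ)ˣ) : AlgebraicClosure ℚ)) *
          ((N : ℕ) : AlgebraicClosure ℚ) ^ k := by ring
    rw [e]
    exact hNint.mul ((isIntegral_algebraMap (R := ℤ) (x := (N : ℤ))).pow k |> fun h => by
      simpa using h)
  obtain ⟨δ, hδ, hδfin, hδT⟩ := L.exists_isDivS_fin _ hs'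
  -- the divisor is `≥ 0`
  have hnonneg : ∀ v, 0 ≤ δ v := by
    intro v
    by_cases hv : v ∈ L.T
    · rw [hδT v hv]
    · obtain ⟨q, hq, A, hA, rfl⟩ := L.exists_primeBelowAt v hv
      have h := (L.isDivS_iff _ δ).1 hδ q hq A hA
      rw [hval] at h
      refine secondIdeal_nonneg A q.2 hA ?_ hyint h
      exact mul_ne_zero (smUnits.val s).ne_zero (pow_ne_zero _ (Nat.cast_ne_zero.2 hN0))
  -- the ideal
  have hmult : ∀ v, ((multiplicity v.asIdeal
      (∏ w ∈ hδfin.toFinset, w.asIdeal ^ (δ w).toNat) : ℕ) : ℤ) = δ v := by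
    intro v
    rw [secondIdeal_multiplicity_prod]
    by_cases hv : v ∈ hδfin.toFinset
    · rw [if_pos hv]
      exact Int.toNat_of_nonneg (hnonneg v)
    · rw [if_neg hv]
      rw [Set.Finite.mem_toFinset, Function.mem_support, not_not] at hv
      rw [hv]
      rfl
  refine ⟨Units.mk0 ((N : ℕ) : L.field) hNF, ∏ w ∈ hδfin.toFinset, w.asIdeal ^ (δ w).toNat,
    ?_, ?_, ?_⟩
  · rw [← Ideal.zero_eq_bot, Finset.prod_ne_zero_iff]
    intro w _
    exact pow_ne_zero _ w.ne_bot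
  · intro v hv hle
    have h1 := hmult v
    rw [hδT v hv] at h1
    have h2 : multiplicity v.asIdeal (∏ w ∈ hδfin.toFinset, w.asIdeal ^ (δ w).toNat) = 0 := by
      exact_mod_cast h1
    exact (multiplicity_eq_zero.1 h2) (Ideal.dvd_iff_le.2 hle)
  · have e : (fun v : HeightOneSpectrum (𝓞 L.field) => ((multiplicity v.asIdeal
        (∏ w ∈ hδfin.toFinset, w.asIdeal ^ (δ w).toNat) : ℕ) : ℤ)) = δ := funext hmult
    rw [e]
    exact hδ

end OpenS

end Fermat.Agent.F4
end MergeWrap_F4_Dict_SecondIdeal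

section MergeWrap_F4_Dict_Second -- from F4/Dict/Second.lean

/-!
# F4 / Dict / Second : the second inequality for `C = J / E` (seat `dict_second`, helper74)

`(U, V, σ)` a cyclic layer of degree `p` of `G_S`, `F ⊂ M` its fields.  If `a ∉ N C^V` and
`b - k a ∉ N C^V` for all `k`, there is a surjection `ψ : C^U → 𝔽_p × 𝔽_p` killing the norms
(`SecondAlg.lean`).  Then `Ψ = ψ ∘ CMk ∘ diagJ : T_U → 𝔽_p × 𝔽_p` is surjective (K1 + weak
approximation K3i + Hensel K3ii), kills the units, the `p`-th powers, the ray (K3iii) and the norms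
from `T_V` (`KForm.exists_Psi`).  The class map `cls I = Ψ (t_I) / m_F`, `t_I` of divisor `I ^ m_F`
(`p`-capitulation K2ii), is a generalised ideal class map of `F` killing the norms of the ideals
of `M` (`DivNorm.lean`), so `p ^ 2 ≤ p` by `F4Ray.secondIneqRay`.

* `KForm.exists_Psi` : the `J`-side, abstract form;
* `LayerS.sec_main` : the ideal side;
* `dict_second_pf` : the second inequality.
-/

set_option autoImplicit false
set_option synthInstance.maxHeartbeats 400000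
set_option linter.unusedSectionVars false
set_option linter.style.haveILetI false
set_option linter.unusedVariables false

open CategoryTheory groupCohomology ExtCitation
open scoped Pointwise nonZeroDivisors
open NumberField IsDedekindDomain

namespace Fermat.Agent.F4

open Fermat.Agent.F4Cf

/-! ### Arithmetic in a group killed by `p` -/

lemma sec_nsmul_eq_of_modEq {A : Type*} [AddCommGroup A] {p : ℕ} (hA : ∀ z : A, p • z = 0)
    {a b : ℕ} (h : a ≡ b [MOD p]) (z : A) : a • z = b • z := by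
  have key : ∀ n : ℕ, n • z = (n % p) • z := by
    intro n
    conv_lhs => rw [← Nat.mod_add_div n p]
    rw [add_smul, mul_smul, hA, add_zero]
  rw [key a, key b, h]

lemma sec_eq_zero_of_nsmul {A : Type*} [AddCommGroup A] {p : ℕ} (hp : p.Prime)
    (hA : ∀ z : A, p • z = 0) {n : ℕ} (hn : ¬ p ∣ n) {z : A} (h : n • z = 0) : z = 0 := by
  have hcop : Nat.Coprime n p := ((Nat.Prime.coprime_iff_not_dvd hp).2 hn).symm
  obtain ⟨n', -, hn'⟩ := Nat.exists_mul_mod_eq_one_of_coprime hcop hp.one_lt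
  have h1 : (n * n') • z = 1 • z := by
    refine sec_nsmul_eq_of_modEq hA ?_ z
    show n * n' % p = 1 % p
    rw [hn', Nat.mod_eq_of_lt hp.one_lt]
  rw [one_smul, mul_comm, mul_smul, h, smul_zero] at h1
  exact h1.symm

/-! ### Multiplicities -/

lemma sec_mult_mul {R : Type*} [CommRing R] [IsDedekindDomain R] (v : HeightOneSpectrum R)
    {I J : Ideal R} (hI : I ≠ ⊥) (hJ : J ≠ ⊥) :
    multiplicity v.asIdeal (I * J) = multiplicity v.asIdeal I + multiplicity v.asIdeal J := by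
  have hIJ : I * J ≠ 0 := mul_ne_zero hI hJ
  exact multiplicity_mul v.prime (FiniteMultiplicity.of_prime_left v.prime hIJ)

variable {S : Finset Nat.Primes}

namespace OpenS

variable (L : OpenS S)

/-- The divisor of `a ∈ 𝓞 F`, `a ≠ 0`, is the divisor of the ideal `(a)`. -/
lemma sec_isDivS_span (a : 𝓞 L.field) (ha : a ≠ 0) (f : (L.field)ˣ)
    (hf : (f : L.field) = algebraMap (𝓞 L.field) L.field a) :
    L.IsDivS (L.toQS f)
      (fun v => ((multiplicity v.asIdeal (Ideal.span {a}) : ℕ) : ℤ)) := by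
  have h := L.capit_isDivS_toQS f
  have hI : Ideal.span {a} ≠ (⊥ : Ideal (𝓞 L.field)) := by
    rw [Ne, Ideal.span_singleton_eq_bot]
    exact ha
  have e : (fun v : HeightOneSpectrum (𝓞 L.field) =>
      -(WithZero.log (v.valuation L.field (f : L.field)))) =
      (fun v => ((multiplicity v.asIdeal (Ideal.span {a}) : ℕ) : ℤ)) := by
    funext v
    have := capit_valuation_generator L.field v (Ideal.span {a}) hI 1 a ha (pow_one _)
    rw [one_mul] at this
    rw [hf]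
    exact this
  rw [e] at h
  exact h

/-- There is a prime of `F` over `S` when `S` is nonempty. -/
lemma sec_T_nonempty (hS : S.Nonempty) : L.T.Nonempty := by
  obtain ⟨q, hq⟩ := hS
  obtain ⟨A, hA⟩ := Fermat.Agent.FrobExists.exists_valuationSubring_liesOver (q : ℕ) q.2
  refine ⟨L.primeBelowAt q A hA, ?_⟩
  rw [L.mem_T]
  exact ⟨q, hq, Fermat.Agent.KFin.natCast_mem_primeBelow L.field A q hA⟩

/-- An ideal which is contained in no prime over `S` is prime to the modulus. -/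
lemma sec_sup_rbMod (k : ℕ) {I : Ideal (𝓞 L.field)} (h : ∀ v ∈ L.T, ¬ I ≤ v.asIdeal) :
    I ⊔ F4G.rbMod L.field L.T k = ⊤ := by
  unfold F4G.rbMod
  refine Ideal.sup_prod_eq_top fun v hv => Ideal.sup_pow_eq_top ?_
  by_contra hne
  have hmax : v.asIdeal.IsMaximal := v.isMaximal
  have := hmax.eq_of_le hne le_sup_right
  exact h v hv (this ▸ le_sup_left)

end OpenS


namespace LayerS

variable {p : ℕ} [Fact p.Prime] (ℓ : LayerS p S)

/-- **The ideal side of the second inequality.**  A homomorphism `Ψ` from `T_U` onto a finite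
group which kills the `S`-units, the `p`-th powers, the elements of `Fˣ` which are `≡ 1` modulo a
power of the primes over `S`, and the norms from `T_V`, has at most `p` values. -/
theorem sec_main (hpS : pPrime p ∈ S) {A : Type} [AddCommGroup A] [Fintype A]
    (Ψ : ↥(ℓ.bot.TU) →+ A)
    (hE : ∀ (e : QSx S) (he : e ∈ sUnitsAdd S), Ψ ⟨e, ℓ.bot.sUnitsAdd_le_TU he⟩ = 0)
    (hA : ∀ z : A, p • z = 0)
    (k' : ℕ) (hray : ∀ f : (ℓ.bot.field)ˣ,
      (∀ v ∈ ℓ.bot.T, f ∈ F4G.oneModSubgroup ℓ.bot.field v k') →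
        Ψ ⟨ℓ.bot.toQS f, ℓ.bot.toQS_mem_TU f⟩ = 0)
    (hnorm : ∀ (t : QSx S) (ht : t ∈ ℓ.top.TU),
      Ψ ⟨cnorm (QSx S) p ℓ.σ t, ℓ.cnorm_mem_bot_TU ht⟩ = 0)
    (hsurj : Function.Surjective Ψ) : Fintype.card A ≤ p := by
  classical
  have hp : p.Prime := Fact.out
  obtain ⟨mF, hmF, capF⟩ := ℓ.bot.capit (p := p) hpS
  obtain ⟨mM, hmM, capM⟩ := ℓ.top.capit (p := p) hpS
  have hcop : Nat.Coprime mF p := ((Nat.Prime.coprime_iff_not_dvd hp).2 hmF).symm
  obtain ⟨m', -, hm'⟩ := Nat.exists_mul_mod_eq_one_of_coprime hcop hp.one_lt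
  have hmm : mF * m' ≡ 1 [MOD p] := by
    show mF * m' % p = 1 % p
    rw [hm', Nat.mod_eq_of_lt hp.one_lt]
  -- choice of `t_I`
  have hex : ∀ I : Ideal (𝓞 ℓ.bot.field), ∃ t : ↥(ℓ.bot.TU), I ≠ ⊥ →
      ℓ.bot.IsDivS t.1 (fun v => ((mF * multiplicity v.asIdeal I : ℕ) : ℤ)) := by
    intro I
    by_cases hI : I = ⊥
    · exact ⟨0, fun h => absurd hI h⟩
    · obtain ⟨t, ht, hd⟩ := capF I hI
      exact ⟨⟨t, ht⟩, fun _ => hd⟩
  choose tF htF using hex
  -- same divisor, same value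
  have key0 : ∀ (t t' : ↥(ℓ.bot.TU)) (d : HeightOneSpectrum (𝓞 ℓ.bot.field) → ℤ),
      ℓ.bot.IsDivS t.1 d → ℓ.bot.IsDivS t'.1 d → Ψ t = Ψ t' := by
    intro t t' d h h'
    have h1 := h.sub_mem_sUnitsAdd h'
    have h2 := hE _ h1
    have e : (⟨t.1 - t'.1, ℓ.bot.sUnitsAdd_le_TU h1⟩ : ↥(ℓ.bot.TU)) = t - t' := Subtype.ext rfl
    rw [e, map_sub, sub_eq_zero] at h2
    exact h2
  -- the general comparison
  have key : ∀ (I : Ideal (𝓞 ℓ.bot.field)) (hI : I ≠ ⊥) (n : ℕ) (t : ↥(ℓ.bot.TU)),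
      ℓ.bot.IsDivS t.1 (fun v => ((n * multiplicity v.asIdeal I : ℕ) : ℤ)) →
      n • Ψ (tF I) = mF • Ψ t := by
    intro I hI n t ht
    have h1 : ℓ.bot.IsDivS (n • tF I).1
        (fun v => ((n * (mF * multiplicity v.asIdeal I) : ℕ) : ℤ)) := by
      have := (htF I hI).nsmul n
      refine this.congr fun q A hA hq => ?_
      simp only [Pi.smul_apply, nsmul_eq_mul]
      push_cast
      ring
    have h2 : ℓ.bot.IsDivS (mF • t).1
        (fun v => ((n * (mF * multiplicity v.asIdeal I) : ℕ) : ℤ)) := by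
      have := ht.nsmul mF
      refine this.congr fun q A hA hq => ?_
      simp only [Pi.smul_apply, nsmul_eq_mul]
      push_cast
      ring
    have h3 := key0 _ _ _ h1 h2
    rw [map_nsmul, map_nsmul] at h3
    exact h3
  -- the class map
  let cls : Ideal (𝓞 ℓ.bot.field) → Multiplicative A :=
    fun I => Multiplicative.ofAdd (m' • Ψ (tF I))
  have key1 : ∀ (I : Ideal (𝓞 ℓ.bot.field)) (hI : I ≠ ⊥) (t : ↥(ℓ.bot.TU)),
      ℓ.bot.IsDivS t.1 (fun v => ((multiplicity v.asIdeal I : ℕ) : ℤ)) →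
      cls I = Multiplicative.ofAdd (Ψ t) := by
    intro I hI t ht
    have h1 : ℓ.bot.IsDivS t.1 (fun v => ((1 * multiplicity v.asIdeal I : ℕ) : ℤ)) := by
      simpa only [one_mul] using ht
    have h2 := key I hI 1 t h1
    rw [one_smul] at h2
    show Multiplicative.ofAdd (m' • Ψ (tF I)) = _
    rw [h2, ← mul_smul, mul_comm, sec_nsmul_eq_of_modEq hA hmm, one_smul]
  have hTne : ℓ.bot.T.Nonempty := ℓ.bot.sec_T_nonempty ⟨_, hpS⟩
  have hne_bot : ∀ I : Ideal (𝓞 ℓ.bot.field), I ⊔ F4G.rbMod ℓ.bot.field ℓ.bot.T k' = ⊤ →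
      I ≠ ⊥ := by
    rintro I h rfl
    rw [bot_sup_eq] at h
    exact F4G.rbMod_ne_top k' hTne h
  have hray' : F4Ray.RayClassMap ℓ.bot.field (F4G.rbMod ℓ.bot.field ℓ.bot.T k')
      (Multiplicative A) cls := by
    refine ⟨F4G.rbMod_ne_bot _ _, ?_, ?_, ?_⟩
    · -- multiplicativity
      intro I J hI hJ
      have hI0 := hne_bot I hI
      have hJ0 := hne_bot J hJ
      have hIJ0 : I * J ≠ ⊥ := mul_ne_zero hI0 hJ0
      have h1 : ℓ.bot.IsDivS (tF I + tF J).1
          (fun v => ((mF * multiplicity v.asIdeal (I * J) : ℕ) : ℤ)) := by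
        have := (htF I hI0).add (htF J hJ0)
        refine this.congr fun q A hA hq => ?_
        simp only [Pi.add_apply]
        rw [sec_mult_mul _ hI0 hJ0]
        push_cast
        ring
      have h2 := key0 _ _ _ (htF (I * J) hIJ0) h1
      show Multiplicative.ofAdd (m' • Ψ (tF (I * J))) =
        Multiplicative.ofAdd (m' • Ψ (tF I)) * Multiplicative.ofAdd (m' • Ψ (tF J))
      rw [h2, map_add, smul_add]
      rfl
    · -- the ray
      intro a ha ha1
      have haF : (algebraMap (𝓞 ℓ.bot.field) ℓ.bot.field a) ≠ 0 := by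
        intro h
        exact ha ((map_eq_zero_iff _ (IsFractionRing.injective _ _)).1 h)
      have hI : Ideal.span {a} ≠ (⊥ : Ideal (𝓞 ℓ.bot.field)) := by
        rw [Ne, Ideal.span_singleton_eq_bot]
        exact ha
      have h1 := ℓ.bot.sec_isDivS_span a ha (Units.mk0 _ haF) rfl
      rw [key1 _ hI ⟨_, ℓ.bot.toQS_mem_TU _⟩ h1]
      have h2 := hray (Units.mk0 _ haF) (fun v hv => F4G.rb_mem_oneModSubgroup k' ha ha1 hv)
      rw [h2]
      rfl
    · -- surjectivity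
      intro g
      obtain ⟨s, hs⟩ := hsurj (Multiplicative.toAdd g)
      obtain ⟨n, I, hI0, hIT, hd⟩ := ℓ.bot.exists_ideal_isDivS p hp.pos s.1 s.2
      refine ⟨I, hI0, ℓ.bot.sec_sup_rbMod k' hIT, ?_⟩
      have hmem : s.1 + p • ℓ.bot.toQS n ∈ ℓ.bot.TU :=
        ℓ.bot.TU.add_mem s.2 (ℓ.bot.TU.nsmul_mem (ℓ.bot.toQS_mem_TU n) p)
      rw [key1 I hI0 ⟨_, hmem⟩ hd]
      have e : (⟨s.1 + p • ℓ.bot.toQS n, hmem⟩ : ↥(ℓ.bot.TU)) =
          s + p • ⟨ℓ.bot.toQS n, ℓ.bot.toQS_mem_TU n⟩ := Subtype.ext rfl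
      rw [e, map_add, map_nsmul, hA, add_zero, hs]
      rfl
  have hkill : ∀ 𝔄 : Ideal (𝓞 ℓ.top.field), 𝔄 ≠ ⊥ →
      Ideal.relNorm (𝓞 ℓ.bot.field) 𝔄 ⊔ F4G.rbMod ℓ.bot.field ℓ.bot.T k' = ⊤ →
      cls (Ideal.relNorm (𝓞 ℓ.bot.field) 𝔄) = 1 := by
    intro 𝔄 h𝔄 _
    obtain ⟨t', ht', hd'⟩ := capM 𝔄 h𝔄
    have h1 := ℓ.isDivS_bot_cnorm 𝔄 h𝔄 mM hd'
    have hrel0 : Ideal.relNorm (𝓞 ℓ.bot.field) 𝔄 ≠ ⊥ := by
      rwa [Ne, Ideal.relNorm_eq_bot_iff]
    have h2 := key _ hrel0 mM ⟨_, ℓ.cnorm_mem_bot_TU ht'⟩ h1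
    rw [hnorm t' ht', smul_zero] at h2
    have h3 := sec_eq_zero_of_nsmul hp hA hmM h2
    show Multiplicative.ofAdd (m' • Ψ (tF _)) = 1
    rw [h3, smul_zero]
    rfl
  have hfin := Fermat.Agent.F4Ray.secondIneqRay ℓ.bot.field ℓ.top.field
    (F4G.rbMod ℓ.bot.field ℓ.bot.T k') (Multiplicative A) cls hray' hkill
  rw [ℓ.finrank_eq, Fintype.card_multiplicative] at hfin
  exact hfin

end LayerS

namespace KForm

variable {G : Type} [Group G] (K : KForm G)

/-- `pr (d t) ∈ C^U` for `t ∈ T_U`. -/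
lemma fix_d {U : Subgroup G} {t : K.Q} (ht : t ∈ K.TU U) : Fix K.C U (K.pr (K.d t)) := by
  have h := K.fix (K.JU U).zero_mem ht
  rwa [zero_add] at h

/-- The class map `T_U → C^U`, `t ↦ pr (d t)`. -/
def clU (U : Subgroup G) : ↥(K.TU U) →+ ↥(cfFixSub K.C U) where
  toFun t := ⟨K.pr (K.d t.1), K.fix_d t.2⟩
  map_zero' := Subtype.ext (by
    show K.pr (K.d 0) = 0
    rw [K.d_zero, K.pr_zero])
  map_add' := fun t t' => Subtype.ext (by
    show K.pr (K.d (t.1 + t'.1)) = K.pr (K.d t.1) + K.pr (K.d t'.1)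
    rw [K.d_add, K.pr_add])

@[simp] lemma coe_clU {U : Subgroup G} (t : ↥(K.TU U)) :
    ((K.clU U t : ↥(cfFixSub K.C U)) : K.C) = K.pr (K.d t.1) := rfl

/-- **The `J`-side of the second inequality** (abstract form).  From a surjection `ψ` of `C^U`
killing the norms, the presentation `C^U = pr (J^U + d (T_U))` and the approximation
`J^U = d (Q^U) + p • J^U`, one gets a surjection `Ψ = ψ ∘ pr ∘ d` of `T_U` killing the units, the
elements of `Q^U` which are `p`-th powers in `J^U`, and the norms from `T_V`. -/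
theorem exists_Psi (p : ℕ) [Fact p.Prime] {U V : Subgroup G} {σ : G} (hc : IsCyc p U V σ)
    {A : Type} [AddCommGroup A] (ψ : ↥(cfFixSub K.C U) →+ A) (hψs : Function.Surjective ψ)
    (hψN : ∀ (y : K.C) (hy : Fix K.C V y), ψ ⟨cnorm K.C p σ y, acf3_fix_cnorm hc hy⟩ = 0)
    (hpres : ∀ c : K.C, Fix K.C U c → ∃ x ∈ K.JU U, ∃ t ∈ K.TU U, c = K.pr (x + K.d t))
    (happ : ∀ x ∈ K.JU U, ∃ f ∈ K.QU U, ∃ y ∈ K.JU U, x = K.d f + p • y) :
    (∀ z : A, p • z = 0) ∧ Function.Surjective (ψ.comp (K.clU U)) ∧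
      (∀ (e : K.Q) (he : e ∈ K.E), ψ.comp (K.clU U) ⟨e, K.E_le_TU U he⟩ = 0) ∧
      (∀ (f : K.Q) (hf : f ∈ K.QU U), (∃ y ∈ K.JU U, K.d f = p • y) →
        ψ.comp (K.clU U) ⟨f, K.QU_le_TU U hf⟩ = 0) ∧
      (∀ (t : K.Q) (ht : t ∈ K.TU V) (h : cnorm K.Q p σ t ∈ K.TU U),
        ψ.comp (K.clU U) ⟨cnorm K.Q p σ t, h⟩ = 0) := by
  -- `A` is killed by `p`
  have hA : ∀ z : A, p • z = 0 := by
    intro z
    obtain ⟨c, rfl⟩ := hψs z
    rw [← map_nsmul]
    have hcV : Fix K.C V (c : K.C) := fun g hg => c.2 g (hc.le hg)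
    have e : p • c = ⟨cnorm K.C p σ (c : K.C), acf3_fix_cnorm hc hcV⟩ := by
      apply Subtype.ext
      rw [AddSubgroup.coe_nsmul]
      exact (sl1_cnorm_of_fix K.C p hc.mem c.2).symm
    rw [e]
    exact hψN _ hcV
  -- classes of the elements of `J^U`
  have hJ : ∀ y ∈ K.JU U, Fix K.C U (K.pr y) := by
    intro y hy g hg
    rw [← K.pr_comm, hy g hg]
  refine ⟨hA, ?_, ?_, ?_, ?_⟩
  · -- surjectivity
    intro z
    obtain ⟨c, rfl⟩ := hψs z
    obtain ⟨x, hx, t, ht, hcx⟩ := hpres c.1 c.2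
    obtain ⟨f, hf, y, hy, hxy⟩ := happ x hx
    have hft : f + t ∈ K.TU U := (K.TU U).add_mem (K.QU_le_TU U hf) ht
    refine ⟨⟨f + t, hft⟩, ?_⟩
    have e : c = K.clU U ⟨f + t, hft⟩ + p • ⟨K.pr y, hJ y hy⟩ := by
      apply Subtype.ext
      rw [AddSubgroup.coe_add, AddSubgroup.coe_nsmul, coe_clU, hcx, hxy, K.d_add, ← K.pr_nsmul,
        ← K.pr_add]
      congr 1
      abel
    show ψ (K.clU U ⟨f + t, hft⟩) = ψ c
    rw [e, map_add, map_nsmul, hA, add_zero]
  · -- units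
    intro e he
    have h0 : K.clU U ⟨e, K.E_le_TU U he⟩ = 0 := Subtype.ext (K.pr_d_of_mem he)
    show ψ (K.clU U ⟨e, K.E_le_TU U he⟩) = 0
    rw [h0, map_zero]
  · -- `p`-th powers
    rintro f hf ⟨y, hy, hfy⟩
    have h0 : K.clU U ⟨f, K.QU_le_TU U hf⟩ = p • ⟨K.pr y, hJ y hy⟩ := by
      apply Subtype.ext
      rw [AddSubgroup.coe_nsmul, coe_clU, hfy, K.pr_nsmul]
    show ψ (K.clU U ⟨f, K.QU_le_TU U hf⟩) = 0
    rw [h0, map_nsmul, hA]
  · -- norms
    intro t ht h
    have hV : Fix K.C V (K.pr (K.d t)) := K.fix_d ht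
    have h0 : K.clU U ⟨cnorm K.Q p σ t, h⟩ =
        ⟨cnorm K.C p σ (K.pr (K.d t)), acf3_fix_cnorm hc hV⟩ := by
      apply Subtype.ext
      rw [coe_clU]
      show K.pr (K.d (cnorm K.Q p σ t)) = cnorm K.C p σ (K.pr (K.d t))
      rw [K.cnorm_pr, K.cnorm_d]
    show ψ (K.clU U ⟨cnorm K.Q p σ t, h⟩) = 0
    rw [h0]
    exact hψN _ hV

end KForm


/-! ### The second inequality -/

section Final

variable (p : ℕ) [Fact p.Prime] (S : Finset Nat.Primes)

/-- **Second inequality** for `C = J / E`. -/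
theorem dict_second_pf (hpS : pPrime p ∈ S) (U V : Subgroup GQ) (σ : GQ)
    (hV : (levelsS S).IsOpen V) (hc : IsCyc p U V σ) (a b : Crep S)
    (ha : Fix (Crep S) U a) (hb : Fix (Crep S) U b) (hna : ¬ IsNormFrom (Crep S) p V σ a) :
    ∃ k : ℕ, IsNormFrom (Crep S) p V σ (b - k • a) := by
  classical
  by_contra hcon
  rw [not_exists] at hcon
  have hp : p.Prime := Fact.out
  have hS : S.Nonempty := ⟨_, hpS⟩
  obtain ⟨ψ, hψs, hψN⟩ := exists_functional_of_not_second (Crep S) p U V σ hc a b ha hb hna hcon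
  obtain ⟨k₀, hk₀⟩ := OpenS.exists_smul_of_nearOne S (p := p) hp.pos
  obtain ⟨k', hk'⟩ := (LayerS.ofCyc hV hc).bot.nearOne_diagJ_of_oneMod k₀
  have hpres : ∀ c : (kfS S hS).C, Fix (kfS S hS).C U c →
      ∃ x ∈ (kfS S hS).JU U, ∃ t ∈ (kfS S hS).TU U, c = (kfS S hS).pr (x + (kfS S hS).d t) :=
    fun c hcU => kappa_pres S hS U (LayerS.ofCyc hV hc).bot.isOpen c hcU
  have happ : ∀ x ∈ (kfS S hS).JU U, ∃ f ∈ (kfS S hS).QU U, ∃ y ∈ (kfS S hS).JU U,
      x = (kfS S hS).d f + p • y := by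
    intro x hx
    obtain ⟨f, u, hu, hnear, hxu⟩ :=
      (LayerS.ofCyc hV hc).bot.jApprox_of (LayerS.ofCyc hV hc).bot.placesConj hx k₀
    obtain ⟨y, hy, huy⟩ := hk₀ (LayerS.ofCyc hV hc).bot u hu hnear
    refine ⟨(LayerS.ofCyc hV hc).bot.toQS f, (LayerS.ofCyc hV hc).bot.toQS_fixed f, y, hy, ?_⟩
    rw [hxu, huy]
    rfl
  obtain ⟨hA, hΨs, hΨE, hΨp, hΨN⟩ := (kfS S hS).exists_Psi p hc ψ hψs hψN hpres happ
  have hcard := (LayerS.ofCyc hV hc).sec_main hpS (ψ.comp ((kfS S hS).clU U)) hΨE hA k'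
    (fun f hf => by
      have h1 := hk' f hf
      obtain ⟨y, hy, hfy⟩ := hk₀ (LayerS.ofCyc hV hc).bot _
        (ja_diagJ_mem_JU (LayerS.ofCyc hV hc).bot f) h1
      exact hΨp _ ((LayerS.ofCyc hV hc).bot.toQS_fixed f) ⟨y, hy, hfy⟩)
    (fun t ht => hΨN t ht ((LayerS.ofCyc hV hc).cnorm_mem_bot_TU ht))
    hΨs
  rw [Fintype.card_prod, ZMod.card] at hcard
  have h2 : p < p * p := by
    have := hp.one_lt
    nlinarith
  omega

end Final

end Fermat.Agent.F4
end MergeWrap_F4_Dict_Second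

section MergeWrap_F4_Dict_DivFinB -- from F4/Dict/DivFinB.lean

/-!
# F4 / Dict / DivFinB : every divisor of `t ∈ T_U` has finite support outside `L.T`
(sub-lemma EX-1 of helper95's `EX-FIN` plan; owner helper49)

`L : OpenS S`.  If `d` is *a* divisor of `t` (`L.IsDivS t d`), then `d v ≠ 0` for only finitely many
`v ∉ L.T`: outside `L.T` the divisor is unique (`IsDivS.eq_of_primeBelow` and helper32's
`exists_primeBelowAt`), and `t` has a finitely supported divisor (`exists_isDivS_fin`).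
-/

set_option autoImplicit false

open CategoryTheory groupCohomology ExtCitation
open scoped Pointwise
open NumberField IsDedekindDomain

namespace Fermat.Agent.F4

namespace OpenS

variable {S : Finset Nat.Primes} (L : OpenS S)

/-- Two divisors of the same `t` agree outside `L.T`. -/
lemma IsDivS.eq_of_not_mem_T {t : QSx S} {d d' : HeightOneSpectrum (𝓞 L.field) → ℤ}
    (h : L.IsDivS t d) (h' : L.IsDivS t d') (v : HeightOneSpectrum (𝓞 L.field)) (hv : v ∉ L.T) :
    d v = d' v := by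
  obtain ⟨q, hq, A, hA, rfl⟩ := L.exists_primeBelowAt v hv
  exact h.eq_of_primeBelow h' q hq A hA _ rfl

/-- **EX-1.**  A divisor of `t` has finite support outside `L.T`. -/
theorem IsDivS.finite_support {t : QSx S} {d : HeightOneSpectrum (𝓞 L.field) → ℤ}
    (h : L.IsDivS t d) : {v : HeightOneSpectrum (𝓞 L.field) | v ∉ L.T ∧ d v ≠ 0}.Finite := by
  obtain ⟨d₁, hd₁, hfin, -⟩ := L.exists_isDivS_fin t h.mem_TU
  refine hfin.subset ?_
  rintro v ⟨hvT, hv⟩
  rw [Function.mem_support, ← IsDivS.eq_of_not_mem_T L h hd₁ v hvT]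
  exact hv

end OpenS

end Fermat.Agent.F4
end MergeWrap_F4_Dict_DivFinB

section MergeWrap_F4_Dict_ExistSplit -- from F4/Dict/ExistSplit.lean

/-!
# F4 / Dict / ExistSplit : the Kummer package of a layer (seat EX-6 of `dict_exist`)
(helper71; statement of helper95's note v2)

`F = ℓ.bot.field ⊇ ℚ(μ_p)`, `M = ℓ.top.field`, `[M : F] = p`, `α ∈ M` with `α ^ p = x ∈ Fˣ`, `x ∉ F^p`.
Then `F` contains a primitive `p`-th root of unity, `X ^ p - x` is irreducible over `F` and `M` is its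
splitting field.
-/

set_option autoImplicit false
set_option linter.style.haveILetI false

open CategoryTheory groupCohomology ExtCitation
open NumberField IsDedekindDomain Polynomial

namespace Fermat.Agent.F4

variable {p : ℕ} [Fact p.Prime] {S : Finset Nat.Primes}

/-- A field of a level below `U0` contains a primitive `p`-th root of unity. -/
theorem OpenS.exists_primitiveRoot (L : OpenS S)
    (hU0 : L.U ≤ MonoidHom.ker (cycloChar p)) :
    ∃ ζ : L.field, IsPrimitiveRoot ζ p := by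
  have hp : p.Prime := Fact.out
  haveI : NeZero p := ⟨hp.ne_zero⟩
  haveI : NeZero ((p : ℕ) : AlgebraicClosure ℚ) := ⟨Nat.cast_ne_zero.2 hp.ne_zero⟩
  obtain ⟨ζ', hζ'⟩ := HasEnoughRootsOfUnity.exists_primitiveRoot (AlgebraicClosure ℚ) p
  have hμ := F4Cf.two_fix_mu (p := p) (U := L.U) hU0
  have hmem : ζ' ∈ L.field := (L.mem_field_iff ζ').2 fun g hg => hμ g hg ζ' hζ'.pow_eq_one
  refine ⟨⟨ζ', hmem⟩, ?_⟩
  exact IsPrimitiveRoot.of_map_of_injective (f := algebraMap L.field (AlgebraicClosure ℚ))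
    hζ' (algebraMap L.field (AlgebraicClosure ℚ)).injective

/-- **EX-6.**  The Kummer package of the layer `M / F` generated by a `p`-th root of `x ∉ F^p`. -/
theorem LayerS.kummer_package (ℓ : LayerS p S)
    (hU0 : ℓ.bot.U ≤ MonoidHom.ker (cycloChar p))
    (x : (ℓ.bot.field)ˣ) (α : ℓ.top.field)
    (hα : α ^ p = algebraMap ℓ.bot.field ℓ.top.field (x : ℓ.bot.field))
    (hxp : ∀ b : ℓ.bot.field, b ^ p ≠ (x : ℓ.bot.field)) :
    (∃ ζ : ℓ.bot.field, IsPrimitiveRoot ζ p) ∧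
    Irreducible (X ^ p - C (x : ℓ.bot.field) : (ℓ.bot.field)[X]) ∧
    IsSplittingField ℓ.bot.field ℓ.top.field (X ^ p - C (x : ℓ.bot.field)) := by
  have hp : p.Prime := Fact.out
  have hfr : Module.finrank ℓ.bot.field ℓ.top.field = p := ℓ.finrank_eq
  obtain ⟨ζ, hζ⟩ := ℓ.bot.exists_primitiveRoot hU0
  refine ⟨⟨ζ, hζ⟩, X_pow_sub_C_irreducible_of_prime hp hxp, ?_⟩
  -- `F(α) = M`
  have hsimple : IsSimpleOrder (IntermediateField ℓ.bot.field ℓ.top.field) :=
    IntermediateField.isSimpleOrder_of_finrank_prime ℓ.bot.field ℓ.top.field (by rw [hfr]; exact hp)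
  have htop : IntermediateField.adjoin ℓ.bot.field {α} = ⊤ := by
    rcases hsimple.eq_bot_or_eq_top (IntermediateField.adjoin ℓ.bot.field {α}) with h | h
    · exfalso
      have hmem : α ∈ (⊥ : IntermediateField ℓ.bot.field ℓ.top.field) := by
        rw [← h]
        exact IntermediateField.mem_adjoin_simple_self _ α
      obtain ⟨b, hb⟩ := IntermediateField.mem_bot.1 hmem
      apply hxp b
      apply (algebraMap ℓ.bot.field ℓ.top.field).injective
      rw [map_pow, hb, hα]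
    · exact h
  have hK : (primitiveRoots (Module.finrank ℓ.bot.field ℓ.top.field) ℓ.bot.field).Nonempty := by
    rw [hfr]
    exact ⟨ζ, (mem_primitiveRoots hp.pos).2 hζ⟩
  have hα' : α ^ (Module.finrank ℓ.bot.field ℓ.top.field)
      = algebraMap ℓ.bot.field ℓ.top.field (x : ℓ.bot.field) := by
    rw [hfr]
    exact hα
  have key := isSplittingField_X_pow_sub_C_of_root_adjoin_eq_top hK hα' htop
  rw [hfr] at key
  exact key

end Fermat.Agent.F4
end MergeWrap_F4_Dict_ExistSplit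

section MergeWrap_F4_Kum_Existence -- from F4/Kum/Existence.lean

/-!
# F4 / GLOB / KUM, seat K9: `KumEx` from `DescentOrth` and `GenAvoid`

Given `S ⊇ {v ∣ p}`, `R` disjoint from `S` and exponents `c` on `R`: choose generating sets `G₁`
avoiding `S ∪ R` and `G₂` avoiding `S ∪ R ∪ G₁`, put `S' = S ∪ G₁ ∪ G₂`, `D = S' \ S`, and let `a₀`
have order `c v` at `v ∈ R` and order `0` at the other primes outside `S'` (possible since `S'`
generates the class group).  The hypothesis of `KumEx` says that `a₀` is orthogonal to the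
`S'`-units of order divisible by `p` on `D`; `DescentOrth` gives `a₀ = e * w`, and `w` is the
witness.
-/

set_option autoImplicit false

open NumberField IsDedekindDomain

namespace Fermat.Agent.F4Kum

open Fermat.Agent.S14SI

/-- A generating set stays generating when enlarged. -/
lemma ke_generates_mono {F : Type*} [Field F] [NumberField F]
    {G G' : Finset (HeightOneSpectrum (𝓞 F))} (h : G ⊆ G') (hG : GeneratesClassGroup F G) :
    GeneratesClassGroup F G' := by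
  rw [GeneratesClassGroup, eq_top_iff] at hG ⊢
  refine hG.trans (Subgroup.closure_mono (Set.image_mono ?_))
  exact Finset.coe_subset.mpr h

/-- **K9**: the existence theorem `KumEx` follows from `DescentOrth` and `GenAvoid`. -/
theorem kumEx_of (hD : DescentOrth) (hG : GenAvoid) : KumEx := by
  intro p F _ _ ζ S R c hp hp2 hζ hS hSR hc
  classical
  obtain ⟨G1, hG1d, hG1⟩ := hG F (S ∪ R)
  obtain ⟨G2, hG2d, hG2⟩ := hG F (S ∪ R ∪ G1)
  set S' : Finset (HeightOneSpectrum (𝓞 F)) := S ∪ G1 ∪ G2 with hS'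
  set D : Finset (HeightOneSpectrum (𝓞 F)) := S' \ S with hDdef
  have hSS' : S ⊆ S' := fun v hv => Finset.mem_union_left _ (Finset.mem_union_left _ hv)
  have hG1S' : G1 ⊆ S' := fun v hv => Finset.mem_union_left _ (Finset.mem_union_right _ hv)
  have hG2S' : G2 ⊆ S' := fun v hv => Finset.mem_union_right _ hv
  -- `R` is disjoint from `S'`
  have hRS' : ∀ v ∈ R, v ∉ S' := by
    intro v hvR hvS'
    rcases Finset.mem_union.1 hvS' with h | h
    · rcases Finset.mem_union.1 h with h | h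
      · exact Finset.disjoint_left.mp hSR h hvR
      · exact Finset.disjoint_left.mp hG1d (Finset.mem_union_right _ hvR) h
    · exact Finset.disjoint_left.mp hG2d
        (Finset.mem_union_left _ (Finset.mem_union_right _ hvR)) h
  have hS'R : Disjoint S' R := Finset.disjoint_right.mpr hRS'
  have hgenS' : GeneratesClassGroup F S' := ke_generates_mono hG1S' hG1
  -- the element `a₀`
  have hgen' : Subgroup.closure ((fun v : HeightOneSpectrum (𝓞 F) =>
      ClassGroup.mk0 ⟨v.asIdeal, mem_nonZeroDivisors_of_ne_zero v.ne_bot⟩) ''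
        (S' : Set (HeightOneSpectrum (𝓞 F)))) = ⊤ := hgenS'
  obtain ⟨a₀, ha₀⟩ := exists_valuation_eq_of_closure_eq_top (K := F) hgen'
    (Finsupp.onFinset R (fun v => if v ∈ R then - c v else 0) (by
      intro v hv
      by_contra hvR
      exact hv (if_neg hvR)))
  have ha₀R : ∀ v ∈ R, thetaOrd v a₀ = c v := by
    intro v hv
    apply thetaOrd_eq_of_valuation
    rw [ha₀ v (by simpa using hRS' v hv), Finsupp.onFinset_apply, if_pos hv, neg_neg]
  have ha₀0 : ∀ v, v ∉ S' → v ∉ R → thetaOrd v a₀ = 0 := by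
    intro v hv hvR
    apply thetaOrd_eq_of_valuation
    rw [ha₀ v (by simpa using hv), Finsupp.onFinset_apply, if_neg hvR, neg_zero]
  -- apply the descent
  obtain ⟨e, w, he, hw, hwD, haew⟩ := hD p F ζ S' D a₀ hp hp2 hζ
    (fun v hv => hSS' (hS v hv)) hgenS' Finset.sdiff_subset
    (fun v hv hpv => (Finset.mem_sdiff.1 hv).2 (hS v hpv))
    (by
      intro v₀ hv₀
      obtain ⟨hv₀S', hv₀S⟩ := Finset.mem_sdiff.1 hv₀
      by_cases h2 : v₀ ∈ G2
      · refine ⟨G1, hG1S', ?_, hG1⟩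
        intro h1
        exact Finset.disjoint_left.mp hG2d (Finset.mem_union_right _ h1) h2
      · exact ⟨G2, hG2S', h2, hG2⟩)
    (by
      intro ε hε hεD
      rw [kumPairing_eq_prod p S' R _ a₀ hS'R ha₀0]
      have hunit : ∀ v, v ∉ S' → thetaOrd v ε = 0 := by
        intro v hv
        rw [thetaOrd_eq_zero_iff]
        exact (mem_sUnits _ ε).1 hε v (by simpa using hv)
      have h1 := hc ε (fun v hv => by
          by_cases hvS' : v ∈ S'
          · exact hεD v (Finset.mem_sdiff.2 ⟨hvS', hv⟩)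
          · rw [hunit v hvS']
            exact dvd_zero _)
        (fun v hv => hunit v (hRS' v hv))
      rw [← h1]
      exact Finset.prod_congr rfl fun v hv => by rw [ha₀R v hv])
  have hth : ∀ v, thetaOrd v a₀ = thetaOrd v e + thetaOrd v w := by
    intro v
    rw [haew, thetaOrd_mul]
  have heunit : ∀ v, v ∉ S' → thetaOrd v e = 0 := by
    intro v hv
    rw [thetaOrd_eq_zero_iff]
    exact (mem_sUnits _ e).1 he v (by simpa using hv)
  refine ⟨w, ?_, ?_, ?_⟩
  · intro v hv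
    exact hw v (hSS' hv) (fun h => (Finset.mem_sdiff.1 h).2 hv)
  · intro v hv
    have h1 := hth v
    rw [ha₀R v hv, heunit v (hRS' v hv), zero_add] at h1
    rw [← h1, sub_self]
    exact dvd_zero _
  · intro v hvS hvR
    by_cases hvS' : v ∈ S'
    · exact hwD v (Finset.mem_sdiff.2 ⟨hvS', hvS⟩)
    · have h1 := hth v
      rw [ha₀0 v hvS' hvR, heunit v hvS', zero_add] at h1
      rw [← h1]
      exact dvd_zero _

end Fermat.Agent.F4Kum
end MergeWrap_F4_Kum_Existence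

section MergeWrap_F4_Kum_Approx -- from F4/Kum/Approx.lean

/-!
# F4 / GLOB / KUM, seats K6 + K7: approximation lemmas

* `approxNonRes : ApproxNonRes` (K6): by the Chinese remainder theorem there is `b ∈ 𝓞 F`,
  `b ≡ 1` modulo a high power of every `v ∈ T` (hence a local `p`-th power at `v`) and
  `b ≡ u₀ mod v₀`, `u₀` a non-residue at `v₀`.
* `localPowIsPowMod : LocalPowIsPowMod` (K7): at `v ∤ p` a unit which is a local `p`-th power is a
  `p`-th power residue.
-/

set_option autoImplicit false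

open NumberField IsDedekindDomain

namespace Fermat.Agent.F4Kum

open Fermat.Agent.S14SI

/-- `IsPowMod` only depends on the class modulo `v`. -/
lemma ka_isPowMod_congr {F : Type*} [Field F] [NumberField F] {v : HeightOneSpectrum (𝓞 F)}
    {p : ℕ} {a b : F} (h : v.valuation F (a - b) < 1) (hb : IsPowMod F v p b) :
    IsPowMod F v p a := by
  obtain ⟨z, hz, hzb⟩ := hb
  refine ⟨z, hz, ?_⟩
  have e : a - (z : F) ^ p = (a - b) + (b - (z : F) ^ p) := by ring
  rw [e]
  exact Valuation.map_add_lt _ h hzb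

/-- **K7**: at a prime `v ∤ p`, a unit which is a local `p`-th power is a `p`-th power residue. -/
theorem localPowIsPowMod : LocalPowIsPowMod := by
  intro p F _ _ ζ u v hp hζ hv hu hloc
  obtain ⟨y, hy0, hy⟩ := hloc
  rw [valuation_sub_one_eq_one v hζ hp.one_lt hv, one_pow] at hy
  -- `u y^p` is a unit at `v`
  have h1 : v.valuation F (u * y ^ p) = 1 := by
    have e : u * y ^ p = 1 + (u * y ^ p - 1) := by ring
    rw [e, Valuation.map_add_eq_of_lt_left _ (by rw [Valuation.map_one]; exact hy),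
      Valuation.map_one]
  have hyp : v.valuation F y ^ p = 1 := by
    rw [Valuation.map_mul, hu, one_mul, Valuation.map_pow] at h1
    exact h1
  have hy1 : v.valuation F y = 1 := by
    rcases lt_trichotomy (v.valuation F y) 1 with h | h | h
    · exact absurd hyp (ne_of_lt (pow_lt_one₀ zero_le h hp.ne_zero))
    · exact h
    · exact absurd hyp (ne_of_gt (one_lt_pow₀ h hp.ne_zero))
  have hyi : v.valuation F y⁻¹ = 1 := by rw [map_inv₀, hy1, inv_one]
  refine ka_isPowMod_congr ?_ (isPowMod_pow_of_valuation_eq_one p hyi)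
  have e : u - y⁻¹ ^ p = (u * y ^ p - 1) * y⁻¹ ^ p := by
    have hyp0 : y ^ p ≠ 0 := pow_ne_zero _ hy0
    rw [inv_pow, sub_mul, mul_assoc, mul_inv_cancel₀ hyp0, mul_one, one_mul]
  rw [e, Valuation.map_mul, Valuation.map_pow, hyi, one_pow, mul_one]
  exact hy

/-- **K6**: there is `b ∈ Fˣ` which is a local `p`-th power at all primes of a finite set `T`,
and a unit but not a `p`-th power residue at a given prime `v₀ ∉ T`, `v₀ ∤ p`. -/
theorem approxNonRes : ApproxNonRes := by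
  intro p F _ _ ζ T v₀ hp hζ hv₀T hv₀p
  classical
  obtain ⟨u0, hu0, hu0n⟩ := exists_not_isPowMod v₀ hp hζ hv₀p
  have hζ1 : ζ - 1 ≠ 0 := sub_ne_zero.mpr (hζ.ne_one hp.one_lt)
  have hex : ∀ v : HeightOneSpectrum (𝓞 F), ∃ n : ℕ,
      WithZero.exp (-(n : ℤ)) < v.valuation F (ζ - 1) ^ p := by
    intro v
    have hne : v.valuation F (ζ - 1) ^ p ≠ 0 :=
      pow_ne_zero _ ((Valuation.ne_zero_iff _).mpr hζ1)
    refine ⟨(1 - WithZero.log (v.valuation F (ζ - 1) ^ p)).toNat, ?_⟩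
    conv_rhs => rw [← WithZero.exp_log hne]
    rw [WithZero.exp_lt_exp]
    have := Int.self_le_toNat (1 - WithZero.log (v.valuation F (ζ - 1) ^ p))
    omega
  choose e he using hex
  obtain ⟨y, hy⟩ := IsDedekindDomain.exists_forall_sub_mem_ideal
    (s := insert v₀ T) (fun v : HeightOneSpectrum (𝓞 F) => v.asIdeal)
    (fun v => if v = v₀ then 1 else e v) (fun v _ => v.prime)
    (fun v _ w _ hvw h => hvw (HeightOneSpectrum.ext h))
    (fun v => if (v : HeightOneSpectrum (𝓞 F)) = v₀ then u0 else 1)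
  -- at `v₀`
  have h0 : y - u0 ∈ v₀.asIdeal := by
    have h := hy v₀ (Finset.mem_insert_self v₀ T)
    simpa using h
  have h0v : v₀.valuation F ((y : F) - (u0 : F)) < 1 := by
    have : ((y - u0 : 𝓞 F) : F) = (y : F) - (u0 : F) := by push_cast; rfl
    rw [← this]
    exact (v₀.valuation_lt_one_iff_mem (K := F) _).mpr h0
  have hy_notmem : y ∉ v₀.asIdeal := by
    intro hmem
    apply hu0
    have := v₀.asIdeal.sub_mem hmem h0
    simpa using this
  have hy0 : (algebraMap (𝓞 F) F y) ≠ 0 := by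
    intro h
    have hy0 : y = 0 := by simpa using h
    rw [hy0] at hy_notmem
    exact hy_notmem v₀.asIdeal.zero_mem
  refine ⟨Units.mk0 _ hy0, ?_, ?_, ?_⟩
  · intro v hvT
    have hne : v ≠ v₀ := fun h => hv₀T (h ▸ hvT)
    have h := hy v (Finset.mem_insert_of_mem hvT)
    simp only [if_neg hne] at h
    have h2 : v.intValuation (y - 1) ≤ WithZero.exp (-(e v : ℕ) : ℤ) :=
      (v.intValuation_le_pow_iff_mem _ (e v)).mpr h
    refine ⟨1, one_ne_zero, ?_⟩
    rw [Units.val_mk0, one_pow, mul_one]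
    have : ((y - 1 : 𝓞 F) : F) = algebraMap (𝓞 F) F y - 1 := by push_cast; rfl
    rw [← this, HeightOneSpectrum.valuation_of_algebraMap]
    exact lt_of_le_of_lt h2 (he v)
  · rw [Units.val_mk0, HeightOneSpectrum.valuation_of_algebraMap]
    exact (HeightOneSpectrum.intValuation_eq_one_iff).mpr hy_notmem
  · intro hpow
    apply hu0n
    rw [Units.val_mk0] at hpow
    refine ka_isPowMod_congr ?_ hpow
    rw [Valuation.map_sub_swap]
    exact h0v

end Fermat.Agent.F4Kum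
end MergeWrap_F4_Kum_Approx

section MergeWrap_F4_Kum_Descent -- from F4/Kum/Descent.lean

/-!
# F4 / GLOB / KUM (K5): descent from a level `S` generating the class group to `S \ D`

`descentOrth : Rec1 → ApproxNonRes → LocalPowIsPowMod → DescentOrth`, by induction on `D`.
Removing one prime `v₀` (step): either all relevant units have order divisible by `p` at `v₀`
(nothing to do), or there is `ε₁` of order prime to `p` at `v₀`; then for `b` a local `p`-th power
at `S \ {v₀}` and a non-residue unit at `v₀`, `Rec1` for `S \ {v₀}` shows `⟨ε, b⟩ = ω₁ ^ (k ord ε)`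
with `ω₁ = ⟨ε₁, b⟩ ≠ 1` (otherwise `b ∈ E_S U_S` by `levelOrth` and the key lemma for `S \ {v₀}`
gives a contradiction), and `a` is corrected by a power of `b`.
-/

set_option autoImplicit false

open NumberField IsDedekindDomain

namespace Fermat.Agent.F4Kum

open Fermat.Agent.S14SI

variable {F : Type} [Field F] [NumberField F]

lemma thetaOrd_one (v : HeightOneSpectrum (𝓞 F)) : thetaOrd v (1 : Fˣ) = 0 := by
  rw [thetaOrd_eq_zero_iff, Units.val_one, map_one]

lemma thetaOrd_zpow (v : HeightOneSpectrum (𝓞 F)) (x : Fˣ) (n : ℤ) :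
    thetaOrd v (x ^ n) = n * thetaOrd v x := by
  cases n with
  | ofNat n => simpa using thetaOrd_pow v x n
  | negSucc n =>
    rw [zpow_negSucc, thetaOrd_inv, thetaOrd_pow, Int.negSucc_eq]
    push_cast
    ring

/-- The subgroup of the elements of order divisible by `p` at all primes of `D`. -/
def divSubgroup (p : ℕ) (D : Finset (HeightOneSpectrum (𝓞 F))) : Subgroup Fˣ where
  carrier := {x | ∀ v ∈ D, (p : ℤ) ∣ thetaOrd v x}
  one_mem' := fun v _ => by
    show (p : ℤ) ∣ thetaOrd v 1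
    rw [thetaOrd_one]; exact dvd_zero _
  mul_mem' := fun {x y} hx hy v hv => by
    show (p : ℤ) ∣ thetaOrd v (x * y)
    rw [thetaOrd_mul]; exact dvd_add (hx v hv) (hy v hv)
  inv_mem' := fun {x} hx v hv => by
    show (p : ℤ) ∣ thetaOrd v x⁻¹
    rw [thetaOrd_inv]; exact (dvd_neg).mpr (hx v hv)

lemma mem_divSubgroup {p : ℕ} {D : Finset (HeightOneSpectrum (𝓞 F))} {x : Fˣ} :
    x ∈ divSubgroup p D ↔ ∀ v ∈ D, (p : ℤ) ∣ thetaOrd v x := Iff.rfl

/-- The pairing as a bihomomorphism on the `S`-units. -/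
noncomputable def kumBihom {p : ℕ} {ζ : F} (hp : p.Prime) (hζ : IsPrimitiveRoot ζ p)
    {S : Finset (HeightOneSpectrum (𝓞 F))} (hS : ContainsPrimesAbove F p S) :
    ↥(sUnits F (S : Set (HeightOneSpectrum (𝓞 F)))) →* Fˣ →* Fˣ :=
  MonoidHom.mk' (fun ε => kumPairingHom p S (((ε : Fˣ) : F)))
    (fun x y => by
      refine MonoidHom.ext fun b => ?_
      show kumPairing p S (((x * y : ↥(sUnits F (S : Set (HeightOneSpectrum (𝓞 F))))) : Fˣ) : F) b
        = kumPairing p S ((x : Fˣ) : F) b * kumPairing p S ((y : Fˣ) : F) b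
      rw [Subgroup.coe_mul, Units.val_mul]
      exact kumPairing_mul_left symbMul hp hζ hS x.2 y.2 b)

lemma kumBihom_apply {p : ℕ} {ζ : F} (hp : p.Prime) (hζ : IsPrimitiveRoot ζ p)
    {S : Finset (HeightOneSpectrum (𝓞 F))} (hS : ContainsPrimesAbove F p S)
    (ε : ↥(sUnits F (S : Set (HeightOneSpectrum (𝓞 F))))) (b : Fˣ) :
    kumBihom hp hζ hS ε b = kumPairing p S ((ε : Fˣ) : F) b := rfl

/-- A character of the `S`-units which is trivial on the elements of a subgroup `K` of order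
divisible by `p` at `v₀` is, on `K`, a power of the order at `v₀`. -/
lemma char_eq_zpow {p : ℕ} {S : Finset (HeightOneSpectrum (𝓞 F))}
    (χ : ↥(sUnits F (S : Set (HeightOneSpectrum (𝓞 F)))) →* Fˣ) (K : Subgroup Fˣ)
    (v₀ : HeightOneSpectrum (𝓞 F))
    (hvan : ∀ ε : ↥(sUnits F (S : Set (HeightOneSpectrum (𝓞 F)))), (ε : Fˣ) ∈ K →
      (p : ℤ) ∣ thetaOrd v₀ (ε : Fˣ) → χ ε = 1)
    (ε₁ : ↥(sUnits F (S : Set (HeightOneSpectrum (𝓞 F))))) (hε₁ : (ε₁ : Fˣ) ∈ K) (k : ℤ)
    (hk : (p : ℤ) ∣ k * thetaOrd v₀ (ε₁ : Fˣ) - 1)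
    (ε : ↥(sUnits F (S : Set (HeightOneSpectrum (𝓞 F))))) (hε : (ε : Fˣ) ∈ K) :
    χ ε = χ ε₁ ^ (k * thetaOrd v₀ (ε : Fˣ)) := by
  set θ := thetaOrd v₀ (ε : Fˣ) with hθ
  have h1 : χ (ε * ε₁ ^ (-(k * θ))) = 1 := by
    apply hvan
    · rw [Subgroup.coe_mul, Subgroup.coe_zpow]
      exact K.mul_mem hε (K.zpow_mem hε₁ _)
    · rw [Subgroup.coe_mul, Subgroup.coe_zpow, thetaOrd_mul, thetaOrd_zpow]
      obtain ⟨c, hc⟩ := hk
      refine ⟨-(θ * c), ?_⟩
      have : k * thetaOrd v₀ (ε₁ : Fˣ) = (p : ℤ) * c + 1 := by linarith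
      rw [← hθ]
      calc θ + -(k * θ) * thetaOrd v₀ (ε₁ : Fˣ)
          = θ - θ * (k * thetaOrd v₀ (ε₁ : Fˣ)) := by ring
        _ = θ - θ * ((p : ℤ) * c + 1) := by rw [this]
        _ = (p : ℤ) * -(θ * c) := by ring
  rw [map_mul, map_zpow, zpow_neg, mul_inv_eq_one] at h1
  exact h1

/-- The subgroup `W_D` of the elements which are local `p`-th powers at the primes of `S \ D` and
of order divisible by `p` at the primes of `D`. -/
def wSub (p : ℕ) (ζ : F) (hζ : IsPrimitiveRoot ζ p) (hp : 1 < p)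
    (S D : Finset (HeightOneSpectrum (𝓞 F))) : Subgroup Fˣ where
  carrier := {x | (∀ v ∈ S, v ∉ D → IsLocalPow F v p ζ (x : F)) ∧
    ∀ v ∈ D, (p : ℤ) ∣ thetaOrd v x}
  one_mem' := ⟨fun v _ _ => by simpa using isLocalPow_one v (hζ.ne_one hp),
    (divSubgroup p D).one_mem⟩
  mul_mem' := fun {x y} hx hy => ⟨fun v hv hvD => by
    simpa using (hx.1 v hv hvD).mul (valuation_sub_one_le_one v hζ (by omega)) (hy.1 v hv hvD),
    (divSubgroup p D).mul_mem hx.2 hy.2⟩
  inv_mem' := fun {x} hx => ⟨fun v hv hvD => by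
    simpa using (hx.1 v hv hvD).inv (valuation_sub_one_le_one v hζ (by omega)),
    (divSubgroup p D).inv_mem hx.2⟩

lemma mem_wSub {p : ℕ} {ζ : F} {hζ : IsPrimitiveRoot ζ p} {hp : 1 < p}
    {S D : Finset (HeightOneSpectrum (𝓞 F))} {x : Fˣ} :
    x ∈ wSub p ζ hζ hp S D ↔ (∀ v ∈ S, v ∉ D → IsLocalPow F v p ζ (x : F)) ∧
      ∀ v ∈ D, (p : ℤ) ∣ thetaOrd v x := Iff.rfl

lemma generatesClassGroup_mono {G G' : Finset (HeightOneSpectrum (𝓞 F))} (h : G ⊆ G')
    (hG : GeneratesClassGroup F G) : GeneratesClassGroup F G' := by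
  rw [GeneratesClassGroup, eq_top_iff] at hG ⊢
  exact hG.trans (Subgroup.closure_mono (Set.image_mono (by exact_mod_cast h)))

/-- An element with prescribed order at `v₀ ∉ G` and no other zero or pole outside `G ∪ {v₀}`. -/
lemma exists_thetaOrd_eq_away {G : Finset (HeightOneSpectrum (𝓞 F))}
    (hgen : GeneratesClassGroup F G) {v₀ : HeightOneSpectrum (𝓞 F)} (hv₀ : v₀ ∉ G) (m : ℤ) :
    ∃ c : Fˣ, thetaOrd v₀ c = m ∧ ∀ v, v ∉ G → v ≠ v₀ → thetaOrd v c = 0 := by
  classical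
  have hgen' : Subgroup.closure ((fun v : HeightOneSpectrum (𝓞 F) =>
      ClassGroup.mk0 ⟨v.asIdeal, mem_nonZeroDivisors_of_ne_zero v.ne_bot⟩) ''
        (G : Set (HeightOneSpectrum (𝓞 F)))) = ⊤ := hgen
  obtain ⟨c, hc⟩ := exists_valuation_eq_of_closure_eq_top (K := F) hgen'
    (Finsupp.single v₀ (-m))
  refine ⟨c, ?_, ?_⟩
  · apply thetaOrd_eq_of_valuation
    rw [hc v₀ (by simpa using hv₀)]
    simp
  · intro v hv hne
    apply thetaOrd_eq_of_valuation
    rw [hc v (by simpa using hv)]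
    simp [Ne.symm hne]

/-- The non-vanishing step: `b`, a local `p`-th power at `S \ {v₀}` and a non-residue unit at
`v₀`, is not orthogonal to all `S`-units. -/
lemma not_orthogonal_of_nonRes (hR : Rec1) (hL : LocalPowIsPowMod)
    [DecidableEq (HeightOneSpectrum (𝓞 F))]
    {p : ℕ} {ζ : F} (hp : p.Prime) (hp2 : p ≠ 2) (hζ : IsPrimitiveRoot ζ p)
    {S : Finset (HeightOneSpectrum (𝓞 F))} (hS : ContainsPrimesAbove F p S)
    (hgen : GeneratesClassGroup F S) {v₀ : HeightOneSpectrum (𝓞 F)} (hv₀S : v₀ ∈ S)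
    (hpv₀ : (p : 𝓞 F) ∉ v₀.asIdeal)
    (hG : ∃ G : Finset (HeightOneSpectrum (𝓞 F)), G ⊆ S ∧ v₀ ∉ G ∧ GeneratesClassGroup F G)
    {b : Fˣ} (hbloc : ∀ v ∈ S.erase v₀, IsLocalPow F v p ζ (b : F))
    (hbunit : v₀.valuation F (b : F) = 1) (hbnon : ¬ IsPowMod F v₀ p (b : F))
    (hbE : ∀ ε : Fˣ, ε ∈ sUnits F (S : Set (HeightOneSpectrum (𝓞 F))) →
      kumPairing p S (ε : F) b = 1) : False := by
  obtain ⟨e, u, heE, hu, hbeu⟩ := levelOrth hR p F ζ S b hp hp2 hζ hS hgen hbE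
  obtain ⟨G, hGS, hv₀G, hgenG⟩ := hG
  have hGG' : G ⊆ S.erase v₀ := fun v hv =>
    Finset.mem_erase.mpr ⟨fun h => hv₀G (h ▸ hv), hGS hv⟩
  have hgen' : GeneratesClassGroup F (S.erase v₀) := generatesClassGroup_mono hGG' hgenG
  have hS' : ContainsPrimesAbove F p (S.erase v₀) := fun v hv =>
    Finset.mem_erase.mpr ⟨fun h => hpv₀ (h ▸ hv), hS v hv⟩
  have hζle : ∀ v : HeightOneSpectrum (𝓞 F), v.valuation F (ζ - 1) ≤ 1 :=
    fun v => valuation_sub_one_le_one v hζ hp.pos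
  have he : e = b * u⁻¹ := by rw [hbeu]; group
  -- `e` is a local `p`-th power on `S \ {v₀}`
  have heloc : e ∈ localPowSubgroup F p ζ hζ hp.one_lt (S.erase v₀) := by
    rw [he]
    refine Subgroup.mul_mem _ (fun v hv => hbloc v hv) (Subgroup.inv_mem _ (fun v hv => ?_))
    exact hu v (Finset.mem_of_mem_erase hv)
  -- the order of `e` at `v₀` is divisible by `p`
  have hediv : (p : ℤ) ∣ thetaOrd v₀ e := by
    rw [he, thetaOrd_mul, thetaOrd_inv, (thetaOrd_eq_zero_iff v₀ b).mpr hbunit, zero_add]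
    exact (dvd_neg).mpr (dvd_thetaOrd_of_isLocalPow hζ hp.pos v₀ u (hu v₀ hv₀S))
  obtain ⟨m₀, hm₀⟩ := hediv
  obtain ⟨c, hc0, hc⟩ := exists_thetaOrd_eq_away hgen' (Finset.notMem_erase v₀ S) m₀
  -- `e' = e / c ^ p` is an `S \ {v₀}`-unit and a local `p`-th power there
  have he'E : e * (c ^ p)⁻¹ ∈ sUnits F ((S.erase v₀ : Finset (HeightOneSpectrum (𝓞 F))) :
      Set (HeightOneSpectrum (𝓞 F))) := by
    rw [mem_sUnits]
    intro v hv
    rw [← thetaOrd_eq_zero_iff, thetaOrd_mul, thetaOrd_inv, thetaOrd_pow]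
    by_cases hvv : v = v₀
    · subst hvv
      rw [hm₀, hc0]; ring
    · have hvS : v ∉ S := fun h => hv (by exact_mod_cast Finset.mem_erase.mpr ⟨hvv, h⟩)
      have h1 : thetaOrd v e = 0 := by
        rw [thetaOrd_eq_zero_iff]
        exact (mem_sUnits _ e).mp heE v (by simpa using hvS)
      rw [h1, hc v (fun h => hv (by exact_mod_cast h)) hvv]; ring
  have he'U : e * (c ^ p)⁻¹ ∈ localPowSubgroup F p ζ hζ hp.one_lt (S.erase v₀) :=
    Subgroup.mul_mem _ heloc (Subgroup.inv_mem _ (pow_mem_localPowSubgroup hζ hp.one_lt _ c))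
  obtain ⟨z, -, hz⟩ := inf_le_sUnitsPow hp hp2 hζ hS' hgen' ⟨he'U, he'E⟩
  rw [powMonoidHom_apply] at hz
  have hepow : e = (z * c) ^ p := by
    rw [mul_pow, hz]; group
  -- so `b` is a local `p`-th power at `v₀`
  have hbloc₀ : IsLocalPow F v₀ p ζ (b : F) := by
    have h1 : IsLocalPow F v₀ p ζ ((e : Fˣ) : F) := by
      rw [hepow]
      exact pow_mem_localPowSubgroup hζ hp.one_lt {v₀} (z * c) v₀ (Finset.mem_singleton_self v₀)
    have h2 := h1.mul (hζle v₀) (hu v₀ hv₀S)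
    rw [hbeu, Units.val_mul]
    exact h2
  exact hbnon (hL p F ζ b v₀ hp hζ hpv₀ hbunit hbloc₀)

lemma wSub_mono_insert [DecidableEq (HeightOneSpectrum (𝓞 F))] {p : ℕ} {ζ : F}
    (hζ : IsPrimitiveRoot ζ p) (hp : 1 < p) (S D : Finset (HeightOneSpectrum (𝓞 F)))
    {v₀ : HeightOneSpectrum (𝓞 F)} (hv₀S : v₀ ∈ S) (hv₀D : v₀ ∉ D) :
    wSub p ζ hζ hp S D ≤ wSub p ζ hζ hp S (insert v₀ D) := by
  intro x hx
  refine ⟨fun v hv hvD => hx.1 v hv (fun h => hvD (Finset.mem_insert_of_mem h)), ?_⟩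
  intro v hv
  rcases Finset.mem_insert.mp hv with rfl | hvD
  · exact dvd_thetaOrd_of_isLocalPow hζ (by omega) v x (hx.1 v hv₀S hv₀D)
  · exact hx.2 v hvD

/-- The inductive step of the descent: removal of one prime `v₀`. -/
theorem descent_step (hR : Rec1) (hA : ApproxNonRes) (hL : LocalPowIsPowMod)
    [DecidableEq (HeightOneSpectrum (𝓞 F))]
    {p : ℕ} {ζ : F} (hp : p.Prime) (hp2 : p ≠ 2) (hζ : IsPrimitiveRoot ζ p)
    {S : Finset (HeightOneSpectrum (𝓞 F))} (hS : ContainsPrimesAbove F p S)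
    (hgen : GeneratesClassGroup F S) (D : Finset (HeightOneSpectrum (𝓞 F))) (hDS : D ⊆ S)
    {v₀ : HeightOneSpectrum (𝓞 F)} (hv₀S : v₀ ∈ S) (hv₀D : v₀ ∉ D)
    (hpv₀ : (p : 𝓞 F) ∉ v₀.asIdeal)
    (hG : ∃ G : Finset (HeightOneSpectrum (𝓞 F)), G ⊆ S ∧ v₀ ∉ G ∧ GeneratesClassGroup F G)
    (IH : ∀ a : Fˣ, (∀ ε : Fˣ, ε ∈ sUnits F (S : Set (HeightOneSpectrum (𝓞 F))) →
        ε ∈ divSubgroup p D → kumPairing p S (ε : F) a = 1) →
      a ∈ sUnits F (S : Set (HeightOneSpectrum (𝓞 F))) ⊔ wSub p ζ hζ hp.one_lt S D)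
    (a : Fˣ) (ha : ∀ ε : Fˣ, ε ∈ sUnits F (S : Set (HeightOneSpectrum (𝓞 F))) →
        ε ∈ divSubgroup p (insert v₀ D) → kumPairing p S (ε : F) a = 1) :
    a ∈ sUnits F (S : Set (HeightOneSpectrum (𝓞 F))) ⊔ wSub p ζ hζ hp.one_lt S (insert v₀ D) := by
  set E : Subgroup Fˣ := sUnits F (S : Set (HeightOneSpectrum (𝓞 F))) with hE
  have hWmono := wSub_mono_insert hζ hp.one_lt S D hv₀S hv₀D
  by_cases hall : ∀ ε : Fˣ, ε ∈ E → ε ∈ divSubgroup p D → (p : ℤ) ∣ thetaOrd v₀ ε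
  · -- nothing to do
    refine sup_le_sup_left hWmono _ (IH a fun ε hε hεD => ha ε hε ?_)
    intro v hv
    rcases Finset.mem_insert.mp hv with rfl | hvD
    · exact hall ε hε hεD
    · exact hεD v hvD
  · push Not at hall
    obtain ⟨ε₁, hε₁E, hε₁D, hε₁⟩ := hall
    -- `k` with `k * ord ε₁ ≡ 1 mod p`
    obtain ⟨k, hk⟩ : ∃ k : ℤ, (p : ℤ) ∣ k * thetaOrd v₀ ε₁ - 1 := by
      have hpp : Prime (p : ℤ) := Nat.prime_iff_prime_int.mp hp
      obtain ⟨u, w, huw⟩ := (hpp.coprime_iff_not_dvd).mpr hε₁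
      exact ⟨w, -u, by linarith⟩
    -- the auxiliary element `b`
    obtain ⟨b, hbloc, hbunit, hbnon⟩ :=
      hA p F ζ (S.erase v₀) v₀ hp hζ (Finset.notMem_erase v₀ S) hpv₀
    have hbθ : thetaOrd v₀ b = 0 := (thetaOrd_eq_zero_iff v₀ b).mpr hbunit
    have hS' : ContainsPrimesAbove F p (S.erase v₀) := fun v hv =>
      Finset.mem_erase.mpr ⟨fun h => hpv₀ (h ▸ hv), hS v hv⟩
    -- `b` is orthogonal to the units of order divisible by `p` at `v₀`
    have hB : ∀ ε : Fˣ, ε ∈ E → (p : ℤ) ∣ thetaOrd v₀ ε → kumPairing p S (ε : F) b = 1 := by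
      intro ε hε hdiv
      have hunit : ∀ v, v ∉ S → thetaOrd v ε = 0 := fun v hv => by
        rw [thetaOrd_eq_zero_iff]
        exact (mem_sUnits _ ε).mp hε v (by simpa using hv)
      have h1 := hR p F ζ (S.erase v₀) ε b hp hp2 hζ hS' ?_ ?_ (fun v hv => hbloc v hv)
      · rw [kumPairing_erase p S (ε : F) b hv₀S, hbθ, zpow_zero, mul_one] at h1
        exact h1
      · intro v hv
        by_cases hvv : v = v₀
        · rw [hvv]; exact hdiv
        · rw [hunit v (fun h => hv (Finset.mem_erase.mpr ⟨hvv, h⟩))]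
          exact dvd_zero _
      · intro v hv hnd
        by_cases hvv : v = v₀
        · exact absurd (by rw [hvv, hbθ]; exact dvd_zero _) hnd
        · exact hunit v (fun h => hv (Finset.mem_erase.mpr ⟨hvv, h⟩))
    -- the characters `⟨·, b⟩` and `⟨·, a⟩`
    set β := kumBihom hp hζ hS with hβ
    let χb : ↥E →* Fˣ := (MonoidHom.eval b).comp β
    let χa : ↥E →* Fˣ := (MonoidHom.eval a).comp β
    have hχb : ∀ ε : ↥E, χb ε = kumPairing p S (((ε : Fˣ)) : F) b := fun _ => rfl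
    have hχa : ∀ ε : ↥E, χa ε = kumPairing p S (((ε : Fˣ)) : F) a := fun _ => rfl
    have hC := char_eq_zpow (p := p) χb ⊤ v₀ (fun ε _ hdiv => hB ε ε.2 hdiv) ⟨ε₁, hε₁E⟩
      (Subgroup.mem_top _) k hk
    have hEq := char_eq_zpow (p := p) χa (divSubgroup p D) v₀
      (fun ε hεD hdiv => ha ε ε.2 (by
        intro v hv
        rcases Finset.mem_insert.mp hv with rfl | hvD
        · exact hdiv
        · exact hεD v hvD)) ⟨ε₁, hε₁E⟩ hε₁D k hk
    rw [hχb] at hC
    rw [hχa] at hEq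
    simp only [hχb, hχa] at hC hEq
    set ω₁ : Fˣ := kumPairing p S (ε₁ : F) b with hω₁
    set Λ₁ : Fˣ := kumPairing p S (ε₁ : F) a with hΛ₁
    -- `ω₁ ≠ 1`
    have hω₁ne : ω₁ ≠ 1 := by
      intro h1
      refine not_orthogonal_of_nonRes hR hL hp hp2 hζ hS hgen hv₀S hpv₀ hG hbloc hbunit hbnon ?_
      intro ε hε
      have := hC ⟨ε, hε⟩ (Subgroup.mem_top _)
      rw [this, h1, one_zpow]
    -- `Λ₁` is a power of `ω₁`
    have hprim : IsPrimitiveRoot ω₁ p := by
      have hord : orderOf ω₁ = p := by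
        have : Fact p.Prime := ⟨hp⟩
        exact orderOf_eq_prime (kumPairing_pow p S _ b) hω₁ne
      rw [← hord]
      exact IsPrimitiveRoot.orderOf ω₁
    have hne0 : NeZero p := ⟨hp.ne_zero⟩
    obtain ⟨m, hm⟩ : ∃ m : ℕ, ω₁ ^ m = Λ₁ := by
      have hprimF : IsPrimitiveRoot ((ω₁ : Fˣ) : F) p := IsPrimitiveRoot.coe_units_iff.mpr hprim
      have hΛ : ((Λ₁ : Fˣ) : F) ^ p = 1 := by
        rw [← Units.val_pow_eq_pow_val, kumPairing_pow, Units.val_one]
      obtain ⟨m, -, hm⟩ := hprimF.eq_pow_of_pow_eq_one hΛ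
      exact ⟨m, Units.ext (by rw [Units.val_pow_eq_pow_val]; exact hm)⟩
    -- correct `a` by `b ^ m`
    have ha' : a * (b ^ m)⁻¹ ∈ E ⊔ wSub p ζ hζ hp.one_lt S D := by
      refine IH _ fun ε hε hεD => ?_
      rw [kumPairing_mul_right, kumPairing_inv_right, kumPairing_pow_right,
        hEq ⟨ε, hε⟩ hεD, hC ⟨ε, hε⟩ (Subgroup.mem_top _), ← hm]
      rw [← zpow_natCast, ← zpow_natCast, ← zpow_mul, ← zpow_mul, mul_comm (m : ℤ),
        mul_inv_cancel]
    have hbW : b ∈ wSub p ζ hζ hp.one_lt S (insert v₀ D) := by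
      refine ⟨fun v hv hvD => hbloc v (Finset.mem_erase.mpr
        ⟨fun h => hvD (h ▸ Finset.mem_insert_self v₀ D), hv⟩), ?_⟩
      intro v hv
      rcases Finset.mem_insert.mp hv with rfl | hvD
      · rw [hbθ]; exact dvd_zero _
      · exact dvd_thetaOrd_of_isLocalPow hζ hp.pos v b (hbloc v (Finset.mem_erase.mpr
          ⟨fun h => hv₀D (h ▸ hvD), hDS hvD⟩))
    have hdec : a = (a * (b ^ m)⁻¹) * b ^ m := by group
    rw [hdec]
    exact Subgroup.mul_mem _ (sup_le_sup_left hWmono _ ha')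
      ((le_sup_right : wSub p ζ hζ hp.one_lt S (insert v₀ D) ≤ _) (Subgroup.pow_mem _ hbW m))

/-- **K5 (descent)**. -/
theorem descentOrth (hR : Rec1) (hA : ApproxNonRes) (hL : LocalPowIsPowMod) : DescentOrth := by
  intro p F _ _ ζ S D a hp hp2 hζ hS hgen hDS hDp hDG ha
  classical
  have key : ∀ D : Finset (HeightOneSpectrum (𝓞 F)), D ⊆ S →
      (∀ v ∈ D, (p : 𝓞 F) ∉ v.asIdeal) →
      (∀ v₀ ∈ D, ∃ G : Finset (HeightOneSpectrum (𝓞 F)), G ⊆ S ∧ v₀ ∉ G ∧
        GeneratesClassGroup F G) →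
      ∀ a : Fˣ, (∀ ε : Fˣ, ε ∈ sUnits F (S : Set (HeightOneSpectrum (𝓞 F))) →
        ε ∈ divSubgroup p D → kumPairing p S (ε : F) a = 1) →
      a ∈ sUnits F (S : Set (HeightOneSpectrum (𝓞 F))) ⊔ wSub p ζ hζ hp.one_lt S D := by
    intro D
    induction D using Finset.induction_on with
    | empty =>
      intro _ _ _ a ha
      obtain ⟨e, u, he, hu, heu⟩ := levelOrth hR p F ζ S a hp hp2 hζ hS hgen
        (fun ε hε => ha ε hε (fun v hv => absurd hv (Finset.notMem_empty v)))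
      rw [heu]
      exact Subgroup.mul_mem _ (Subgroup.mem_sup_left he)
        (Subgroup.mem_sup_right ⟨fun v hv _ => hu v hv,
          fun v hv => absurd hv (Finset.notMem_empty v)⟩)
    | insert v₀ D hv₀D ih =>
      intro hDS hDp hDG a ha
      have hDS' : D ⊆ S := (Finset.subset_insert v₀ D).trans hDS
      have hv₀S : v₀ ∈ S := hDS (Finset.mem_insert_self v₀ D)
      refine descent_step hR hA hL hp hp2 hζ hS hgen D hDS' hv₀S hv₀D
        (hDp v₀ (Finset.mem_insert_self v₀ D)) (hDG v₀ (Finset.mem_insert_self v₀ D)) ?_ a ha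
      exact ih hDS' (fun v hv => hDp v (Finset.mem_insert_of_mem hv))
        (fun v hv => hDG v (Finset.mem_insert_of_mem hv))
  have hmem := key D hDS hDp hDG a (fun ε hε hεD => ha ε hε hεD)
  obtain ⟨e, he, w, hw, hew⟩ := Subgroup.mem_sup.mp hmem
  exact ⟨e, w, he, hw.1, hw.2, hew.symm⟩

end Fermat.Agent.F4Kum
end MergeWrap_F4_Kum_Descent

section MergeWrap_F4_Kum_GenAvoid -- from F4/Kum/GenAvoid.lean

/-!
# F4 / GLOB / KUM, seat K2: generating sets of the class group avoiding a finite set of primes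

`genAvoid : GenAvoid`: for every finite set `B` of primes of a number field `F` there is a finite
set `G` of primes, disjoint from `B`, whose classes generate the class group.

Proof: every class contains an integral ideal of norm prime to `m = ∏_{v ∈ B} N v`
(`Fermat.Agent.S14.coprimeRep`); the primes dividing such an ideal are not in `B`, and their
classes generate the class of the ideal.
-/

set_option autoImplicit false

open NumberField IsDedekindDomain
open scoped nonZeroDivisors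

namespace Fermat.Agent.F4Kum

open Fermat.Agent.S14SI

/-- The class of a nonzero ideal `I` of `𝓞 F` lies in the subgroup generated by the classes of
finitely many primes, all of which divide `I`. -/
theorem ga_exists_finset_mk0_mem (F : Type*) [Field F] [NumberField F] (I : Ideal (𝓞 F)) :
    ∀ hI : I ∈ (Ideal (𝓞 F))⁰, ∃ S : Finset (HeightOneSpectrum (𝓞 F)),
      (∀ v ∈ S, I ≤ v.asIdeal) ∧
      ClassGroup.mk0 ⟨I, hI⟩ ∈
        Subgroup.closure (primeClass F '' (S : Set (HeightOneSpectrum (𝓞 F)))) := by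
  classical
  induction I using UniqueFactorizationMonoid.induction_on_prime with
  | h₁ =>
    intro hI
    exact absurd rfl (mem_nonZeroDivisors_iff_ne_zero.mp hI)
  | h₂ J hJ =>
    intro hI
    refine ⟨∅, fun v hv => absurd hv (Finset.notMem_empty v), ?_⟩
    have hJ' : J = ⊤ := by
      rwa [Ideal.isUnit_iff] at hJ
    have : ClassGroup.mk0 ⟨J, hI⟩ = 1 := by
      rw [ClassGroup.mk0_eq_one_iff]
      subst hJ'
      exact top_isPrincipal
    rw [this]
    exact Subgroup.one_mem _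
  | h₃ J P hJ hP ih =>
    intro hI
    have hP0 : P ≠ ⊥ := hP.ne_zero
    have hPprime : P.IsPrime := Ideal.isPrime_of_prime hP
    have hPm : P ∈ (Ideal (𝓞 F))⁰ := mem_nonZeroDivisors_of_ne_zero hP0
    have hJm : J ∈ (Ideal (𝓞 F))⁰ := mem_nonZeroDivisors_of_ne_zero hJ
    obtain ⟨S, hSle, hS⟩ := ih hJm
    let v : HeightOneSpectrum (𝓞 F) := ⟨P, hPprime, hP0⟩
    refine ⟨insert v S, ?_, ?_⟩
    · intro w hw
      rcases Finset.mem_insert.1 hw with rfl | hw
      · exact (Ideal.mul_le_left : P * J ≤ P)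
      · exact (Ideal.mul_le_right : P * J ≤ J).trans (hSle w hw)
    have hmul : ClassGroup.mk0 ⟨P * J, hI⟩ = ClassGroup.mk0 ⟨P, hPm⟩ * ClassGroup.mk0 ⟨J, hJm⟩ := by
      rw [← map_mul]
      rfl
    rw [hmul]
    refine Subgroup.mul_mem _ ?_ ?_
    · refine Subgroup.subset_closure ⟨v, ?_, rfl⟩
      simp
    · refine Subgroup.closure_mono ?_ hS
      exact Set.image_mono (by simp)

/-- **K2**: for every finite set `B` of primes there is a finite set of primes disjoint from `B`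
whose classes generate the class group. -/
theorem genAvoid : GenAvoid := by
  intro F _ _ B
  classical
  set m : ℕ := ∏ v ∈ B, Ideal.absNorm v.asIdeal with hmdef
  have hm : m ≠ 0 := by
    rw [hmdef]
    refine Finset.prod_ne_zero_iff.2 fun v _ => ?_
    rw [Ne, Ideal.absNorm_eq_zero_iff]
    exact v.ne_bot
  have hex : ∀ c : ClassGroup (𝓞 F), ∃ S : Finset (HeightOneSpectrum (𝓞 F)),
      (∀ v ∈ S, v ∉ B) ∧
      c ∈ Subgroup.closure (primeClass F '' (S : Set (HeightOneSpectrum (𝓞 F)))) := by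
    intro c
    obtain ⟨I, rfl, hcop⟩ := Fermat.Agent.S14.coprimeRep F m hm c
    obtain ⟨S, hSle, hS⟩ := ga_exists_finset_mk0_mem F I.1 I.2
    refine ⟨S, fun v hv hvB => ?_, hS⟩
    have h1 : Ideal.absNorm v.asIdeal ∣ Ideal.absNorm (I : Ideal (𝓞 F)) :=
      Ideal.absNorm_dvd_absNorm_of_le (hSle v hv)
    have h2 : Ideal.absNorm v.asIdeal ∣ m := Finset.dvd_prod_of_mem _ hvB
    have h3 : Ideal.absNorm v.asIdeal = 1 := Nat.eq_one_of_dvd_coprimes hcop h1 h2
    rw [Ideal.absNorm_eq_one_iff] at h3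
    exact v.isPrime.ne_top h3
  choose Sc hScB hSc using hex
  refine ⟨Finset.univ.biUnion Sc, ?_, ?_⟩
  · rw [Finset.disjoint_left]
    intro v hvB hv
    obtain ⟨c, -, hvc⟩ := Finset.mem_biUnion.1 hv
    exact hScB c v hvc hvB
  · rw [GeneratesClassGroup, eq_top_iff]
    intro c _
    refine Subgroup.closure_mono ?_ (hSc c)
    refine Set.image_mono ?_
    intro v hv
    simp only [Finset.coe_biUnion, Finset.coe_univ, Set.mem_univ, Set.iUnion_true,
      Set.mem_iUnion, Finset.mem_coe]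
    exact ⟨c, hv⟩

end Fermat.Agent.F4Kum
end MergeWrap_F4_Kum_GenAvoid

section MergeWrap_F4_Kum_Final -- from F4/Kum/Final.lean

/-!
# F4 / GLOB / KUM: the existence theorem mod `p` from reciprocity alone

`kumEx_of_rec1 : Rec1 → KumEx`.  Everything else in the chain
(`SymbMul`, `SymbEuler`, `GenAvoid`, `ApproxNonRes`, `LocalPowIsPowMod`, `LevelOrth`,
`DescentOrth`) is proved unconditionally or from `Rec1`.
-/

set_option autoImplicit false

namespace Fermat.Agent.F4Kum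

/-- `DescentOrth` from reciprocity alone. -/
theorem descentOrth_of_rec1 (hR : Rec1) : DescentOrth :=
  descentOrth hR approxNonRes localPowIsPowMod

/-- **The Kummer existence theorem mod `p` follows from reciprocity (`Rec1`) alone.** -/
theorem kumEx_of_rec1 (hR : Rec1) : KumEx :=
  kumEx_of (descentOrth_of_rec1 hR) genAvoid

end Fermat.Agent.F4Kum
end MergeWrap_F4_Kum_Final

section MergeWrap_F4_Kum_Hensel -- from F4/Kum/Hensel.lean

/-!
# F4 / GLOB / KUM, seat RK1: `HenselRefine` (finite-level Newton iteration)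

`henselRefine : HenselRefine`: if `v (a * y ^ p - 1) < v (ζ - 1) ^ p` for some `y ≠ 0`, then for
every `k` there is `y ≠ 0` with `v (a * y ^ p - 1) < exp (-k)`.

Newton step (`rk1_newton`, for an arbitrary valuation): if `v p = δ ^ (p - 1)`, `δ ≤ 1`, `t ≠ 0`,
`v t < δ ^ p`, then with `w = - t / p` one has `v ((1 + t) * (1 + w) ^ p - 1) < v t`.
The values of `v.valuation F` are discrete, so `k` steps gain precision `exp (-k)`.
-/

set_option autoImplicit false

open NumberField IsDedekindDomain Finset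

namespace Fermat.Agent.F4Kum

open Fermat.Agent.S14SI

section Abstract

variable {F : Type*} [Field F] {Γ₀ : Type*} [LinearOrderedCommGroupWithZero Γ₀]
  (v : Valuation F Γ₀)

lemma rk1_natCast_le_one (n : ℕ) : v (n : F) ≤ 1 := by
  induction n with
  | zero => simp
  | succ n ih =>
    rw [Nat.cast_succ]
    exact v.map_add_le ih (by simp)

lemma rk1_geom_le_one {x : F} (hx : v x ≤ 1) (n : ℕ) : v (∑ i ∈ range n, x ^ i) ≤ 1 := by
  refine v.map_sum_le (fun i _ => ?_)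
  rw [map_pow]
  exact pow_le_one' hx i

lemma rk1_pow_sub_one_le {x : F} (hx : v x ≤ 1) (n : ℕ) : v (x ^ n - 1) ≤ v (x - 1) := by
  rw [← mul_geom_sum, map_mul]
  calc v (x - 1) * v (∑ i ∈ range n, x ^ i) ≤ v (x - 1) * 1 :=
        mul_le_mul_right (rk1_geom_le_one v hx n) _
    _ = v (x - 1) := mul_one _

lemma rk1_root_val_one {ζ : F} {p : ℕ} (hp : p ≠ 0) (h : ζ ^ p = 1) : v ζ = 1 := by
  have h1 : v ζ ^ p = 1 := by rw [← map_pow, h, map_one]
  exact (pow_eq_one_iff_left hp).mp h1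

lemma rk1_val_pow_sub_one {ζ : F} {p : ℕ} (hp : p.Prime) (hζ : IsPrimitiveRoot ζ p) {k : ℕ}
    (hk0 : 0 < k) (hkp : k < p) : v (ζ ^ k - 1) = v (ζ - 1) := by
  have hζ1 : v ζ = 1 := rk1_root_val_one v hp.ne_zero hζ.pow_eq_one
  refine le_antisymm (rk1_pow_sub_one_le v hζ1.le k) ?_
  have hcop : k.Coprime p := by
    rw [Nat.coprime_comm]
    exact (Nat.Prime.coprime_iff_not_dvd hp).mpr (Nat.not_dvd_of_pos_of_lt hk0 hkp)
  have hk : IsPrimitiveRoot (ζ ^ k) p := hζ.pow_of_coprime k hcop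
  have : NeZero p := ⟨hp.ne_zero⟩
  obtain ⟨j, _, hj⟩ := hk.eq_pow_of_pow_eq_one hζ.pow_eq_one
  have hζk1 : v (ζ ^ k) ≤ 1 := by rw [map_pow, hζ1, one_pow]
  calc v (ζ - 1) = v ((ζ ^ k) ^ j - 1) := by rw [hj]
    _ ≤ v (ζ ^ k - 1) := rk1_pow_sub_one_le v hζk1 j

lemma rk1_val_prime {ζ : F} {p : ℕ} (hp : p.Prime) (hζ : IsPrimitiveRoot ζ p) :
    v (p : F) = v (ζ - 1) ^ (p - 1) := by
  obtain ⟨n, rfl⟩ : ∃ n, p = n + 1 := ⟨p - 1, (Nat.succ_pred_eq_of_pos hp.pos).symm⟩
  have hprod := hζ.prod_one_sub_pow_eq_order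
  have : v ((n + 1 : ℕ) : F) = v (∏ k ∈ range n, (1 - ζ ^ (k + 1))) := by
    rw [hprod]; push_cast; rfl
  rw [this, map_prod, Nat.add_sub_cancel]
  have : ∀ k ∈ range n, v (1 - ζ ^ (k + 1)) = v (ζ - 1) := by
    intro k hk
    rw [Valuation.map_sub_swap]
    exact rk1_val_pow_sub_one v hp hζ (Nat.succ_pos k) (by simpa using hk)
  rw [prod_congr rfl this, prod_const, card_range]

/-- the binomial remainder -/
lemma rk1_binom (p : ℕ) (hp : p.Prime) (w : F) (hw : v w ≤ 1) :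
    v ((w + 1) ^ p - 1 - p * w - w ^ p) ≤ v (p : F) * v w ^ 2 := by
  have h2 : 2 ≤ p := hp.two_le
  have hexp : (w + 1) ^ p - 1 - p * w - w ^ p =
      ∑ m ∈ Ico 2 p, w ^ m * 1 ^ (p - m) * (p.choose m : F) := by
    rw [add_pow, range_eq_Ico, sum_Ico_succ_top (Nat.zero_le p),
      ← sum_Ico_consecutive _ (Nat.zero_le 2) h2]
    have : ∑ i ∈ Ico 0 2, w ^ i * 1 ^ (p - i) * (p.choose i : F) = 1 + p * w := by
      rw [show Ico 0 2 = {0, 1} from rfl, sum_pair (by norm_num)]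
      simp [mul_comm]
    rw [this]
    simp
    ring
  rw [hexp]
  refine v.map_sum_le (fun m hm => ?_)
  rw [mem_Ico] at hm
  obtain ⟨c, hc⟩ := hp.dvd_choose_self (by omega : m ≠ 0) hm.2
  rw [one_pow, mul_one, map_mul, map_pow, hc, Nat.cast_mul, map_mul, mul_comm]
  have h1 : v w ^ m ≤ v w ^ 2 := pow_le_pow_right_of_le_one' hw hm.1
  have h3 : v (p : F) * v (c : F) ≤ v (p : F) * 1 := mul_le_mul_right (rk1_natCast_le_one v c) _
  rw [mul_one] at h3
  exact mul_le_mul' h3 h1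

/-- **Newton step.** -/
lemma rk1_newton (p : ℕ) (hp : p.Prime) (δ : Γ₀) (hδ1 : δ ≤ 1) (hδ : v (p : F) = δ ^ (p - 1))
    (t : F) (ht0 : t ≠ 0) (ht : v t < δ ^ p) :
    v (1 + -t / p) = 1 ∧ v ((1 + t) * (1 + -t / p) ^ p - 1) < v t := by
  have hδ0 : δ ≠ 0 := by
    rintro rfl
    rw [zero_pow hp.ne_zero] at ht
    exact not_lt_zero ht
  have hvp0 : v (p : F) ≠ 0 := by rw [hδ]; exact pow_ne_zero _ hδ0
  have hp0 : (p : F) ≠ 0 := (Valuation.ne_zero_iff v).mp hvp0
  set w : F := -t / p with hw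
  have htw : t = -(p * w) := by rw [hw]; field_simp
  have hvt : v t = v (p : F) * v w := by rw [htw, Valuation.map_neg, map_mul]
  have hvt0 : v t ≠ 0 := (Valuation.ne_zero_iff v).mpr ht0
  have hvw0 : v w ≠ 0 := by
    intro h; rw [hvt, h, mul_zero] at hvt0; exact hvt0 rfl
  -- `v w < δ`
  have hwδ : v w < δ := by
    have h1 : δ ^ (p - 1) * v w < δ ^ (p - 1) * δ := by
      rw [← hδ, ← hvt, hδ, ← pow_succ, Nat.sub_add_cancel hp.pos]; exact ht
    exact lt_of_mul_lt_mul_left' h1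
  have hw1 : v w < 1 := lt_of_lt_of_le hwδ hδ1
  have hz : v (1 + w) = 1 := Valuation.map_one_add_of_lt v hw1
  refine ⟨hz, ?_⟩
  -- decomposition of the new error
  have key : (1 + t) * (1 + w) ^ p - 1 =
      (w ^ p + ((w + 1) ^ p - 1 - p * w - w ^ p)) + t * ((w + 1) ^ p - 1) := by
    rw [htw]; ring
  rw [key]
  have hvtpos : 0 < v t := zero_lt_iff.mpr hvt0
  -- the three pieces
  have p1 : v (w ^ p) < v t := by
    have hlt : v w ^ (p - 1) < δ ^ (p - 1) :=
      pow_lt_pow_left₀ hwδ zero_le (Nat.sub_ne_zero_of_lt hp.one_lt)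
    have e1 : v (w ^ p) = v w ^ (p - 1) * v w := by
      rw [map_pow, ← pow_succ, Nat.sub_add_cancel hp.pos]
    have e2 : v t = δ ^ (p - 1) * v w := by rw [hvt, hδ]
    rw [e1, e2]
    exact mul_lt_mul_of_pos_right hlt (zero_lt_iff.mpr hvw0)
  have p2 : v ((w + 1) ^ p - 1 - p * w - w ^ p) < v t := by
    refine lt_of_le_of_lt (rk1_binom v p hp w hw1.le) ?_
    rw [pow_two, ← mul_assoc, ← hvt]
    calc v t * v w < v t * 1 := mul_lt_mul_of_pos_left hw1 hvtpos
      _ = v t := mul_one _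
  have p3 : v (t * ((w + 1) ^ p - 1)) < v t := by
    rw [map_mul]
    have h1 : v ((w + 1) ^ p - 1) ≤ v ((w + 1) - 1) :=
      rk1_pow_sub_one_le v (by rw [add_comm, hz]) p
    rw [add_sub_cancel_right] at h1
    calc v t * v ((w + 1) ^ p - 1) < v t * 1 :=
          mul_lt_mul_of_pos_left (lt_of_le_of_lt h1 hw1) hvtpos
      _ = v t := mul_one _
  exact v.map_add_lt (v.map_add_lt p1 p2) p3

end Abstract

/-- discreteness of `ℤᵐ⁰` -/
lemma rk1_discrete {a b : WithZero (Multiplicative ℤ)} {k : ℕ} (hab : a < b)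
    (hb : b < WithZero.exp (-(k : ℤ))) : a < WithZero.exp (-((k + 1 : ℕ) : ℤ)) := by
  rcases eq_or_ne a 0 with rfl | ha
  · exact WithZero.exp_pos
  have hb0 : b ≠ 0 := fun h => by rw [h] at hab; exact not_lt_zero hab
  rw [← WithZero.exp_log ha] at hab ⊢
  rw [← WithZero.exp_log hb0] at hab hb
  rw [WithZero.exp_lt_exp] at hab hb ⊢
  push_cast
  omega

lemma rk1_rearrange {F : Type*} [Field F] (a y z : F) (p : ℕ) :
    a * (y * z) ^ p - 1 = (1 + (a * y ^ p - 1)) * z ^ p - 1 := by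
  rw [mul_pow]; ring

/-- **RK1.** -/
theorem henselRefine : HenselRefine := by
  intro p F _ _ ζ a v k hp hζ hloc
  set δ := v.valuation F (ζ - 1) with hδdef
  have hζ1 : v.valuation F ζ = 1 := rk1_root_val_one _ hp.ne_zero hζ.pow_eq_one
  have hδ1 : δ ≤ 1 := by
    have := (v.valuation F).map_sub_le (x := ζ) (y := 1) (g := 1) hζ1.le (by simp)
    exact this
  have hδ : v.valuation F (p : F) = δ ^ (p - 1) := rk1_val_prime _ hp hζ
  suffices H : ∀ k : ℕ, ∃ y : F, y ≠ 0 ∧ v.valuation F (a * y ^ p - 1) < δ ^ p ∧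
      v.valuation F (a * y ^ p - 1) < WithZero.exp (-(k : ℤ)) by
    obtain ⟨y, hy0, -, hy⟩ := H k
    exact ⟨y, hy0, hy⟩
  intro k
  induction k with
  | zero =>
    obtain ⟨y, hy0, hy⟩ := hloc
    refine ⟨y, hy0, hy, lt_of_lt_of_le hy ?_⟩
    simp only [CharP.cast_eq_zero, neg_zero, WithZero.exp_zero]
    exact pow_le_one' hδ1 p
  | succ k ih =>
    obtain ⟨y, hy0, hy1, hy2⟩ := ih
    rcases eq_or_ne (a * y ^ p - 1) 0 with h0 | h0
    · refine ⟨y, hy0, hy1, ?_⟩
      rw [h0, map_zero]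
      exact WithZero.exp_pos
    · obtain ⟨hz, hlt⟩ := rk1_newton (v.valuation F) p hp δ hδ1 hδ (a * y ^ p - 1) h0 hy1
      have hz0 : (1 + -(a * y ^ p - 1) / (p : F)) ≠ 0 := by
        intro h; rw [h, map_zero] at hz; exact zero_ne_one hz
      refine ⟨y * (1 + -(a * y ^ p - 1) / (p : F)), mul_ne_zero hy0 hz0, ?_, ?_⟩
      · rw [rk1_rearrange]
        exact lt_trans hlt hy1
      · rw [rk1_rearrange]
        exact rk1_discrete hlt hy2

end Fermat.Agent.F4Kum
end MergeWrap_F4_Kum_Hensel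

section MergeWrap_F4_Kum_Main -- from F4/Kum/Main.lean

/-!
# F4 / GLOB / KUM: the reciprocity law `Rec1` and the existence theorem `KumEx`, unconditional

* `rec1 : Rec1` — reciprocity for the `p`-th power residue symbol (ray form), from
  `F4Rec.artinRay` (helper13/helper14), `henselRefine` (helper91), `rayApprox` (helper86);
* `kumEx : KumEx` — the existence theorem for exponent `p` (Kummer case, finite level).
-/

set_option autoImplicit false

namespace Fermat.Agent.F4Kum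

/-- **Reciprocity law in `famW` form**, unconditional. -/
theorem rec1W : Rec1W := rec1W_of Fermat.Agent.F4Rec.artinRay henselRefine rayApprox

/-- **Reciprocity law for the `p`-th power residue symbol**, unconditional. -/
theorem rec1 : Rec1 := rec1_of Fermat.Agent.F4Rec.artinRay henselRefine rayApprox

/-- **Existence theorem for exponent `p`** (Kummer case, finite level), unconditional. -/
theorem kumEx : KumEx := kumEx_of_rec1 rec1

end Fermat.Agent.F4Kum
end MergeWrap_F4_Kum_Main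

section MergeWrap_F4_Kum_CoreFin -- from F4/Kum/CoreFin.lean

/-!
# F4 / GLOB / KUM: the finite-level core of the existence theorem (`CF-Kum`)

`M = F(x^{1/p})`, `T ⊇ {v ∣ p}`, `p ∣ ord_v x` outside `T`; `s v = rkSym p x v` is the Kummer
character of the Frobenius at `v ∉ T` and `famW T s J = ∏_{v ∉ T} s v ^ count_v J`.

* `famW_relNorm` : `famW` kills the norms of the ideals of `M`;
* `famW_norm_unit` : `famW` kills `(N z)`, `z ∈ Mˣ`;
* `famW_of_localNorm` : `famW` kills `(f)` if `f / N z ∈ U_v^{(k+1)}` for all `v ∈ T`, where `k`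
  is any precision at the Hensel level (`exp (-k) ≤ v (ζ - 1) ^ p`) — uniform in `x`: this is
  the reciprocity law `Rec1W`;
* `rkSym_stab` : if `s v ≠ 1` the prime `v` is inert: every prime `Q ∣ v` is Galois-stable;
* `kum_core` : if `∏_v s v ^ (d v - thetaOrd v f) = 1` factor by factor (norm condition) and `f`
  is a local norm on `T`, then `∏_{v ∈ R} (x / v)_p ^ d v = 1`.
-/

set_option autoImplicit false
set_option linter.unusedSectionVars false

open NumberField IsDedekindDomain FractionalIdeal Polynomial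
open scoped nonZeroDivisors

namespace Fermat.Agent.F4Kum

open Fermat.Agent.S14SI Fermat.Agent.F4Rec Fermat.Agent.F4G
open Fermat.Agent.S14 (InInertia)

section famW

variable {F : Type*} [Field F] [NumberField F]

/-- The value at a prime of `T` is trivial. -/
lemma famW_prime_of_mem (T : Finset (HeightOneSpectrum (𝓞 F)))
    (s : HeightOneSpectrum (𝓞 F) → Fˣ) {v : HeightOneSpectrum (𝓞 F)} (hv : v ∈ T) :
    famW T s (v.asIdeal : FractionalIdeal (𝓞 F)⁰ F) = 1 := by
  classical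
  unfold famW
  rw [finprod_eq_one_of_forall_eq_one]
  intro w
  split_ifs with hw
  · rfl
  · have hne : v ≠ w := fun h => hw (h ▸ hv)
    rw [count_maximal_coprime F w hne, zpow_zero]

lemma famW_one (T : Finset (HeightOneSpectrum (𝓞 F))) (s : HeightOneSpectrum (𝓞 F) → Fˣ) :
    famW T s (1 : FractionalIdeal (𝓞 F)⁰ F) = 1 := by
  classical
  unfold famW
  rw [finprod_eq_one_of_forall_eq_one]
  intro w
  split_ifs
  · rfl
  · rw [count_one, zpow_zero]

end famW

section kummerArtin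

variable {F M : Type} [Field F] [NumberField F] [Field M] [NumberField M] [Algebra F M]
  [IsGalois F M] {p : ℕ} [NeZero p] {x : Fˣ} [IsSplittingField F M (X ^ p - C (x : F))]

theorem rkArtin_top (hprim : (primitiveRoots p F).Nonempty)
    (H : Irreducible (X ^ p - C (x : F) : F[X])) (T : Finset (HeightOneSpectrum (𝓞 F))) :
    rkArtin M hprim H T ⊤ = 1 := by
  unfold rkArtin
  rw [MulEquiv.map_eq_one_iff]
  apply Subtype.ext
  show famW T (rkSym p x) ((⊤ : Ideal (𝓞 F)) : FractionalIdeal (𝓞 F)⁰ F) = 1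
  rw [coeIdeal_top, famW_one]

theorem rkArtin_pow (hprim : (primitiveRoots p F).Nonempty)
    (H : Irreducible (X ^ p - C (x : F) : F[X])) (T : Finset (HeightOneSpectrum (𝓞 F)))
    {I : Ideal (𝓞 F)} (hI : I ≠ ⊥) (n : ℕ) :
    rkArtin M hprim H T (I ^ n) = rkArtin M hprim H T I ^ n := by
  induction n with
  | zero => rw [pow_zero, pow_zero, Ideal.one_eq_top, rkArtin_top]
  | succ n ih => rw [pow_succ, rkArtin_mul hprim H T (pow_ne_zero n hI) hI, ih, pow_succ]

/-- The Frobenius property of `rkArtin` at the primes outside `T`. -/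
theorem rkArtin_frob_of_notMem (hp : p.Prime) {ζ : F} (hζ : IsPrimitiveRoot ζ p)
    (hprim : (primitiveRoots p F).Nonempty) (H : Irreducible (X ^ p - C (x : F) : F[X]))
    {α : M} (hα : α ^ p = algebraMap F M (x : F))
    {T : Finset (HeightOneSpectrum (𝓞 F))} (hT : ContainsPrimesAbove F p T)
    (hx : ∀ v ∉ T, (p : ℤ) ∣ thetaOrd v x)
    (Q : Ideal (𝓞 M)) (hQ : Q.IsPrime) (hQ0 : Q ≠ ⊥)
    (hQT : ∀ v ∈ T, Q.under (𝓞 F) ≠ v.asIdeal) :
    IsFrobRel (rkArtin M hprim H T (Q.under (𝓞 F))) Q (Ideal.absNorm (Q.under (𝓞 F))) := by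
  have hT0 : T.Nonempty := rk_nonempty hp.two_le hT
  refine rkArtin_frob hp hζ hprim H hα hT hx (k := 1) le_rfl Q hQ hQ0 ?_
  -- `Q ∩ F` is prime to the modulus
  have hu0 : Q.under (𝓞 F) ≠ ⊥ := Ideal.under_ne_bot (𝓞 F) hQ0
  have hmax : (Q.under (𝓞 F)).IsMaximal := Ideal.IsPrime.isMaximal inferInstance hu0
  unfold modT
  refine Ideal.sup_prod_eq_top fun v hv => ?_
  rw [pow_one]
  by_contra hne
  have h1 : Q.under (𝓞 F) = Q.under (𝓞 F) ⊔ v.asIdeal := hmax.eq_of_le hne le_sup_left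
  have h2 : v.asIdeal ≤ Q.under (𝓞 F) := h1 ▸ le_sup_right
  exact hQT v hv (v.isMaximal.eq_of_le hmax.ne_top h2).symm

/-- `famW` kills the norm of a prime of `M`. -/
theorem famW_relNorm_prime (hp : p.Prime) {ζ : F} (hζ : IsPrimitiveRoot ζ p)
    (hprim : (primitiveRoots p F).Nonempty) (H : Irreducible (X ^ p - C (x : F) : F[X]))
    {α : M} (hα : α ^ p = algebraMap F M (x : F))
    {T : Finset (HeightOneSpectrum (𝓞 F))} (hT : ContainsPrimesAbove F p T)
    (hx : ∀ v ∉ T, (p : ℤ) ∣ thetaOrd v x)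
    (Q : Ideal (𝓞 M)) (hQ : Q.IsPrime) (hQ0 : Q ≠ ⊥) :
    famW T (rkSym p x) ((Ideal.relNorm (𝓞 F) Q : Ideal (𝓞 F)) : FractionalIdeal (𝓞 F)⁰ F) = 1 := by
  have hP : (Q.under (𝓞 F)).IsPrime := inferInstance
  have hP0 : Q.under (𝓞 F) ≠ ⊥ := Ideal.under_ne_bot (𝓞 F) hQ0
  obtain ⟨s, hs⟩ := Ideal.exists_relNorm_eq_pow_of_isPrime Q (Q.under (𝓞 F))
  by_cases hQT : ∃ v ∈ T, Q.under (𝓞 F) = v.asIdeal
  · obtain ⟨v, hv, hQv⟩ := hQT
    rw [hs, hQv, coeIdeal_pow, famW_pow, famW_prime_of_mem T _ hv, one_pow]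
  · push Not at hQT
    apply rkArtin_eq_one (M := M) hprim H T
    have h1 : Ideal.absNorm Q = Ideal.absNorm (Q.under (𝓞 F)) ^ s := by
      rw [← Ideal.absNorm_relNorm (R := 𝓞 F), hs, map_pow]
    rw [hs, rkArtin_pow hprim H T hP0]
    have hU : UnramAt F Q :=
      rk_unramOutside hp hζ hprim H hα hT hx Q hQ hQ0 hQT
    apply hU
    have h2 := ac_frob_pow (rkArtin_frob_of_notMem hp hζ hprim H hα hT hx Q hQ hQ0 hQT) s
    rw [← h1, isFrobRel_iff_mem] at h2
    rw [inInertia_iff_mem]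
    intro y
    have e : rkArtin M hprim H T (Q.under (𝓞 F)) ^ s • y - y =
        (rkArtin M hprim H T (Q.under (𝓞 F)) ^ s • y - y ^ Ideal.absNorm Q) +
          (y ^ Ideal.absNorm Q - y) := by ring
    rw [e]
    exact Q.add_mem (h2 y) (ac_pow_absNorm_sub_mem Q hQ hQ0 y)

/-- `famW` kills the norms of the nonzero ideals of `M`. -/
theorem famW_relNorm (hp : p.Prime) {ζ : F} (hζ : IsPrimitiveRoot ζ p)
    (hprim : (primitiveRoots p F).Nonempty) (H : Irreducible (X ^ p - C (x : F) : F[X]))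
    {α : M} (hα : α ^ p = algebraMap F M (x : F))
    {T : Finset (HeightOneSpectrum (𝓞 F))} (hT : ContainsPrimesAbove F p T)
    (hx : ∀ v ∉ T, (p : ℤ) ∣ thetaOrd v x)
    (𝔄 : Ideal (𝓞 M)) (h𝔄 : 𝔄 ≠ ⊥) :
    famW T (rkSym p x) ((Ideal.relNorm (𝓞 F) 𝔄 : Ideal (𝓞 F)) : FractionalIdeal (𝓞 F)⁰ F) = 1 := by
  induction 𝔄 using UniqueFactorizationMonoid.induction_on_prime with
  | h₁ => exact absurd rfl h𝔄
  | h₂ J hJu =>
    have hJ : J = ⊤ := by
      rw [← Ideal.one_eq_top]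
      exact isUnit_iff_eq_one.mp hJu
    rw [hJ, Ideal.relNorm_top, coeIdeal_top, famW_one]
  | h₃ J Q hJ0 hQ ih =>
    have hQp : Q.IsPrime := Ideal.isPrime_of_prime hQ
    have hQ0 : Q ≠ ⊥ := hQ.ne_zero
    have h1 := famW_relNorm_prime hp hζ hprim H hα hT hx Q hQp hQ0
    have h2 := ih hJ0
    have hQn : ((Ideal.relNorm (𝓞 F) Q : Ideal (𝓞 F)) : FractionalIdeal (𝓞 F)⁰ F) ≠ 0 := by
      rw [Ne, coeIdeal_eq_zero, Ideal.relNorm_eq_bot_iff]
      exact hQ0
    have hJn : ((Ideal.relNorm (𝓞 F) J : Ideal (𝓞 F)) : FractionalIdeal (𝓞 F)⁰ F) ≠ 0 := by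
      rw [Ne, coeIdeal_eq_zero, Ideal.relNorm_eq_bot_iff]
      exact hJ0
    rw [map_mul, coeIdeal_mul, famW_mul T _ hQn hJn, h1, h2, mul_one]

/-- `famW` kills the principal ideal generated by a norm from `M`. -/
theorem famW_norm_unit (hp : p.Prime) {ζ : F} (hζ : IsPrimitiveRoot ζ p)
    (hprim : (primitiveRoots p F).Nonempty) (H : Irreducible (X ^ p - C (x : F) : F[X]))
    {α : M} (hα : α ^ p = algebraMap F M (x : F))
    {T : Finset (HeightOneSpectrum (𝓞 F))} (hT : ContainsPrimesAbove F p T)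
    (hx : ∀ v ∉ T, (p : ℤ) ∣ thetaOrd v x) (z : Mˣ) :
    famW T (rkSym p x) (spanSingleton (𝓞 F)⁰ (Algebra.norm F (z : M))) = 1 := by
  obtain ⟨a, b, hb, hab⟩ := IsFractionRing.div_surjective (A := 𝓞 M) (z : M)
  have hb0 : b ≠ 0 := nonZeroDivisors.ne_zero hb
  have hbM : algebraMap (𝓞 M) M b ≠ 0 := by
    intro h0
    exact hb0 ((FaithfulSMul.algebraMap_injective (𝓞 M) M) (by rw [h0, map_zero]))
  have ha0 : a ≠ 0 := by
    rintro rfl
    rw [map_zero, zero_div] at hab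
    exact z.ne_zero hab.symm
  have key : ∀ c : 𝓞 M, c ≠ 0 →
      famW T (rkSym p x) (spanSingleton (𝓞 F)⁰ (Algebra.norm F (algebraMap (𝓞 M) M c))) = 1 := by
    intro c hc
    rw [← Algebra.algebraMap_intNorm (A := 𝓞 F) (B := 𝓞 M), ← coeIdeal_span_singleton,
      ← Ideal.relNorm_singleton]
    refine famW_relNorm hp hζ hprim H hα hT hx _ ?_
    rw [Ne, Ideal.span_singleton_eq_bot]
    exact hc
  have hnb : Algebra.norm F (algebraMap (𝓞 M) M b) ≠ 0 := by
    rw [Ne, Algebra.norm_eq_zero_iff]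
    exact hbM
  have e : spanSingleton (𝓞 F)⁰ (Algebra.norm F (z : M)) *
      spanSingleton (𝓞 F)⁰ (Algebra.norm F (algebraMap (𝓞 M) M b)) =
      spanSingleton (𝓞 F)⁰ (Algebra.norm F (algebraMap (𝓞 M) M a)) := by
    rw [spanSingleton_mul_spanSingleton, ← map_mul, ← hab, div_mul_cancel₀ _ hbM]
  have hz0 : spanSingleton (𝓞 F)⁰ (Algebra.norm F (z : M)) ≠ 0 := by
    rw [Ne, spanSingleton_eq_zero_iff, Algebra.norm_eq_zero_iff]
    exact z.ne_zero
  have h2 := congrArg (famW T (rkSym p x)) e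
  rw [famW_mul T _ hz0 (spanSingleton_ne_zero_iff.mpr hnb), key b hb0, key a ha0, mul_one] at h2
  exact h2

/-- **Uniform ray property**: `famW` kills `(f)` if `f` is, up to a norm from `M`, `≡ 1` at the
Hensel level at all primes of `T`. -/
theorem famW_of_localNorm (hR : Rec1W) (hp : p.Prime) (hp2 : p ≠ 2) {ζ : F}
    (hζ : IsPrimitiveRoot ζ p)
    (hprim : (primitiveRoots p F).Nonempty) (H : Irreducible (X ^ p - C (x : F) : F[X]))
    {α : M} (hα : α ^ p = algebraMap F M (x : F))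
    {T : Finset (HeightOneSpectrum (𝓞 F))} (hT : ContainsPrimesAbove F p T)
    (hx : ∀ v ∉ T, (p : ℤ) ∣ thetaOrd v x) (f : Fˣ) (z : Mˣ) (k : ℕ)
    (hk : ∀ v ∈ T, WithZero.exp (-(k : ℤ)) ≤ v.valuation F (ζ - 1) ^ p)
    (hf : ∀ v ∈ T, f / normUnits F M z ∈ oneModSubgroup F v k) :
    famW T (rkSym p x) (spanSingleton (𝓞 F)⁰ (f : F)) = 1 := by
  set u : Fˣ := f / normUnits F M z with hu
  have hloc : ∀ v ∈ T, IsLocalPow F v p ζ (u : F) := by
    intro v hv
    refine ⟨1, one_ne_zero, ?_⟩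
    rw [one_pow, mul_one]
    exact lt_of_lt_of_le (mem_oneModSubgroup.mp (hf v hv)) (hk v hv)
  have h1 := hR p F ζ T x u hp hp2 hζ hT hx hloc
  have h2 := famW_norm_unit hp hζ hprim H hα hT hx z
  have e : spanSingleton (𝓞 F)⁰ (f : F) =
      spanSingleton (𝓞 F)⁰ (u : F) * spanSingleton (𝓞 F)⁰ (Algebra.norm F (z : M)) := by
    rw [spanSingleton_mul_spanSingleton]
    congr 1
    have : f = u * normUnits F M z := by rw [hu, div_mul_cancel]
    rw [this, Units.val_mul]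
    rfl
  have hz0 : spanSingleton (𝓞 F)⁰ (Algebra.norm F (z : M)) ≠ 0 := by
    rw [Ne, spanSingleton_eq_zero_iff, Algebra.norm_eq_zero_iff]
    exact z.ne_zero
  rw [e, famW_mul T _ (spanSingleton_ne_zero_iff.mpr u.ne_zero) hz0, h1, h2, mul_one]

/-- A Frobenius element at `Q` stabilises `Q`. -/
lemma rk_frob_stab {Q : Ideal (𝓞 M)} {n : ℕ} (hn : 1 ≤ n) {τ : M ≃ₐ[F] M}
    (h : IsFrobRel τ Q n) (y : 𝓞 M) (hy : y ∈ Q) : τ • y ∈ Q := by
  rw [isFrobRel_iff_mem] at h
  have h1 := h y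
  have h2 : y ^ n ∈ Q := Ideal.pow_mem_of_mem Q hy n (by omega)
  have e : τ • y = (τ • y - y ^ n) + y ^ n := by ring
  rw [e]
  exact Q.add_mem h1 h2

/-- **Primes with nontrivial symbol are inert**: if `rkSym p x v ≠ 1` (`v ∉ T`), every prime `Q`
of `M` above `v` is stable under `Gal(M/F)`. -/
theorem rkSym_stab (hp : p.Prime) {ζ : F} (hζ : IsPrimitiveRoot ζ p)
    (hprim : (primitiveRoots p F).Nonempty) (H : Irreducible (X ^ p - C (x : F) : F[X]))
    {α : M} (hα : α ^ p = algebraMap F M (x : F)) (hfin : Module.finrank F M = p)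
    {T : Finset (HeightOneSpectrum (𝓞 F))} (hT : ContainsPrimesAbove F p T)
    (hx : ∀ v ∉ T, (p : ℤ) ∣ thetaOrd v x)
    (v : HeightOneSpectrum (𝓞 F)) (hv : v ∉ T) (hs : rkSym p x v ≠ 1)
    (Q : Ideal (𝓞 M)) (hQ : Q.IsPrime) (hQ0 : Q ≠ ⊥) (hQv : Q.under (𝓞 F) = v.asIdeal)
    (τ : M ≃ₐ[F] M) (y : 𝓞 M) (hy : y ∈ Q) : τ • y ∈ Q := by
  have hQT : ∀ v' ∈ T, Q.under (𝓞 F) ≠ v'.asIdeal := by
    intro v' hv' h
    have : v = v' := HeightOneSpectrum.ext (hQv.symm.trans h)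
    exact hv (this ▸ hv')
  have hfrob := rkArtin_frob_of_notMem hp hζ hprim H hα hT hx Q hQ hQ0 hQT
  set τ₀ := rkArtin M hprim H T (Q.under (𝓞 F)) with hτ₀
  have hτ₀1 : τ₀ ≠ 1 := by
    intro h1
    apply hs
    have h2 := rkArtin_eq_one hprim H T h1
    rw [hQv, famW_prime T _ hv] at h2
    exact h2
  have hN : 1 ≤ Ideal.absNorm (Q.under (𝓞 F)) := by
    rw [Nat.one_le_iff_ne_zero, Ne, Ideal.absNorm_eq_zero_iff, hQv]
    exact v.ne_bot
  -- `τ₀` generates the Galois group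
  have : Fact p.Prime := ⟨hp⟩
  have hfd : FiniteDimensional F M := Module.finite_of_finrank_pos (by rw [hfin]; exact hp.pos)
  have hcard : Nat.card (M ≃ₐ[F] M) = p := by rw [IsGalois.card_aut_eq_finrank, hfin]
  have htop : Subgroup.zpowers τ₀ = ⊤ := zpowers_eq_top_of_prime_card hcard hτ₀1
  have hmem : τ ∈ Submonoid.powers τ₀ := by
    rw [mem_powers_iff_mem_zpowers, htop]
    trivial
  obtain ⟨j, rfl⟩ := hmem
  show τ₀ ^ j • y ∈ Q
  induction j with
  | zero => simpa using hy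
  | succ j ih =>
    rw [pow_succ', mul_smul]
    exact rk_frob_stab hN hfrob _ ih

/-- **CF-Kum**, the finite-level core of the existence theorem.  `f` a local norm from
`M = F(x^{1/p})` on `T` (Hensel level), `d` a divisor supported on `R` outside `T`, `x` a unit on
`R`; if the symbols are trivial on `d + div f` prime by prime (norm condition), then
`∏_{v ∈ R} (x / v)_p ^ d v = 1`. -/
theorem kum_core (hR : Rec1W) (hp : p.Prime) (hp2 : p ≠ 2) {ζ : F} (hζ : IsPrimitiveRoot ζ p)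
    (hprim : (primitiveRoots p F).Nonempty) (H : Irreducible (X ^ p - C (x : F) : F[X]))
    {α : M} (hα : α ^ p = algebraMap F M (x : F))
    {T : Finset (HeightOneSpectrum (𝓞 F))} (hT : ContainsPrimesAbove F p T)
    (hx : ∀ v ∉ T, (p : ℤ) ∣ thetaOrd v x) (f : Fˣ) (z : Mˣ) (k : ℕ)
    (hk : ∀ v ∈ T, WithZero.exp (-(k : ℤ)) ≤ v.valuation F (ζ - 1) ^ p)
    (hf : ∀ v ∈ T, f / normUnits F M z ∈ oneModSubgroup F v k)
    (d : HeightOneSpectrum (𝓞 F) → ℤ) (R : Finset (HeightOneSpectrum (𝓞 F)))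
    (hTR : Disjoint T R) (hsupp : ∀ v, v ∉ T → v ∉ R → d v = 0)
    (hxR : ∀ v ∈ R, thetaOrd v x = 0)
    (hN : ∀ v, v ∉ T → rkSym p x v ^ (d v + thetaOrd v f) = 1) :
    ∏ v ∈ R, powSymb p v (x : F) ^ d v = 1 := by
  classical
  have h1 := famW_of_localNorm hR hp hp2 hζ hprim H hα hT hx f z k hk hf
  rw [famW_spanSingleton, inv_eq_one] at h1
  set g₁ : HeightOneSpectrum (𝓞 F) → Fˣ := fun v => if v ∈ T then 1 else rkSym p x v ^ d v
    with hg₁
  set g₂ : HeightOneSpectrum (𝓞 F) → Fˣ :=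
    fun v => if v ∈ T then 1 else rkSym p x v ^ thetaOrd v f with hg₂
  have hfin₁ : (Function.mulSupport g₁).Finite := by
    refine R.finite_toSet.subset ?_
    intro v hv
    rw [Function.mem_mulSupport] at hv
    by_contra hvR
    apply hv
    simp only [hg₁]
    split_ifs with hvT
    · rfl
    · rw [hsupp v hvT (by simpa using hvR), zpow_zero]
  have hfin₂ : (Function.mulSupport g₂).Finite := by
    refine (finite_setOf_thetaOrd_ne_zero f).subset ?_
    intro v hv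
    rw [Function.mem_mulSupport] at hv
    simp only [Set.mem_ofPred_eq]
    intro h0
    apply hv
    simp only [hg₂]
    split_ifs
    · rfl
    · rw [h0, zpow_zero]
  have hmul : ∀ v, g₁ v * g₂ v = 1 := by
    intro v
    simp only [hg₁, hg₂]
    split_ifs with hvT
    · rw [mul_one]
    · rw [← zpow_add]
      exact hN v hvT
  have h2 : (∏ᶠ v, g₁ v) * (∏ᶠ v, g₂ v) = 1 := by
    rw [← finprod_mul_distrib hfin₁ hfin₂]
    exact finprod_eq_one_of_forall_eq_one hmul
  have h3 : ∏ᶠ v, g₂ v = 1 := h1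
  rw [h3, mul_one] at h2
  rw [← h2, finprod_eq_prod_of_mulSupport_subset (s := R)]
  · refine Finset.prod_congr rfl fun v hv => ?_
    have hvT : v ∉ T := Finset.disjoint_right.mp hTR hv
    simp only [hg₁, if_neg hvT]
    rw [rkSym_eq_of_unit hp hζ (fun h => hvT (hT v h)) (hxR v hv)]
  · intro v hv
    rw [Function.mem_mulSupport] at hv
    by_contra hvR
    apply hv
    simp only [hg₁]
    split_ifs with hvT
    · rfl
    · rw [hsupp v hvT (by simpa using hvR), zpow_zero]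

end kummerArtin

end Fermat.Agent.F4Kum
end MergeWrap_F4_Kum_CoreFin

section MergeWrap_F4_Dict_ExistNorm -- from F4/Dict/ExistNorm.lean

/-!
# F4 / Dict / ExistNorm : the symbol of a norm class is trivial (leaf EX-8 of `dict_exist`;
helper86, statement by helper95)

`ℓ : LayerS p S`, `F = ℓ.bot.field ⊂ M = ℓ.top.field = F(x^{1/p})`.  If the ideal `a_t` of `t`
is, up to the principal ideal `(f)`, the norm of the ideal `a_{t'}` of `M`, then for every prime
`v` of `F` outside `S` the symbol `rkSym p x v` is killed by `ord_v(a_t) + ord_v(f)`: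
either the symbol is trivial, or `v` is inert in `M` and the exponent is divisible by `p`.
-/

set_option autoImplicit false
set_option synthInstance.maxHeartbeats 400000
set_option linter.style.haveILetI false

open CategoryTheory groupCohomology ExtCitation
open NumberField IsDedekindDomain Polynomial
open Fermat.Agent.F4Cf Fermat.Agent.S14SI Fermat.Agent.F4Kum
open scoped Pointwise

namespace Fermat.Agent.F4

variable {p : ℕ} [Fact p.Prime] {S : Finset Nat.Primes}

theorem LayerS.rkSym_zpow_eq_one (ℓ : LayerS p S) (hpS : pPrime p ∈ S) {ζ : ℓ.bot.field}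
    (hζ : IsPrimitiveRoot ζ p) (x : (ℓ.bot.field)ˣ)
    (H : Irreducible (X ^ p - C (x : ℓ.bot.field) : (ℓ.bot.field)[X]))
    [IsSplittingField ℓ.bot.field ℓ.top.field (X ^ p - C (x : ℓ.bot.field))]
    {α : ℓ.top.field} (hα : α ^ p = algebraMap ℓ.bot.field ℓ.top.field (x : ℓ.bot.field))
    (hx : ∀ v ∉ ℓ.bot.T, (p : ℤ) ∣ thetaOrd v x)
    {t t' : QSx S} {d : HeightOneSpectrum (𝓞 ℓ.bot.field) → ℤ} (hd : ℓ.bot.IsDivS t d)
    (ht' : t' ∈ ℓ.top.TU) (f : (ℓ.bot.field)ˣ)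
    (hE : t - cnorm (QSx S) p ℓ.σ t' - ℓ.bot.toQS f ∈ sUnitsAdd S)
    (v : HeightOneSpectrum (𝓞 ℓ.bot.field)) (hv : v ∉ ℓ.bot.T) :
    rkSym p x v ^ (d v + thetaOrd v f) = 1 := by
  classical
  have hp : p.Prime := Fact.out
  by_cases hs : rkSym p x v = 1
  · rw [hs, one_zpow]
  obtain ⟨d', hd'⟩ := ℓ.top.exists_isDivS t' ht'
  obtain ⟨q, hqS, hqv⟩ := ℓ.bot.exists_natCast_mem_of_not_mem_T v hv
  obtain ⟨A, hA, hvA⟩ := ℓ.bot.exists_primeBelowAt_of_mem v q hqv
  have hvA' : v.asIdeal = Fermat.Agent.KFin.primeBelow ℓ.bot.field A := by rw [hvA]; rfl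
  -- the orders at `A`
  have o1 := hd q hqS A hA v hvA'
  have o2 := ℓ.hasOrdAt_cnorm hd' q hqS A hA
  have o3 := ℓ.bot.capit_isDivS_toQS f q hqS A hA v hvA'
  have o4 : HasOrdAt A q ((smUnits.val (t - cnorm (QSx S) p ℓ.σ t' - ℓ.bot.toQS f) :
      (AlgebraicClosure ℚ)ˣ) : AlgebraicClosure ℚ) 0 := by
    rw [mem_sUnitsAdd_iff, isSUnit_iff_hasOrdAt_zero] at hE
    exact hE q hqS A hA
  have e1 : ((smUnits.val (t - cnorm (QSx S) p ℓ.σ t' - ℓ.bot.toQS f) :
      (AlgebraicClosure ℚ)ˣ) : AlgebraicClosure ℚ) =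
      ((smUnits.val t : (AlgebraicClosure ℚ)ˣ) : AlgebraicClosure ℚ) *
        (((smUnits.val (cnorm (QSx S) p ℓ.σ t') : (AlgebraicClosure ℚ)ˣ) :
          AlgebraicClosure ℚ))⁻¹ *
        (((smUnits.val (ℓ.bot.toQS f) : (AlgebraicClosure ℚ)ˣ) : AlgebraicClosure ℚ))⁻¹ := by
    rw [sub_eq_add_neg, sub_eq_add_neg, smUnits.val_add, smUnits.val_add, smUnits.val_neg,
      smUnits.val_neg, Units.val_mul, Units.val_mul, Units.val_inv_eq_inv_val,
      Units.val_inv_eq_inv_val]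
  have o5 := HasOrdAt.mul q.2 (HasOrdAt.mul q.2 o1 (HasOrdAt.inv q.2 o2)) (HasOrdAt.inv q.2 o3)
  rw [← e1] at o5
  have hsum := hasOrdAt_unique q.2 hA (Units.ne_zero _) o5 o4
  have hlog : WithZero.log (v.valuation ℓ.bot.field (f : ℓ.bot.field)) = thetaOrd v f := by
    rw [thetaOrd_valuation, WithZero.log_exp]
  beta_reduce at hsum
  rw [hlog] at hsum
  -- all conjugates of the prime of `M` below `A` coincide
  have hT : ContainsPrimesAbove ℓ.bot.field p ℓ.bot.T := by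
    intro v' hv'
    rw [ℓ.bot.mem_T]
    exact ⟨pPrime p, hpS, hv'⟩
  have hprim : (primitiveRoots p ℓ.bot.field).Nonempty :=
    ⟨ζ, (mem_primitiveRoots hp.pos).2 hζ⟩
  haveI : NeZero p := ⟨hp.ne_zero⟩
  have hwv : (ℓ.top.primeBelowAt q A hA).asIdeal.under (𝓞 ℓ.bot.field) = v.asIdeal := by
    rw [hvA', ℓ.primeBelow_bot A]
    rfl
  have hstab : ∀ (τ : ℓ.top.field ≃ₐ[ℓ.bot.field] ℓ.top.field) (y : 𝓞 ℓ.top.field),
      y ∈ (ℓ.top.primeBelowAt q A hA).asIdeal → τ • y ∈ (ℓ.top.primeBelowAt q A hA).asIdeal :=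
    fun τ y hy => rkSym_stab hp hζ hprim H hα ℓ.finrank_eq hT hx v hv hs
      (ℓ.top.primeBelowAt q A hA).asIdeal (ℓ.top.primeBelowAt q A hA).isPrime
      (ℓ.top.primeBelowAt q A hA).ne_bot hwv τ y hy
  have hcoe : ∀ (i : ℕ) (y : 𝓞 ℓ.top.field),
      (((((ℓ.gen ^ i) • y : 𝓞 ℓ.top.field)) : ℓ.top.field) : AlgebraicClosure ℚ) =
        (ℓ.σ ^ i) (((y : ℓ.top.field)) : AlgebraicClosure ℚ) := fun i y => ℓ.coe_gen_pow i y
  have hwi : ∀ i : ℕ, ℓ.top.primeBelowAt q ((ℓ.σ ^ i)⁻¹ • A) (liesOverPrime_smul A _ q hA) =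
      ℓ.top.primeBelowAt q A hA := by
    intro i
    apply HeightOneSpectrum.ext
    ext y
    rw [OpenS.primeBelowAt_asIdeal, OpenS.primeBelowAt_asIdeal,
      Fermat.Agent.KFin.mem_primeBelow_iff, Fermat.Agent.KFin.mem_primeBelow_iff]
    constructor
    · intro h
      have h1 := Fermat.Agent.KFin.kf_smul_mem_nonunits ((ℓ.σ ^ i)⁻¹ • A) (ℓ.σ ^ i) h
      rw [smul_inv_smul, ← hcoe i y, ← Fermat.Agent.KFin.mem_primeBelow_iff] at h1
      have h3 := hstab (ℓ.gen ^ i)⁻¹ _ h1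
      rw [inv_smul_smul, OpenS.primeBelowAt_asIdeal, Fermat.Agent.KFin.mem_primeBelow_iff] at h3
      exact h3
    · intro h
      have h2 := hstab (ℓ.gen ^ i) y
        (by rw [OpenS.primeBelowAt_asIdeal, Fermat.Agent.KFin.mem_primeBelow_iff]; exact h)
      rw [OpenS.primeBelowAt_asIdeal, Fermat.Agent.KFin.mem_primeBelow_iff, hcoe i y] at h2
      have h3 := Fermat.Agent.KFin.kf_smul_mem_nonunits A (ℓ.σ ^ i)⁻¹ h2
      have e : (ℓ.σ ^ i)⁻¹ ((ℓ.σ ^ i) (((y : ℓ.top.field)) : AlgebraicClosure ℚ)) =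
          (((y : ℓ.top.field)) : AlgebraicClosure ℚ) := (ℓ.σ ^ i).symm_apply_apply _
      rwa [e] at h3
  have hSum : ∑ i ∈ Finset.range p,
      d' (ℓ.top.primeBelowAt q ((ℓ.σ ^ i)⁻¹ • A) (liesOverPrime_smul A _ q hA)) =
      (p : ℤ) * d' (ℓ.top.primeBelowAt q A hA) := by
    rw [Finset.sum_congr rfl (fun i _ => by rw [hwi i]), Finset.sum_const, Finset.card_range,
      nsmul_eq_mul]
  rw [hSum] at hsum
  have hexp : d v + thetaOrd v f = (p : ℤ) * d' (ℓ.top.primeBelowAt q A hA) := by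
    linarith
  rw [hexp, zpow_mul, zpow_natCast, rkSym_pow, one_zpow]

end Fermat.Agent.F4
end MergeWrap_F4_Dict_ExistNorm

section MergeWrap_F4_Dict_ExistFin -- from F4/Dict/ExistFin.lean

/-!
# F4 / Dict / ExistFin : the existence theorem at finite level (`EX-FIN`, helper95)

`(kfS S hS).ExistFinAt (levelsS S) p U` for `U ≤ U0 p = ker (cycloChar p)` open, `p ∈ S` odd: the
hypothesis of `KForm.exist_of` / `dict_exist_of` (helper91, `F4/Dict/ExistAbs.lean`,
`Exist.lean`), and `dict_exist_pf`: the statement of the stub `dict_exist` of `F4/Cf/Dict.lean`,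
unconditional.  (This file does not import `F4/Cf/Dict.lean`.)

Leaves: `exists_kummer_layer`, `LayerS.kummer_package` (helper71), `LayerS.rkSym_zpow_eq_one`
(helper86, with helper31's `dvd_of_inert`), `LayerS.exists_norm_oneMod` (helper90),
`OpenS.exists_isDivS_fin` (helper32/helper49), `OpenS.existFin_end` (helper91), `OpenS.jApprox`
(helper86/helper90), `F4Kum.kumEx`, `F4Kum.kum_core` (helper95, on `F4Rec.artinRay` of
helper13/14).

`t ∈ T_U` with divisor `d` (finite support off `T`).  For every `x ∈ Fˣ` with `p ∣ ord_v x` off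
`T`, a unit on `supp d`:

* if `x ∈ F^p`, all symbols `(x / v)_p` are trivial;
* otherwise `M = F(x^{1/p})` is the field of a cyclic layer `(U, V, σ)` (`exists_kummer_layer`,
  `LayerS.kummer_package`); the hypothesis at this layer gives `t = N t' + f - ε` with
  `diagJ f ∈ N (J^V)`; `f` is a local norm at `T` to every precision
  (`LayerS.exists_norm_oneMod`), the norm condition holds prime by prime
  (`LayerS.rkSym_zpow_eq_one`), and `F4Kum.kum_core` (reciprocity at the Hensel level) gives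
  `∏_{v ∈ R} (x / v)_p ^ d v = 1`.

Hence (`F4Kum.kumEx`) there is `a₀ ∈ Fˣ`, a local `p`-th power on `T`, with
`ord_v a₀ ≡ d v mod p` off `T`; the conclusion follows by capitulation (`OpenS.existFin_end`).
-/

set_option autoImplicit false
set_option linter.unusedSectionVars false

open CategoryTheory groupCohomology ExtCitation
open NumberField IsDedekindDomain Polynomial

namespace Fermat.Agent.F4

open Fermat.Agent.F4Cf Fermat.Agent.S14SI Fermat.Agent.F4Kum

variable {p : ℕ} [Fact p.Prime] {S : Finset Nat.Primes}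

/-- `L.T` contains the primes above `p` if `p ∈ S`. -/
theorem OpenS.containsPrimesAbove (L : OpenS S) (hpS : pPrime p ∈ S) :
    ContainsPrimesAbove L.field p L.T := by
  intro v hv
  rw [L.mem_T]
  exact ⟨pPrime p, hpS, hv⟩

/-- The Hensel level: a precision `k` with `exp (-k) ≤ v y ^ n` on a finite set of primes. -/
theorem exists_hensel_level {F : Type*} [Field F] [NumberField F]
    (T : Finset (HeightOneSpectrum (𝓞 F))) {y : F} (hy : y ≠ 0) (n : ℕ) :
    ∃ k : ℕ, ∀ v ∈ T, WithZero.exp (-(k : ℤ)) ≤ v.valuation F y ^ n := by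
  classical
  induction T using Finset.induction_on with
  | empty => exact ⟨0, fun v hv => absurd hv (Finset.notMem_empty v)⟩
  | insert w T hw ih =>
    obtain ⟨k, hk⟩ := ih
    have hne : w.valuation F y ^ n ≠ 0 := pow_ne_zero _ ((Valuation.ne_zero_iff _).2 hy)
    obtain ⟨m, hm⟩ : ∃ m : ℤ, w.valuation F y ^ n = WithZero.exp m :=
      ⟨WithZero.log (w.valuation F y ^ n), (WithZero.exp_log hne).symm⟩
    refine ⟨max k (-m).toNat, fun v hv => ?_⟩
    rcases Finset.mem_insert.1 hv with rfl | hvT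
    · rw [hm, WithZero.exp_le_exp]
      have := Int.self_le_toNat (-m)
      have h2 : ((-m).toNat : ℤ) ≤ ((max k (-m).toNat : ℕ) : ℤ) := by
        exact_mod_cast le_max_right k (-m).toNat
      omega
    · refine le_trans ?_ (hk v hvT)
      rw [WithZero.exp_le_exp]
      have h2 : (k : ℤ) ≤ ((max k (-m).toNat : ℕ) : ℤ) := by
        exact_mod_cast le_max_left k (-m).toNat
      omega

/-- The symbols of a `p`-th power are trivial. -/
theorem powSymb_prod_of_pow {F : Type*} [Field F] [NumberField F] {ζ : F} (hp : p.Prime)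
    (hζ : IsPrimitiveRoot ζ p) {T R : Finset (HeightOneSpectrum (𝓞 F))}
    (hT : ContainsPrimesAbove F p T) (hTR : Disjoint T R) (x : Fˣ) (b : F)
    (hb : b ^ p = (x : F)) (hxR : ∀ v ∈ R, thetaOrd v x = 0)
    (c : HeightOneSpectrum (𝓞 F) → ℤ) :
    ∏ v ∈ R, powSymb p v (x : F) ^ c v = 1 := by
  refine Finset.prod_eq_one fun v hv => ?_
  have hvT : v ∉ T := fun h => (Finset.disjoint_left.1 hTR h) hv
  have hpv : (p : 𝓞 F) ∉ v.asIdeal := fun h => hvT (hT v h)
  have hx1 : v.valuation F (x : F) = 1 := by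
    rw [thetaOrd_valuation, hxR v hv, WithZero.exp_zero]
  have hb1 : v.valuation F b = 1 := by
    have h1 : v.valuation F b ^ p = 1 := by rw [← map_pow, hb, hx1]
    rcases pow_eq_one_iff.1 h1 with h | h
    · exact h
    · exact absurd h hp.ne_zero
  have e : powSymb p v (x : F) = 1 := by
    rw [← hb, powSymb_pow_nat v hp hζ hpv hb1, powSymb_pow]
  rw [e, one_zpow]

/-- The hypothesis of `KumEx` for one Kummer generator `x ∉ F^p`, in terms of its layer. -/
theorem LayerS.kum_hyp_layer (ℓ : LayerS p S) (hp2 : p ≠ 2) (hpS : pPrime p ∈ S)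
    (hS : S.Nonempty) (hU0 : ℓ.bot.U ≤ MonoidHom.ker (cycloChar p)) {ζ : ℓ.bot.field} (hζ : IsPrimitiveRoot ζ p)
    {t : (kfS S hS).Q} {d : HeightOneSpectrum (𝓞 ℓ.bot.field) → ℤ} (hd : ℓ.bot.IsDivS t d)
    (R : Finset (HeightOneSpectrum (𝓞 ℓ.bot.field))) (hTR : Disjoint ℓ.bot.T R)
    (hsupp : ∀ v, v ∉ ℓ.bot.T → v ∉ R → d v = 0)
    (hnorm : (kfS S hS).IsNormIdealAt p ℓ.bot.U ℓ.top.U ℓ.σ t)
    (x : (ℓ.bot.field)ˣ) (hx : ∀ v ∉ ℓ.bot.T, (p : ℤ) ∣ thetaOrd v x)
    (hxR : ∀ v ∈ R, thetaOrd v x = 0)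
    (hxp : ∀ b : ℓ.bot.field, b ^ p ≠ (x : ℓ.bot.field))
    (α₀ : AlgebraicClosure ℚ) (hα₀ : α₀ ^ p = ((x : ℓ.bot.field) : AlgebraicClosure ℚ))
    (hfix : ∀ g ∈ ℓ.top.U, g α₀ = α₀) :
    ∏ v ∈ R, powSymb p v (x : ℓ.bot.field) ^ d v = 1 := by
  have hp : p.Prime := Fact.out
  have hT := ℓ.bot.containsPrimesAbove hpS
  have hmem : α₀ ∈ ℓ.top.field := (ℓ.top.mem_field_iff α₀).2 hfix
  have hα : (⟨α₀, hmem⟩ : ℓ.top.field) ^ p =
      algebraMap ℓ.bot.field ℓ.top.field (x : ℓ.bot.field) := Subtype.ext hα₀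
  obtain ⟨-, H, hsplit⟩ := ℓ.kummer_package hU0 x ⟨α₀, hmem⟩ hα hxp
  have hprim : (primitiveRoots p ℓ.bot.field).Nonempty :=
    ⟨ζ, (mem_primitiveRoots hp.pos).2 hζ⟩
  -- the norm data
  obtain ⟨t', ht', f, hf, ⟨x', hx', hNx⟩, hE⟩ := hnorm
  obtain ⟨f₀, rfl⟩ := ℓ.bot.exists_toQS_of_fixed f hf
  obtain ⟨k, hk⟩ := exists_hensel_level ℓ.bot.T (y := ζ - 1)
    (sub_ne_zero.2 (hζ.ne_one hp.one_lt)) p
  obtain ⟨z, hz⟩ := ℓ.exists_norm_oneMod hx' f₀ hNx.symm k
  have : NeZero p := ⟨hp.ne_zero⟩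
  exact kum_core (F := ℓ.bot.field) (M := ℓ.top.field) rec1W hp hp2 hζ hprim H hα hT hx f₀ z k
    hk hz d R hTR hsupp hxR
    fun v hv => ℓ.rkSym_zpow_eq_one hpS hζ x H hα hx hd ht' f₀ hE v hv

/-- **The hypothesis of `KumEx`** for one Kummer generator `x`: if `t ∈ T_U` (divisor `d`,
supported on `R` off `T`) is a norm ideal up to a local norm from every cyclic layer of degree
`p`, then `∏_{v ∈ R} (x / v)_p ^ d v = 1`. -/
theorem OpenS.kum_hyp (hp2 : p ≠ 2) (hpS : pPrime p ∈ S) (hS : S.Nonempty) (L : OpenS S)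
    (hU0 : L.U ≤ MonoidHom.ker (cycloChar p)) {ζ : L.field} (hζ : IsPrimitiveRoot ζ p)
    {t : (kfS S hS).Q} {d : HeightOneSpectrum (𝓞 L.field) → ℤ} (hd : L.IsDivS t d)
    (R : Finset (HeightOneSpectrum (𝓞 L.field))) (hTR : Disjoint L.T R)
    (hsupp : ∀ v, v ∉ L.T → v ∉ R → d v = 0)
    (hall : ∀ (V : Subgroup GQ) (σ : GQ), (levelsS S).IsOpen V → IsCyc p L.U V σ →
      (kfS S hS).IsNormIdealAt p L.U V σ t)
    (x : (L.field)ˣ) (hx : ∀ v ∉ L.T, (p : ℤ) ∣ thetaOrd v x)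
    (hxR : ∀ v ∈ R, thetaOrd v x = 0) :
    ∏ v ∈ R, powSymb p v (x : L.field) ^ d v = 1 := by
  have hp : p.Prime := Fact.out
  have hT := L.containsPrimesAbove hpS
  by_cases hxp : ∃ b : L.field, b ^ p = (x : L.field)
  · obtain ⟨b, hb⟩ := hxp
    exact powSymb_prod_of_pow hp hζ hT hTR x b hb hxR d
  push Not at hxp
  obtain ⟨V, σ, α₀, hV, hc, hα₀, hfix⟩ := exists_kummer_layer hpS L hU0 x hx hxp
  exact LayerS.kum_hyp_layer ⟨L, ⟨V, hV⟩, σ, hc⟩ hp2 hpS hS hU0 hζ hd R hTR hsupp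
    (hall V σ hV hc) x hx hxR hxp α₀ hα₀ hfix

/-- **EX-FIN**: the existence theorem for exponent `p` at the finite level `U ≤ U0 p`. -/
theorem existFinAt (hp2 : p ≠ 2) (hpS : pPrime p ∈ S) (hS : S.Nonempty) (U : Subgroup GQ)
    (hU : (levelsS S).IsOpen U) (hU0 : U ≤ MonoidHom.ker (cycloChar p)) :
    (kfS S hS).ExistFinAt (levelsS S) p U := by
  classical
  intro t ht hall
  have hp : p.Prime := Fact.out
  let L : OpenS S := ⟨U, hU⟩
  obtain ⟨ζ, hζ⟩ := L.exists_primitiveRoot hU0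
  have hT := L.containsPrimesAbove hpS
  obtain ⟨d, hd, hfin, hdT⟩ := L.exists_isDivS_fin t ht
  set R : Finset (HeightOneSpectrum (𝓞 L.field)) := hfin.toFinset with hR
  have hTR : Disjoint L.T R := by
    rw [Finset.disjoint_left]
    intro v hvT hvR
    rw [hR, Set.Finite.mem_toFinset, Function.mem_support] at hvR
    exact hvR (hdT v hvT)
  have hsupp : ∀ v, v ∉ L.T → v ∉ R → d v = 0 := by
    intro v _ hvR
    by_contra h0
    exact hvR (by rw [hR, Set.Finite.mem_toFinset, Function.mem_support]; exact h0)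
  obtain ⟨a, hloc, hRa, hoff⟩ := kumEx p L.field ζ L.T R (fun v => - d v) hp hp2 hζ hT hTR
    (fun x hx hxR => by
      have h1 := L.kum_hyp hp2 hpS hS hU0 hζ hd R hTR hsupp hall x hx hxR
      have e : ∏ v ∈ R, powSymb p v (x : L.field) ^ (- d v) =
          (∏ v ∈ R, powSymb p v (x : L.field) ^ d v)⁻¹ := by
        rw [← Finset.prod_inv_distrib]
        exact Finset.prod_congr rfl fun v _ => zpow_neg _ _
      rw [e, h1, inv_one])
  refine L.existFin_end hpS hS hζ.pow_eq_one (hζ.ne_one hp.one_lt) hd hfin a hloc fun v hv => ?_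
  by_cases hvR : v ∈ R
  · have := hRa v hvR
    rwa [sub_neg_eq_add] at this
  · rw [hsupp v hv hvR, add_zero]
    exact hoff v hv hvR

/-- **`dict_exist`** (the existence axiom of `PCF` for `C = J / E`): the statement of the stub
`dict_exist` of `F4/Cf/Dict.lean` (`U0 p = MonoidHom.ker (cycloChar p)`), unconditional. -/
theorem dict_exist_pf (p : ℕ) [Fact p.Prime] (S : Finset Nat.Primes) (hp2 : p ≠ 2)
    (hpS : pPrime p ∈ S) (U : Subgroup GQ)
    (hU : (levelsS S).IsOpen U) (hU0 : U ≤ MonoidHom.ker (cycloChar p))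
    (a : Crep S) (ha : Fix (Crep S) U a)
    (hall : ∀ (V : Subgroup GQ) (σ : GQ), (levelsS S).IsOpen V → IsCyc p U V σ →
      IsNormFrom (Crep S) p V σ a) :
    ∃ (m : ℕ) (b : Crep S), ¬ p ∣ m ∧ Fix (Crep S) U b ∧ m • a = p • b :=
  dict_exist_of ⟨pPrime p, hpS⟩ U hU (fun _ hx k => OpenS.jApprox _ hx k)
    (existFinAt hp2 hpS ⟨pPrime p, hpS⟩ U hU hU0) a ha hall

end Fermat.Agent.F4
end MergeWrap_F4_Dict_ExistFin

section MergeWrap_F4_Cf_Dict -- from F4/Cf/Dict.lean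

/-!
# F4 / Cf / Dict : the formation `(G_ℚ, levelsS S, C = J / E)` is a class formation mod `p`
(STUBS — layer DICT of GLOB; statements by helper53, blueprint `NOTES/blueprint-F4-GLOB.md`)

Target: `pcf_Crep : PCF p (levelsS S) (Crep S) (U0 p)`, `U0 p = Gal(ℚ̄/ℚ(μ_p))`, for `p` odd,
`p ∈ S`, with `Crep S = Jrep S / EinJ S` of `F4/Dict/Formation.lean`.

Dictionary.  `U` open in `G_S`, `F` its fixed field (a number field inside `ℚ_S`), `V ⊴ U` of
index `p`, `M ⊃ F` its fixed field, cyclic of degree `p`, unramified outside `S`.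
Up to prime-to-`p` torsion, `(Crep S)^U = C_S(F) := (∏_{w | S} F_w^× × I_F^S) / F^×`
(`I_F^S` = fractional ideals prime to `S`): seat KAPPA.  Then

* `hasse`    ⟸ Hasse norm theorem `F4G.hasseNorm` (+ Hilbert 90 for idèles and for ideals);
* `first`    ⟸ `F4G.firstIneq_norm`;
* `second`   ⟸ `F4G.SecondIneqNorm` (`F4G.secondIneqNorm_of`, `F4Ray.SecondIneqRay`);
* `distinct` ⟸ Artin reciprocity `F4Rec.ArtinRay` (the norm group determines the layer);
* `two`      ⟸ Kummer theory: `F ⊇ μ_p`, `F(ζ_{p²})` or `F(p^{1/p})`, `F(u^{1/p})`;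
* `exist`    ⟸ existence theorem for exponent `p`, `F4Kum.KumEx`.
-/

set_option autoImplicit false
set_option synthInstance.maxHeartbeats 400000

open CategoryTheory groupCohomology ExtCitation

namespace Fermat.Agent.F4Cf

open Fermat.Agent.F4

variable (p : ℕ) [Fact p.Prime] (S : Finset Nat.Primes)

/-- `Gal(ℚ̄/ℚ(μ_p))`, the kernel of the mod `p` cyclotomic character. -/
noncomputable def U0 : Subgroup GQ := MonoidHom.ker (cycloChar p)

/-- `ℚ(μ_p) ⊂ ℚ_S` when `p ∈ S`. -/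
theorem U0_isOpen (hpS : pPrime p ∈ S) : (levelsS S).IsOpen (U0 p) :=
  U0_isOpen_pf p S hpS

theorem U0_index : ¬ p ∣ (U0 p).index :=
  U0_index_pf p

/-- **Hasse norm theorem** for `C = J / E`. -/
theorem dict_hasse (hp2 : p ≠ 2) (hpS : pPrime p ∈ S) (U V : Subgroup GQ) (σ : GQ)
    (hV : (levelsS S).IsOpen V) (hc : IsCyc p U V σ) (y : Crep S) (hy : Fix (Crep S) V y)
    (hN : cnorm (Crep S) p σ y = 0) :
    ∃ (m : ℕ) (z : Crep S), ¬ p ∣ m ∧ Fix (Crep S) V z ∧ m • y = (Crep S).ρ σ z - z :=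
  dict_hasse_pf p S hp2 hpS U V σ hV hc y hy hN

/-- **First inequality** for `C = J / E`. -/
theorem dict_first (hp2 : p ≠ 2) (hpS : pPrime p ∈ S) (U V : Subgroup GQ) (σ : GQ)
    (hV : (levelsS S).IsOpen V) (hc : IsCyc p U V σ) :
    ∃ a : Crep S, Fix (Crep S) U a ∧ ¬ IsNormFrom (Crep S) p V σ a :=
  dict_first_pf hp2 hpS U V σ hV hc

/-- **Second inequality** for `C = J / E`. -/
theorem dict_second (hp2 : p ≠ 2) (hpS : pPrime p ∈ S) (U V : Subgroup GQ) (σ : GQ)
    (hV : (levelsS S).IsOpen V) (hc : IsCyc p U V σ) (a b : Crep S)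
    (ha : Fix (Crep S) U a) (hb : Fix (Crep S) U b) (hna : ¬ IsNormFrom (Crep S) p V σ a) :
    ∃ k : ℕ, IsNormFrom (Crep S) p V σ (b - k • a) :=
  Fermat.Agent.F4.dict_second_pf p S hpS U V σ hV hc a b ha hb hna

/-- **Reciprocity**: distinct cyclic layers of degree `p` have distinct norm groups. -/
theorem dict_distinct (hp2 : p ≠ 2) (hpS : pPrime p ∈ S) (U V V' : Subgroup GQ) (σ σ' : GQ)
    (hV : (levelsS S).IsOpen V) (hV' : (levelsS S).IsOpen V')
    (hc : IsCyc p U V σ) (hc' : IsCyc p U V' σ') (hne : V ≠ V') :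
    ∃ y : Crep S, Fix (Crep S) V y ∧ ¬ IsNormFrom (Crep S) p V' σ' (cnorm (Crep S) p σ y) :=
  dict_distinct_pf hp2 hpS U V V' σ σ' hV hV' hc hc' hne

/-- **Kummer**: a number field `F ⊇ ℚ(μ_p)` inside `ℚ_S` (`p ∈ S`) has two distinct cyclic
extensions of degree `p` inside `ℚ_S`. -/
theorem dict_two (hp2 : p ≠ 2) (hpS : pPrime p ∈ S) (U : Subgroup GQ)
    (hU : (levelsS S).IsOpen U) (hU0 : U ≤ U0 p) :
    ∃ (V V' : Subgroup GQ) (σ σ' : GQ), (levelsS S).IsOpen V ∧ (levelsS S).IsOpen V' ∧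
      IsCyc p U V σ ∧ IsCyc p U V' σ' ∧ V ≠ V' :=
  dict_two_pf p S hp2 hpS U hU hU0

/-- **Existence theorem** for exponent `p` (`F ⊇ ℚ(μ_p)`). -/
theorem dict_exist (hp2 : p ≠ 2) (hpS : pPrime p ∈ S) (U : Subgroup GQ)
    (hU : (levelsS S).IsOpen U) (hU0 : U ≤ U0 p) (a : Crep S) (ha : Fix (Crep S) U a)
    (hall : ∀ (V : Subgroup GQ) (σ : GQ), (levelsS S).IsOpen V → IsCyc p U V σ →
      IsNormFrom (Crep S) p V σ a) :
    ∃ (m : ℕ) (b : Crep S), ¬ p ∣ m ∧ Fix (Crep S) U b ∧ m • a = p • b :=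
  Fermat.Agent.F4.dict_exist_pf p S hp2 hpS U hU hU0 a ha hall

/-- **DICT**: `(G_ℚ, levelsS S, J / E)` is a class formation mod `p`. -/
theorem pcf_Crep (hp2 : p ≠ 2) (hpS : pPrime p ∈ S) :
    PCF p (levelsS S) (Crep S) (U0 p) where
  smooth := Crep_smooth S
  open₀ := U0_isOpen p S hpS
  normal₀ := by unfold U0; infer_instance
  index₀ := U0_index p
  hasse := dict_hasse p S hp2 hpS
  first := dict_first p S hp2 hpS
  second := dict_second p S hp2 hpS
  distinct := dict_distinct p S hp2 hpS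
  two := dict_two p S hp2 hpS
  exist := dict_exist p S hp2 hpS

end Fermat.Agent.F4Cf
end MergeWrap_F4_Cf_Dict

section MergeWrap_F4_Cf_RecipDefs -- from F4/Cf/RecipDefs.lean

/-!
# F4 / Cf / RecipDefs : definitions of the layer RECIP (sorry-free; owner helper53)

* `rescaleLoc l c`     : the local datum `l` with `inv`, `invAll` multiplied by the unit `c`
                         (Prop-fields: helper49, `F4/Cf/RecipA.lean`);
* `LocTrivAway C q z`  : the class `z` of `KJ` is locally trivial away from `q`;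
* `T3 C inv`           : every local factor contributes to `HH²(G_S, KC)`;
* `IsRootMap φ`, `LocPack p S φ q` : the interface with LOC;
* `datJ`               : the universal-coefficient datum of `KJ`.

PROVERS of the seats R-A2, R-B, R-C, R-C0: import THIS file (not `F4/Cf/Recip.lean`, which imports
your files).  Statements of the seats: `F4/Cf/Recip.lean`; design: its header.
-/

set_option autoImplicit false

open CategoryTheory groupCohomology ExtCitation

namespace Fermat.Agent.F4Cf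

open Fermat.Agent.F4

variable {p : ℕ} [Fact p.Prime] {S : Finset Nat.Primes}

/-! ### The interface with LOC -/

/-- A root map `μ_p → E`: injective, equivariant, onto `E[p]` (exists by DK1, `exists_rootMap`). -/
structure IsRootMap (φ : Fp1 p →+ EsRep S) : Prop where
  inj : Function.Injective φ
  comm : ∀ (g : GQ) (x : Fp1 p), φ ((Fp1 p).ρ g x) = (EsRep S).ρ g (φ x)
  surj : ∀ y : EsRep S, (p : ℤ) • y = 0 → ∃ x : Fp1 p, φ x = y

/-- **What LOC delivers at `q`**: a local datum with its universal-coefficient datum, compatible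
with the global root map `φ`. -/
structure LocPack (p : ℕ) [Fact p.Prime] (S : Finset Nat.Primes) (φ : Fp1 p →+ EsRep S)
    (q : Nat.Primes) where
  loc : LocalDatum p S q
  I : Rep.{0} ℤ (primeLocalGaloisGroup q)
  Q : Rep.{0} ℤ (primeLocalGaloisGroup q)
  dat : UCData p loc.K (LqS S q) I Q
  smoothI : IsSmooth (locLevelsS S q) I
  compat : ∀ m : Fp1 p, dat.i0 (loc.ε.f0 m) = dat.ι (locUnit S q (EsIncl S (φ m)))

/-! ### Rescaling -/

/-- Rescaling the two invariants of a local datum by a unit of `𝔽_p`. -/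
noncomputable def rescaleLoc {q : Nat.Primes} (l : LocalDatum p S q) (c : (ZMod p)ˣ) :
    LocalDatum p S q where
  K := l.K
  smooth := l.smooth
  ε := l.ε
  ε_inj := l.ε_inj
  inv := (c : ZMod p) • l.inv
  a2inj := rescaleLoc_a2inj_pf l c
  a1surj := rescaleLoc_a1surj_pf l c
  invAll := (c : ZMod p) • l.invAll
  a2injAll := rescaleLoc_a2injAll_pf l c
  a1surjAll := rescaleLoc_a1surjAll_pf l c
  inv_ε := rescaleLoc_inv_ε_pf l c

/-- The class `z` of `KJ` is locally trivial away from `q`. -/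
def LocTrivAway {loc : ∀ q : ↥S, LocalDatum p S q.1} (C : CoindDatum p S loc) (q : ↥S)
    (z : ↥(ZZ2 (levelsS S) C.KJ)) : Prop :=
  ∀ q' : ↥S, q' ≠ q →
    (((C.ev q').mapZZ2 _ ⟨resT2 (primeLocalToGlobal q'.1) C.KJ z.1,
        resT2_mem_ZZ2 _ _ C.KJ z.2⟩ : ↥(ZZ2 (locLevelsS S q'.1) (loc q').K)) : T2 (loc q').K)
      ∈ BB2 (locLevelsS S q'.1) (loc q').K

/-- **T3**: every local factor contributes to `HH²(G_S, KC)`. -/
def T3 {loc : ∀ q : ↥S, LocalDatum p S q.1} (C : CoindDatum p S loc)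
    (inv : HH2 (levelsS S) C.KC →ₗ[ZMod p] ZMod p) : Prop :=
  ∀ q : ↥S, ∃ z : ↥(ZZ2 (levelsS S) C.KJ),
    LocTrivAway C q z ∧ inv (HH2π _ _ (C.g.mapZZ2 _ z)) ≠ 0

/-- The universal-coefficient datum of `KJ`. -/
noncomputable abbrev datJ (loc : ∀ q : ↥S, LocalDatum p S q.1)
    {I Q : ∀ q : ↥S, Rep.{0} ℤ (primeLocalGaloisGroup q.1)}
    (Dat : ∀ q : ↥S, UCData p (loc q).K (LqS S q.1) (I q) (Q q))
    (hI : ∀ q : ↥S, IsSmooth (locLevelsS S q.1) (I q)) :
    UCData p (coindKJ loc) (Jrep S)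
      (cxPiRep fun q : ↥S => coInd (primeLocalToGlobal q.1) (levelsS S) (I q))
      (cxPiRep fun q : ↥S => coInd (primeLocalToGlobal q.1) (levelsS S) (Q q)) :=
  UCData.coindPi (fun q : ↥S => primeLocalToGlobal q.1) (levelsS S) Dat hI

end Fermat.Agent.F4Cf
end MergeWrap_F4_Cf_RecipDefs
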