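import Fermat.Agent.MU.F4.Cf.Defs
import Fermat.Agent.F4.Shapiro.ModCor
import Fermat.Agent.F4.Shapiro.Core
import Fermat.Agent.MU.F4.UC.Bridge
import Fermat.Agent.MU.F4.Cf.Lines
import Fermat.Agent.MU.F4.Cf.H1
import Fermat.Agent.MU.F4.Cf.Res
import Fermat.Agent.MU.F4.Cf.Cyc
import Fermat.Agent.MU.F4.Cf.F34
import Fermat.Agent.F4.DDT.Retract
import Fermat.Agent.MU.F4.DDT.Main
import Fermat.Agent.MU.F4.Loc.Datum.CycloLevel
import Fermat.Agent.MU.F4.Loc.Unram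
import Fermat.Agent.MU.F4.Loc.Base
import Fermat.Agent.MU.F4.Cf.RecipDefs
import Fermat.Agent.MU.F4.Coind.Datum
import Fermat.Agent.F4.HyperPair
import Fermat.Agent.MU.F4.Dict.LocNorm
import Fermat.Agent.MU.F4.Dict.KappaPres
import Fermat.Agent.MU.F4.Dict.PlacesWire
import Fermat.Agent.MU.F4.Recip.ArtinSym
import Fermat.Agent.MU.F4.Cf.RecipCFin
import Fermat.Agent.MU.F4.Dict.Level
import Fermat.Agent.MU.F4.Dict.InertDiv
import Fermat.Agent.MU.F4.Dict.PlaceSurj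
import Fermat.Agent.MU.F4.Dict.CapitLevel
import Fermat.Agent.Lib.Frobenius.Exists
import Fermat.Agent.MU.F4.Cf.RecipB
import Fermat.Agent.MU.F4.Cf.CharGQ
import Fermat.Agent.MU.F4.Glob.Fin.Main

section MergeWrap_F4_Cf_Cor -- from F4/Cf/Cor.lean

/-!
# F4 / Cf / Cor : the projection formula (seat ACF-3b)

For a character `χ` of `G`, an open subgroup `V` of finite index and `y ∈ C^V`:

  `cor_V (y ∪ δ(χ|_V)) - (N_{G/V} y) ∪ δχ = δ¹(-e)`,   `e g = Σ_x M_x(g) • s_x y`,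

where `χ̃ (w_x g) = χ̃ g + χ̃ (s_{g⁻¹x}) - χ̃ (s_x) - p M_x(g)` (`χ̃` = the lift `ZMod.val ∘ χ`).
For a cyclic layer `V = ker ψ`, `ψ σ = 1`: `N_{G/V} y = Σ_x s_x y = Σ_{i<p} σ^i y`.

* `pj_corC2_carryCo` : general form (any open `V` of finite index);
* `corC_carryCo_pf`  : the statement `corC_carryCo` of `F4/Cf/Statements.lean`.
-/

set_option autoImplicit false
set_option linter.unusedSectionVars false

open CategoryTheory groupCohomology

namespace Fermat.Agent.F4Cf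

open Fermat.Agent.F4

variable {G : Type} [Group G] {p : ℕ} [Fact p.Prime] {𝓤 : Levels G} {C : Rep.{0} ℤ G}

/-! ### additive characters -/

lemma pj_chi_one {χ : G → ZMod p} (hχ : ∀ g h : G, χ (g * h) = χ g + χ h) : χ 1 = 0 := by
  have h := hχ 1 1
  rw [mul_one] at h
  have h2 : χ 1 + 0 = χ 1 + χ 1 := by rw [add_zero]; exact h
  exact (add_left_cancel h2).symm

lemma pj_chi_inv {χ : G → ZMod p} (hχ : ∀ g h : G, χ (g * h) = χ g + χ h) (g : G) :
    χ g⁻¹ = -χ g := by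
  have h := hχ g g⁻¹
  rw [mul_inv_cancel, pj_chi_one hχ] at h
  exact eq_neg_of_add_eq_zero_right h.symm

lemma pj_chi_pow {χ : G → ZMod p} (hχ : ∀ g h : G, χ (g * h) = χ g + χ h) (g : G) (n : ℕ) :
    χ (g ^ n) = (n : ZMod p) * χ g := by
  induction n with
  | zero => simp [pj_chi_one hχ]
  | succ n ih => rw [pow_succ, hχ, ih]; push_cast; ring

/-- the kernel of a smooth character is open -/
lemma pj_charKer_isOpen {χ : G → ZMod p} (hχ : IsSmChar 𝓤 χ) : 𝓤.IsOpen (charKer χ hχ.1) := by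
  obtain ⟨U, hU, h⟩ := hχ.2
  refine ⟨U, hU, fun s hs => ?_⟩
  show χ s = 0
  have := h 1 s hs
  rw [one_mul] at this
  rw [this, pj_chi_one hχ.1]

/-! ### fixed vectors and coset representatives -/

lemma pj_rho_mul_gen {k : Type} [CommRing k] (A : Rep.{0} k G) (g h : G) (y : A) :
    A.ρ (g * h) y = A.ρ g (A.ρ h y) := by
  rw [map_mul, Module.End.mul_apply]

lemma pj_rho_mul (g h : G) (y : C) : C.ρ (g * h) y = C.ρ g (C.ρ h y) :=
  pj_rho_mul_gen C g h y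

lemma pj_rho_eq_of_mk_eq (V : Subgroup G) {y : C} (hy : Fix C V y) {a b : G}
    (hab : (a : G ⧸ V) = (b : G ⧸ V)) : C.ρ a y = C.ρ b y := by
  have hmem : a⁻¹ * b ∈ V := QuotientGroup.eq.mp hab
  have h := hy _ hmem
  have e : C.ρ b y = C.ρ a (C.ρ (a⁻¹ * b) y) := by
    rw [← pj_rho_mul, mul_inv_cancel_left]
  rw [e, h]

lemma pj_rho_shSec (V : Subgroup G) {y : C} (hy : Fix C V y) (g : G) (x : G ⧸ V) :
    C.ρ g (C.ρ (shSec V x) y) = C.ρ (shSec V (g • x)) y := by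
  rw [← pj_rho_mul]
  apply pj_rho_eq_of_mk_eq V hy
  rw [mk_mul_shSec, mk_shSec]

/-- The norm of a cyclic layer is the sum over the coset representatives. -/
lemma pj_cnorm_eq_sum {ψ : G → ZMod p} (hψ : ∀ g h : G, ψ (g * h) = ψ g + ψ h) {σ : G}
    (hσ : ψ σ = 1) [Fintype (G ⧸ charKer ψ hψ)] {y : C} (hy : Fix C (charKer ψ hψ) y) :
    cnorm C p σ y = ∑ x : G ⧸ charKer ψ hψ, C.ρ (shSec (charKer ψ hψ) x) y := by
  have hpow : ∀ i : ℕ, ψ (σ ^ i) = (i : ZMod p) := by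
    intro i; rw [pj_chi_pow hψ, hσ, mul_one]
  unfold cnorm
  refine Finset.sum_bij (fun i _ => ((σ ^ i : G) : G ⧸ charKer ψ hψ)) (fun _ _ => Finset.mem_univ _)
    ?_ ?_ ?_
  · intro i hi j hj hij
    have hmem : (σ ^ i)⁻¹ * σ ^ j ∈ charKer ψ hψ := QuotientGroup.eq.mp hij
    have h0 : ψ ((σ ^ i)⁻¹ * σ ^ j) = 0 := hmem
    rw [hψ, pj_chi_inv hψ, hpow, hpow, neg_add_eq_zero] at h0
    have h1 := (ZMod.natCast_eq_natCast_iff' i j p).1 h0
    rw [Nat.mod_eq_of_lt (Finset.mem_range.1 hi), Nat.mod_eq_of_lt (Finset.mem_range.1 hj)] at h1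
    exact h1
  · intro x _
    induction x using QuotientGroup.induction_on with
    | H g =>
      refine ⟨(ψ g).val, Finset.mem_range.2 (ZMod.val_lt _), ?_⟩
      apply QuotientGroup.eq.mpr
      show ψ ((σ ^ (ψ g).val)⁻¹ * g) = 0
      rw [hψ, pj_chi_inv hψ, hpow, ZMod.natCast_zmod_val, neg_add_cancel]
  · intro i _
    exact pj_rho_eq_of_mk_eq _ hy (mk_shSec _ _).symm

/-! ### the integer cochain `M` -/

/-- `M_x(g) = (χ̃ g + χ̃ (s_{g⁻¹x}) - χ̃ (s_x) - χ̃ (w_x g)) / p`. -/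
noncomputable def pjM (V : Subgroup G) (χ : G → ZMod p) (x : G ⧸ V) (g : G) : ℤ :=
  (((χ g).val : ℤ) + ((χ (shSec V (g⁻¹ • x))).val : ℤ) - ((χ (shSec V x)).val : ℤ)
    - ((χ (shW V x g : G)).val : ℤ)) / (p : ℤ)

lemma pjM_spec (V : Subgroup G) {χ : G → ZMod p} (hχ : ∀ g h : G, χ (g * h) = χ g + χ h)
    (x : G ⧸ V) (g : G) :
    (p : ℤ) * pjM V χ x g = ((χ g).val : ℤ) + ((χ (shSec V (g⁻¹ • x))).val : ℤ)
      - ((χ (shSec V x)).val : ℤ) - ((χ (shW V x g : G)).val : ℤ) := by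
  unfold pjM
  apply Int.mul_ediv_cancel'
  rw [← ZMod.intCast_zmod_eq_zero_iff_dvd]
  push_cast
  rw [ZMod.natCast_zmod_val, ZMod.natCast_zmod_val, ZMod.natCast_zmod_val, ZMod.natCast_zmod_val,
    shW_coe, hχ, hχ, pj_chi_inv hχ]
  ring

lemma pj_carry (a b : ZMod p) :
    (p : ℤ) * (((a.val + b.val) / p : ℕ) : ℤ) = (a.val : ℤ) + (b.val : ℤ) - ((a + b).val : ℤ) := by
  have h := UC.val_add_carry a b
  have h2 : (((a + b).val + p * ((a.val + b.val) / p) : ℕ) : ℤ) = ((a.val + b.val : ℕ) : ℤ) := by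
    rw [h]
  rw [Nat.cast_add, Nat.cast_add, Nat.cast_mul] at h2
  linarith

/-- the key identity between the carries -/
lemma pj_key (V : Subgroup G) {χ : G → ZMod p} (hχ : ∀ g h : G, χ (g * h) = χ g + χ h)
    (x : G ⧸ V) (g h : G) :
    ((((χ (shW V x g : G)).val + (χ (shW V (g⁻¹ • x) h : G)).val) / p : ℕ) : ℤ)
      = ((((χ g).val + (χ h).val) / p : ℕ) : ℤ) - pjM V χ x g - pjM V χ (g⁻¹ • x) h
        + pjM V χ x (g * h) := by
  have hp : (p : ℤ) ≠ 0 := by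
    exact_mod_cast (Fact.out : p.Prime).ne_zero
  apply mul_left_cancel₀ hp
  have e1 : χ (shW V x g : G) + χ (shW V (g⁻¹ • x) h : G) = χ (shW V x (g * h) : G) := by
    rw [shW_mul, Subgroup.coe_mul, hχ]
  have e2 : (g * h)⁻¹ • x = h⁻¹ • g⁻¹ • x := by rw [mul_inv_rev, mul_smul]
  rw [mul_add, mul_sub, mul_sub, pj_carry, pj_carry, pjM_spec V hχ, pjM_spec V hχ,
    pjM_spec V hχ, e1, e2, ← hχ]
  ring

lemma pj_term {A : Type} [AddCommGroup A] (t : A) (a c : ℕ) (m1 m2 m3 : ℤ)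
    (h : (a : ℤ) = c - m1 - m2 + m3) : a • t - c • t = -(m2 • t) + m3 • t - m1 • t := by
  rw [← natCast_zsmul, ← natCast_zsmul t c, h, add_zsmul, sub_zsmul, sub_zsmul]
  abel

/-- the cochain `e g = Σ_x M_x(g) • s_x y` -/
noncomputable def pjE (V : Subgroup G) [Fintype (G ⧸ V)] (C : Rep.{0} ℤ G) (χ : G → ZMod p)
    (y : C) (g : G) : C :=
  ∑ x : G ⧸ V, pjM V χ x g • C.ρ (shSec V x) y

lemma pjM_mul_of_mem {V W : Subgroup G} (hW : W.Normal) (hWV : W ≤ V) {χ : G → ZMod p}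
    (hχ : ∀ g h : G, χ (g * h) = χ g + χ h) (hWχ : ∀ g s, s ∈ W → χ (g * s) = χ g)
    (x : G ⧸ V) (g : G) {s : G} (hs : s ∈ W) : pjM V χ x (g * s) = pjM V χ x g := by
  have hx : (g * s)⁻¹ • x = g⁻¹ • x := by
    rw [mul_inv_rev, mul_smul, smul_eq_of_mem_normal V hW hWV (W.inv_mem hs)]
  obtain ⟨v', hv', hv⟩ := shW_mul_mem V hW hWV hs x g
  have h0 : χ (v' : G) = 0 := by
    have := hWχ 1 _ hv'
    rw [one_mul] at this
    rw [this, pj_chi_one hχ]
  have h1 : χ (shW V x (g * s) : G) = χ (shW V x g : G) := by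
    rw [hv, Subgroup.coe_mul, hχ, h0, add_zero]
  unfold pjM
  rw [hx, h1, hWχ g s hs]

lemma pjE_isLC (V : Subgroup G) [Fintype (G ⧸ V)] (hV : 𝓤.IsOpen V) {χ : G → ZMod p}
    (hχ : IsSmChar 𝓤 χ) (y : C) : IsLC₁ 𝓤 (pjE V C χ y) := by
  obtain ⟨U₁, hU₁, hU₁V⟩ := hV
  obtain ⟨U₂, hU₂, hU₂χ⟩ := hχ.2
  obtain ⟨W, hW, hWle⟩ := 𝓤.directed U₁ hU₁ U₂ hU₂
  refine ⟨W, hW, fun g s hs => ?_⟩
  unfold pjE
  refine Finset.sum_congr rfl fun x _ => ?_
  rw [pjM_mul_of_mem (𝓤.normal W hW) (fun _ h => hU₁V (hWle h).1) hχ.1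
    (fun g s hs => hU₂χ g s (hWle hs).2) x g hs]

/-- **Projection formula**, general form: `cor_V (y ∪ δ(χ|_V)) - (Σ_x s_x y) ∪ δχ = δ¹(-e)`. -/
theorem pj_corC2_carryCo (V : Subgroup G) [Fintype (G ⧸ V)] (hV : 𝓤.IsOpen V) {χ : G → ZMod p}
    (hχ : IsSmChar 𝓤 χ) {y : C} (hy : Fix C V y) :
    (fun q => corC2 V C (UC.carryCo (Rep.res V.subtype C) (fun v => χ (v : G)) y) q
      - UC.carryCo C χ (∑ x : G ⧸ V, C.ρ (shSec V x) y) q) ∈ B2 𝓤 C := by
  rw [UC.mem_B2]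
  refine ⟨fun g => -pjE V C χ y g, UC.isLC₁_neg (pjE_isLC V hV hχ y), ?_⟩
  funext q
  obtain ⟨g, h⟩ := q
  rw [δ1_apply, corC2_apply]
  show C.ρ g (-pjE V C χ y h) - -pjE V C χ y (g * h) + -pjE V C χ y g
    = ∑ x : G ⧸ V, C.ρ (shSec V x)
        ((((χ (shW V x g : G)).val + (χ (shW V (g⁻¹ • x) h : G)).val) / p) • y)
      - (((χ g).val + (χ h).val) / p) • ∑ x : G ⧸ V, C.ρ (shSec V x) y
  have h1 : C.ρ g (pjE V C χ y h)
      = ∑ x : G ⧸ V, pjM V χ (g⁻¹ • x) h • C.ρ (shSec V x) y := by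
    unfold pjE
    rw [map_sum, ← Equiv.sum_comp (MulAction.toPerm g : G ⧸ V ≃ G ⧸ V)
      (fun x => pjM V χ (g⁻¹ • x) h • C.ρ (shSec V x) y)]
    refine Finset.sum_congr rfl fun x _ => ?_
    rw [map_zsmul, pj_rho_shSec V hy, MulAction.toPerm_apply, inv_smul_smul]
  rw [map_neg, h1, Finset.smul_sum, ← Finset.sum_sub_distrib]
  unfold pjE
  rw [sub_neg_eq_add, ← Finset.sum_neg_distrib, ← Finset.sum_add_distrib,
    ← sub_eq_add_neg, ← Finset.sum_sub_distrib]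
  refine Finset.sum_congr rfl fun x _ => ?_
  rw [map_nsmul]
  exact (pj_term _ _ _ _ _ _ (pj_key V hχ.1 x g h)).symm

/-- **Projection formula** (= `corC_carryCo` of `F4/Cf/Statements.lean`).  For a character `χ`
of `G`, a cyclic layer `V = ker ψ` of `G` generated by `σ`, and `y ∈ C^V`:
`cor_V (y ∪ δ(χ|_V)) ~ (N_{G/V} y) ∪ δχ`. -/
theorem corC_carryCo_pf (hC : IsSmooth 𝓤 C) {χ ψ : G → ZMod p} (hχ : IsSmChar 𝓤 χ)
    (hψ : IsSmChar 𝓤 ψ) {σ : G} (hσ : ψ σ = 1) [Fintype (G ⧸ charKer ψ hψ.1)]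
    {y : C} (hy : Fix C (charKer ψ hψ.1) y) :
    (fun q => corC2 (charKer ψ hψ.1) C
        (UC.carryCo (Rep.res (charKer ψ hψ.1).subtype C) (fun v => χ (v : G)) y) q
      - UC.carryCo C χ (cnorm C p σ y) q) ∈ B2 𝓤 C := by
  have _ := hC
  rw [pj_cnorm_eq_sum hψ.1 hσ hy]
  exact pj_corC2_carryCo (charKer ψ hψ.1) (pj_charKer_isOpen hψ) hχ hy

end Fermat.Agent.F4Cf
end MergeWrap_F4_Cf_Cor

section MergeWrap_F4_Shapiro_Torsion -- from F4/Shapiro/Torsion.lean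

/-!
# F4 / Shapiro / Torsion : smooth `H¹` is torsion; `H¹(C)[p] = 0 ⇒ H¹(C)` is `p`-divisible

* `card_smul_mem_B1` : a 1-cocycle which is right-invariant under a subgroup `V` of finite index
  is killed by `[G : V]` modulo coboundaries (averaging);
* `exists_pos_smul_mem_B1` : every smooth 1-cocycle is torsion modulo coboundaries;
* `UC.H1p0.h1sm_div` : if `H¹(C)[p] = 0` then `H¹(C)` is `p`-divisible;
* `UCData.kF1_of_H1p0`, `UCData.depHH2_res_of_H1p0` : `dim HH²(K) ≤ 1` from `H¹(C)[p] = 0`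
  (instead of Hilbert 90) and `F1sm` — the form needed by GLOB.
-/

set_option autoImplicit false

open CategoryTheory groupCohomology

namespace Fermat.Agent.F4

section Averaging

variable {k G : Type} [CommRing k] [Group G]

/-- Averaging: a 1-cocycle right-invariant under a subgroup `V` of finite index is killed by
`[G : V]` modulo coboundaries. -/
theorem card_smul_mem_B1 (A : Rep.{0} k G) (V : Subgroup G) [Fintype (G ⧸ V)] {c : G → A}
    (hc : ∀ g h : G, c (g * h) = A.ρ g (c h) + c g)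
    (hV : ∀ g s : G, s ∈ V → c (g * s) = c g) :
    Fintype.card (G ⧸ V) • c ∈ B1 A := by
  refine ⟨-∑ x : G ⧸ V, c (shSec V x), ?_⟩
  funext g
  show A.ρ g (-∑ x : G ⧸ V, c (shSec V x)) - (-∑ x : G ⧸ V, c (shSec V x))
    = Fintype.card (G ⧸ V) • c g
  have h1 : ∀ x : G ⧸ V, c (g * shSec V x) = c (shSec V (g • x)) := by
    intro x
    have e := shSec_mul_shW V (g • x) g
    rw [inv_smul_smul] at e
    rw [← e]
    exact hV _ _ (shW V (g • x) g).2
  have h2 : ∑ x : G ⧸ V, c (g * shSec V x) = ∑ x : G ⧸ V, c (shSec V x) := by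
    rw [Finset.sum_congr rfl fun x _ => h1 x]
    exact Equiv.sum_comp (MulAction.toPerm g) fun y : G ⧸ V => c (shSec V y)
  have h3 : ∑ x : G ⧸ V, c (g * shSec V x)
      = A.ρ g (∑ x : G ⧸ V, c (shSec V x)) + Fintype.card (G ⧸ V) • c g := by
    rw [Finset.sum_congr rfl fun x _ => hc g (shSec V x), Finset.sum_add_distrib, map_sum,
      Finset.sum_const, Finset.card_univ]
  rw [h2] at h3
  rw [map_neg]
  have h4 : Fintype.card (G ⧸ V) • c g
      = ∑ x : G ⧸ V, c (shSec V x) - A.ρ g (∑ x : G ⧸ V, c (shSec V x)) := by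
    rw [eq_sub_iff_add_eq, add_comm]
    exact h3.symm
  rw [h4]
  abel

variable {𝓤 : Levels G}

/-- Every smooth 1-cocycle is torsion modulo coboundaries. -/
theorem exists_pos_smul_mem_B1 (A : Rep.{0} k G) {c : G → A} (hc : c ∈ Z1 𝓤 A) :
    ∃ n : ℕ, 0 < n ∧ n • c ∈ B1 A := by
  obtain ⟨V, hV, hVc⟩ := hc.2
  have := 𝓤.finiteIndex V hV
  have : Finite (G ⧸ V) := Subgroup.finite_quotient_of_finiteIndex
  let _ := Fintype.ofFinite (G ⧸ V)
  exact ⟨Fintype.card (G ⧸ V), Fintype.card_pos,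
    card_smul_mem_B1 A V ((mem_cocycles₁_iff c).1 hc.1) hVc⟩

end Averaging

variable {G : Type} [Group G]

namespace UC

variable {p : ℕ} {𝓤 : Levels G} {C : Rep.{0} ℤ G}

lemma H1p0.pow (h : H1p0 p 𝓤 C) (a : ℕ) {c : G → C} (hc : c ∈ Z1 𝓤 C)
    (hB : ((p : ℤ) ^ a) • c ∈ B1 C) : c ∈ B1 C := by
  induction a with
  | zero => rwa [pow_zero, one_smul] at hB
  | succ a ih =>
    refine ih (h (((p : ℤ) ^ a) • c) (zsmul_mem hc _) ?_)
    have e : (fun g => (p : ℤ) • (((p : ℤ) ^ a) • c) g) = ((p : ℤ) ^ (a + 1)) • c := by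
      funext g
      show (p : ℤ) • (((p : ℤ) ^ a) • c g) = ((p : ℤ) ^ (a + 1)) • c g
      rw [smul_smul, pow_succ, mul_comm]
    rw [e]
    exact hB

/-- If `H¹(C)[p] = 0`, every smooth 1-cocycle is `p` times a smooth 1-cocycle modulo
coboundaries. -/
theorem H1p0.exists_sub_p_smul_mem_B1 (hp : p.Prime) (h : H1p0 p 𝓤 C) {c : G → C}
    (hc : c ∈ Z1 𝓤 C) : ∃ c' : G → C, c' ∈ Z1 𝓤 C ∧ c - (p : ℤ) • c' ∈ B1 C := by
  obtain ⟨n, hn, hnB⟩ := exists_pos_smul_mem_B1 C hc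
  obtain ⟨a, m, hm, rfl⟩ := Nat.exists_eq_pow_mul_and_not_dvd hn.ne' p hp.ne_one
  have h1 : ((m : ℤ) • c) ∈ B1 C := by
    refine h.pow a (zsmul_mem hc _) ?_
    have e : ((p : ℤ) ^ a) • ((m : ℤ) • c) = (p ^ a * m) • c := by
      rw [smul_smul, ← natCast_zsmul]
      push_cast
      rfl
    rw [e]
    exact hnB
  have hcop : IsCoprime (m : ℤ) (p : ℤ) := by
    rw [Int.isCoprime_iff_gcd_eq_one, Int.gcd_natCast_natCast]
    exact Nat.Coprime.symm ((Nat.Prime.coprime_iff_not_dvd hp).2 hm)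
  obtain ⟨u, v, huv⟩ := hcop
  refine ⟨v • c, zsmul_mem hc _, ?_⟩
  have e : c - (p : ℤ) • (v • c) = u • ((m : ℤ) • c) := by
    rw [smul_smul, smul_smul, sub_eq_iff_eq_add, ← add_smul, mul_comm (p : ℤ) v, huv, one_smul]
  rw [e]
  exact zsmul_mem h1 u

/-- If `H¹(C)[p] = 0` then `H¹(C)` is `p`-divisible. -/
theorem H1p0.h1sm_div (hp : p.Prime) (h : H1p0 p 𝓤 C) (x : H1sm 𝓤 C) :
    ∃ x' : H1sm 𝓤 C, x = (p : ℤ) • x' := by
  obtain ⟨c, rfl⟩ := UC.H1smπ_surjective C x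
  obtain ⟨c', hc', hB⟩ := h.exists_sub_p_smul_mem_B1 hp c.2
  refine ⟨H1smπ 𝓤 C ⟨c', hc'⟩, ?_⟩
  rw [← map_zsmul, UC.H1smπ_eq_iff]
  exact hB

end UC

namespace UCData

variable {p : ℕ} {K : Cx (ZMod p) G} {C I Q : Rep.{0} ℤ G} (D : UCData p K C I Q)
  {𝓤 : Levels G} (hI : IsSmooth 𝓤 I)

include D hI

/-- Cocycle form of the injectivity of `β²` when `H¹(C)` is `p`-divisible. -/
theorem mem_BB2_of_rel2_of_div (hdiv : ∀ x : H1sm 𝓤 C, ∃ x' : H1sm 𝓤 C, x = (p : ℤ) • x')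
    {z : T2 K} (hz : z ∈ ZZ2 𝓤 K) {w : G × G → C} (hrel : D.Rel2 𝓤 z w) (hw : w ∈ B2 𝓤 C) :
    z ∈ BB2 𝓤 K := by
  obtain ⟨c, hc, hα⟩ := hrel.ker hw
  have h1 := D.α2_mk hI ⟨c, hc⟩ ⟨z, hz⟩ hα
  have h2 := (D.α2_eq_zero_iff hI _).2 (hdiv (H1smπ 𝓤 C ⟨c, hc⟩))
  rw [h1] at h2
  exact (HH2π_eq_zero_iff 𝓤 K ⟨z, hz⟩).1 h2

/-- **K-F1** from `H¹(C)[p] = 0` and the formation-level dependency `F1sm`. -/
theorem kF1_of_H1p0 [Fact p.Prime] (h1 : UC.H1p0 p 𝓤 C) (hF1 : UC.F1sm p 𝓤 C) :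
    UC.KF1 𝓤 K := by
  have hp : p.Prime := Fact.out
  have : NeZero p := ⟨hp.ne_zero⟩
  intro z₁ z₂ hz₁ hz₂
  obtain ⟨w₁, hw₁, hrel₁⟩ := Rel2.exists D hI hz₁
  obtain ⟨w₂, hw₂, hrel₂⟩ := Rel2.exists D hI hz₂
  obtain ⟨x, y, hxy, hB⟩ := hF1 w₁ w₂ hw₁ hw₂ (hrel₁.p_smul_mem_B2 hI hz₁)
    (hrel₂.p_smul_mem_B2 hI hz₂)
  refine ⟨(x : ZMod p), (y : ZMod p), ?_, ?_⟩
  · rcases hxy with h | h
    · exact Or.inl fun h0 => h ((ZMod.intCast_zmod_eq_zero_iff_dvd x p).1 h0)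
    · exact Or.inr fun h0 => h ((ZMod.intCast_zmod_eq_zero_iff_dvd y p).1 h0)
  · have hrel : D.Rel2 𝓤 (x • z₁ + y • z₂) (x • w₁ + y • w₂) :=
      (hrel₁.zsmul x).add (hrel₂.zsmul y)
    have e : ((x : ZMod p) • z₁ + (y : ZMod p) • z₂ : T2 K) = x • z₁ + y • z₂ := by
      rw [Int.cast_smul_eq_zsmul, Int.cast_smul_eq_zsmul]
    have hzz : ((x : ZMod p) • z₁ + (y : ZMod p) • z₂ : T2 K) ∈ ZZ2 𝓤 K :=
      (ZZ2 𝓤 K).add_mem ((ZZ2 𝓤 K).smul_mem _ hz₁) ((ZZ2 𝓤 K).smul_mem _ hz₂)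
    rw [e] at hzz ⊢
    exact D.mem_BB2_of_rel2_of_div hI (fun t => h1.h1sm_div hp t) hzz hrel hB

end UCData

namespace UCData

variable {p : ℕ} [Fact p.Prime] {K : Cx (ZMod p) G} {C I Q : Rep.{0} ℤ G}
  (D : UCData p K C I Q) {𝓤 : Levels G} (hI : IsSmooth 𝓤 I) (U : Subgroup G)

include D hI

/-- `dim HH²(U, K) ≤ 1` from `H¹(U, C)[p] = 0` and `F1sm` over `U` (GLOB form). -/
theorem depHH2_res_of_H1p0 (h1 : UC.H1p0 p (𝓤.sub U) (Rep.res U.subtype C))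
    (hF1 : UC.F1sm p (𝓤.sub U) (Rep.res U.subtype C)) :
    DepHH2 (𝓤.sub U) (K.res U.subtype) :=
  UC.depHH2_of_KF1 ((D.res U.subtype).kF1_of_H1p0 (UC.isSmooth_res U.subtype hI) h1 hF1)

end UCData

end Fermat.Agent.F4
end MergeWrap_F4_Shapiro_Torsion

section MergeWrap_F4_Cf_PGroup -- from F4/Cf/PGroup.lean

/-!
# F4 / Cf / PGroup : seat ACF-3c — `p`-torsion classes inflated from a `p`-group are cyclic

`cyclic_of_pGroup_pf` : **Claim C** of `F4/Cf/Statements.lean`, from the statements of the seats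
ACF-0 (`PCF.res`) and ACF-2 (`carryCo_of_norm`, `carryCo_inj`, `carryCo_exact`) for all
formations, packaged as `Acf3cHyp p`.

Proof: induction on `a` over all formations.  `a = 0`: `w` is constant, hence a coboundary.
`a + 1`: `ψ` a character whose kernel `V ⊇ W` has index `p`; by induction `w|_V` is a cyclic
class; by `two`, `distinct`, `lines` (on `V`), the projection formula and `cor ∘ res = p`
the class `w|_V` vanishes; then `carryCo_exact`.
-/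

set_option autoImplicit false
set_option linter.unusedSectionVars false

open CategoryTheory groupCohomology

namespace Fermat.Agent.F4Cf

open Fermat.Agent.F4 Fermat.Agent.F4CfCore

variable {G : Type} [Group G] {p : ℕ} [Fact p.Prime] {𝓤 : Levels G} {C : Rep.{0} ℤ G}

/-! ### the character of a cyclic layer -/

/-- a power of `σ` lying in `V` has exponent divisible by `p` -/
lemma acf3c_dvd_of_pow_mem {V : Subgroup G} {σ : G} (hσ : σ ∉ V) (hσp : σ ^ p ∈ V) {n : ℕ}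
    (hn : σ ^ n ∈ V) : p ∣ n := by
  have hp : p.Prime := Fact.out
  by_contra hdiv
  have hcop : Nat.Coprime n p := ((Nat.Prime.coprime_iff_not_dvd hp).2 hdiv).symm
  obtain ⟨m, -, hm⟩ := Nat.exists_mul_mod_eq_one_of_coprime hcop hp.one_lt
  have e : n * m = 1 + p * (n * m / p) := by
    have := Nat.mod_add_div (n * m) p
    omega
  apply hσ
  have h1 : σ ^ (n * m) ∈ V := by rw [pow_mul]; exact V.pow_mem hn m
  rw [e, pow_add, pow_one, pow_mul] at h1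
  exact (V.mul_mem_cancel_right (V.pow_mem hσp _)).1 h1

/-- the class of `g` in a cyclic layer is well defined modulo `p` -/
lemma acf3c_class_unique {V : Subgroup G} {σ : G} (hcyc : IsCyc p ⊤ V σ) {g : G} {i j : ℕ}
    (hi : (σ ^ i)⁻¹ * g ∈ V) (hj : (σ ^ j)⁻¹ * g ∈ V) : (i : ZMod p) = (j : ZMod p) := by
  wlog hij : j ≤ i generalizing i j
  · exact (this hj hi (le_of_not_ge hij)).symm
  have h1 : σ ^ (i - j) ∈ V := by
    have h2 : (σ ^ j)⁻¹ * g * ((σ ^ i)⁻¹ * g)⁻¹ ∈ V := V.mul_mem hj (V.inv_mem hi)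
    have e : (σ ^ j)⁻¹ * g * ((σ ^ i)⁻¹ * g)⁻¹ = σ ^ (i - j) := by
      have : σ ^ i = σ ^ j * σ ^ (i - j) := by rw [← pow_add, Nat.add_sub_cancel' hij]
      rw [this]
      group
    rwa [e] at h2
  have hd := acf3c_dvd_of_pow_mem hcyc.not_mem hcyc.pow_mem h1
  have : ((i - j : ℕ) : ZMod p) = 0 := (ZMod.natCast_eq_zero_iff _ _).2 hd
  rw [Nat.cast_sub hij, sub_eq_zero] at this
  exact this

/-- The character of a cyclic layer of the whole group. -/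
noncomputable def acf3cChar {V : Subgroup G} {σ : G} (hcyc : IsCyc p ⊤ V σ) : G → ZMod p :=
  fun g => ((Classical.choose (hcyc.gen g (Subgroup.mem_top g)) : ℕ) : ZMod p)

lemma acf3cChar_eq {V : Subgroup G} {σ : G} (hcyc : IsCyc p ⊤ V σ) {g : G} {j : ℕ}
    (hj : (σ ^ j)⁻¹ * g ∈ V) : acf3cChar hcyc g = (j : ZMod p) :=
  acf3c_class_unique hcyc (Classical.choose_spec (hcyc.gen g (Subgroup.mem_top g))).2 hj

lemma acf3cChar_spec {V : Subgroup G} {σ : G} (hcyc : IsCyc p ⊤ V σ) (g : G) :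
    ∃ i : ℕ, i < p ∧ (σ ^ i)⁻¹ * g ∈ V ∧ acf3cChar hcyc g = (i : ZMod p) :=
  ⟨_, (Classical.choose_spec (hcyc.gen g (Subgroup.mem_top g))).1,
    (Classical.choose_spec (hcyc.gen g (Subgroup.mem_top g))).2, rfl⟩

lemma acf3cChar_add {V : Subgroup G} {σ : G} (hcyc : IsCyc p ⊤ V σ) (g h : G) :
    acf3cChar hcyc (g * h) = acf3cChar hcyc g + acf3cChar hcyc h := by
  obtain ⟨i, -, hi, ei⟩ := acf3cChar_spec hcyc g
  obtain ⟨j, -, hj, ej⟩ := acf3cChar_spec hcyc h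
  rw [ei, ej, ← Nat.cast_add]
  apply acf3cChar_eq hcyc
  have h1 : (σ ^ j)⁻¹ * ((σ ^ i)⁻¹ * g) * ((σ ^ j)⁻¹)⁻¹ ∈ V :=
    hcyc.normal _ (Subgroup.mem_top _) _ hi
  have e : (σ ^ (i + j))⁻¹ * (g * h)
      = (σ ^ j)⁻¹ * ((σ ^ i)⁻¹ * g) * ((σ ^ j)⁻¹)⁻¹ * ((σ ^ j)⁻¹ * h) := by
    rw [pow_add]; group
  rw [e]
  exact V.mul_mem h1 hj

lemma acf3cChar_eq_zero_iff {V : Subgroup G} {σ : G} (hcyc : IsCyc p ⊤ V σ) (g : G) :
    acf3cChar hcyc g = 0 ↔ g ∈ V := by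
  constructor
  · intro h0
    obtain ⟨i, hip, hi, ei⟩ := acf3cChar_spec hcyc g
    rw [ei, ZMod.natCast_eq_zero_iff] at h0
    have : i = 0 := Nat.eq_zero_of_dvd_of_lt h0 hip
    subst this
    simpa using hi
  · intro hg
    have := acf3cChar_eq hcyc (g := g) (j := 0) (by simpa using hg)
    simpa using this

lemma acf3cChar_gen {V : Subgroup G} {σ : G} (hcyc : IsCyc p ⊤ V σ) :
    acf3cChar hcyc σ = 1 := by
  have := acf3cChar_eq hcyc (g := σ) (j := 1) (by simp)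
  simpa using this

lemma acf3cChar_isSmChar {V : Subgroup G} {σ : G} (hcyc : IsCyc p ⊤ V σ) (hV : 𝓤.IsOpen V) :
    IsSmChar 𝓤 (acf3cChar hcyc) := by
  refine ⟨acf3cChar_add hcyc, ?_⟩
  obtain ⟨U, hU, hUV⟩ := hV
  refine ⟨U, hU, fun g s hs => ?_⟩
  rw [acf3cChar_add, (acf3cChar_eq_zero_iff hcyc s).2 (hUV hs), add_zero]

lemma acf3cChar_ker {V : Subgroup G} {σ : G} (hcyc : IsCyc p ⊤ V σ) :
    charKer (acf3cChar hcyc) (acf3cChar_add hcyc) = V := by
  ext g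
  exact acf3cChar_eq_zero_iff hcyc g

/-! ### a layer of index `p` above a normal subgroup of `p`-power index -/

lemma acf3c_exists_layer {W : Subgroup G} (hWn : W.Normal) {a : ℕ}
    (hidx : W.index = p ^ (a + 1)) :
    ∃ (V : Subgroup G) (σ : G), IsCyc p ⊤ V σ ∧ W ≤ V ∧ V.index = p ∧
      W.relIndex V = p ^ a := by
  have hp : p.Prime := Fact.out
  have hcard : Nat.card (G ⧸ W) = p ^ (a + 1) := by rw [← hidx]; rfl
  have hfin : Finite (G ⧸ W) :=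
    Nat.finite_of_card_ne_zero (by rw [hcard]; exact pow_ne_zero _ hp.ne_zero)
  obtain ⟨Q', hQ'⟩ := Sylow.exists_subgroup_card_pow_prime (G := G ⧸ W) p
    (n := a) (by rw [hcard]; exact pow_dvd_pow p (Nat.le_succ a))
  have hQidx : Q'.index = p := by
    have h1 := Q'.card_mul_index
    rw [hQ', hcard, pow_succ] at h1
    exact Nat.eq_of_mul_eq_mul_left (pow_pos hp.pos a) h1
  have hQn : Q'.Normal := by
    apply Subgroup.normal_of_index_eq_minFac_card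
    rw [hQidx, hcard, Nat.Prime.pow_minFac hp (Nat.succ_ne_zero a)]
  set V : Subgroup G := Q'.comap (QuotientGroup.mk' W) with hV
  have hVn : V.Normal := hQn.comap _
  have hVidx : V.index = p := by
    rw [hV, Subgroup.index_comap_of_surjective Q' (QuotientGroup.mk'_surjective W), hQidx]
  have hWV : W ≤ V := by
    intro x hx
    rw [hV, Subgroup.mem_comap]
    have : (QuotientGroup.mk' W) x = 1 := (QuotientGroup.eq_one_iff x).2 hx
    rw [this]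
    exact Q'.one_mem
  have hrel : W.relIndex V = p ^ a := by
    have h1 := Subgroup.relIndex_mul_index hWV
    rw [hVidx, hidx, pow_succ] at h1
    exact Nat.eq_of_mul_eq_mul_right hp.pos h1
  have hnorm : NormalIn ⊤ V := fun g _ x hx => hVn.conj_mem x hx g
  have hrelV : V.relIndex ⊤ = p := by rw [Subgroup.relIndex_top_right, hVidx]
  obtain ⟨σ, hσ, hσV⟩ := exists_not_mem (p := p) hrelV
  exact ⟨V, σ, isCyc_of_relIndex le_top hnorm hrelV hσ hσV, hWV, hVidx, hrel⟩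

/-- The kernel of a character taking the value `1` has index `p`. -/
lemma acf3c_index_charKer {ψ : G → ZMod p} (hψ : ∀ g h : G, ψ (g * h) = ψ g + ψ h) {σ : G}
    (hψσ : ψ σ = 1) : (charKer ψ hψ).index = p := by
  let f : G →* Multiplicative (ZMod p) :=
    { toFun := fun g => Multiplicative.ofAdd (ψ g)
      map_one' := by rw [acf3_char_one hψ]; rfl
      map_mul' := fun g h => by rw [hψ]; rfl }
  have hker : f.ker = charKer ψ hψ := by
    ext g
    rw [MonoidHom.mem_ker]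
    show Multiplicative.ofAdd (ψ g) = 1 ↔ ψ g = 0
    exact Iff.rfl
  have hsurj : Function.Surjective f := by
    intro z
    refine ⟨σ ^ (Multiplicative.toAdd z).val, ?_⟩
    show Multiplicative.ofAdd (ψ (σ ^ (Multiplicative.toAdd z).val)) = z
    rw [acf3_char_pow hψ, hψσ, mul_one, ZMod.natCast_zmod_val]
    rfl
  rw [← hker, Subgroup.index_ker, MonoidHom.range_eq_top.2 hsurj]
  simp

/-! ### restriction to a subgroup -/

section Res

variable (V : Subgroup G)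

lemma acf3c_res_ρ (v : V) (x : C) : (Rep.res V.subtype C).ρ v x = C.ρ (v : G) x := rfl

lemma acf3c_fix_res {y : C} (hy : Fix C V y) : Fix (Rep.res V.subtype C) ⊤ y :=
  fun v _ => hy (v : G) v.2

lemma acf3c_isSmChar_res {χ : G → ZMod p} (hχ : IsSmChar 𝓤 χ) :
    IsSmChar (𝓤.sub V) (fun v : V => χ (v : G)) :=
  ⟨fun g h => hχ.1 g h, IsLC₁.comp_hom 𝓤 V.subtype hχ.2⟩

lemma acf3c_isOpen_subgroupOf {W : Subgroup G} (hW : 𝓤.IsOpen W) :
    (𝓤.sub V).IsOpen (W.subgroupOf V) := by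
  obtain ⟨U, hU, hUW⟩ := hW
  exact ⟨U.comap V.subtype, ⟨U, hU, rfl⟩, Subgroup.comap_mono hUW⟩

lemma acf3c_resC2_mem_B2 {w : G × G → C} (hw : w ∈ B2 𝓤 C) :
    resC2 V C w ∈ B2 (𝓤.sub V) (Rep.res V.subtype C) := by
  obtain ⟨e, he, rfl⟩ := (UC.mem_B2 𝓤 C w).1 hw
  refine (UC.mem_B2 (𝓤.sub V) (Rep.res V.subtype C) _).2
    ⟨fun v => e (v : G), IsLC₁.comp_hom 𝓤 V.subtype he, ?_⟩
  funext q
  rfl

lemma acf3c_infl2_res {W : Subgroup G} {w : G × G → C} (hinf : Infl2 W w) :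
    Infl2 (W.subgroupOf V) (resC2 V C w) := by
  intro g g' v v' hv hv'
  exact hinf (g : G) (g' : G) (v : G) (v' : G) hv hv'

end Res

/-! ### coprimality -/

lemma acf3c_eq_zero_of_coprime {M : Type*} [AddCommGroup M] {c : M} {a : ℤ}
    (ha : ¬ (p : ℤ) ∣ a) (h1 : a • c = 0) (h2 : p • c = 0) : c = 0 := by
  have hp : p.Prime := Fact.out
  have hcop : IsCoprime a (p : ℤ) := by
    rw [isCoprime_comm]
    exact (Int.isCoprime_iff_gcd_eq_one).2
      ((Nat.Prime.coprime_iff_not_dvd hp).2 (fun hd => ha (by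
        have := Int.natCast_dvd.2 hd
        simpa using this)))
  obtain ⟨u, v, huv⟩ := hcop
  have : c = (u * a + v * (p : ℤ)) • c := by rw [huv, one_smul]
  rw [this, add_smul, mul_smul, mul_smul, h1, natCast_zsmul, h2, smul_zero, smul_zero, add_zero]

/-! ### the hypotheses (statements of the other seats, for all formations) -/

/-- The statements of the seats ACF-0 and ACF-2 for all formations. -/
structure Acf3cHyp (p : ℕ) [Fact p.Prime] : Prop where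
  res : ∀ {G : Type} [Group G] {𝓤 : Levels G} {C : Rep.{0} ℤ G} {U₀ : Subgroup G},
    PCF p 𝓤 C U₀ → ∀ {U : Subgroup G}, 𝓤.IsOpen U →
      PCF p (𝓤.sub U) (Rep.res U.subtype C) (U₀.subgroupOf U)
  norm : ∀ {G : Type} [Group G] {𝓤 : Levels G} {C : Rep.{0} ℤ G}, IsSmooth 𝓤 C →
    Acf3HypNorm p 𝓤 C
  inj : ∀ {G : Type} [Group G] {𝓤 : Levels G} {C : Rep.{0} ℤ G} {U₀ : Subgroup G},
    PCF p 𝓤 C U₀ → Acf3HypInj p 𝓤 C
  exact : ∀ {G : Type} [Group G] {𝓤 : Levels G} {C : Rep.{0} ℤ G} {U₀ : Subgroup G},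
    PCF p 𝓤 C U₀ → ∀ (χ : G → ZMod p) (hχ : IsSmChar 𝓤 χ) (σ : G), χ σ = 1 →
      ∀ w : G × G → C, w ∈ Z2 𝓤 C → (fun q => (p : ℤ) • w q) ∈ B2 𝓤 C →
        resC2 (charKer χ hχ.1) C w
          ∈ B2 (𝓤.sub (charKer χ hχ.1)) (Rep.res (charKer χ hχ.1).subtype C) →
        ∃ x : C, Fix C ⊤ x ∧ (fun q => w q - UC.carryCo C χ x q) ∈ B2 𝓤 C

/-! ### the key step: the restriction to the layer vanishes -/

/-- If `w` is `p`-torsion and `w|_V` (`V = ker ψ`) is a cyclic class of the formation `V`, then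
`w|_V` is a smooth coboundary. -/
theorem acf3c_res_vanish (H : Acf3cHyp p) (h : PCF p 𝓤 C ⊤) {ψ : G → ZMod p}
    (hψ : IsSmChar 𝓤 ψ) {σ : G} (hψσ : ψ σ = 1) {w : G × G → C} (hw : w ∈ Z2 𝓤 C)
    (hpw : (fun q => (p : ℤ) • w q) ∈ B2 𝓤 C)
    {φ : ↥(charKer ψ hψ.1) → ZMod p} {y : C}
    (hφ : IsSmChar (𝓤.sub (charKer ψ hψ.1)) φ)
    (hy : Fix (Rep.res (charKer ψ hψ.1).subtype C) ⊤ y)
    (hwφ : (fun q => resC2 (charKer ψ hψ.1) C w q
        - UC.carryCo (Rep.res (charKer ψ hψ.1).subtype C) φ y q)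
      ∈ B2 (𝓤.sub (charKer ψ hψ.1)) (Rep.res (charKer ψ hψ.1).subtype C)) :
    resC2 (charKer ψ hψ.1) C w
      ∈ B2 (𝓤.sub (charKer ψ hψ.1)) (Rep.res (charKer ψ hψ.1).subtype C) := by
  have hp : p.Prime := Fact.out
  have hVo : 𝓤.IsOpen (charKer ψ hψ.1) := acf3_isOpen_charKer hψ
  have hcycV : IsCyc p ⊤ (charKer ψ hψ.1) σ := acf3_isCyc_of_char hψ.1 hψσ
  have h' : PCF p (𝓤.sub (charKer ψ hψ.1)) (Rep.res (charKer ψ hψ.1).subtype C) ⊤ := by
    have := H.res h hVo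
    rwa [Subgroup.top_subgroupOf] at this
  -- a second layer, different from `V`
  obtain ⟨V₁, V₂, σ₁, σ₂, hV₁o, hV₂o, hc₁, hc₂, hne⟩ := h.two ⊤ 𝓤.isOpen_top le_top
  obtain ⟨Vs, σs, hVso, hcs, hVsV⟩ : ∃ (Vs : Subgroup G) (σs : G), 𝓤.IsOpen Vs ∧
      IsCyc p ⊤ Vs σs ∧ charKer ψ hψ.1 ≠ Vs := by
    by_cases e : charKer ψ hψ.1 = V₁
    · exact ⟨V₂, σ₂, hV₂o, hc₂, by rw [e]; exact hne⟩
    · exact ⟨V₁, σ₁, hV₁o, hc₁, e⟩
  have hχ : IsSmChar 𝓤 (acf3cChar hcs) := acf3cChar_isSmChar hcs hVso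
  have hχσ : acf3cChar hcs σs = 1 := acf3cChar_gen hcs
  have hkerχ : charKer (acf3cChar hcs) hχ.1 = Vs := acf3cChar_ker hcs
  obtain ⟨y₀, hy₀, hn₀⟩ := h.distinct ⊤ _ Vs σ σs hVo hVso hcycV hcs hVsV
  have hn₀fix : Fix C ⊤ (cnorm C p σ y₀) := acf3_fix_cnorm hcycV hy₀
  -- the class `κ = (N y₀) ∪ δχ` on `G` is nonzero and `p`-torsion
  have hκ : acf3_cyc 𝓤 C (acf3cChar hcs) (cnorm C p σ y₀) ≠ 0 := by
    intro h0
    have := acf3_norm_of_cyc (H.inj h) hχ hχσ hn₀fix h0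
    rw [hkerχ] at this
    exact hn₀ this
  -- the classes on `V`
  have hχ' := acf3c_isSmChar_res (𝓤 := 𝓤) (charKer ψ hψ.1) hχ
  have hy₀' : Fix (Rep.res (charKer ψ hψ.1).subtype C) ⊤ y₀ := acf3c_fix_res _ hy₀
  obtain ⟨a, b, hab, hcomb⟩ := lines_pf h' (H.norm h'.smooth) (H.inj h') hχ' hφ hy₀' hy
  rw [acf3_comb_mem_iff] at hcomb
  have hwφ' : acf3_cls (𝓤.sub (charKer ψ hψ.1)) (Rep.res (charKer ψ hψ.1).subtype C)
      (resC2 (charKer ψ hψ.1) C w)
      = acf3_cls (𝓤.sub (charKer ψ hψ.1)) (Rep.res (charKer ψ hψ.1).subtype C)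
        (UC.carryCo (Rep.res (charKer ψ hψ.1).subtype C) φ y) := by
    rw [← sub_eq_zero, ← map_sub]
    exact acf3_cls_eq_zero.2 hwφ
  rw [← hwφ'] at hcomb
  -- `hcomb : a • [ε] + b • [w|_V] = 0`
  have hcomb' : (fun q => a • UC.carryCo (Rep.res (charKer ψ hψ.1).subtype C)
        (fun v : ↥(charKer ψ hψ.1) => acf3cChar hcs (v : G)) y₀ q
      + b • resC2 (charKer ψ hψ.1) C w q)
      ∈ B2 (𝓤.sub (charKer ψ hψ.1)) (Rep.res (charKer ψ hψ.1).subtype C) :=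
    (acf3_comb_mem_iff a b _ _).2 hcomb
  -- corestriction
  have : (charKer ψ hψ.1).FiniteIndex := by
    obtain ⟨U, hU, hUV⟩ := hVo
    have := 𝓤.finiteIndex U hU
    exact Subgroup.finiteIndex_of_le hUV
  let _ : Fintype (G ⧸ charKer ψ hψ.1) := Subgroup.fintypeQuotientOfFiniteIndex
  have hidxV : Fintype.card (G ⧸ charKer ψ hψ.1) = p := by
    rw [← Nat.card_eq_fintype_card]
    exact acf3c_index_charKer hψ.1 hψσ
  have hcor := corC2_mem_B2 (charKer ψ hψ.1) C hVo hcomb'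
  have e1 : corC2 (charKer ψ hψ.1) C (fun q => a • UC.carryCo
        (Rep.res (charKer ψ hψ.1).subtype C)
        (fun v : ↥(charKer ψ hψ.1) => acf3cChar hcs (v : G)) y₀ q
      + b • resC2 (charKer ψ hψ.1) C w q)
      = a • corC2 (charKer ψ hψ.1) C (UC.carryCo (Rep.res (charKer ψ hψ.1).subtype C)
        (fun v : ↥(charKer ψ hψ.1) => acf3cChar hcs (v : G)) y₀)
        + b • corC2 (charKer ψ hψ.1) C (resC2 (charKer ψ hψ.1) C w) := by
    rw [← corC2_zsmul, ← corC2_zsmul, ← corC2_add]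
    rfl
  rw [e1, ← acf3_cls_eq_zero, map_add, map_zsmul, map_zsmul] at hcor
  have hres0 : acf3_cls 𝓤 C (corC2 (charKer ψ hψ.1) C (resC2 (charKer ψ hψ.1) C w)) = 0 := by
    rw [acf3_cls_eq_zero]
    have h1 := corC2_res_sub_mem_B2 (charKer ψ hψ.1) C hVo hw
    rw [hidxV] at h1
    have h2 : (p • w : G × G → C) ∈ B2 𝓤 C := by
      have e : (p • w : G × G → C) = fun q => (p : ℤ) • w q := by
        funext q
        rw [Pi.smul_apply, natCast_zsmul]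
      rw [e]; exact hpw
    have := (B2 𝓤 C).add_mem h1 h2
    rwa [sub_add_cancel] at this
  have hproj : acf3_cls 𝓤 C (corC2 (charKer ψ hψ.1) C (UC.carryCo
        (Rep.res (charKer ψ hψ.1).subtype C)
        (fun v : ↥(charKer ψ hψ.1) => acf3cChar hcs (v : G)) y₀))
      = acf3_cyc 𝓤 C (acf3cChar hcs) (cnorm C p σ y₀) := by
    unfold acf3_cyc
    rw [← sub_eq_zero, ← map_sub, acf3_cls_eq_zero]
    exact corC_carryCo_pf h.smooth hχ hψ hψσ hy₀
  rw [hres0, hproj, smul_zero, add_zero] at hcor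
  -- `p ∣ a`
  have hpκ := acf3_p_smul_cyc (H.norm h.smooth) hχ hχσ hn₀fix
  have hpa : (p : ℤ) ∣ a := by
    by_contra hna
    exact hκ (acf3c_eq_zero_of_coprime hna hcor hpκ)
  have hpb : ¬ (p : ℤ) ∣ b := by
    rcases hab with h1 | h1
    · exact absurd hpa h1
    · exact h1
  -- `a • [ε] = 0`
  have hpε : p • acf3_cyc (𝓤.sub (charKer ψ hψ.1)) (Rep.res (charKer ψ hψ.1).subtype C)
      (fun v : ↥(charKer ψ hψ.1) => acf3cChar hcs (v : G)) y₀ = 0 := by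
    by_cases hz : ∀ v : ↥(charKer ψ hψ.1), acf3cChar hcs (v : G) = 0
    · have : (fun v : ↥(charKer ψ hψ.1) => acf3cChar hcs (v : G)) = 0 := funext hz
      rw [this, acf3_cyc_zero_char, smul_zero]
    · push Not at hz
      obtain ⟨v, hv⟩ := hz
      obtain ⟨σv, hσv⟩ := acf3_exists_eq_one
        (χ := fun v : ↥(charKer ψ hψ.1) => acf3cChar hcs (v : G)) hχ'.1 (g := v) hv
      exact acf3_p_smul_cyc (H.norm h'.smooth) hχ' hσv hy₀'
  obtain ⟨a', rfl⟩ := hpa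
  have haε : ((p : ℤ) * a') • acf3_cls (𝓤.sub (charKer ψ hψ.1))
      (Rep.res (charKer ψ hψ.1).subtype C)
      (UC.carryCo (Rep.res (charKer ψ hψ.1).subtype C)
        (fun v : ↥(charKer ψ hψ.1) => acf3cChar hcs (v : G)) y₀) = 0 := by
    rw [mul_comm, mul_smul, natCast_zsmul]
    unfold acf3_cyc at hpε
    rw [hpε, smul_zero]
  rw [haε, zero_add] at hcomb
  -- `p • [w|_V] = 0`
  have hpw' : p • acf3_cls (𝓤.sub (charKer ψ hψ.1)) (Rep.res (charKer ψ hψ.1).subtype C)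
      (resC2 (charKer ψ hψ.1) C w) = 0 := by
    rw [← map_nsmul, acf3_cls_eq_zero]
    have := acf3c_resC2_mem_B2 (charKer ψ hψ.1) hpw
    have e : (p • resC2 (charKer ψ hψ.1) C w : ↥(charKer ψ hψ.1) × ↥(charKer ψ hψ.1) → C)
        = resC2 (charKer ψ hψ.1) C (fun q => (p : ℤ) • w q) := by
      funext q
      show p • w _ = (p : ℤ) • w _
      rw [natCast_zsmul]
    rw [e]; exact this
  exact acf3_cls_eq_zero.1 (acf3c_eq_zero_of_coprime hpb hcomb hpw')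

/-! ### the induction -/

/-- a cocycle inflated from the trivial group is a coboundary -/
lemma acf3c_mem_B2_of_infl_top {w : G × G → C} (hw : w ∈ Z2 𝓤 C) (hinf : Infl2 ⊤ w) :
    w ∈ B2 𝓤 C := by
  have hconst : ∀ g h : G, w (g, h) = w (1, 1) := by
    intro g h
    have := hinf 1 1 g h (Subgroup.mem_top g) (Subgroup.mem_top h)
    simpa using this
  have hcoc := ((UC.mem_Z2 𝓤 C w).1 hw).1
  have hfix : ∀ g : G, C.ρ g (w (1, 1)) = w (1, 1) := by
    intro g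
    have := congrFun hcoc (g, 1, 1)
    simp only [δ2_apply, Pi.zero_apply, hconst] at this
    have h2 : C.ρ g (w (1, 1)) - w (1, 1) = 0 := by
      rw [← this]; abel
    exact sub_eq_zero.1 h2
  refine (UC.mem_B2 𝓤 C w).2 ⟨fun _ => w (1, 1), isLC₁_const 𝓤 _, ?_⟩
  funext q
  obtain ⟨g, h⟩ := q
  rw [δ1_apply, hconst g h]
  show C.ρ g (w (1, 1)) - w (1, 1) + w (1, 1) = w (1, 1)
  rw [hfix g]; abel

/-- **Claim C**, over all formations. -/
theorem acf3c_cyclic_aux (H : Acf3cHyp p) : ∀ (a : ℕ) (G : Type) [Group G] (𝓤 : Levels G)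
    (C : Rep.{0} ℤ G), PCF p 𝓤 C ⊤ → ∀ W : Subgroup G, W.Normal → 𝓤.IsOpen W →
    W.index = p ^ a → ∀ w : G × G → C, w ∈ Z2 𝓤 C → Infl2 W w →
    (fun q => (p : ℤ) • w q) ∈ B2 𝓤 C →
    ∃ (χ : G → ZMod p) (x : C), IsSmChar 𝓤 χ ∧ Fix C ⊤ x ∧
      (fun q => w q - UC.carryCo C χ x q) ∈ B2 𝓤 C := by
  intro a
  induction a with
  | zero =>
    intro G _ 𝓤 C h W hWn hW hidx w hw hinf hpw
    have hWtop : W = ⊤ := Subgroup.index_eq_one.1 (by simpa using hidx)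
    subst hWtop
    refine ⟨0, 0, acf3_isSmChar_zero, fun g _ => map_zero _, ?_⟩
    have e : (fun q => w q - UC.carryCo C (0 : G → ZMod p) (0 : C) q) = w := by
      funext q
      simp [UC.carryCo_apply]
    rw [e]
    exact acf3c_mem_B2_of_infl_top hw hinf
  | succ a ih =>
    intro G _ 𝓤 C h W hWn hW hidx w hw hinf hpw
    obtain ⟨V₀, σ, hcyc, hWV, hVidx, hrel⟩ := acf3c_exists_layer hWn hidx
    have hV₀o : 𝓤.IsOpen V₀ := Levels.IsOpen.mono 𝓤 hW hWV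
    have hψ : IsSmChar 𝓤 (acf3cChar hcyc) := acf3cChar_isSmChar hcyc hV₀o
    have hψσ : acf3cChar hcyc σ = 1 := acf3cChar_gen hcyc
    have hker : charKer (acf3cChar hcyc) hψ.1 = V₀ := acf3cChar_ker hcyc
    have hVo : 𝓤.IsOpen (charKer (acf3cChar hcyc) hψ.1) := acf3_isOpen_charKer hψ
    have h' : PCF p (𝓤.sub (charKer (acf3cChar hcyc) hψ.1))
        (Rep.res (charKer (acf3cChar hcyc) hψ.1).subtype C) ⊤ := by
      have := H.res h hVo
      rwa [Subgroup.top_subgroupOf] at this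
    have hidx' : (W.subgroupOf (charKer (acf3cChar hcyc) hψ.1)).index = p ^ a := by
      rw [hker]; exact hrel
    have hpw' : (fun q => (p : ℤ) • resC2 (charKer (acf3cChar hcyc) hψ.1) C w q)
        ∈ B2 (𝓤.sub (charKer (acf3cChar hcyc) hψ.1))
          (Rep.res (charKer (acf3cChar hcyc) hψ.1).subtype C) :=
      acf3c_resC2_mem_B2 (charKer (acf3cChar hcyc) hψ.1) hpw
    obtain ⟨φ, y, hφ, hy, hwφ⟩ := ih ↥(charKer (acf3cChar hcyc) hψ.1)
      (𝓤.sub (charKer (acf3cChar hcyc) hψ.1))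
      (Rep.res (charKer (acf3cChar hcyc) hψ.1).subtype C) h'
      (W.subgroupOf (charKer (acf3cChar hcyc) hψ.1)) (hWn.subgroupOf _)
      (acf3c_isOpen_subgroupOf _ hW) hidx'
      (resC2 (charKer (acf3cChar hcyc) hψ.1) C w)
      (resC2_mem_Z2 (charKer (acf3cChar hcyc) hψ.1) C hw)
      (acf3c_infl2_res _ hinf) hpw'
    have hres := acf3c_res_vanish H h hψ hψσ hw hpw hφ hy hwφ
    obtain ⟨x, hx, hwx⟩ := H.exact h (acf3cChar hcyc) hψ σ hψσ w hw hpw hres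
    exact ⟨acf3cChar hcyc, x, hψ, hx, hwx⟩

/-- **Claim C** (= `cyclic_of_pGroup` of `F4/Cf/Statements.lean`, seat ACF-3c). -/
theorem cyclic_of_pGroup_pf (H : Acf3cHyp p) (h : PCF p 𝓤 C ⊤) (a : ℕ) (W : Subgroup G)
    (hWn : W.Normal) (hW : 𝓤.IsOpen W) (hidx : W.index = p ^ a) {w : G × G → C}
    (hw : w ∈ Z2 𝓤 C) (hinf : Infl2 W w) (hpw : (fun q => (p : ℤ) • w q) ∈ B2 𝓤 C) :
    ∃ (χ : G → ZMod p) (x : C), IsSmChar 𝓤 χ ∧ Fix C ⊤ x ∧
      (fun q => w q - UC.carryCo C χ x q) ∈ B2 𝓤 C :=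
  acf3c_cyclic_aux H a G 𝓤 C h W hWn hW hidx w hw hinf hpw

end Fermat.Agent.F4Cf
end MergeWrap_F4_Cf_PGroup

section MergeWrap_F4_Cf_F1sm -- from F4/Cf/F1sm.lean

/-!
# F4 / Cf / F1sm : seat ACF-3d — `F1sm` for a class formation mod `p` (Sylow reduction)
(owner helper13; statement `f1sm` of `F4/Cf/Statements.lean`, proved here under the name
`f1sm_pf`, with the statements of `PCF.res` (ACF-0), `cyclic_of_pGroup` (ACF-3c) and `lines`
(ACF-3a) for the formations of the open subgroups as explicit hypotheses.)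

Proof.  `W ∈ 𝓤`, `W ≤ U₀`, a level of `w₁, w₂`; `P` the preimage of a Sylow `p`-subgroup of
`G ⧸ W`; then `P ≤ U₀`; over `P` both classes are cyclic (`cyclic_of_pGroup`), hence dependent
(`lines`); `cor ∘ res = [G : P]` and `p ∤ [G : P]`.

The group-theoretic lemmas `f1g_exists_sylow_preimage`, `f1g_res_mem_B2`,
`f1g_index_smul_mem_B2` are the ones of helper89's `F4/Loc/Smooth/F1.lean` (copied, to keep
`F4/Cf` independent of `F4/Loc`).
-/

set_option autoImplicit false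
set_option linter.unusedSectionVars false
set_option linter.style.haveILetI false

open CategoryTheory groupCohomology

namespace Fermat.Agent.F4Cf

open Fermat.Agent.F4

section Sylow

variable {G : Type} [Group G]

/-- The preimage `U` of a Sylow `p`-subgroup of `G ⧸ V`: `p ∤ [G : U]`, `[U : V] = p ^ a`. -/
theorem f1g_exists_sylow_preimage (p : ℕ) [Fact p.Prime] (V : Subgroup G) [V.Normal]
    [V.FiniteIndex] :
    ∃ (U : Subgroup G) (a : ℕ), V ≤ U ∧ ¬ p ∣ U.index ∧ (V.subgroupOf U).index = p ^ a := by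
  have : Finite (G ⧸ V) := Subgroup.finite_quotient_of_finiteIndex
  obtain ⟨P₀⟩ : Nonempty (Sylow p (G ⧸ V)) := inferInstance
  set U : Subgroup G := (P₀ : Subgroup (G ⧸ V)).comap (QuotientGroup.mk' V) with hUdef
  have hVU : V ≤ U := by
    intro v hv
    show QuotientGroup.mk' V v ∈ (P₀ : Subgroup (G ⧸ V))
    rw [QuotientGroup.mk'_apply, (QuotientGroup.eq_one_iff v).mpr hv]
    exact one_mem _
  have hidx : U.index = (P₀ : Subgroup (G ⧸ V)).index :=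
    Subgroup.index_comap_of_surjective _ (QuotientGroup.mk'_surjective V)
  obtain ⟨a, ha⟩ := P₀.2.exists_card_eq
  refine ⟨U, a, hVU, ?_, ?_⟩
  · rw [hidx]
    exact P₀.not_dvd_index
  · have h1 : V.relIndex U * U.index = V.index := Subgroup.relIndex_mul_index hVU
    have h2 : (P₀ : Subgroup (G ⧸ V)).index * Nat.card (P₀ : Subgroup (G ⧸ V)) =
        Nat.card (G ⧸ V) := Subgroup.index_mul_card _
    have h3 : V.index = Nat.card (G ⧸ V) := Subgroup.index_eq_card V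
    have h4 : U.index ≠ 0 := by
      rw [hidx]
      exact Subgroup.FiniteIndex.index_ne_zero
    have h5 : V.relIndex U * U.index = Nat.card (P₀ : Subgroup (G ⧸ V)) * U.index := by
      rw [h1, h3, ← h2, hidx, mul_comm]
    have h6 := Nat.eq_of_mul_eq_mul_right (Nat.pos_of_ne_zero h4) h5
    show V.relIndex U = p ^ a
    rw [h6]
    exact ha

/-- A subgroup `P ⊇ V` with `[P : V]` a power of `p` lies in every normal subgroup `U₀ ⊇ V` of
index prime to `p`. -/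
theorem f1g_le_of_pow_index (p : ℕ) [Fact p.Prime] {V P U₀ : Subgroup G} [U₀.Normal]
    (hVU₀ : V ≤ U₀) {a : ℕ} (hidx : (V.subgroupOf P).index = p ^ a)
    (h₀ : ¬ p ∣ U₀.index) : P ≤ U₀ := by
  have hpp : p.Prime := Fact.out
  rw [← Subgroup.relIndex_eq_one]
  have h1 : U₀.relIndex P ∣ V.relIndex P := Subgroup.relIndex_dvd_of_le_left P hVU₀
  have h2 : U₀.relIndex P ∣ U₀.index := Subgroup.relIndex_dvd_index_of_normal U₀ P
  have h3 : V.relIndex P = p ^ a := hidx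
  rw [h3] at h1
  obtain ⟨i, -, hi⟩ := (Nat.dvd_prime_pow hpp).1 h1
  rcases Nat.eq_zero_or_pos i with h0 | hpos
  · rw [hi, h0, pow_zero]
  · exfalso
    apply h₀
    rw [hi] at h2
    exact (dvd_pow_self p hpos.ne').trans h2

variable (𝓤 : Levels G) (A : Rep.{0} ℤ G)

/-- The restriction of a smooth coboundary to a subgroup is a smooth coboundary. -/
theorem f1g_res_mem_B2 (U : Subgroup G) {w : G × G → A} (hw : w ∈ B2 𝓤 A) :
    (fun h : U × U => w (h.1, h.2)) ∈ B2 (𝓤.sub U) (Rep.res U.subtype A) := by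
  obtain ⟨s, hs, rfl⟩ := hw
  refine ⟨fun h => s h, IsLC₁.comp_hom 𝓤 U.subtype hs, ?_⟩
  funext h
  simp [d₁₂_hom_apply]

variable {𝓤 A}

/-- `cor ∘ res = index` (helper48's `card_smul_mem_B2_of_res`). -/
theorem f1g_index_smul_mem_B2 (U : Subgroup G) (hU : 𝓤.IsOpen U) (c : G × G → A)
    (hc : c ∈ Z2 𝓤 A)
    (hres : (fun h : U × U => c (h.1, h.2)) ∈ B2 (𝓤.sub U) (Rep.res U.subtype A)) :
    (fun z => (U.index : ℤ) • c z) ∈ B2 𝓤 A := by
  obtain ⟨V, hV, hVU⟩ := hU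
  have hVf := 𝓤.finiteIndex V hV
  have hUf : U.FiniteIndex := Subgroup.finiteIndex_of_le hVU
  have : Finite (G ⧸ U) := Subgroup.finite_quotient_of_finiteIndex
  let _ : Fintype (G ⧸ U) := Fintype.ofFinite _
  have h1 := card_smul_mem_B2_of_res U A ⟨V, hV, hVU⟩ hc hres
  have e : (fun z => (U.index : ℤ) • c z) = Fintype.card (G ⧸ U) • c := by
    funext z
    rw [Subgroup.index_eq_card, Nat.card_eq_fintype_card, natCast_zsmul]
    rfl
  rw [e]
  exact h1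

end Sylow

variable {G : Type} [Group G] {p : ℕ} [Fact p.Prime] {𝓤 : Levels G} {C : Rep.{0} ℤ G}
  {U₀ : Subgroup G}

/-- **F1sm** (seat ACF-3d).  `hres`, `hcyc`, `hlines` are the statements of `PCF.res`,
`cyclic_of_pGroup`, `lines` for the formations of the open subgroups of `G`. -/
theorem f1sm_pf (h : PCF p 𝓤 C U₀)
    (hres : ∀ P : Subgroup G, 𝓤.IsOpen P →
      PCF p (𝓤.sub P) (Rep.res P.subtype C) (U₀.subgroupOf P))
    (hcyc : ∀ P : Subgroup G, 𝓤.IsOpen P → PCF p (𝓤.sub P) (Rep.res P.subtype C) ⊤ →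
      ∀ (a : ℕ) (W : Subgroup P), W.Normal → (𝓤.sub P).IsOpen W → W.index = p ^ a →
      ∀ w : P × P → Rep.res P.subtype C, w ∈ Z2 (𝓤.sub P) (Rep.res P.subtype C) → Infl2 W w →
      (fun q => (p : ℤ) • w q) ∈ B2 (𝓤.sub P) (Rep.res P.subtype C) →
      ∃ (χ : P → ZMod p) (x : Rep.res P.subtype C), IsSmChar (𝓤.sub P) χ ∧
        Fix (Rep.res P.subtype C) ⊤ x ∧
        (fun q => w q - UC.carryCo (Rep.res P.subtype C) χ x q)
          ∈ B2 (𝓤.sub P) (Rep.res P.subtype C))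
    (hlines : ∀ P : Subgroup G, 𝓤.IsOpen P → PCF p (𝓤.sub P) (Rep.res P.subtype C) ⊤ →
      ∀ (χ χ' : P → ZMod p), IsSmChar (𝓤.sub P) χ → IsSmChar (𝓤.sub P) χ' →
      ∀ x x' : Rep.res P.subtype C, Fix (Rep.res P.subtype C) ⊤ x →
      Fix (Rep.res P.subtype C) ⊤ x' →
      ∃ a b : ℤ, (¬ (p : ℤ) ∣ a ∨ ¬ (p : ℤ) ∣ b) ∧
        (fun q => a • UC.carryCo (Rep.res P.subtype C) χ x q
          + b • UC.carryCo (Rep.res P.subtype C) χ' x' q)
          ∈ B2 (𝓤.sub P) (Rep.res P.subtype C)) :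
    UC.F1sm p 𝓤 C := by
  intro w₁ w₂ hw₁ hw₂ hp₁ hp₂
  have hpp : p.Prime := Fact.out
  -- a common level `W ≤ U₀`
  obtain ⟨V₁, hV₁, hc₁⟩ := hw₁.2
  obtain ⟨V₂, hV₂, hc₂⟩ := hw₂.2
  obtain ⟨V₀, hV₀, hV₀le⟩ := h.open₀
  obtain ⟨V₃, hV₃, hV₃le⟩ := 𝓤.directed V₁ hV₁ V₂ hV₂
  obtain ⟨W, hW, hWle⟩ := 𝓤.directed V₃ hV₃ V₀ hV₀
  have hWV₁ : W ≤ V₁ := fun x hx => (hV₃le (hWle hx).1).1
  have hWV₂ : W ≤ V₂ := fun x hx => (hV₃le (hWle hx).1).2
  have hWU₀ : W ≤ U₀ := fun x hx => hV₀le (hWle hx).2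
  haveI hWn : W.Normal := 𝓤.normal W hW
  haveI hWf : W.FiniteIndex := 𝓤.finiteIndex W hW
  haveI hU₀n : U₀.Normal := h.normal₀
  -- the Sylow preimage
  obtain ⟨P, a, hWP, hpP, hidx⟩ := f1g_exists_sylow_preimage p W
  have hP : 𝓤.IsOpen P := ⟨W, hW, hWP⟩
  have hPU₀ : P ≤ U₀ := f1g_le_of_pow_index p hWU₀ hidx h.index₀
  have hPCF : PCF p (𝓤.sub P) (Rep.res P.subtype C) ⊤ := by
    have h1 := hres P hP
    rwa [Subgroup.subgroupOf_eq_top.2 hPU₀] at h1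
  -- over `P` both classes are cyclic
  have hWopen : (𝓤.sub P).IsOpen (W.subgroupOf P) :=
    (𝓤.sub P).isOpen_of_mem ⟨W, hW, rfl⟩
  have hWn' : (W.subgroupOf P).Normal := inferInstance
  obtain ⟨χ₁, x₁, hχ₁, hx₁, hcob₁⟩ := hcyc P hP hPCF a (W.subgroupOf P) hWn' hWopen hidx
    (fun q : P × P => w₁ (q.1, q.2)) (Z2res 𝓤 C P.subtype ⟨w₁, hw₁⟩).2
    (fun g g' v v' hv hv' => hc₁ g g' v v' (hWV₁ hv) (hWV₁ hv'))
    (f1g_res_mem_B2 𝓤 C P hp₁)
  obtain ⟨χ₂, x₂, hχ₂, hx₂, hcob₂⟩ := hcyc P hP hPCF a (W.subgroupOf P) hWn' hWopen hidx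
    (fun q : P × P => w₂ (q.1, q.2)) (Z2res 𝓤 C P.subtype ⟨w₂, hw₂⟩).2
    (fun g g' v v' hv hv' => hc₂ g g' v v' (hWV₂ hv) (hWV₂ hv'))
    (f1g_res_mem_B2 𝓤 C P hp₂)
  obtain ⟨x, y, hxy, hdep⟩ := hlines P hP hPCF χ₁ χ₂ hχ₁ hχ₂ x₁ x₂ hx₁ hx₂
  -- dependency over `P`
  have hresB : (fun q : P × P => (x • w₁ + y • w₂) (q.1, q.2))
      ∈ B2 (𝓤.sub P) (Rep.res P.subtype C) := by
    have e : (fun q : P × P => (x • w₁ + y • w₂) ((q.1 : G), (q.2 : G))) =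
        x • (fun q : P × P => (show Rep.res P.subtype C from w₁ ((q.1 : G), (q.2 : G)))
            - UC.carryCo (Rep.res P.subtype C) χ₁ x₁ q)
        + y • (fun q : P × P => (show Rep.res P.subtype C from w₂ ((q.1 : G), (q.2 : G)))
            - UC.carryCo (Rep.res P.subtype C) χ₂ x₂ q)
        + (fun q : P × P => x • UC.carryCo (Rep.res P.subtype C) χ₁ x₁ q
            + y • UC.carryCo (Rep.res P.subtype C) χ₂ x₂ q) := by
      funext q
      simp only [Pi.add_apply, Pi.smul_apply, smul_sub]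
      abel
    rw [e]
    exact add_mem (add_mem (zsmul_mem hcob₁ x) (zsmul_mem hcob₂ y)) hdep
  have hZ : (x • w₁ + y • w₂) ∈ Z2 𝓤 C := add_mem (zsmul_mem hw₁ x) (zsmul_mem hw₂ y)
  have hidxB := f1g_index_smul_mem_B2 P hP (x • w₁ + y • w₂) hZ hresB
  -- conclusion
  have hpidx : ¬ (p : ℤ) ∣ (P.index : ℤ) := fun hd => hpP (Int.natCast_dvd_natCast.1 hd)
  have hprime : Prime (p : ℤ) := Nat.prime_iff_prime_int.1 hpp
  refine ⟨(P.index : ℤ) * x, (P.index : ℤ) * y, ?_, ?_⟩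
  · rcases hxy with hx | hy
    · exact Or.inl fun hd => (hprime.dvd_or_dvd hd).elim hpidx hx
    · exact Or.inr fun hd => (hprime.dvd_or_dvd hd).elim hpidx hy
  · have e : (fun q => ((P.index : ℤ) * x) • w₁ q + ((P.index : ℤ) * y) • w₂ q) =
        (fun z => (P.index : ℤ) • (x • w₁ + y • w₂) z) := by
      funext q
      simp only [Pi.add_apply, Pi.smul_apply, smul_add, mul_smul]
    rw [e]
    exact hidxB

end Fermat.Agent.F4Cf
end MergeWrap_F4_Cf_F1sm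

section MergeWrap_F4_Cf_Statements -- from F4/Cf/Statements.lean

/-!
# F4 / Cf / Statements : abstract class formations mod `p` — the formation-level statements
(owner: helper53; blueprint `NOTES/blueprint-F4-GLOB.md`, v2.  ALL PROVED: this file only wires the
proofs of the seats.)

Input: `h : PCF p 𝓤 C U₀` (`F4/Cf/Defs.lean`).  Output: the formation-level statements of
`F4/UC/KLevel.lean`, `F4/UC/Bridge.lean` for every open subgroup:

    H1slack (⇒ UC.H1p0),  UC.F3sm,  UC.F4sm (below U₀),  UC.F1sm.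

Seats (all landed).
 ACF-0  `PCF.res`                      helper9   `F4/Cf/Res.lean`
 ACF-1  `h1slack`, `H1slack.h1p0`      helper49  `F4/Cf/H1.lean` (core: helper87 `F4/CfCore`)
 ACF-2  `carryCo_of_norm`, `carryCo_inj`, `carryCo_exact`
                                       helper71  `F4/Cf/Cyc.lean`, `CycMul.lean`
 ACF-3a `carryCo_add_char`, `lines`    helper91  `F4/Cf/Lines.lean`
 ACF-3b `corC_carryCo`                 helper48  `F4/Cf/Cor.lean`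
 ACF-3c `cyclic_of_pGroup`             helper91  `F4/Cf/PGroup.lean`
 ACF-3d `f1sm`                         helper13  `F4/Cf/F1sm.lean`
 ACF-4  `f3sm`, `f4sm`                 helper13  `F4/Cf/F34.lean`
-/

set_option autoImplicit false

open CategoryTheory groupCohomology

namespace Fermat.Agent.F4Cf

open Fermat.Agent.F4

variable {G : Type} [Group G] {p : ℕ} [Fact p.Prime] {𝓤 : Levels G} {C : Rep.{0} ℤ G}
  {U₀ : Subgroup G}

/-! ### ACF-0 : restriction to an open subgroup -/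

/-- The axioms restrict to open subgroups. -/
theorem PCF.res (h : PCF p 𝓤 C U₀) {U : Subgroup G} (hU : 𝓤.IsOpen U) :
    PCF p (𝓤.sub U) (Rep.res U.subtype C) (U₀.subgroupOf U) :=
  PCF.res_pf h hU

/-! ### ACF-1 : Hilbert 90 up to prime-to-`p` slack -/

/-- **T1.**  `H¹(C)` is torsion prime to `p`.
Proof: `c` is inflated from `G/W`, `W ∈ 𝓤`; `P/W` a Sylow `p`-subgroup; on `P` induct along a
chain `W = V_0 ◁ V_1 ◁ … ◁ V_k = P` of index-`p` steps: a cocycle trivial on `V_i` is inflated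
from the cyclic group `V_{i+1}/V_i`, hence given by `y = c(σ)` with `N y = 0`, so `m y = σz - z`
(`hasse`).  Finally `[G : P] · c` is a coboundary (average over `G/P`). -/
theorem h1slack (h : PCF p 𝓤 C U₀) : H1slack p 𝓤 C :=
  h1slack_pf h

/-- `H1slack` implies `H¹(C)[p] = 0`. -/
theorem H1slack.h1p0 (h : H1slack p 𝓤 C) : UC.H1p0 p 𝓤 C :=
  h1p0_pf h

/-! ### ACF-2 : the cyclic layer -/

/-- The cyclic cocycle of a norm is a smooth coboundary. -/
theorem carryCo_of_norm (hC : IsSmooth 𝓤 C) {χ : G → ZMod p} (hχ : IsSmChar 𝓤 χ) {σ : G}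
    (hσ : χ σ = 1) {y : C} (hy : Fix C (charKer χ hχ.1) y) :
    UC.carryCo C χ (cnorm C p σ y) ∈ B2 𝓤 C :=
  carryCo_of_norm_pf hC hχ hσ hy

/-- **T2a, injectivity.**  If the cyclic cocycle of `x ∈ C^G` is a smooth coboundary, then `x` is
a norm from the cyclic layer of `χ`.
Proof: `carryCo χ x = ∂s`; `s` restricted to `V = ker χ` is a cocycle, `m s|_V = ∂b` (`h1slack`
for `V`); the proof of `Loc.infl_injective` gives `carryCo χ (m x) = ∂s'`, `s'` inflated from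
`G/V`; `Loc.norm_of_cycCocycle_eq_mulD1` gives `m x = N(s' σ)`; finally `p x = N x`. -/
theorem carryCo_inj (h : PCF p 𝓤 C U₀) {χ : G → ZMod p} (hχ : IsSmChar 𝓤 χ) {σ : G}
    (hσ : χ σ = 1) {x : C} (hx : Fix C ⊤ x) (hcob : UC.carryCo C χ x ∈ B2 𝓤 C) :
    IsNormFrom C p (charKer χ hχ.1) σ x :=
  carryCo_inj_pf hχ (h1slack (h.res (cf_isOpen_charKer hχ))) hσ hx hcob

/-- **T2a, exactness.**  A `p`-torsion class whose restriction to `V = ker χ` vanishes is a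
cyclic class of `χ`.
Proof: `Loc.infl_res_exact` with slack (`m w ~` inflated from `G/V`), the cyclic normal form
`Loc.exists_cycCocycle_mul_mulD1`, and `w = (u m + v p) w`. -/
theorem carryCo_exact (h : PCF p 𝓤 C U₀) {χ : G → ZMod p} (hχ : IsSmChar 𝓤 χ) {σ : G}
    (hσ : χ σ = 1) {w : G × G → C} (hw : w ∈ Z2 𝓤 C)
    (hpw : (fun q => (p : ℤ) • w q) ∈ B2 𝓤 C)
    (hres : (fun q : ↥(charKer χ hχ.1) × ↥(charKer χ hχ.1) => w ((q.1 : G), (q.2 : G)))
      ∈ B2 (𝓤.sub (charKer χ hχ.1)) (Rep.res (charKer χ hχ.1).subtype C)) :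
    ∃ x : C, Fix C ⊤ x ∧ (fun q => w q - UC.carryCo C χ x q) ∈ B2 𝓤 C :=
  carryCo_exact_pf hχ (h1slack (h.res (cf_isOpen_charKer hχ))) hσ hw hpw hres

/-! ### ACF-3a : all cyclic classes lie on one line -/

/-- The cyclic cocycle is additive in the character, up to an explicit coboundary. -/
theorem carryCo_add_char (hC : IsSmooth 𝓤 C) {χ χ' : G → ZMod p} (hχ : IsSmChar 𝓤 χ)
    (hχ' : IsSmChar 𝓤 χ') {x : C} (hx : Fix C ⊤ x) :
    (fun q => UC.carryCo C (χ + χ') x q - UC.carryCo C χ x q - UC.carryCo C χ' x q)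
      ∈ B2 𝓤 C :=
  carryCo_add_char_pf hχ hχ' hx

/-- **Claim B.**  Any two cyclic classes are dependent.
Proof: same kernel: `second`.  Different kernels `V ≠ V'`: with `χ'' = χ + χ'`, `n ∈ N_V ∖ N_V'`,
`n' ∈ N_V' ∖ N_V` (`distinct`): `n ∪ δχ'' ~ n ∪ δχ'`, `n' ∪ δχ'' ~ n' ∪ δχ`, and `n, n'` are
dependent modulo `N_V''` (`second`). -/
theorem lines (h : PCF p 𝓤 C U₀) {χ χ' : G → ZMod p} (hχ : IsSmChar 𝓤 χ) (hχ' : IsSmChar 𝓤 χ')
    {x x' : C} (hx : Fix C ⊤ x) (hx' : Fix C ⊤ x') :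
    ∃ a b : ℤ, (¬ (p : ℤ) ∣ a ∨ ¬ (p : ℤ) ∣ b) ∧
      (fun q => a • UC.carryCo C χ x q + b • UC.carryCo C χ' x' q) ∈ B2 𝓤 C :=
  lines_pf h (fun _ hψ _ hσ _ hy => carryCo_of_norm h.smooth hψ hσ hy)
    (fun _ hψ _ hσ _ hy hc => carryCo_inj h hψ hσ hy hc) hχ hχ' hx hx'

/-! ### ACF-3b : the projection formula

Corestriction on `C`-valued cochains is `corC2` of `F4/Shapiro/ModCor.lean` (helper48), with
`corC2_mem_Z2`, `corC2_mem_B2`, `corC2_res_sub_mem_B2` (`cor ∘ res = [G : V]`). -/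

/-- **Projection formula.**  For a character `χ` of `G`, a cyclic layer `V = ker ψ` of `G`
generated by `σ`, and `y ∈ C^V`:  `cor_V (y ∪ δ(χ|_V)) ~ (N_{G/V} y) ∪ δχ`.
(Explicitly: with `χ̃ (w_x g) = χ̃ g - χ̃ (s_x) + χ̃ (s_{g⁻¹x}) + p ε_x(g)` the difference is the
coboundary of `g ↦ Σ_x ε_x(g) • s_x y`.) -/
theorem corC_carryCo (hC : IsSmooth 𝓤 C) {χ ψ : G → ZMod p} (hχ : IsSmChar 𝓤 χ)
    (hψ : IsSmChar 𝓤 ψ) {σ : G} (hσ : ψ σ = 1) [Fintype (G ⧸ charKer ψ hψ.1)]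
    {y : C} (hy : Fix C (charKer ψ hψ.1) y) :
    (fun q => corC2 (charKer ψ hψ.1) C
        (UC.carryCo (Rep.res (charKer ψ hψ.1).subtype C) (fun v => χ (v : G)) y) q
      - UC.carryCo C χ (cnorm C p σ y) q) ∈ B2 𝓤 C :=
  corC_carryCo_pf hC hχ hψ hσ hy

/-! ### ACF-3c : induction on `p`-groups -/

/-- **Claim C.**  Below `U₀` (`U₀ = ⊤`): a `p`-torsion class which is inflated from a quotient
`G/W` of `p`-power order is a cyclic class.
Proof: induction on `a` (all formations at once).  `a = 0`: `w` is constant, a coboundary.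
`a ≥ 1`: `V ⊇ W` normal of index `p`, `ψ` with kernel `V`.  By induction (formation `V`,
`PCF.res`) `w|_V ~ y ∪ δφ`.  If `y ∪ δφ ≁ 0`: take `χ` a character of `G` with `χ|_V ≠ 0` (`two`),
`y₀ ∈ C^V` with `N y₀ ∉ N_{ker χ}` (`distinct`), `ε = y₀ ∪ δ(χ|_V)`; by `lines` on `V`,
`ε ~ k (w|_V)`; then `cor ε ~ k p w ~ 0` (`corC2_res_sub_mem_B2`), but `cor ε ~ (N y₀) ∪ δχ ≁ 0`
(`corC_carryCo`, `carryCo_inj`): contradiction.  So `w|_V ~ 0` and `carryCo_exact` applies. -/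
theorem cyclic_of_pGroup (h : PCF p 𝓤 C ⊤) (a : ℕ) (W : Subgroup G) (hWn : W.Normal)
    (hW : 𝓤.IsOpen W) (hidx : W.index = p ^ a) {w : G × G → C} (hw : w ∈ Z2 𝓤 C)
    (hinf : Infl2 W w) (hpw : (fun q => (p : ℤ) • w q) ∈ B2 𝓤 C) :
    ∃ (χ : G → ZMod p) (x : C), IsSmChar 𝓤 χ ∧ Fix C ⊤ x ∧
      (fun q => w q - UC.carryCo C χ x q) ∈ B2 𝓤 C :=
  cyclic_of_pGroup_pf
    ⟨fun h' _ hU => PCF.res h' hU,
      fun hC _ hχ _ hσ _ hy => carryCo_of_norm hC hχ hσ hy,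
      fun h' _ hχ _ hσ _ hx hc => carryCo_inj h' hχ hσ hx hc,
      fun h' _ hχ _ hσ _ hw' hpw' hres => carryCo_exact h' hχ hσ hw' hpw' hres⟩
    h a W hWn hW hidx hw hinf hpw

/-! ### ACF-3d, ACF-4 : the formation-level statements -/

/-- **F1sm.**  Any two `p`-torsion classes of `H²(C)` are dependent.
Proof: `W ∈ 𝓤`, `W ≤ U₀`, with `w₁, w₂` inflated from `G/W`; `P/W` a Sylow `p`-subgroup of `G/W`;
then `P ≤ U₀` (`U₀` normal of index prime to `p`); `cyclic_of_pGroup` + `lines` on `P`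
(`PCF.res`); `card_smul_mem_B2_of_res` for `P` and `p ∤ [G : P]`. -/
theorem f1sm (h : PCF p 𝓤 C U₀) : UC.F1sm p 𝓤 C :=
  f1sm_pf h (fun _ hP => h.res hP)
    (fun _ _ hPCF a W hWn hW hidx _ hw hinf hpw => cyclic_of_pGroup hPCF a W hWn hW hidx hw hinf hpw)
    (fun _ _ hPCF _ _ hχ hχ' _ _ hx hx' => lines hPCF hχ hχ' hx hx')

/-- **F3sm.**  For every nonzero character there is a non-trivial cyclic class
(`first` + `carryCo_inj`). -/
theorem f3sm (h : PCF p 𝓤 C U₀) : UC.F3sm p 𝓤 C :=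
  f3sm_pf h (fun hχ _ hσ _ hx hcob => carryCo_inj h hχ hσ hx hcob)

/-- **F4sm** below `U₀`: an invariant all of whose cyclic classes vanish is divisible by `p`
(`carryCo_inj` + `exist`; the slack is absorbed by `x = (u m + v p) x`). -/
theorem f4sm (h : PCF p 𝓤 C ⊤) : UC.F4sm p 𝓤 C :=
  f4sm_pf h (fun hχ _ hσ _ hx hcob => carryCo_inj h hχ hσ hx hcob)

end Fermat.Agent.F4Cf
end MergeWrap_F4_Cf_Statements

section MergeWrap_F4_Cf_Retract -- from F4/Cf/Retract.lean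

/-!
# F4 / Cf / Retract : seat ACF-5b — retracts for `α¹` injective, `k[G/V]` as a retract of `k[G/V']`
(owner helper49; the two stubs of `F4/Cf/Assembly.lean`, proved here under the names
`A1Inj_of_retract_pf`, `permRep_retract_pf`)

* `A1Inj_of_retract_pf` : `A1Inj` passes to retracts (special case of `A1Inj_of_sum`);
* `permRep_retract_pf`  : for `V' ≤ V` of finite index invertible in `k`, `k[G/V]` is a retract of
  `k[G/V']` (`i` = pull-back along `G/V' → G/V`, `r` = average over the fibres).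
-/

set_option autoImplicit false

open CategoryTheory groupCohomology

namespace Fermat.Agent.F4Cf

open Fermat.Agent.F4

variable {G : Type} [Group G]

/-- Retracts, `α¹` injective. -/
theorem A1Inj_of_retract_pf {k : Type} [Field k] (𝓤 : Levels G) (K : Cx k G)
    (inv : HH2 𝓤 K →ₗ[k] k) {N N₁ : Rep.{0} k G}
    (i : N →ₗ[k] N₁) (hi : ∀ (g : G) (n : N), i (N.ρ g n) = N₁.ρ g (i n))
    (r : N₁ →ₗ[k] N) (hr : ∀ (g : G) (n : N₁), r (N₁.ρ g n) = N.ρ g (r n))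
    (hri : ∀ n, r (i n) = n)
    (hN : IsSmooth 𝓤 N) (hfin : Module.Finite k N)
    (hN₁ : IsSmooth 𝓤 N₁) (hfin₁ : Module.Finite k N₁)
    (h : A1Inj 𝓤 K N₁ inv hN₁ hfin₁) : A1Inj 𝓤 K N inv hN hfin :=
  A1Inj_of_sum 𝓤 K inv (P := N) (ι := Unit) (fun _ => N₁) (fun _ => r) (fun _ => i)
    (fun _ => hr) (fun _ => hi) (fun x => by simp [hri]) hN hfin (fun _ => hN₁)
    (fun _ => hfin₁) (fun _ => h)

section Perm

variable (k : Type) [Field k] {V V' : Subgroup G} (hle : V' ≤ V)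

lemma quotientMapOfLE_smul (g : G) (x : G ⧸ V') :
    Subgroup.quotientMapOfLE hle (g • x) = g • Subgroup.quotientMapOfLE hle x := by
  induction x using QuotientGroup.induction_on with
  | H a => rfl

lemma quotientEquivProdOfLE_fst (x : G ⧸ V') :
    (Subgroup.quotientEquivProdOfLE hle x).1 = Subgroup.quotientMapOfLE hle x := by
  induction x using QuotientGroup.induction_on with
  | H a => rfl

lemma quotientMapOfLE_symm (y : G ⧸ V) (t : ↥V ⧸ V'.subgroupOf V) :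
    Subgroup.quotientMapOfLE hle ((Subgroup.quotientEquivProdOfLE hle).symm (y, t)) = y := by
  rw [← quotientEquivProdOfLE_fst, Equiv.apply_symm_apply]

/-- The fibre coordinate of `g • x`, for `x` in the fibre of `y` with coordinate `t`. -/
noncomputable def fibreShift (g : G) (y : G ⧸ V) (t : ↥V ⧸ V'.subgroupOf V) :
    ↥V ⧸ V'.subgroupOf V :=
  (Subgroup.quotientEquivProdOfLE hle (g • (Subgroup.quotientEquivProdOfLE hle).symm (y, t))).2

lemma symm_fibreShift (g : G) (y : G ⧸ V) (t : ↥V ⧸ V'.subgroupOf V) :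
    (Subgroup.quotientEquivProdOfLE hle).symm (g • y, fibreShift hle g y t)
      = g • (Subgroup.quotientEquivProdOfLE hle).symm (y, t) := by
  rw [Equiv.symm_apply_eq]
  refine Prod.ext ?_ rfl
  rw [quotientEquivProdOfLE_fst, quotientMapOfLE_smul, quotientMapOfLE_symm]

lemma fibreShift_injective (g : G) (y : G ⧸ V) : Function.Injective (fibreShift hle g y) := by
  intro t t' h
  have h1 := symm_fibreShift hle g y t
  have h2 := symm_fibreShift hle g y t'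
  rw [h] at h1
  have h3 := h1.symm.trans h2
  have h4 := (MulAction.injective g) h3
  have h5 := (Subgroup.quotientEquivProdOfLE hle).symm.injective h4
  exact (Prod.ext_iff.1 h5).2

/-- Pull-back of functions along `G/V' → G/V`. -/
def pullPerm : ((G ⧸ V) → k) →ₗ[k] ((G ⧸ V') → k) :=
  LinearMap.funLeft k k (Subgroup.quotientMapOfLE hle)

/-- Average over the fibres of `G/V' → G/V`. -/
noncomputable def avgPerm [Fintype (↥V ⧸ V'.subgroupOf V)] :
    ((G ⧸ V') → k) →ₗ[k] ((G ⧸ V) → k) where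
  toFun f y := ((V'.relIndex V : ℕ) : k)⁻¹ *
    ∑ t : ↥V ⧸ V'.subgroupOf V, f ((Subgroup.quotientEquivProdOfLE hle).symm (y, t))
  map_add' f f' := by
    funext y
    simp only [Pi.add_apply, Finset.sum_add_distrib, mul_add]
  map_smul' c f := by
    funext y
    simp only [Pi.smul_apply, smul_eq_mul, RingHom.id_apply, Finset.mul_sum]
    refine Finset.sum_congr rfl fun t _ => ?_
    ring

/-- `k[G/V]` is a retract of `k[G/V']` for `V' ≤ V` of finite index invertible in `k`. -/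
theorem permRep_retract_pf {V V' : Subgroup G} (hle : V' ≤ V)
    (hfin : V'.relIndex V ≠ 0) (hidx : ((V'.relIndex V : ℕ) : k) ≠ 0) :
    ∃ (i : permRep k V →ₗ[k] permRep k V') (r : permRep k V' →ₗ[k] permRep k V),
      (∀ (g : G) (n : permRep k V), i ((permRep k V).ρ g n) = (permRep k V').ρ g (i n)) ∧
      (∀ (g : G) (n : permRep k V'), r ((permRep k V').ρ g n) = (permRep k V).ρ g (r n)) ∧
      ∀ n, r (i n) = n := by
  have hfinT : Finite (↥V ⧸ V'.subgroupOf V) := Nat.finite_of_card_ne_zero hfin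
  let _ : Fintype (↥V ⧸ V'.subgroupOf V) := Fintype.ofFinite _
  have hcard : Fintype.card (↥V ⧸ V'.subgroupOf V) = V'.relIndex V := by
    rw [← Nat.card_eq_fintype_card]
    rfl
  refine ⟨pullPerm k hle, avgPerm k hle, ?_, ?_, ?_⟩
  · intro g n
    funext x
    show (n : (G ⧸ V) → k) (g⁻¹ • Subgroup.quotientMapOfLE hle x)
      = (n : (G ⧸ V) → k) (Subgroup.quotientMapOfLE hle (g⁻¹ • x))
    rw [quotientMapOfLE_smul]
  · intro g n
    funext y
    show ((V'.relIndex V : ℕ) : k)⁻¹ * ∑ t : ↥V ⧸ V'.subgroupOf V,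
        (n : (G ⧸ V') → k) (g⁻¹ • (Subgroup.quotientEquivProdOfLE hle).symm (y, t))
      = ((V'.relIndex V : ℕ) : k)⁻¹ * ∑ t : ↥V ⧸ V'.subgroupOf V,
        (n : (G ⧸ V') → k) ((Subgroup.quotientEquivProdOfLE hle).symm (g⁻¹ • y, t))
    congr 1
    have hbij : Function.Bijective (fibreShift hle g⁻¹ y) :=
      (Finite.injective_iff_bijective).1 (fibreShift_injective hle g⁻¹ y)
    rw [← Function.Bijective.sum_comp hbij
      (fun t => (n : (G ⧸ V') → k) ((Subgroup.quotientEquivProdOfLE hle).symm (g⁻¹ • y, t)))]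
    refine Finset.sum_congr rfl fun t _ => ?_
    rw [symm_fibreShift]
  · intro n
    funext y
    show ((V'.relIndex V : ℕ) : k)⁻¹ * ∑ t : ↥V ⧸ V'.subgroupOf V,
        (n : (G ⧸ V) → k) (Subgroup.quotientMapOfLE hle
          ((Subgroup.quotientEquivProdOfLE hle).symm (y, t)))
      = (n : (G ⧸ V) → k) y
    simp only [quotientMapOfLE_symm]
    rw [Finset.sum_const, Finset.card_univ, hcard, nsmul_eq_mul, ← mul_assoc,
      inv_mul_cancel₀ hidx, one_mul]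

end Perm

end Fermat.Agent.F4Cf
end MergeWrap_F4_Cf_Retract

section MergeWrap_F4_Cf_Assembly -- from F4/Cf/Assembly.lean

/-!
# F4 / Cf / Assembly : from a class formation mod `p` to the duality properties (seat ACF-5)

`D : UCData p K C I Q` (so `K = 𝔽_p ⊗ᴸ C`), `h : PCF p 𝓤 C U₀`, `inv` ANY injective linear form
on `HH²(G, K)`.  Then

* `a2inj_of_PCF`  : `A2Inj` for `𝔽_p[G/U]`, `U` open of index prime to `p`;
* `a1surj_of_PCF` : `A1Surj` for the same `U` (given the finiteness of `Hom_sm(U, 𝔽_p)`);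
* `a1inj_of_PCF_le` : `A1Inj` for `𝔽_p[G/V]`, `V` open, `V ≤ U₀`;
* `a1inj_of_PCF`  : `A1Inj` for `𝔽_p[G/V]`, `V` open  (retract to `V ⊓ U₀`).

Inputs: the formation-level statements of `F4/Cf/Statements.lean` over every open subgroup,
helper9's `F4/UC/Bridge.lean`, helper48's `F4/Shapiro/R2.lean` + `Torsion.lean`, and DDT.
-/

set_option autoImplicit false

open CategoryTheory groupCohomology

namespace Fermat.Agent.F4Cf

open Fermat.Agent.F4

variable {G : Type} [Group G] {p : ℕ} [Fact p.Prime] {𝓤 : Levels G} {C I Q : Rep.{0} ℤ G}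
  {K : Cx (ZMod p) G} {U₀ : Subgroup G}

/-! ### The assembly -/

section

variable (D : UCData p K C I Q) (hI : IsSmooth 𝓤 I) (h : PCF p 𝓤 C U₀)
  (inv : HH2 𝓤 K →ₗ[ZMod p] ZMod p) (hinv : Function.Injective inv)

include D hI h hinv in
/-- `inv ≠ 0`, as soon as `G` has a nonzero smooth character. -/
theorem exists_inv_ne_zero (hχ : ∃ χ : G → ZMod p, IsSmChar 𝓤 χ ∧ χ ≠ 0) :
    ∃ c : ↥(ZZ2 𝓤 K), inv (HH2π 𝓤 K c) ≠ 0 := by
  obtain ⟨χ, hχs, hχ0⟩ := hχ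
  obtain ⟨z, hz, hzχ⟩ := D.kF3 hI (f3sm h) χ hχs.1 hχs.2 hχ0
  refine ⟨⟨UC.cupχ z χ, UCData.cupχ_mem_ZZ2 hz hχs.1 hχs.2⟩, fun h0 => hzχ ?_⟩
  have h1 := (map_eq_zero_iff inv hinv).1 h0
  exact (HH2π_eq_zero_iff 𝓤 K _).1 h1

lemma natCast_card_ne_zero {U : Subgroup G} [Fintype (G ⧸ U)] (hidx : ¬ p ∣ U.index) :
    ((Fintype.card (G ⧸ U) : ℕ) : ZMod p) ≠ 0 := by
  intro h0
  apply hidx
  rw [Subgroup.index, Nat.card_eq_fintype_card]
  exact (ZMod.natCast_eq_zero_iff _ _).1 h0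

include D hI h hinv in
/-- **(G1a)** `α²` is injective for `𝔽_p[G/U]`, `p ∤ [G : U]`. -/
theorem a2inj_of_PCF (hχ : ∃ χ : G → ZMod p, IsSmChar 𝓤 χ ∧ χ ≠ 0)
    (U : Subgroup G) (hU : 𝓤.IsOpen U) (hidx : ¬ p ∣ U.index) :
    A2Inj 𝓤 K (permRep (ZMod p) U) inv := by
  have := hU.finite_quotient
  letI := Fintype.ofFinite (G ⧸ U)
  have hres := h.res hU
  exact a2Inj_permRep_of_dep U K inv hU (natCast_card_ne_zero hidx)
    (D.depHH2_res_of_H1p0 hI U (h1slack hres).h1p0 (f1sm hres))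
    (exists_inv_ne_zero D hI h inv hinv hχ)

include D hI h hinv in
/-- `A2InjU` for `p ∤ [G : U]`. -/
theorem a2injU_of_PCF (hχ : ∃ χ : G → ZMod p, IsSmChar 𝓤 χ ∧ χ ≠ 0)
    (U : Subgroup G) [Fintype (G ⧸ U)] (hU : 𝓤.IsOpen U) (hidx : ¬ p ∣ U.index) :
    A2InjU U K inv hU :=
  a2InjU_of_permRep U K inv hU (a2inj_of_PCF D hI h inv hinv hχ U hU hidx)

include D hI h hinv in
/-- **(G1b)** `α¹` is surjective for `𝔽_p[G/U]`, `p ∤ [G : U]`. -/
theorem a1surj_of_PCF (hχ : ∃ χ : G → ZMod p, IsSmChar 𝓤 χ ∧ χ ≠ 0)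
    (U : Subgroup G) (hU : 𝓤.IsOpen U) (hidx : ¬ p ∣ U.index)
    (hfin : Module.Finite (ZMod p) ↥(Z1 (𝓤.sub U) (Rep.trivial (ZMod p) ↥U (ZMod p)))) :
    A1Surj 𝓤 K (permRep (ZMod p) U) inv (permRep_smooth 𝓤 hU) (permRep_finite 𝓤 hU) := by
  have := hU.finite_quotient
  letI := Fintype.ofFinite (G ⧸ U)
  have hres := h.res hU
  exact a1Surj_permRep_of_nondeg U K inv hU
    (a2injU_of_PCF D hI h inv hinv hχ U hU hidx) hfin
    (D.cupNondegRight_res hI U (f3sm hres))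

include D hI h hinv in
/-- `A2InjU` for EVERY open subgroup, by dévissage. -/
theorem a2injU_all (hχ : ∃ χ : G → ZMod p, IsSmChar 𝓤 χ ∧ χ ≠ 0)
    (hfin : ∀ U : Subgroup G, 𝓤.IsOpen U → ¬ p ∣ U.index →
      Module.Finite (ZMod p) ↥(Z1 (𝓤.sub U) (Rep.trivial (ZMod p) ↥U (ZMod p))))
    (V : Subgroup G) [Fintype (G ⧸ V)] (hV : 𝓤.IsOpen V) : A2InjU V K inv hV := by
  have hd := ddt_primeTo 𝓤 K (D.smoothK hI) inv
    (fun U hU hidx => a2inj_of_PCF D hI h inv hinv hχ U hU hidx)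
    (fun U hU hidx => a1surj_of_PCF D hI h inv hinv hχ U hU hidx (hfin U hU hidx))
    (permRep (ZMod p) V) (permRep_smooth 𝓤 hV) (permRep_finite 𝓤 hV)
  exact a2InjU_of_permRep V K inv hV hd.1

include D hI h hinv in
/-- **(G2), below `U₀`**: `α¹` is injective for `𝔽_p[G/V]`, `V` open, `V ≤ U₀`. -/
theorem a1inj_of_PCF_le (hχ : ∃ χ : G → ZMod p, IsSmChar 𝓤 χ ∧ χ ≠ 0)
    (hfin : ∀ U : Subgroup G, 𝓤.IsOpen U → ¬ p ∣ U.index →
      Module.Finite (ZMod p) ↥(Z1 (𝓤.sub U) (Rep.trivial (ZMod p) ↥U (ZMod p))))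
    (V : Subgroup G) (hV : 𝓤.IsOpen V) (hle : V ≤ U₀) :
    A1Inj 𝓤 K (permRep (ZMod p) V) inv (permRep_smooth 𝓤 hV) (permRep_finite 𝓤 hV) := by
  have := hV.finite_quotient
  letI := Fintype.ofFinite (G ⧸ V)
  have hres := h.res hV
  have htop : U₀.subgroupOf V = ⊤ := Subgroup.subgroupOf_eq_top.2 hle
  have hres' : PCF p (𝓤.sub V) (Rep.res V.subtype C) ⊤ := htop ▸ hres
  exact a1Inj_permRep_of_nondeg V K inv hV (a2injU_all D hI h inv hinv hχ hfin V hV)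
    (D.cupNondegLeft_res hI V (h1slack hres).h1p0 (f4sm hres'))

include D hI h hinv in
/-- **(G2)**: `α¹` is injective for `𝔽_p[G/V]`, `V` open  (retract to `V ⊓ U₀`). -/
theorem a1inj_of_PCF (hχ : ∃ χ : G → ZMod p, IsSmChar 𝓤 χ ∧ χ ≠ 0)
    (hfin : ∀ U : Subgroup G, 𝓤.IsOpen U → ¬ p ∣ U.index →
      Module.Finite (ZMod p) ↥(Z1 (𝓤.sub U) (Rep.trivial (ZMod p) ↥U (ZMod p))))
    (V : Subgroup G) (hV : 𝓤.IsOpen V) :
    A1Inj 𝓤 K (permRep (ZMod p) V) inv (permRep_smooth 𝓤 hV) (permRep_finite 𝓤 hV) := by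
  have hV' : 𝓤.IsOpen (V ⊓ U₀) := by
    obtain ⟨W, hW, hWV⟩ := hV
    obtain ⟨W₀, hW₀, hW₀U⟩ := h.open₀
    obtain ⟨W', hW', hle⟩ := 𝓤.directed W hW W₀ hW₀
    exact ⟨W', hW', hle.trans (inf_le_inf hWV hW₀U)⟩
  have hn : U₀.Normal := h.normal₀
  have hdvd : (V ⊓ U₀).relIndex V ∣ U₀.index := by
    rw [Subgroup.inf_relIndex_left]
    exact Subgroup.relIndex_dvd_index_of_normal U₀ V
  have hidx0 : U₀.index ≠ 0 := fun h0 => h.index₀ (h0 ▸ dvd_zero p)
  have hrel0 : (V ⊓ U₀).relIndex V ≠ 0 := fun h0 => hidx0 (by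
    rw [h0] at hdvd
    exact zero_dvd_iff.1 hdvd)
  have hrelp : (((V ⊓ U₀).relIndex V : ℕ) : ZMod p) ≠ 0 := by
    intro h0
    exact h.index₀ (((ZMod.natCast_eq_zero_iff _ _).1 h0).trans hdvd)
  obtain ⟨i, r, hi, hr, hri⟩ :=
    permRep_retract_pf (ZMod p) (inf_le_left : V ⊓ U₀ ≤ V) hrel0 hrelp
  exact A1Inj_of_retract_pf 𝓤 K inv i hi r hr hri (permRep_smooth 𝓤 hV) (permRep_finite 𝓤 hV)
    (permRep_smooth 𝓤 hV') (permRep_finite 𝓤 hV')
    (a1inj_of_PCF_le D hI h inv hinv hχ hfin (V ⊓ U₀) hV' inf_le_right)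

end

end Fermat.Agent.F4Cf
end MergeWrap_F4_Cf_Assembly

section MergeWrap_F4_Cf_CycLayer -- from F4/Cf/CycLayer.lean

/-!
# F4 / Cf / CycLayer : seat R-C1a — the cyclotomic layer at a prime `q ≠ p`
(owner helper13; input of `dict_local`, case `q ≠ p`)

`χ = modChar n : G_ℚ → (ℤ/n)ˣ` (`n = p ^ k`), `u = q mod n`, `D_q` = the image of the local Galois
group at `q` (`primeLocalToGlobal q`).

* `cyl_local_pow`      : `χ(D_q) ⊆ ⟨u⟩`            (`ℚ_q(μ_n)/ℚ_q` is unramified, `unram_frob`);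
* `cyl_exists_frob`    : `∃ τ₀, χ (τ₀) = u`         (Frobenius, `unr1_exists_frobenius`);
* `cyl_exists_level`   : `∃ k, p ∣ orderOf (q mod p ^ k)`;
* `cycU n q`, `cycV n q p` : `χ⁻¹⟨u⟩`, `χ⁻¹⟨u ^ p⟩`;
* `cyl_isCyc`          : `IsCyc p (cycU) (cycV) σ` if `χ σ = u`, `p ∣ orderOf u`;
* `cycLayer_ne`        : the package for `dict_local`.
-/

set_option autoImplicit false
set_option linter.unusedSectionVars false
set_option linter.style.haveILetI false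

open ExtCitation

namespace Fermat.Agent.F4Cf

open Fermat.Agent.F4 Fermat.Agent.F4.Loc Fermat.Agent.Cyclo

/-! ### the cyclotomic character on the decomposition group at `q ∤ n` -/

section Local

variable (q : ℕ) [Fact q.Prime] (n : ℕ) [NeZero n]

/-- If `τ` acts on a primitive `n`-th root of unity of `Ω` by `ζ ↦ ζ ^ c`, then the mod `n`
cyclotomic character of its image in `G_ℚ` is `c`. -/
theorem cyl_modChar_of_local (τ : PadicAlgCl q ≃ₐ[ℚ_[q]] PadicAlgCl q) {ζ : PadicAlgCl q} (hζ : IsPrimitiveRoot ζ n) (c : ℕ)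
    (hτ : τ ζ = ζ ^ c) :
    ((modChar n (localGaloisToGlobal q τ) : (ZMod n)ˣ) : ZMod n) = (c : ZMod n) := by
  apply modChar_eq_natCast_of_pow
  intro t ht
  have ht' : (padicEmbedding q t) ^ n = 1 := by rw [← map_pow, ht, map_one]
  obtain ⟨j, -, hj⟩ := hζ.eq_pow_of_pow_eq_one ht'
  apply (padicEmbedding q).toRingHom.injective
  show padicEmbedding q (localGaloisToGlobal q τ t) = padicEmbedding q (t ^ c)
  rw [padicEmbedding_localGaloisToGlobal, map_pow, ← hj, map_pow, hτ, ← pow_mul, ← pow_mul,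
    mul_comm]

/-- a primitive `n`-th root of unity of `Ω` -/
theorem cyl_exists_primitiveRoot : ∃ ζ : PadicAlgCl q, IsPrimitiveRoot ζ n := by
  obtain ⟨t₀, ht₀⟩ := HasEnoughRootsOfUnity.exists_primitiveRoot Qb n
  exact ⟨padicEmbedding q t₀, ht₀.map_of_injective (padicEmbedding q).toRingHom.injective⟩

variable {q n}

/-- The cyclotomic character of the decomposition group at `q ∤ n` has values in `⟨q⟩`. -/
theorem cyl_local_pow (hqn : Nat.Coprime q n) (τ : PadicAlgCl q ≃ₐ[ℚ_[q]] PadicAlgCl q) :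
    ∃ i : ℕ, modChar n (localGaloisToGlobal q τ) = ZMod.unitOfCoprime q hqn ^ i := by
  obtain ⟨ζ, hζ⟩ := cyl_exists_primitiveRoot q n
  have hm : Nat.Coprime n (resCard (resVal ℚ_[q] (padicVal q))) := by
    rw [padicVal_resCard_base]
    exact hqn.symm
  obtain ⟨i, hi⟩ := unram_frob (padicVal q) (padicVal_isInvVal_base q)
    (padicVal_isLocalVal_base q) hm hζ τ
  rw [padicVal_resCard_base] at hi
  refine ⟨i, ?_⟩
  apply Units.ext
  rw [cyl_modChar_of_local q n τ hζ (q ^ i) hi, Units.val_pow_eq_pow_val,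
    ZMod.coe_unitOfCoprime, Nat.cast_pow]

/-- A Frobenius element in the decomposition group at `q ∤ n`. -/
theorem cyl_exists_frob (hqn : Nat.Coprime q n) :
    ∃ τ₀ : PadicAlgCl q ≃ₐ[ℚ_[q]] PadicAlgCl q, modChar n (localGaloisToGlobal q τ₀) = ZMod.unitOfCoprime q hqn := by
  obtain ⟨ζ, hζ⟩ := cyl_exists_primitiveRoot q n
  have hm : Nat.Coprime n (resCard (resVal ℚ_[q] (padicVal q))) := by
    rw [padicVal_resCard_base]
    exact hqn.symm
  obtain ⟨τ₀, hτ₀⟩ := unr1_exists_frobenius (padicVal q) (padicVal_isInvVal_base q)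
    (padicVal_isLocalVal_base q).finRes hm hζ
  rw [padicVal_resCard_base] at hτ₀
  refine ⟨τ₀, ?_⟩
  apply Units.ext
  rw [cyl_modChar_of_local q n τ₀ hζ q hτ₀, ZMod.coe_unitOfCoprime]

end Local

/-! ### the level -/

/-- For primes `q ≠ p` there is `k ≥ 1` such that `p` divides the order of `q` modulo `p ^ k`. -/
theorem cyl_exists_level {p q : ℕ} (hp : p.Prime) (hq : q.Prime) (hqp : q ≠ p) :
    ∃ (k : ℕ) (hqn : Nat.Coprime q (p ^ k)), 0 < k ∧ p ∣ orderOf (ZMod.unitOfCoprime q hqn) := by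
  have hcop : Nat.Coprime q p := (Nat.coprime_primes hq hp).2 hqp
  set k := q ^ (p - 1) with hk
  have hk0 : 0 < k := pow_pos hq.pos _
  have hqn : Nat.Coprime q (p ^ k) := Nat.Coprime.pow_right k hcop
  refine ⟨k, hqn, hk0, ?_⟩
  by_contra hnd
  set u := ZMod.unitOfCoprime q hqn with hu
  haveI : NeZero (p ^ k) := ⟨pow_ne_zero k hp.ne_zero⟩
  -- the order of `u` divides `φ(p^k) = p^(k-1) (p-1)` and is prime to `p`
  have h1 : orderOf u ∣ Nat.totient (p ^ k) := by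
    have := orderOf_dvd_card (x := u)
    rwa [ZMod.card_units_eq_totient] at this
  rw [Nat.totient_prime_pow hp hk0] at h1
  have h2 : Nat.Coprime (orderOf u) (p ^ (k - 1)) :=
    Nat.Coprime.pow_right _ ((Nat.Prime.coprime_iff_not_dvd hp).2 hnd).symm
  have h3 : orderOf u ∣ p - 1 := h2.dvd_of_dvd_mul_left h1
  have h4 : u ^ (p - 1) = 1 := orderOf_dvd_iff_pow_eq_one.1 h3
  have h5 : ((q ^ (p - 1) : ℕ) : ZMod (p ^ k)) = ((1 : ℕ) : ZMod (p ^ k)) := by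
    have := congrArg (fun v : (ZMod (p ^ k))ˣ => (v : ZMod (p ^ k))) h4
    simp only [Units.val_pow_eq_pow_val, Units.val_one, hu, ZMod.coe_unitOfCoprime] at this
    rw [Nat.cast_pow, Nat.cast_one]
    exact this
  rw [ZMod.natCast_eq_natCast_iff] at h5
  have h6 : p ^ k ∣ q ^ (p - 1) - 1 := (Nat.modEq_iff_dvd' (Nat.one_le_pow _ _ hq.pos)).1 h5.symm
  have h7 : 0 < q ^ (p - 1) - 1 := by
    have : 1 < q ^ (p - 1) := Nat.one_lt_pow (by have := hp.two_le; omega) hq.one_lt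
    omega
  have h8 : p ^ k ≤ q ^ (p - 1) - 1 := Nat.le_of_dvd h7 h6
  have h9 : k < p ^ k := Nat.lt_pow_self hp.one_lt
  omega

/-! ### the layer -/

section Layer

variable (n : ℕ) [NeZero n] (q : ℕ) (hqn : Nat.Coprime q n)

/-- `U = χ⁻¹⟨q⟩`. -/
noncomputable def cycU : Subgroup Cyclo.GQ :=
  (Subgroup.zpowers (ZMod.unitOfCoprime q hqn)).comap (modChar n)

/-- `V = χ⁻¹⟨q ^ p⟩`. -/
noncomputable def cycV (p : ℕ) : Subgroup Cyclo.GQ :=
  (Subgroup.zpowers (ZMod.unitOfCoprime q hqn ^ p)).comap (modChar n)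

variable {n q}

theorem mem_cycU {g : Cyclo.GQ} :
    g ∈ cycU n q hqn ↔ modChar n g ∈ Subgroup.zpowers (ZMod.unitOfCoprime q hqn) := Iff.rfl

theorem mem_cycV {p : ℕ} {g : Cyclo.GQ} :
    g ∈ cycV n q hqn p ↔ modChar n g ∈ Subgroup.zpowers (ZMod.unitOfCoprime q hqn ^ p) := Iff.rfl

theorem cycV_le_cycU (p : ℕ) : cycV n q hqn p ≤ cycU n q hqn := by
  intro g hg
  rw [mem_cycV] at hg
  rw [mem_cycU]
  exact (Subgroup.zpowers_le.2 (Subgroup.pow_mem _ (Subgroup.mem_zpowers _) p)) hg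

theorem ker_le_cycV (p : ℕ) {g : Cyclo.GQ} (hg : modChar n g = 1) : g ∈ cycV n q hqn p := by
  rw [mem_cycV, hg]
  exact one_mem _

/-- The layer `(χ⁻¹⟨u⟩, χ⁻¹⟨u ^ p⟩, σ)` is cyclic of degree `p` if `χ σ = u` and `p ∣ ord u`. -/
theorem cyl_isCyc {p : ℕ} (hp : p.Prime) (hord : p ∣ orderOf (ZMod.unitOfCoprime q hqn))
    {σ : Cyclo.GQ} (hσ : modChar n σ = ZMod.unitOfCoprime q hqn) :
    IsCyc p (cycU n q hqn) (cycV n q hqn p) σ where
  le := cycV_le_cycU hqn p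
  normal := by
    intro u _ v hv
    rw [mem_cycV] at hv ⊢
    rw [map_mul, map_mul, map_inv, mul_comm (modChar n u), mul_assoc, mul_inv_cancel, mul_one]
    exact hv
  mem := by
    rw [mem_cycU, hσ]
    exact Subgroup.mem_zpowers _
  not_mem := by
    intro h
    rw [mem_cycV, hσ, Subgroup.mem_zpowers_iff] at h
    obtain ⟨j, hj⟩ := h
    rw [← zpow_natCast, ← zpow_mul] at hj
    have h1 : (ZMod.unitOfCoprime q hqn) ^ ((p : ℤ) * j - 1) = 1 := by
      rw [zpow_sub, hj, zpow_one, mul_inv_cancel]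
    have h2 : (orderOf (ZMod.unitOfCoprime q hqn) : ℤ) ∣ (p : ℤ) * j - 1 :=
      orderOf_dvd_iff_zpow_eq_one.2 h1
    have h3 : (p : ℤ) ∣ (p : ℤ) * j - 1 := (Int.natCast_dvd_natCast.2 hord).trans h2
    have h4 : (p : ℤ) ∣ 1 := by
      have := dvd_sub (dvd_mul_right (p : ℤ) j) h3
      simpa using this
    have h5 : p ∣ 1 := by exact_mod_cast h4
    exact hp.one_lt.ne' (Nat.dvd_one.1 h5)
  pow_mem := by
    rw [mem_cycV, map_pow, hσ]
    exact Subgroup.mem_zpowers _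
  gen := by
    intro u hu
    rw [mem_cycU, Subgroup.mem_zpowers_iff] at hu
    obtain ⟨j, hj⟩ := hu
    have hp0 : (p : ℤ) ≠ 0 := by exact_mod_cast hp.ne_zero
    refine ⟨(j % (p : ℤ)).toNat, ?_, ?_⟩
    · have h1 : j % (p : ℤ) < p := Int.emod_lt_of_pos j (by exact_mod_cast hp.pos)
      have h2 : 0 ≤ j % (p : ℤ) := Int.emod_nonneg j hp0
      omega
    · rw [mem_cycV, map_mul, map_inv, map_pow, hσ, ← hj, Subgroup.mem_zpowers_iff]
      refine ⟨j / (p : ℤ), ?_⟩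
      have h2 : 0 ≤ j % (p : ℤ) := Int.emod_nonneg j hp0
      rw [← zpow_natCast (ZMod.unitOfCoprime q hqn) (j % (p : ℤ)).toNat, Int.toNat_of_nonneg h2,
        ← zpow_natCast (ZMod.unitOfCoprime q hqn) p, ← zpow_mul, ← zpow_neg, ← zpow_add]
      congr 1
      have := Int.emod_add_mul_ediv j (p : ℤ)
      omega

end Layer

/-! ### openness, the decomposition group -/

/-- `V = χ⁻¹⟨q ^ p⟩` (for `n = p ^ k`) is open for `levelsS S` if `p ∈ S`. -/
theorem cycV_isOpen {p : ℕ} [Fact p.Prime] {S : Finset Nat.Primes} (hpS : pPrime p ∈ S)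
    (k : ℕ) [NeZero (p ^ k)] (q : ℕ) (hqn : Nat.Coprime q (p ^ k)) :
    (levelsS S).IsOpen (cycV (p ^ k) q hqn p) := by
  have hp : p.Prime := Fact.out
  have hS : ∀ ℓ : Nat.Primes, (ℓ : ℕ) ∣ p ^ k → ℓ ∈ S := by
    intro ℓ hℓ
    have h1 : (ℓ : ℕ) ∣ p := ℓ.2.dvd_of_dvd_pow hℓ
    have h2 : (ℓ : ℕ) = p := (Nat.prime_dvd_prime_iff_eq ℓ.2 hp).1 h1
    have h3 : ℓ = pPrime p := Subtype.ext h2
    rw [h3]
    exact hpS
  have hlev := cycloField_mem_levelsS (p ^ k) S hS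
  have hker : ∀ g : Cyclo.GQ, g ∈ (cycloField (p ^ k)).fixingSubgroup →
      modChar (p ^ k) g = 1 := by
    intro g hg
    apply modChar_eq_one_of_fix_cycloField
    intro x hx
    exact (IntermediateField.mem_fixingSubgroup_iff _ _).1 hg x hx
  exact ⟨_, hlev, fun g hg => ker_le_cycV hqn p (hker g hg)⟩

/-- `U = χ⁻¹⟨q⟩` (for `n = p ^ k`) is open for `levelsS S` if `p ∈ S`. -/
theorem cycU_isOpen {p : ℕ} [Fact p.Prime] {S : Finset Nat.Primes} (hpS : pPrime p ∈ S)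
    (k : ℕ) [NeZero (p ^ k)] (q : ℕ) (hqn : Nat.Coprime q (p ^ k)) :
    (levelsS S).IsOpen (cycU (p ^ k) q hqn) :=
  Levels.IsOpen.mono _ (cycV_isOpen hpS k q hqn) (cycV_le_cycU hqn p)

/-- The decomposition group at `q` lies in `U = χ⁻¹⟨q⟩`. -/
theorem cyl_local_mem_cycU {n : ℕ} [NeZero n] (q : Nat.Primes) (hqn : Nat.Coprime (q : ℕ) n)
    (τ : primeLocalGaloisGroup q) : primeLocalToGlobal q τ ∈ cycU n q hqn := by
  haveI : Fact (q : ℕ).Prime := ⟨q.2⟩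
  obtain ⟨i, hi⟩ := cyl_local_pow (q := (q : ℕ)) (n := n) hqn τ
  rw [mem_cycU]
  change modChar n (localGaloisToGlobal (q : ℕ) τ) ∈ _
  rw [hi]
  exact Subgroup.pow_mem _ (Subgroup.mem_zpowers _) i

/-! ### the package -/

/-- **R-C1a.**  The cyclotomic layer at `q ≠ p`: `n = p ^ k`, `U = χ_n⁻¹⟨q⟩`, `V = χ_n⁻¹⟨q ^ p⟩`,
`σ` the image of a local Frobenius `τ₀` at `q`.  `V` is open for `levelsS S` (`p ∈ S`), `(U, V, σ)`
is a cyclic layer of degree `p`, the decomposition group at `q` lies in `U`, `V ⊇ ker χ_n`, and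
`χ_n σ = q`. -/
theorem cycLayer_ne {p : ℕ} [Fact p.Prime] {S : Finset Nat.Primes} (hpS : pPrime p ∈ S)
    (q : Nat.Primes) (hq : (q : ℕ) ≠ p) :
    ∃ (k : ℕ) (_ : NeZero (p ^ k)) (hqn : Nat.Coprime (q : ℕ) (p ^ k))
      (τ₀ : primeLocalGaloisGroup q),
      0 < k ∧
      (levelsS S).IsOpen (cycV (p ^ k) q hqn p) ∧
      (levelsS S).IsOpen (cycU (p ^ k) q hqn) ∧
      IsCyc p (cycU (p ^ k) q hqn) (cycV (p ^ k) q hqn p) (primeLocalToGlobal q τ₀) ∧
      modChar (p ^ k) (primeLocalToGlobal q τ₀) = ZMod.unitOfCoprime q hqn ∧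
      (∀ τ : primeLocalGaloisGroup q, primeLocalToGlobal q τ ∈ cycU (p ^ k) q hqn) ∧
      (∀ g : Cyclo.GQ, modChar (p ^ k) g = 1 → g ∈ cycV (p ^ k) q hqn p) := by
  have hp : p.Prime := Fact.out
  obtain ⟨k, hqn, hk0, hord⟩ := cyl_exists_level hp q.2 hq
  haveI hne : NeZero (p ^ k) := ⟨pow_ne_zero k hp.ne_zero⟩
  haveI : Fact (q : ℕ).Prime := ⟨q.2⟩
  obtain ⟨τ₀, hτ₀⟩ := cyl_exists_frob (q := (q : ℕ)) (n := p ^ k) hqn
  exact ⟨k, hne, hqn, τ₀, hk0, cycV_isOpen hpS k q hqn, cycU_isOpen hpS k q hqn,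
    cyl_isCyc hqn hp hord hτ₀, hτ₀, cyl_local_mem_cycU q hqn,
    fun g hg => ker_le_cycV hqn p hg⟩

end Fermat.Agent.F4Cf
end MergeWrap_F4_Cf_CycLayer

section MergeWrap_F4_Cf_RecipQ -- from F4/Cf/RecipQ.lean

/-!
# F4 / Cf / RecipQ : the quotient hypotheses for `E ≤ J` (seat R-Q)

`quotHyp_of_packs_pf` : the exact statement of the stub `quotHyp_of_packs` of `F4/Cf/Recip.lean`:
`E = diagJ (S-units) ≤ J` is stable, `p`-divisible (`EsRep_div`), and `E[p] = f(μ_p)` inside `I_J`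
(`IsRootMap`, `LocPack.compat`; all maps are pointwise in `(q, g)`).
-/

set_option autoImplicit false

open CategoryTheory groupCohomology ExtCitation

namespace Fermat.Agent.F4Cf

open Fermat.Agent.F4

variable {p : ℕ} [Fact p.Prime] {S : Finset Nat.Primes}

/-- `diagJ` is injective as soon as `S` is nonempty. -/
lemma recipQ_diagJ_injective (q : ↥S) : Function.Injective (diagJ S) := by
  rw [injective_iff_map_eq_zero]
  intro t ht
  have h1 := congrFun (congrArg Subtype.val (congrFun ht q)) 1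
  have h2 : locUnit S q.1 ((QSx S).ρ 1 t) = 0 := h1
  rw [map_one] at h2
  have h3 : locUnit S q.1 t = locUnit S q.1 0 := h2.trans (map_zero _).symm
  exact locUnit_injective S q.1 h3

/-- The image of `μ_p` in `I_J`, computed through `E`. -/
lemma recipQ_key (hpS : pPrime p ∈ S) {φ : Fp1 p →+ EsRep S} (hφ : IsRootMap φ)
    (P : ∀ q : ↥S, LocPack p S φ q.1) (m : Fp1 p) :
    (datJ (fun q => (P q).loc) (fun q => (P q).dat) (fun q => (P q).smoothI)).ι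
        (diagJ S (EsIncl S (φ m))) =
      (datJ (fun q => (P q).loc) (fun q => (P q).dat) (fun q => (P q).smoothI)).i0
        ((coindF (fun q => (P q).loc) (isSmooth_Fp1 S hpS)).f0 m) := by
  refine funext fun q => Subtype.ext (funext fun g => ?_)
  show (P q).dat.ι (locUnit S q.1 ((QSx S).ρ g (EsIncl S (φ m)))) =
    (P q).dat.i0 ((P q).loc.ε.f0 ((Fp1 p).ρ g m))
  rw [(P q).compat, hφ.comm]
  rfl

/-- **R-Q.**  The quotient hypotheses for `E ≤ J` (the exact statement of the stub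
`quotHyp_of_packs`). -/
theorem quotHyp_of_packs_pf (hpS : pPrime p ∈ S) {φ : Fp1 p →+ EsRep S} (hφ : IsRootMap φ)
    (P : ∀ q : ↥S, LocPack p S φ q.1) :
    (datJ (fun q => (P q).loc) (fun q => (P q).dat) (fun q => (P q).smoothI)).QuotHyp
      (coindF (fun q => (P q).loc) (isSmooth_Fp1 S hpS)) (EinJ S) where
  stable := EinJ_stable S
  div := by
    rintro _ ⟨t, ht, rfl⟩
    obtain ⟨y, hy⟩ := EsRep_div S hpS (⟨t, ht⟩ : EsRep S)
    refine ⟨diagJ S (EsIncl S y), ⟨EsIncl S y, y.2, rfl⟩, ?_⟩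
    rw [← map_zsmul (diagJ S), ← map_zsmul (EsIncl S), hy]
    rfl
  f_mem := fun m =>
    ⟨diagJ S (EsIncl S (φ m)), ⟨EsIncl S (φ m), (φ m).2, rfl⟩, recipQ_key hpS hφ P m⟩
  mem_f := by
    rintro _ ⟨t, ht, rfl⟩ hpt
    have h0 : (p : ℤ) • t = 0 := by
      apply recipQ_diagJ_injective (⟨pPrime p, hpS⟩ : ↥S)
      rw [map_zsmul, hpt, map_zero]
    have h1 : (p : ℤ) • (⟨t, ht⟩ : EsRep S) = 0 := Subtype.ext h0
    obtain ⟨m, hm⟩ := hφ.surj _ h1
    refine ⟨m, ?_⟩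
    rw [← recipQ_key hpS hφ P m, hm]
    rfl

end Fermat.Agent.F4Cf
end MergeWrap_F4_Cf_RecipQ

section MergeWrap_F4_Cf_RecipA2 -- from F4/Cf/RecipA2.lean

/-!
# F4 / Cf / RecipA2 : seat R-A, second half — reciprocity up to units

`exists_rescale_recip_pf` : if every local factor contributes to `HH²(G_S, KC)` (`T3`), then
`inv ∘ g = Σ_q c_q · inv_q ∘ ev_q ∘ res_q` on `ZZ²(G_S, KJ)` with units `c_q ∈ 𝔽_pˣ`
(the statement `exists_rescale_recip` of `F4/Cf/Recip.lean`, with `T3`, `LocTrivAway` unfolded).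

* `ra_toHom N hN e K : CxHom K (homCx N K)`, `x ↦ (n ↦ e n • x)` for a module `N` with trivial
  action and a linear form `e` on `N`;
* `ra_inj_of_a2Inj` : `A2Inj` for `permRep ⊤` gives injectivity of `inv` on `HH²`;
* `ra_shapiro_sep` : Shapiro's lemma `shapiro2` for `N = 𝔽_p`: a class of `KJ` all of whose
  local components vanish is trivial;
* `ra_exists_units` : the linear algebra.
-/

set_option autoImplicit false
set_option linter.unusedSectionVars false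

open CategoryTheory groupCohomology ExtCitation

namespace Fermat.Agent.F4Cf

open Fermat.Agent.F4

section HomTriv

variable {k G : Type} [CommRing k] [Group G]

/-- `K → Hom(N, K)`, `x ↦ (n ↦ e n • x)`, for a module `N` with trivial action. -/
def ra_toHom (N : Rep.{0} k G) (hN : ∀ (g : G) (n : N), N.ρ g n = n) (e : N →ₗ[k] k)
    (K : Cx k G) : CxHom K (homCx N K) where
  f0 := LinearMap.smulRightₗ e
  f1 := LinearMap.smulRightₗ e
  comm0 g x := by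
    refine LinearMap.ext fun n => ?_
    show e n • K.K0.ρ g x = K.K0.ρ g (e (N.ρ g⁻¹ n) • x)
    rw [hN, map_smul]
  comm1 g x := by
    refine LinearMap.ext fun n => ?_
    show e n • K.K1.ρ g x = K.K1.ρ g (e (N.ρ g⁻¹ n) • x)
    rw [hN, map_smul]
  commd x := by
    refine LinearMap.ext fun n => ?_
    show e n • K.d x = K.d (e n • x)
    rw [map_smul]

lemma ra_cup2_toHom (N : Rep.{0} k G) (hN : ∀ (g : G) (n : N), N.ρ g n = n) (e : N →ₗ[k] k)
    (K : Cx k G) (z : T2 K) (n : N) :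
    cup2 N K ((ra_toHom N hN e K).onT2 z) n = e n • z := rfl

end HomTriv

section Inj

variable {k G : Type} [CommRing k] [Group G]

/-- `A2Inj` for the trivial permutation module `k[G/G]` is the injectivity of `inv` on `HH²`. -/
lemma ra_inj_of_a2Inj (𝓤 : Levels G) (K : Cx k G) (inv : HH2 𝓤 K →ₗ[k] k)
    (h : A2Inj 𝓤 K (permRep k (⊤ : Subgroup G)) inv) (z : ↥(ZZ2 𝓤 K))
    (hz : inv (HH2π 𝓤 K z) = 0) : (z : T2 K) ∈ BB2 𝓤 K := by
  have hsub : Subsingleton (G ⧸ (⊤ : Subgroup G)) := QuotientGroup.subsingleton_quotient_top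
  have hN : ∀ (g : G) (n : permRep k (⊤ : Subgroup G)), (permRep k (⊤ : Subgroup G)).ρ g n = n := by
    intro g n
    funext x
    rw [permRep_ρ_apply]
    exact congrArg _ (Subsingleton.elim _ _)
  let e : permRep k (⊤ : Subgroup G) →ₗ[k] k :=
    LinearMap.proj (((1 : G) : G ⧸ (⊤ : Subgroup G)))
  have hz' := h ((ra_toHom _ hN e K).mapZZ2 𝓤 z) (fun n hn => by
    have e1 : cupZ2 𝓤 K _ ((ra_toHom _ hN e K).mapZZ2 𝓤 z) n hn = e n • z := Subtype.ext rfl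
    rw [e1, map_smul, map_smul, hz, smul_zero])
  have h1 := cup2_mem_BB2 𝓤 K (permRep k (⊤ : Subgroup G)) hz' (fun _ => (1 : k))
    (fun g => hN g _)
  have e2 : cup2 (permRep k (⊤ : Subgroup G)) K
      (((ra_toHom _ hN e K).mapZZ2 𝓤 z : ↥(ZZ2 𝓤 (homCx _ K))) : T2 (homCx _ K))
      (fun _ => (1 : k)) = (z : T2 K) := by
    show e (fun _ => (1 : k)) • (z : T2 K) = z
    show (1 : k) • (z : T2 K) = z
    rw [one_smul]
  rw [e2] at h1
  exact h1

end Inj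

section Sep

variable {p : ℕ} [Fact p.Prime] {S : Finset Nat.Primes}

/-- **Shapiro, separation form**: a class of `KJ` whose local components all vanish is trivial
(`shapiro2` for `N = 𝔽_p`). -/
lemma ra_shapiro_sep {loc : ∀ q : ↥S, LocalDatum p S q.1} (C : CoindDatum p S loc)
    (z : ↥(ZZ2 (levelsS S) C.KJ))
    (h : ∀ q : ↥S, (C.ev q).onT2 (resT2 (primeLocalToGlobal q.1) C.KJ z.1)
      ∈ BB2 (locLevelsS S q.1) (loc q).K) :
    (z : T2 C.KJ) ∈ BB2 (levelsS S) C.KJ := by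
  have hN : ∀ (g : GQ) (n : Rep.trivial (ZMod p) GQ (ZMod p)),
      (Rep.trivial (ZMod p) GQ (ZMod p)).ρ g n = n := fun _ _ => rfl
  have hNsm : IsSmooth (levelsS S) (Rep.trivial (ZMod p) GQ (ZMod p)) := fun a => by
    obtain ⟨U, hU⟩ := (levelsS S).nonempty
    exact ⟨U, hU, fun g _ => rfl⟩
  have hfin : Module.Finite (ZMod p) (Rep.trivial (ZMod p) GQ (ZMod p)) :=
    (inferInstance : Module.Finite (ZMod p) (ZMod p))
  have hz' := C.shapiro2 (Rep.trivial (ZMod p) GQ (ZMod p)) hNsm hfin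
    ((ra_toHom _ hN LinearMap.id C.KJ).mapZZ2 _ z) (fun q => by
      have hq := (ra_toHom (Rep.res (primeLocalToGlobal q.1) (Rep.trivial (ZMod p) GQ (ZMod p)))
        (fun _ _ => rfl) LinearMap.id (loc q).K).onT2_mem_BB2 (locLevelsS S q.1) (h q)
      convert hq using 1
      refine Prod.ext (funext fun x => LinearMap.ext fun n => ?_)
        (funext fun g => LinearMap.ext fun n => ?_)
      · exact LinearMap.map_smul (C.ev q).f0 n
          ((z : T2 C.KJ).1 (primeLocalToGlobal q.1 x.1, primeLocalToGlobal q.1 x.2))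
      · exact LinearMap.map_smul (C.ev q).f1 n ((z : T2 C.KJ).2 (primeLocalToGlobal q.1 g)))
  have h1 := cup2_mem_BB2 (levelsS S) C.KJ (Rep.trivial (ZMod p) GQ (ZMod p)) hz' (1 : ZMod p)
    (fun g => rfl)
  have e2 : cup2 (Rep.trivial (ZMod p) GQ (ZMod p)) C.KJ
      (((ra_toHom _ hN LinearMap.id C.KJ).mapZZ2 (levelsS S) z :
        ↥(ZZ2 (levelsS S) (homCx _ C.KJ))) : T2 (homCx _ C.KJ))
      (1 : ZMod p) = (z : T2 C.KJ) := by
    show (1 : ZMod p) • (z : T2 C.KJ) = z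
    rw [one_smul]
  rw [e2] at h1
  exact h1

end Sep

section LinAlg

/-- Linear forms `μ`, `L i` on `V` such that the `L i` separate the points seen by `μ` and such
that there are vectors `z i` with `L j (z i) = 0` for `j ≠ i` and `μ (z i) ≠ 0`:
then `μ = Σ c_i L_i` with units `c_i`. -/
lemma ra_exists_units {k V ι : Type*} [Field k] [AddCommGroup V] [Module k V] [Fintype ι]
    [DecidableEq ι] (μ : V →ₗ[k] k) (L : ι → V →ₗ[k] k)
    (hsep : ∀ v, (∀ i, L i v = 0) → μ v = 0)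
    (z : ι → V) (hz : ∀ i j, j ≠ i → L j (z i) = 0) (hμ : ∀ i, μ (z i) ≠ 0) :
    ∃ c : ι → kˣ, ∀ v, μ v = ∑ i, (c i : k) * L i v := by
  have hL : ∀ i, L i (z i) ≠ 0 := by
    intro i h0
    apply hμ i
    apply hsep
    intro j
    by_cases hj : j = i
    · rw [hj]; exact h0
    · exact hz i j hj
  refine ⟨fun i => Units.mk0 (μ (z i) / L i (z i)) (div_ne_zero (hμ i) (hL i)), fun v => ?_⟩
  have hv : μ (v - ∑ i, (L i v / L i (z i)) • z i) = 0 := by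
    apply hsep
    intro j
    rw [map_sub, map_sum]
    simp only [map_smul, smul_eq_mul]
    rw [Finset.sum_eq_single j]
    · rw [div_mul_cancel₀ _ (hL j), sub_self]
    · intro i _ hij
      rw [hz i j (Ne.symm hij), mul_zero]
    · intro h
      exact absurd (Finset.mem_univ j) h
  rw [map_sub, map_sum, sub_eq_zero] at hv
  rw [hv]
  refine Finset.sum_congr rfl fun i _ => ?_
  simp only [map_smul, smul_eq_mul, Units.val_mk0]
  have := hL i
  field_simp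

end LinAlg

section Main

variable {p : ℕ} [Fact p.Prime] {S : Finset Nat.Primes}

/-- Restriction of smooth 2-cocycles, as a linear map. -/
def ra_resZZ2 {k G H : Type} [CommRing k] [Group G] [Group H] (r : H →* G) (𝓤 : Levels G)
    (K : Cx k G) : ↥(ZZ2 𝓤 K) →ₗ[k] ↥(ZZ2 (𝓤.comap r) (K.res r)) where
  toFun z := ⟨resT2 r K z.1, resT2_mem_ZZ2 r 𝓤 K z.2⟩
  map_add' _ _ := rfl
  map_smul' _ _ := rfl

/-- **R-A, second half.**  Reciprocity up to units (the statement `exists_rescale_recip` of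
`F4/Cf/Recip.lean`; the hypothesis is `T3 C inv` unfolded). -/
theorem exists_rescale_recip_pf {loc : ∀ q : ↥S, LocalDatum p S q.1} (C : CoindDatum p S loc)
    (inv : HH2 (levelsS S) C.KC →ₗ[ZMod p] ZMod p)
    (hT3 : ∀ q : ↥S, ∃ z : ↥(ZZ2 (levelsS S) C.KJ),
      (∀ q' : ↥S, q' ≠ q →
        (((C.ev q').mapZZ2 _ ⟨resT2 (primeLocalToGlobal q'.1) C.KJ z.1,
            resT2_mem_ZZ2 _ _ C.KJ z.2⟩ : ↥(ZZ2 (locLevelsS S q'.1) (loc q').K)) : T2 (loc q').K)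
          ∈ BB2 (locLevelsS S q'.1) (loc q').K) ∧
        inv (HH2π _ _ (C.g.mapZZ2 _ z)) ≠ 0) :
    ∃ c : ↥S → (ZMod p)ˣ, ∀ z : ↥(ZZ2 (levelsS S) C.KJ),
      inv (HH2π _ _ (C.g.mapZZ2 _ z)) =
        ∑ q : ↥S, (c q : ZMod p) * (loc q).inv (HH2π _ _ ((C.ev q).mapZZ2 _
          ⟨resT2 (primeLocalToGlobal q.1) C.KJ z.1, resT2_mem_ZZ2 _ _ C.KJ z.2⟩)) := by
  classical
  have hp : p.Prime := Fact.out
  -- the linear forms
  let μ : ↥(ZZ2 (levelsS S) C.KJ) →ₗ[ZMod p] ZMod p :=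
    inv ∘ₗ HH2π (levelsS S) C.KC ∘ₗ C.g.mapZZ2 (levelsS S)
  let L : ↥S → ↥(ZZ2 (levelsS S) C.KJ) →ₗ[ZMod p] ZMod p := fun q =>
    (loc q).inv ∘ₗ HH2π (locLevelsS S q.1) (loc q).K ∘ₗ (C.ev q).mapZZ2 (locLevelsS S q.1) ∘ₗ
      ra_resZZ2 (primeLocalToGlobal q.1) (levelsS S) C.KJ
  -- the `L q` separate
  have hsep : ∀ z, (∀ q, L q z = 0) → μ z = 0 := by
    intro z hz
    have hB : (z : T2 C.KJ) ∈ BB2 (levelsS S) C.KJ := by
      apply ra_shapiro_sep C z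
      intro q
      have hidx : ¬ p ∣ (⊤ : Subgroup (primeLocalGaloisGroup q.1)).index := by
        rw [Subgroup.index_top]
        exact hp.not_dvd_one
      exact ra_inj_of_a2Inj (locLevelsS S q.1) (loc q).K (loc q).inv
        ((loc q).a2inj ⊤ (locLevelsS S q.1).isOpen_top hidx) _ (hz q)
    have h2 : HH2π (levelsS S) C.KC (C.g.mapZZ2 (levelsS S) z) = 0 :=
      (HH2π_eq_zero_iff (levelsS S) C.KC _).2 (C.g.onT2_mem_BB2 (levelsS S) hB)
    show inv (HH2π (levelsS S) C.KC (C.g.mapZZ2 (levelsS S) z)) = 0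
    rw [h2, map_zero]
  choose z hz1 hz2 using hT3
  have hz : ∀ i j, j ≠ i → L j (z i) = 0 := by
    intro i j hji
    have h0 : HH2π (locLevelsS S j.1) (loc j).K ((C.ev j).mapZZ2 (locLevelsS S j.1)
        (ra_resZZ2 (primeLocalToGlobal j.1) (levelsS S) C.KJ (z i))) = 0 :=
      (HH2π_eq_zero_iff _ _ _).2 (hz1 i j hji)
    show (loc j).inv (HH2π (locLevelsS S j.1) (loc j).K ((C.ev j).mapZZ2 (locLevelsS S j.1)
        (ra_resZZ2 (primeLocalToGlobal j.1) (levelsS S) C.KJ (z i)))) = 0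
    rw [h0, map_zero]
  obtain ⟨c, hc⟩ := ra_exists_units μ L hsep z hz hz2
  exact ⟨c, fun v => hc v⟩

end Main

end Fermat.Agent.F4Cf
end MergeWrap_F4_Cf_RecipA2

section MergeWrap_F4_Dict_FirstAn -- from F4/Dict/FirstAn.lean

/-!
# F4 / Dict / FirstAn : the first analysis of a norm relation (helper55)

`ℓ : LayerS p S` a cyclic layer `(U, V, σ)`, `F = ℓ.bot.field`, `M = ℓ.top.field`.

* `KForm.firstAn` : abstract form (presented formation `K`);
* `LayerS.firstAn` : if `j ∈ J^U` and `CMk j` is a norm from `C^V`, then for every precision `k`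
  there are `f ∈ Fˣ`, `u ∈ J^U` close to `1` (`NearOne u k`) and `t ∈ T_V` with

      `diagJ (toQS f) = j - u`   and   `toQS f - N t ∈ E`

  (K1 for `V`, the merged norm lemma `LayerS.cnorm_eq_diagJ_add` and the kernel of `CMk`).
  So `f` is `j` up to `J_(k)` at the places over `S`, and the divisor of `f` outside `S` is the
  norm of the divisor of `t`.
-/

set_option autoImplicit false
set_option synthInstance.maxHeartbeats 400000

open CategoryTheory groupCohomology ExtCitation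

namespace Fermat.Agent.F4

open Fermat.Agent.F4Cf

namespace KForm

variable {G : Type} [Group G] (K : KForm G)

/-- **First analysis**, abstract form. -/
theorem firstAn {p : ℕ} {U V : Subgroup G} {σ : G} (_hc : IsCyc p U V σ)
    (hpres : ∀ c : K.C, Fix K.C V c → ∃ x ∈ K.JU V, ∃ t ∈ K.TU V, c = K.pr (x + K.d t))
    (P : K.J → Prop)
    (hnm : ∀ x ∈ K.JU V, ∃ y ∈ K.QU V, ∃ u ∈ K.JU U, P u ∧
      cnorm K.J p σ x = K.d (cnorm K.Q p σ y) + u)
    {j : K.J} (hj : j ∈ K.JU U) (hN : IsNormFrom K.C p V σ (K.pr j)) :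
    ∃ s ∈ K.QU U, ∃ u ∈ K.JU U, ∃ t ∈ K.TU V, P u ∧ K.d s = j - u ∧
      s - cnorm K.Q p σ t ∈ K.E := by
  obtain ⟨c', hc', hjc⟩ := hN
  obtain ⟨x', hx', t', ht', rfl⟩ := hpres c' hc'
  obtain ⟨y, hy, u, hu, hPu, hxu⟩ := hnm x' hx'
  -- `pr j = pr (N x' + d (N t'))`
  have h1 : K.pr j = K.pr (cnorm K.J p σ x' + K.d (cnorm K.Q p σ t')) := by
    rw [hjc, K.cnorm_pr, cnorm_add, K.cnorm_d]
  have h2 : K.pr (j - (cnorm K.J p σ x' + K.d (cnorm K.Q p σ t'))) = 0 := by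
    rw [K.pr_sub, h1, sub_self]
  obtain ⟨e, he, hde⟩ := (K.pr_ker _).1 h2
  have hyT : y ∈ K.TU V := K.QU_le_TU V hy
  refine ⟨cnorm K.Q p σ (t' + y) + e, ?_, u, hu, t' + y, (K.TU V).add_mem ht' hyT, hPu, ?_, ?_⟩
  · -- fixed by `U`, since its image is
    have hds : K.d (cnorm K.Q p σ (t' + y) + e) = j - u := by
      rw [K.d_add, cnorm_add, K.d_add, hde, hxu]
      abel
    rw [← K.d_mem_JU_iff, hds]
    exact (K.JU U).sub_mem hj hu
  · rw [K.d_add, cnorm_add, K.d_add, hde, hxu]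
    abel
  · have e1 : cnorm K.Q p σ (t' + y) + e - cnorm K.Q p σ (t' + y) = e := by abel
    rw [e1]
    exact he

end KForm

namespace LayerS

variable {p : ℕ} {S : Finset Nat.Primes}

/-- **First analysis**: if `CMk j`, `j ∈ J^U`, is a norm from the layer, then
`j = diagJ f + u` with `u` close to `1` and `f ∈ Fˣ` whose divisor outside `S` is a norm. -/
theorem firstAn (ℓ : LayerS p S) [Fact p.Prime] (hS : S.Nonempty) {j : Jrep S}
    (hj : j ∈ ℓ.bot.JU) (hN : IsNormFrom (Crep S) p ℓ.top.U ℓ.σ (CMk S j)) (k : ℕ) :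
    ∃ (f : (ℓ.bot.field)ˣ) (u : Jrep S) (t : QSx S), u ∈ ℓ.bot.JU ∧ NearOne u k ∧
      t ∈ ℓ.top.TU ∧ diagJ S (ℓ.bot.toQS f) = j - u ∧
      ℓ.bot.toQS f - cnorm (QSx S) p ℓ.σ t ∈ sUnitsAdd S := by
  obtain ⟨s, hs, u, hu, t, ht, hPu, hds, hst⟩ :=
    (kfS S hS).firstAn (p := p) (U := ℓ.bot.U) (V := ℓ.top.U) (σ := ℓ.σ) ℓ.cyc
      (fun c hc => kappa_pres S hS ℓ.top.U ℓ.top.isOpen c hc)
      (fun u => NearOne u k)
      (fun x hx => by
        obtain ⟨y, u, hu, hun, he⟩ := ℓ.cnorm_eq_diagJ_add (x := x) hx k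
        refine ⟨ℓ.top.toQS y, fun g hg => ℓ.top.toQS_fixed y g hg, u, hu, hun, ?_⟩
        show cnorm (Jrep S) p ℓ.σ x =
          diagJ S (cnorm (QSx S) p ℓ.σ (ℓ.top.toQS y)) + u
        rw [he, ℓ.toQS_norm])
      (j := j) hj hN
  obtain ⟨f, hf⟩ := ℓ.bot.exists_toQS_of_fixed s hs
  refine ⟨f, u, t, hu, hPu, ht, ?_, ?_⟩
  · rw [hf]; exact hds
  · rw [hf]; exact hst

end LayerS

end Fermat.Agent.F4
end MergeWrap_F4_Dict_FirstAn

section MergeWrap_F4_Dict_LocalCore -- from F4/Dict/LocalCore.lean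

/-!
# F4 / Dict / LocalCore : the core of the derivation of `dict_local` (seat R-C2, helper55)

`ℓ : LayerS p S` a cyclic layer `(U, V, σ)`, `F = ℓ.bot.field`, `M = ℓ.top.field`; `Tp` a set of
primes of `F` over `S` outside of which `M / F` is unramified (the primes over `p` for the
cyclotomic layers), `P ∉ Tp` a prime of `F` whose Frobenius elements are non-trivial.

`LayerS.not_isNormFrom_core` : an idèle `j ∈ J^U` which is
* equal to a global element `c ∈ Fˣ` at the places of `Tp`,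
* of the same absolute value as `c` at the other places over `S`, except at `P`,
* such that `c` is a unit outside `S`, except at `P`,
* and such that the order at `P` of `f / c` is prime to `p` for every `f ∈ Fˣ` with
  `|f|_P = |j|_P` (if `P` is over `S`) resp. `p ∣ ord_P f` (if `P` is outside `S`),
has a class `CMk j` which is NOT a norm from `C^V`.

Inputs: the first analysis (`LayerS.firstAn`), the pointwise reciprocity law of helper14
(`F4Rec.artin_core`, `F4Rec.artin_inert`) and the divisibility of the norm of a divisor at an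
inert prime (`LayerS.LcInertDiv`, helper31's `InertDiv.lean`).
-/

set_option autoImplicit false
set_option synthInstance.maxHeartbeats 400000
set_option linter.style.haveILetI false

open CategoryTheory groupCohomology ExtCitation
open NumberField IsDedekindDomain

namespace Fermat.Agent.F4

open Fermat.Agent.F4Cf

attribute [local instance] fact_prime_coe86

variable {p : ℕ} {S : Finset Nat.Primes}

/-! ### Norm facts in `PadicAlgCl q` -/

lemma lc_norm_eq_one {q : ℕ} [Fact q.Prime] {y : PadicAlgCl q} (h : ‖y - 1‖ < 1) : ‖y‖ = 1 := by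
  have h1 : ‖y‖ ≤ 1 := by
    have := IsUltrametricDist.norm_add_le_max (y - 1) 1
    rw [sub_add_cancel, norm_one] at this
    exact this.trans (max_le h.le le_rfl)
  have h2 : (1 : ℝ) ≤ ‖y‖ := by
    by_contra hlt
    rw [not_le] at hlt
    have := IsUltrametricDist.norm_add_le_max (1 - y) y
    rw [sub_add_cancel, norm_one, norm_sub_rev] at this
    exact absurd this (not_le.2 (max_lt h hlt))
  exact le_antisymm h1 h2

lemma lc_norm_inv_sub_one {q : ℕ} [Fact q.Prime] {y : PadicAlgCl q} {ε : ℝ} (hε : ε ≤ 1)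
    (h : ‖y - 1‖ < ε) : ‖y⁻¹ - 1‖ < ε := by
  have h1 : ‖y‖ = 1 := lc_norm_eq_one (h.trans_le hε)
  have hy : y ≠ 0 := fun h0 => by rw [h0, norm_zero] at h1; exact zero_ne_one h1
  have e : y⁻¹ - 1 = -((y - 1) * y⁻¹) := by
    field_simp
    ring
  rw [e, norm_neg, norm_mul, norm_inv, h1, inv_one, mul_one]
  exact h

lemma lc_zpow_le_one (q : Nat.Primes) (k : ℕ) : (((q : ℕ) : ℝ)) ^ (-(k : ℤ)) ≤ 1 := by
  have hq1 : (1 : ℝ) ≤ ((q : ℕ) : ℝ) := by exact_mod_cast q.2.one_lt.le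
  rw [zpow_neg, zpow_natCast]
  exact inv_le_one_of_one_le₀ (one_le_pow₀ hq1)

/-! ### Place-wise form of K3iii -/

/-- If `‖ι (g f) - 1‖ < q ^ (-k)` then `f ≡ 1 mod v ^ (k + 1)`, `v` the prime of `(q, g)`. -/
theorem OpenS.lc_oneMod_of_norm_lt (L : OpenS S) (q : Nat.Primes) (g : GQ) (k : ℕ)
    (f : (L.field)ˣ)
    (h1 : ‖L.emb q g (f : L.field) - 1‖ < (((q : ℕ) : ℕ) : ℝ) ^ (-(k : ℤ))) :
    f ∈ F4G.oneModSubgroup L.field (F4G.primeOf (L.emb q g)) k := by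
  have hqR : (0 : ℝ) < (((q : ℕ) : ℕ) : ℝ) := by exact_mod_cast q.2.pos
  have hq0 : ((((q : ℕ) : ℕ) : L.field)) ^ k ≠ 0 :=
    pow_ne_zero _ (Nat.cast_ne_zero.2 q.2.ne_zero)
  have h2 : ‖L.emb q g (((f : L.field) - 1) / (((q : ℕ) : ℕ) : L.field) ^ k)‖ < 1 := by
    rw [map_div₀, norm_div, map_sub, map_one, map_pow, norm_pow, ja_norm_emb_natCast,
      div_lt_one (pow_pos (inv_pos.2 hqR) _), inv_pow, ← zpow_natCast, ← zpow_neg]
    exact h1
  have h3 := (F4G.norm_lt_one_iff (L.emb q g) _).1 h2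
  rw [map_div₀, div_lt_one₀ (zero_lt_iff.2 ((Valuation.ne_zero_iff _).2 hq0)), map_pow] at h3
  rw [F4G.mem_oneModSubgroup]
  refine h3.trans_le ?_
  calc (F4G.primeOf (L.emb q g)).valuation L.field (((q : ℕ) : ℕ) : L.field) ^ k
      ≤ WithZero.exp (-1 : ℤ) ^ k := pow_le_pow_left₀ zero_le (ja_valuation_natCast_le L q g) k
    _ = WithZero.exp (-(k : ℤ)) := by
        rw [← WithZero.exp_nsmul]
        congr 1
        simp

/-! ### Orders -/

lemma lc_ordV_div {F : Type} [Field F] [NumberField F] (v : HeightOneSpectrum (𝓞 F))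
    (x y : Fˣ) : F4Rec.ordV v (x / y) = F4Rec.ordV v x - F4Rec.ordV v y := by
  have h := F4Rec.ordV_mul v (x / y) y
  rw [div_mul_cancel] at h
  rw [h]
  ring

namespace LayerS

/-- **INERT-DIV** (helper31, `F4/Dict/InertDiv.lean`): at a prime `v` of `F` outside `S` with a
unique prime of `M` above it, the order of `f ∈ Fˣ`, `f ≡ N t` modulo `S`-units, is divisible by
`p`. -/
def LcInertDiv (ℓ : LayerS p S) : Prop :=
  ∀ (t : QSx S), t ∈ ℓ.top.TU → ∀ (f : (ℓ.bot.field)ˣ),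
    ℓ.bot.toQS f - cnorm (QSx S) p ℓ.σ t ∈ sUnitsAdd S →
    ∀ v : HeightOneSpectrum (𝓞 ℓ.bot.field), v ∉ ℓ.bot.T →
    (∀ Q Q' : Ideal (𝓞 ℓ.top.field), Q.IsPrime → Q'.IsPrime → Q ≠ ⊥ → Q' ≠ ⊥ →
      Q.under (𝓞 ℓ.bot.field) = v.asIdeal → Q'.under (𝓞 ℓ.bot.field) = v.asIdeal → Q' = Q) →
    (p : ℤ) ∣ F4Rec.ordV v f

/-- **The core of `dict_local`.** -/
theorem not_isNormFrom_core (ℓ : LayerS p S) [Fact p.Prime] (hp2 : p ≠ 2) (hS : S.Nonempty)
    (hID : ℓ.LcInertDiv)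
    (Tp : Finset (HeightOneSpectrum (𝓞 ℓ.bot.field))) (hTp : Tp.Nonempty)
    (hTsub : Tp ⊆ ℓ.bot.T)
    (hunr : F4Rec.UnramOutside ℓ.bot.field ℓ.top.field Tp)
    (P : HeightOneSpectrum (𝓞 ℓ.bot.field)) (hP : P ∉ Tp)
    (Q : Ideal (𝓞 ℓ.top.field)) (hQ : Q.IsPrime) (hQ0 : Q ≠ ⊥)
    (hQP : Q.under (𝓞 ℓ.bot.field) = P.asIdeal)
    (hFr : ∀ τ : ℓ.top.field ≃ₐ[ℓ.bot.field] ℓ.top.field,
      F4Rec.IsFrobRel τ Q (Ideal.absNorm (Q.under (𝓞 ℓ.bot.field))) → τ ≠ 1)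
    {j : Jrep S} (hj : j ∈ ℓ.bot.JU) (c : (ℓ.bot.field)ˣ)
    (hjTp : ∀ (q : ↥S) (g : GQ), F4G.primeOf (ℓ.bot.emb q.1 g) ∈ Tp →
      Jval j q g = ℓ.bot.emb q.1 g (c : ℓ.bot.field))
    (hjT : ∀ (q : ↥S) (g : GQ), F4G.primeOf (ℓ.bot.emb q.1 g) ∉ Tp →
      F4G.primeOf (ℓ.bot.emb q.1 g) ≠ P →
      ‖Jval j q g‖ = ‖ℓ.bot.emb q.1 g (c : ℓ.bot.field)‖)
    (hc : ∀ v : HeightOneSpectrum (𝓞 ℓ.bot.field), v ∉ ℓ.bot.T → v ≠ P → F4Rec.ordV v c = 0)
    (hPj : ∀ f : (ℓ.bot.field)ˣ,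
      (∀ (q : ↥S) (g : GQ), F4G.primeOf (ℓ.bot.emb q.1 g) = P →
        ‖ℓ.bot.emb q.1 g (f : ℓ.bot.field)‖ = ‖Jval j q g‖) →
      (P ∉ ℓ.bot.T → (p : ℤ) ∣ F4Rec.ordV P f) → ¬ (p : ℤ) ∣ F4Rec.ordV P (f / c)) :
    ¬ IsNormFrom (Crep S) p ℓ.top.U ℓ.σ (CMk S j) := by
  intro hN
  have hp : p.Prime := Fact.out
  obtain ⟨A, k₀, hfrob, hcore⟩ := F4Rec.artin_core p Tp hp hp2 ℓ.finrank_eq hTp hunr
  obtain ⟨f, u, t, hu, hun, ht, hfd, hfe⟩ := ℓ.firstAn hS hj hN k₀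
  -- the values of `f`
  have hval : ∀ (q : ↥S) (g : GQ),
      ℓ.bot.emb q.1 g (f : ℓ.bot.field) = Jval j q g * (Jval u q g)⁻¹ := by
    intro q g
    rw [← ℓ.bot.Jval_diagJ_toQS, hfd, ja_Jval_sub, div_eq_mul_inv]
  have hunorm : ∀ (q : ↥S) (g : GQ), ‖Jval u q g‖ = 1 := fun q g =>
    lc_norm_eq_one ((hun q g).trans_le (lc_zpow_le_one q.1 k₀))
  have hcne : ∀ (q : ↥S) (g : GQ), ℓ.bot.emb q.1 g (c : ℓ.bot.field) ≠ 0 := fun q g =>
    (map_ne_zero _).2 c.ne_zero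
  -- (1) `f / c` is a local norm at `Tp`
  have h1 : f / c ∈ F4G.localNormsAt ℓ.bot.field ℓ.top.field Tp k₀ := by
    rw [F4G.mem_localNormsAt]
    intro v hv
    apply F4G.oneModSubgroup_le_localNormGroup
    obtain ⟨q, g, rfl⟩ := ℓ.bot.placesSurj v (hTsub hv)
    apply ℓ.bot.lc_oneMod_of_norm_lt
    have e : ℓ.bot.emb q.1 g ((f / c : (ℓ.bot.field)ˣ) : ℓ.bot.field) = (Jval u q g)⁻¹ := by
      rw [Units.val_div_eq_div_val, map_div₀, hval, hjTp q g hv]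
      field_simp [hcne q g]
    rw [e]
    exact lc_norm_inv_sub_one (lc_zpow_le_one q.1 k₀) (hun q g)
  -- (2) the Frobenius at `P`
  have h2 : A P.asIdeal ≠ 1 := by
    have h := hFr _ (hfrob Q hQ hQ0)
    rwa [hQP] at h
  -- primes with non-trivial Frobenius are inert
  have hinert : ∀ v : HeightOneSpectrum (𝓞 ℓ.bot.field), A v.asIdeal ≠ 1 →
      ∀ Q₁ Q₂ : Ideal (𝓞 ℓ.top.field), Q₁.IsPrime → Q₂.IsPrime → Q₁ ≠ ⊥ → Q₂ ≠ ⊥ →
        Q₁.under (𝓞 ℓ.bot.field) = v.asIdeal → Q₂.under (𝓞 ℓ.bot.field) = v.asIdeal →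
        Q₂ = Q₁ := by
    intro v hv Q₁ Q₂ h₁ h₂ h₁0 _ e₁ e₂
    have hf1 := hfrob Q₁ h₁ h₁0
    have hn : Ideal.absNorm (Q₁.under (𝓞 ℓ.bot.field)) ≠ 0 := by
      rw [Ne, Ideal.absNorm_eq_zero_iff]
      exact Ideal.under_ne_bot (𝓞 ℓ.bot.field) h₁0
    refine F4Rec.artin_inert hp ℓ.finrank_eq ?_ hn h₁ h₁0 h₂ hf1 (e₂.trans e₁.symm)
    rw [e₁]
    exact hv
  -- (3) the other primes
  have h3 : ∀ v : HeightOneSpectrum (𝓞 ℓ.bot.field), v ∉ Tp → v ≠ P →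
      A v.asIdeal = 1 ∨ (p : ℤ) ∣ F4Rec.ordV v (f / c) := by
    intro v hvT hvP
    by_cases hvS : v ∈ ℓ.bot.T
    · right
      obtain ⟨q, g, rfl⟩ := ℓ.bot.placesSurj v hvS
      have hn : ‖ℓ.bot.emb q.1 g ((f / c : (ℓ.bot.field)ˣ) : ℓ.bot.field)‖ = 1 := by
        rw [Units.val_div_eq_div_val, map_div₀, norm_div, hval, norm_mul, norm_inv, hunorm,
          inv_one, mul_one, hjT q g hvT hvP]
        exact div_self (norm_ne_zero_iff.2 (hcne q g))
      rw [F4Rec.ordV_eq_zero_of_valuation_eq_one _ _ ((F4G.norm_eq_one_iff _ _).1 hn)]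
      exact dvd_zero _
    · by_cases hA : A v.asIdeal = 1
      · exact Or.inl hA
      · right
        rw [lc_ordV_div, hc v hvS hvP, sub_zero]
        exact hID t ht f hfe v hvS (hinert v hA)
  have h4 := hcore (f / c) h1 P hP h2 h3
  refine hPj f ?_ ?_ h4
  · intro q g _
    rw [hval, norm_mul, norm_inv, hunorm, inv_one, mul_one]
  · intro hPT
    exact hID t ht f hfe P hPT (hinert P h2)

end LayerS

end Fermat.Agent.F4
end MergeWrap_F4_Dict_LocalCore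

section MergeWrap_F4_Cf_RecipCGlue -- from F4/Cf/RecipCGlue.lean

/-!
# F4 / Cf / RecipCGlue : the finite-level arithmetic of `RecipCFin` for a `LayerS` (helper29)

`ℓ : LayerS p S` a layer with `ker χ_n ≤ ℓ.top.U` (so `M = ℓ.top.field ⊆ ℚ(μ_n)`), `r ∤ n` a prime
with `χ_n(ℓ.σ) = r`.  Then

* `LayerS.top_le_cycloField` : `M ≤ ℚ(μ_n)`;
* `LayerS.unramOutside_cyclo` : `M / F` is unramified outside any `T` containing the primes of
  `F` dividing `n`;
* `LayerS.isFrobRel_gen` : `ℓ.gen` is a Frobenius element (exponent `r`) at every prime of `M`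
  over `r`;  `LayerS.absNorm_under_cyclo` : the primes of `F` over `r` have norm `r`;
* `LayerS.frob_eq_gen` : every Frobenius element of `M / F` at a prime over `r` is `ℓ.gen`.
-/

set_option autoImplicit false
set_option linter.unusedSectionVars false
set_option synthInstance.maxHeartbeats 400000

open NumberField IsDedekindDomain ExtCitation

namespace Fermat.Agent.F4

open Fermat.Agent.Cyclo Fermat.Agent.F4Rec Fermat.Agent.F4RCF

attribute [local instance] Fermat.Agent.FrobExists.isGalois_Qb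

variable {p : ℕ} {S : Finset Nat.Primes} (ℓ : LayerS p S) (n : ℕ) [NeZero n]

/-- `M ≤ ℚ(μ_n)` if `ker χ_n ≤ V`. -/
theorem LayerS.top_le_cycloField (hker : ∀ g : GQ, modChar n g = 1 → g ∈ ℓ.top.U) :
    ℓ.top.field ≤ cycloField n := by
  intro x hx
  rw [← InfiniteGalois.fixedField_fixingSubgroup (cycloField n),
    IntermediateField.mem_fixedField_iff]
  intro h hh
  have h1 : modChar n h = 1 := by
    apply modChar_eq_one_of_fix_cycloField
    rw [IntermediateField.mem_fixingSubgroup_iff] at hh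
    exact hh
  exact (ℓ.top.mem_field_iff x).1 hx h (hker h h1)

theorem LayerS.σ_mem_fixingSubgroup_bot : ℓ.σ ∈ ℓ.bot.field.fixingSubgroup := by
  rw [ℓ.bot.fixingSubgroup_field]
  exact ℓ.cyc.mem

/-- `M / F` is unramified outside the primes dividing `n`. -/
theorem LayerS.unramOutside_cyclo (hker : ∀ g : GQ, modChar n g = 1 → g ∈ ℓ.top.U)
    (T : Finset (HeightOneSpectrum (𝓞 ℓ.bot.field)))
    (hT : ∀ v : HeightOneSpectrum (𝓞 ℓ.bot.field), ((n : ℕ) : 𝓞 ℓ.bot.field) ∈ v.asIdeal → v ∈ T) :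
    UnramOutside ℓ.bot.field ℓ.top.field T :=
  rcf_unramOutside n ℓ.bot.field ℓ.top.field (ℓ.top_le_cycloField n hker) T hT

variable {r : ℕ}

/-- `ℓ.gen` is a Frobenius element at every prime of `M` over `r`. -/
theorem LayerS.isFrobRel_gen (hker : ∀ g : GQ, modChar n g = 1 → g ∈ ℓ.top.U)
    (hr : r.Prime) (hrn : ¬ r ∣ n)
    (hσ : ((modChar n ℓ.σ : (ZMod n)ˣ) : ZMod n) = (r : ZMod n))
    (Q : Ideal (𝓞 ℓ.top.field)) (hQ : Q.IsPrime) (hrQ : ((r : ℕ) : 𝓞 ℓ.top.field) ∈ Q) :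
    IsFrobRel ℓ.gen Q r :=
  rcf_isFrobRel n ℓ.bot.field ℓ.top.field hr hrn (ℓ.top_le_cycloField n hker) ℓ.σ hσ ℓ.gen
    (fun x => ℓ.coe_gen x) Q hQ hrQ

/-- The primes of `F` over `r` have norm `r`. -/
theorem LayerS.absNorm_under_cyclo (hker : ∀ g : GQ, modChar n g = 1 → g ∈ ℓ.top.U)
    (hr : r.Prime) (hrn : ¬ r ∣ n)
    (hσ : ((modChar n ℓ.σ : (ZMod n)ˣ) : ZMod n) = (r : ZMod n))
    (Q : Ideal (𝓞 ℓ.top.field)) (hQ : Q.IsPrime) (hrQ : ((r : ℕ) : 𝓞 ℓ.top.field) ∈ Q) :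
    Ideal.absNorm (Q.under (𝓞 ℓ.bot.field)) = r :=
  rcf_absNorm_under n ℓ.bot.field ℓ.top.field hr hrn (ℓ.top_le_cycloField n hker) ℓ.σ hσ
    ℓ.σ_mem_fixingSubgroup_bot Q hQ hrQ

/-- Every Frobenius element of `M / F` at a prime over `r` is `ℓ.gen`. -/
theorem LayerS.frob_eq_gen (hker : ∀ g : GQ, modChar n g = 1 → g ∈ ℓ.top.U)
    (hr : r.Prime) (hrn : ¬ r ∣ n)
    (hσ : ((modChar n ℓ.σ : (ZMod n)ˣ) : ZMod n) = (r : ZMod n))
    (Q : Ideal (𝓞 ℓ.top.field)) (hQ : Q.IsPrime) (hrQ : ((r : ℕ) : 𝓞 ℓ.top.field) ∈ Q)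
    (τ' : ℓ.top.field ≃ₐ[ℓ.bot.field] ℓ.top.field)
    (hτ' : IsFrobRel τ' Q (Ideal.absNorm (Q.under (𝓞 ℓ.bot.field)))) : τ' = ℓ.gen :=
  rcf_frob_eq n ℓ.bot.field ℓ.top.field hr hrn (ℓ.top_le_cycloField n hker) ℓ.σ hσ
    ℓ.σ_mem_fixingSubgroup_bot ℓ.gen (fun x => ℓ.coe_gen x) Q hQ hrQ τ' hτ'

/-- ... and it is not `1`. -/
theorem LayerS.frob_ne_one [Fact p.Prime] (hker : ∀ g : GQ, modChar n g = 1 → g ∈ ℓ.top.U)
    (hr : r.Prime) (hrn : ¬ r ∣ n)
    (hσ : ((modChar n ℓ.σ : (ZMod n)ˣ) : ZMod n) = (r : ZMod n))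
    (Q : Ideal (𝓞 ℓ.top.field)) (hQ : Q.IsPrime) (hrQ : ((r : ℕ) : 𝓞 ℓ.top.field) ∈ Q)
    (τ' : ℓ.top.field ≃ₐ[ℓ.bot.field] ℓ.top.field)
    (hτ' : IsFrobRel τ' Q (Ideal.absNorm (Q.under (𝓞 ℓ.bot.field)))) : τ' ≠ 1 := by
  rw [ℓ.frob_eq_gen n hker hr hrn hσ Q hQ hrQ τ' hτ']
  exact ℓ.gen_ne_one

end Fermat.Agent.F4
end MergeWrap_F4_Cf_RecipCGlue

section MergeWrap_F4_Cf_RecipC2ne -- from F4/Cf/RecipC2ne.lean

/-!
# F4 / Cf / RecipC2ne : `dict_local` at a prime `q ≠ p` of `S` (seat RC2-NE, helper29)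

The cyclotomic layer of helper13 (`cycLayer_ne`: `U = χ⁻¹⟨q⟩`, `V = χ⁻¹⟨q ^ p⟩`, `χ` the cyclotomic
character mod `p ^ k`), the idèle `j = (q at the place of ι_q, 1 elsewhere)`, the core of helper55
(`LayerS.not_isNormFrom_core`) with `Tp` = the primes over `p`, `P` = the place of `ι_q`, `c = 1`,
and the finite-level arithmetic of `RecipCFin` / `RecipCGlue`.
-/

set_option autoImplicit false
set_option synthInstance.maxHeartbeats 400000
set_option maxHeartbeats 1000000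
set_option linter.unusedSectionVars false
set_option linter.style.haveILetI false

open CategoryTheory groupCohomology ExtCitation
open NumberField IsDedekindDomain
open scoped Pointwise

namespace Fermat.Agent.F4Cf

open Fermat.Agent.F4

attribute [local instance] fact_prime_coe86

/-- Two coprime natural numbers cannot both lie in a proper ideal. -/
lemma rc2_one_mem_of_coprime {R : Type*} [CommRing R] (I : Ideal R) {a b : ℕ}
    (hab : Nat.Coprime a b) (ha : (a : R) ∈ I) (hb : (b : R) ∈ I) : (1 : R) ∈ I := by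
  have h := Nat.gcd_eq_gcd_ab a b
  rw [hab] at h
  have h2 : (1 : R) = (a : R) * ((Nat.gcdA a b : ℤ) : R) + (b : R) * ((Nat.gcdB a b : ℤ) : R) := by
    have := congrArg (Int.cast : ℤ → R) h
    push_cast at this
    exact this
  rw [h2]
  exact I.add_mem (I.mul_mem_right _ ha) (I.mul_mem_right _ hb)

section Layer

variable {p : ℕ} {S : Finset Nat.Primes} (ℓ : LayerS p S)

/-- The prime of `M` at `(q, g)` lies over the prime of `F` at `(q, g)`. -/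
lemma rc2_under_primeOf (q : Nat.Primes) (g : GQ) :
    (F4G.primeOf (ℓ.top.emb q g)).asIdeal.under (𝓞 ℓ.bot.field) =
      (F4G.primeOf (ℓ.bot.emb q g)).asIdeal := by
  ext x
  rw [Ideal.under_def, Ideal.mem_comap, F4G.mem_primeOf, F4G.mem_primeOf]
  rfl

/-- (INERT-DIV) in the form of the core. -/
lemma rc2_lcInertDiv [Fact p.Prime] : ℓ.LcInertDiv :=
  fun _ ht f hfe v hv hin => ℓ.dvd_log_of_inert ht f hfe v hv hin

end Layer

section Single

variable {S : Finset Nat.Primes} (L : OpenS S) (q : ↥S) (g₀ : GQ)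
  (y : (@PadicAlgCl ((q : Nat.Primes) : ℕ) ⟨(q : Nat.Primes).2⟩)ˣ)
  (hy : ∀ d ∈ L.Dsub q.1 g₀,
    locAct q.1 d (y : @PadicAlgCl ((q : Nat.Primes) : ℕ) ⟨(q : Nat.Primes).2⟩) = y)

lemma rc2_Jval_single_self :
    Jval (L.single q g₀ y hy) q g₀ = (y : @PadicAlgCl ((q : Nat.Primes) : ℕ) ⟨(q : Nat.Primes).2⟩) := by
  have h := OpenS.singleFun_eq L q g₀ y hy 1 1 L.U.one_mem
  rw [map_one, one_mul, mul_one] at h
  rw [Jval_def, OpenS.Jfun_single_self, h, smUnits.val_ρ]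
  rfl

lemma rc2_Jval_single_of_not (g : GQ) (hg : ¬ L.InDC q.1 g₀ g) :
    Jval (L.single q g₀ y hy) q g = 1 := by
  rw [Jval_def, OpenS.Jfun_single_self, L.singleFun_of_not q g₀ y hy g hg]
  rfl

lemma rc2_Jval_single_of_ne (q' : ↥S) (hq : q' ≠ q) (g : GQ) :
    Jval (L.single q g₀ y hy) q' g = 1 := by
  rw [Jval_def, OpenS.Jfun_single_of_ne _ _ _ _ _ _ hq]
  rfl

lemma rc2_single_apply_of_ne (q' : ↥S) (hq : q' ≠ q) : L.single q g₀ y hy q' = 0 := by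
  unfold OpenS.single
  rw [dif_neg hq]

end Single

section Core

variable {p : ℕ} [Fact p.Prime] {S : Finset Nat.Primes}

/-- **The case `q ≠ p` for an abstract cyclotomic layer.** -/
theorem rc2_ne_core (hp2 : p ≠ 2) (hpS : pPrime p ∈ S) (q : ↥S)
    (hq : ((q : Nat.Primes) : ℕ) ≠ p) (ℓ : LayerS p S) (n : ℕ) [NeZero n]
    (hn : ∀ v : HeightOneSpectrum (𝓞 ℓ.bot.field), ((n : ℕ) : 𝓞 ℓ.bot.field) ∈ v.asIdeal →
      ((p : ℕ) : 𝓞 ℓ.bot.field) ∈ v.asIdeal)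
    (hqn : ¬ ((q : Nat.Primes) : ℕ) ∣ n)
    (hker : ∀ g : GQ, Cyclo.modChar n g = 1 → g ∈ ℓ.top.U)
    (hσ : ((Cyclo.modChar n ℓ.σ : (ZMod n)ˣ) : ZMod n) = ((((q : Nat.Primes) : ℕ) : ℕ) : ZMod n))
    (hval : (F4G.primeOf (ℓ.bot.emb q.1 1)).valuation ℓ.bot.field
      ((((q : Nat.Primes) : ℕ) : ℕ) : ℓ.bot.field) = WithZero.exp (-1 : ℤ))
    (y : (@PadicAlgCl ((q : Nat.Primes) : ℕ) ⟨(q : Nat.Primes).2⟩)ˣ)
    (hy : ∀ d ∈ ℓ.bot.Dsub q.1 1,
      locAct q.1 d (y : @PadicAlgCl ((q : Nat.Primes) : ℕ) ⟨(q : Nat.Primes).2⟩) = y)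
    (hyq : (y : @PadicAlgCl ((q : Nat.Primes) : ℕ) ⟨(q : Nat.Primes).2⟩) =
      ((((q : Nat.Primes) : ℕ) : ℕ) : @PadicAlgCl ((q : Nat.Primes) : ℕ) ⟨(q : Nat.Primes).2⟩)) :
    ¬ IsNormFrom (Crep S) p ℓ.top.U ℓ.σ (CMk S (ℓ.bot.single q 1 y hy)) := by
  classical
  have hp : p.Prime := Fact.out
  have hcop : Nat.Coprime ((q : Nat.Primes) : ℕ) p := (Nat.coprime_primes q.1.2 hp).2 hq
  have hnot : ∀ v : HeightOneSpectrum (𝓞 ℓ.bot.field),
      ((((q : Nat.Primes) : ℕ) : ℕ) : 𝓞 ℓ.bot.field) ∈ v.asIdeal →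
      ((p : ℕ) : 𝓞 ℓ.bot.field) ∈ v.asIdeal → False := fun v h1 h2 =>
    v.isPrime.ne_top ((Ideal.eq_top_iff_one _).2 (rc2_one_mem_of_coprime _ hcop h1 h2))
  have hTp : (ℓ.bot.T.filter
      (fun v => ((p : ℕ) : 𝓞 ℓ.bot.field) ∈ v.asIdeal)).Nonempty :=
    ⟨F4G.primeOf (ℓ.bot.emb (pPrime p) 1), Finset.mem_filter.2
      ⟨ℓ.bot.primeOf_emb_mem_T_of_mem (pPrime p) hpS 1,
        F4G.natCast_mem_primeOf (ℓ.bot.emb (pPrime p) 1)⟩⟩
  have hunr := ℓ.unramOutside_cyclo n hker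
    (ℓ.bot.T.filter (fun v => ((p : ℕ) : 𝓞 ℓ.bot.field) ∈ v.asIdeal))
    (fun v hv => Finset.mem_filter.2
      ⟨(ℓ.bot.mem_T v).2 ⟨pPrime p, hpS, hn v hv⟩, hn v hv⟩)
  have hP : F4G.primeOf (ℓ.bot.emb q.1 1) ∉
      ℓ.bot.T.filter (fun v => ((p : ℕ) : 𝓞 ℓ.bot.field) ∈ v.asIdeal) := fun h =>
    hnot _ (F4G.natCast_mem_primeOf (ℓ.bot.emb q.1 1)) (Finset.mem_filter.1 h).2
  have hFr : ∀ τ : ℓ.top.field ≃ₐ[ℓ.bot.field] ℓ.top.field,
      F4Rec.IsFrobRel τ (F4G.primeOf (ℓ.top.emb q.1 1)).asIdeal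
        (Ideal.absNorm ((F4G.primeOf (ℓ.top.emb q.1 1)).asIdeal.under (𝓞 ℓ.bot.field))) →
      τ ≠ 1 := fun τ hτ =>
    ℓ.frob_ne_one n hker q.1.2 hqn hσ _ (F4G.primeOf (ℓ.top.emb q.1 1)).isPrime
      (F4G.natCast_mem_primeOf (ℓ.top.emb q.1 1)) τ hτ
  refine ℓ.not_isNormFrom_core hp2 ⟨_, hpS⟩ (rc2_lcInertDiv ℓ) _ hTp (Finset.filter_subset _ _)
    hunr (F4G.primeOf (ℓ.bot.emb q.1 1)) hP _ (F4G.primeOf (ℓ.top.emb q.1 1)).isPrime
    (F4G.primeOf (ℓ.top.emb q.1 1)).ne_bot (rc2_under_primeOf ℓ q.1 1) hFr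
    (ℓ.bot.single_mem_JU q 1 y hy) 1 ?_ ?_ ?_ ?_
  · -- the places over `p`
    intro q' g hmem
    have hpv := (Finset.mem_filter.1 hmem).2
    by_cases hq' : q' = q
    · subst hq'
      exact (hnot _ (F4G.natCast_mem_primeOf (ℓ.bot.emb q'.1 g)) hpv).elim
    · rw [rc2_Jval_single_of_ne ℓ.bot q 1 y hy q' hq' g, Units.val_one, map_one]
  · -- the other places over `S`
    intro q' g _ hne
    rw [Units.val_one, map_one, norm_one]
    by_cases hq' : q' = q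
    · subst hq'
      have hdc : ¬ ℓ.bot.InDC q'.1 1 g := fun h =>
        hne ((ℓ.bot.primeOf_emb_eq_iff q'.1 1 g).2 h).symm
      rw [rc2_Jval_single_of_not ℓ.bot q' 1 y hy g hdc, norm_one]
    · rw [rc2_Jval_single_of_ne ℓ.bot q 1 y hy q' hq' g, norm_one]
  · -- `c = 1`
    intro v _ _
    exact F4Rec.ordV_eq_zero_of_valuation_eq_one v 1 (by simp)
  · -- the place `P`
    intro f hf _ hdvd
    have h1 := hf q 1 rfl
    rw [rc2_Jval_single_self ℓ.bot q 1 y hy, hyq] at h1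
    have hq0 : ((((q : Nat.Primes) : ℕ) : ℕ) : ℓ.bot.field) ≠ 0 :=
      Nat.cast_ne_zero.2 q.1.2.ne_zero
    have h2 : ‖ℓ.bot.emb q.1 1 ((f : ℓ.bot.field) /
        ((((q : Nat.Primes) : ℕ) : ℕ) : ℓ.bot.field))‖ = 1 := by
      rw [map_div₀, norm_div, h1, map_natCast]
      exact div_self (norm_ne_zero_iff.2 (Nat.cast_ne_zero.2 q.1.2.ne_zero))
    have h3 := (F4G.norm_eq_one_iff (ℓ.bot.emb q.1 1) _).1 h2
    rw [map_div₀, hval] at h3
    have h4 : (F4G.primeOf (ℓ.bot.emb q.1 1)).valuation ℓ.bot.field (f : ℓ.bot.field) =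
        WithZero.exp (-1 : ℤ) := by
      have hne : (WithZero.exp (-1 : ℤ) : WithZero (Multiplicative ℤ)) ≠ 0 :=
        WithZero.exp_ne_zero
      exact (div_eq_one_iff_eq hne).1 h3
    have h5 : F4Rec.ordV (F4G.primeOf (ℓ.bot.emb q.1 1)) f = 1 := by
      unfold F4Rec.ordV
      rw [h4, WithZero.log_exp]
      norm_num
    rw [div_one, h5] at hdvd
    have h6 : ((p : ℕ) : ℤ) ∣ ((1 : ℕ) : ℤ) := by simpa using hdvd
    exact hp.one_lt.ne' (Nat.dvd_one.1 (Int.natCast_dvd_natCast.1 h6))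

/-- **RC2-NE**: `dict_local` at a prime `q ≠ p` of `S`. -/
theorem dict_local_ne (hp2 : p ≠ 2) (hpS : pPrime p ∈ S) (q : ↥S)
    (hq : ((q : Nat.Primes) : ℕ) ≠ p) :
    ∃ (U V : Subgroup GQ) (σ : GQ) (j : Jrep S), (levelsS S).IsOpen V ∧ IsCyc p U V σ ∧
      Fix (Jrep S) U j ∧ (∀ q' : ↥S, q' ≠ q → j q' = 0) ∧
      ¬ IsNormFrom (Crep S) p V σ (CMk S j) := by
  classical
  have hp : p.Prime := Fact.out
  obtain ⟨k, hne, hqn, τ₀, hk0, hVo, hUo, hcyc, hχ, hD, hker⟩ := cycLayer_ne hpS q.1 hq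
  haveI := hne
  let y : (@PadicAlgCl ((q : Nat.Primes) : ℕ) ⟨(q : Nat.Primes).2⟩)ˣ :=
    Units.mk0 ((((q : Nat.Primes) : ℕ) : ℕ) : @PadicAlgCl ((q : Nat.Primes) : ℕ) ⟨(q : Nat.Primes).2⟩)
      (Nat.cast_ne_zero.2 q.1.2.ne_zero)
  have hy : ∀ d ∈ (LayerS.ofCyc hVo hcyc).bot.Dsub q.1 1,
      locAct q.1 d (y : @PadicAlgCl ((q : Nat.Primes) : ℕ) ⟨(q : Nat.Primes).2⟩) = y :=
    fun d _ => map_natCast (locAct q.1 d) _
  refine ⟨_, _, _, (LayerS.ofCyc hVo hcyc).bot.single q 1 y hy, hVo, hcyc,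
    (LayerS.ofCyc hVo hcyc).bot.single_mem_JU q 1 y hy,
    fun q' hq' => rc2_single_apply_of_ne _ q 1 y hy q' hq', ?_⟩
  refine rc2_ne_core hp2 hpS q hq (LayerS.ofCyc hVo hcyc) (p ^ k) ?_ ?_ hker ?_ ?_ y hy rfl
  · intro v hv
    refine v.isPrime.mem_of_pow_mem k ?_
    rw [← Nat.cast_pow]
    exact hv
  · exact (Nat.Prime.coprime_iff_not_dvd q.1.2).1 hqn
  · show ((Cyclo.modChar (p ^ k) (primeLocalToGlobal q.1 τ₀) : (ZMod (p ^ k))ˣ) : ZMod (p ^ k)) = _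
    rw [hχ]
    exact ZMod.coe_unitOfCoprime _ _
  · let L' : OpenS ({pPrime p} : Finset Nat.Primes) :=
      ⟨cycU (p ^ k) q hqn, cycU_isOpen (Finset.mem_singleton_self _) k q hqn⟩
    have hqS' : q.1 ∉ ({pPrime p} : Finset Nat.Primes) := by
      rw [Finset.mem_singleton]
      intro h
      exact hq (congrArg Subtype.val h)
    have hv := (LayerS.ofCyc hVo hcyc).bot.primeOf_emb_asIdeal q.1 1
    have e : (1 : GQ)⁻¹ • primeLocalPlace q.1 = primeLocalPlace q.1 := by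
      rw [inv_one]
      exact one_smul _ _
    rw [e] at hv
    exact L'.capit_valuation_natCast_field q.1 hqS' (primeLocalPlace q.1)
      (primeLocalPlace_liesOverPrime q.1)
      (F4G.primeOf ((LayerS.ofCyc hVo hcyc).bot.emb q.1 1)) hv

end Core

end Fermat.Agent.F4Cf
end MergeWrap_F4_Cf_RecipC2ne

section MergeWrap_F4_Cf_RecipC1 -- from F4/Cf/RecipC1.lean

/-!
# F4 / Cf / RecipC1 : seat R-C1b — the cyclic layer of `dict_local` at `q = p`  (helper31)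

For `dict_local` (`F4/Cf/Recip.lean`) at the prime `q = p`:  `U = ⊤` (`F = ℚ`),
`V = cycV1 p = {g | χ(g) ^ (p - 1) = 1}`, `χ = Cyclo.modChar (p ^ 2)` the cyclotomic character
modulo `p²` (`V = Gal(ℚ̄/ℚ_1)`, `ℚ_1 ⊂ ℚ(μ_{p²})` the first layer of the cyclotomic
`ℤ_p`-extension), `ℓ ∉ S` a prime with `ℓ ^ (p - 1) ≢ 1 mod p²` (inert in `ℚ_1`), `σ` a Frobenius
element at `ℓ`.

* `cycV1 p`, `mem_cycV1`, `cycV1_normal`;
* `cycV1_isOpen`        : `V` is open for `levelsS S` when `p ∈ S` (`ℚ_1 ⊂ ℚ(μ_{p²}) ⊂ ℚ_S`);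
* `isCyc_cycV1`         : `IsCyc p ⊤ (cycV1 p) σ` for EVERY `σ ∉ cycV1 p`;
* `frob_not_mem_cycV1`  : a Frobenius element at `ℓ ≠ p` with `ℓ ^ (p - 1) ≠ 1` in `ZMod (p ^ 2)`
                          is not in `V` (`ℓ` is inert in `ℚ_1`);
* `mem_cycV1_of_frob`   : conversely, Frobenius elements at `ℓ ≠ p` with `ℓ ^ (p - 1) = 1` in
                          `ZMod (p ^ 2)` are in `V` (`ℓ` splits in `ℚ_1`);
* `exists_inert_prime`  : there is a prime `ℓ ∉ S`, `ℓ ≠ p`, `ℓ ^ (p - 1) ≠ 1` in `ZMod (p ^ 2)`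
                          (elementary: a prime factor of `1 + p ∏_{q ∈ S, q ≠ p} q`);
* `exists_layer_at_p`   : the package.

No hypothesis `p ≠ 2` is needed.
-/

set_option autoImplicit false

open ExtCitation

namespace Fermat.Agent.F4Cf

open Fermat.Agent.F4

/-! ### The group `(ℤ/p²)ˣ` -/

section Units

variable (p : ℕ) [Fact p.Prime]

theorem rc1_card_units : Nat.card (ZMod (p ^ 2))ˣ = p * (p - 1) := by
  have hp : p.Prime := Fact.out
  rw [Nat.card_eq_fintype_card, ZMod.card_units_eq_totient,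
    Nat.totient_prime_pow hp (by norm_num : 0 < 2)]
  simp

/-- `(x ^ (p - 1)) ^ p = 1` in `(ℤ/p²)ˣ`. -/
theorem rc1_pow_pow_eq_one (x : (ZMod (p ^ 2))ˣ) : (x ^ (p - 1)) ^ p = 1 := by
  rw [← pow_mul, mul_comm, ← rc1_card_units p]
  exact pow_card_eq_one'

/-- The subgroup `{y | y ^ p = 1}` of `(ℤ/p²)ˣ` has order dividing `p`. -/
theorem rc1_card_ker_dvd : Nat.card ((powMonoidHom p : (ZMod (p ^ 2))ˣ →* (ZMod (p ^ 2))ˣ).ker) ∣ p := by
  have hp : p.Prime := Fact.out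
  set P : Subgroup (ZMod (p ^ 2))ˣ := (powMonoidHom p : (ZMod (p ^ 2))ˣ →* (ZMod (p ^ 2))ˣ).ker
    with hP
  have hpg : IsPGroup p P := by
    intro g
    refine ⟨1, ?_⟩
    have hg : (g : (ZMod (p ^ 2))ˣ) ^ p = 1 := g.2
    apply Subtype.ext
    rw [pow_one]
    exact hg
  obtain ⟨n, hn⟩ := hpg.exists_card_eq
  have hdvd : Nat.card P ∣ p * (p - 1) := by
    rw [← rc1_card_units p]
    exact Subgroup.card_subgroup_dvd_card P
  rw [hn] at hdvd ⊢
  have hn1 : n ≤ 1 := by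
    by_contra hcon
    push Not at hcon
    have h2 : p ^ 2 ∣ p * (p - 1) := (pow_dvd_pow p hcon).trans hdvd
    rw [pow_two] at h2
    have h3 : p ∣ p - 1 := (Nat.mul_dvd_mul_iff_left hp.pos).1 h2
    have h4 : 0 < p - 1 := by have := hp.two_le; omega
    have := Nat.le_of_dvd h4 h3
    omega
  calc p ^ n ∣ p ^ 1 := pow_dvd_pow p hn1
    _ = p := pow_one p

/-- In `(ℤ/p²)ˣ`, a non-trivial element `a` with `a ^ p = 1` generates `{y | y ^ p = 1}`. -/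
theorem rc1_exists_pow {a y : (ZMod (p ^ 2))ˣ} (ha : a ^ p = 1) (ha1 : a ≠ 1) (hy : y ^ p = 1) :
    ∃ i : ℕ, i < p ∧ a ^ i = y := by
  have hp : p.Prime := Fact.out
  set P : Subgroup (ZMod (p ^ 2))ˣ := (powMonoidHom p : (ZMod (p ^ 2))ˣ →* (ZMod (p ^ 2))ˣ).ker
    with hP
  have haP : a ∈ P := ha
  have hyP : y ∈ P := hy
  have hcard : Nat.card P = p := by
    rcases (Nat.dvd_prime hp).1 (rc1_card_ker_dvd p) with h1 | h1
    · exfalso
      have hsub : Subsingleton P := (Nat.card_eq_one_iff_unique.1 h1).1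
      apply ha1
      have := Subsingleton.elim (⟨a, haP⟩ : P) 1
      exact congrArg Subtype.val this
    · exact h1
  have hne : (⟨a, haP⟩ : P) ≠ 1 := fun h => ha1 (congrArg Subtype.val h)
  obtain ⟨n, hn⟩ := mem_powers_of_prime_card hcard hne (g' := (⟨y, hyP⟩ : P))
  have hn' : a ^ n = y := by
    have := congrArg Subtype.val hn
    simpa using this
  refine ⟨n % p, Nat.mod_lt _ hp.pos, ?_⟩
  rw [← hn']
  conv_rhs => rw [← Nat.div_add_mod n p]
  rw [pow_add, pow_mul, ha, one_pow, one_mul]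

/-- `(1 + x) ^ n = 1 + n x` when `x ^ 2 = 0`. -/
theorem rc1_one_add_pow {R : Type*} [CommRing R] {x : R} (hx : x ^ 2 = 0) (n : ℕ) :
    (1 + x) ^ n = 1 + n * x := by
  induction n with
  | zero => simp
  | succ n ih =>
    rw [pow_succ, ih]
    push_cast
    linear_combination (n : R) * hx

end Units

/-! ### The layer -/

section Layer

variable (p : ℕ) [Fact p.Prime]

/-- `Gal(ℚ̄/ℚ_1)`, `ℚ_1 ⊂ ℚ(μ_{p²})` the first layer of the cyclotomic `ℤ_p`-extension: the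
kernel of `g ↦ χ(g) ^ (p - 1)`, `χ` the cyclotomic character modulo `p²`. -/
noncomputable def cycV1 : Subgroup GQ :=
  ((powMonoidHom (p - 1) : (ZMod (p ^ 2))ˣ →* (ZMod (p ^ 2))ˣ).comp (Cyclo.modChar (p ^ 2))).ker

theorem mem_cycV1 (g : GQ) : g ∈ cycV1 p ↔ Cyclo.modChar (p ^ 2) g ^ (p - 1) = 1 :=
  Iff.rfl

instance cycV1_normal : (cycV1 p).Normal := by
  unfold cycV1
  infer_instance

/-- `ℚ_1 ⊂ ℚ(μ_{p²}) ⊂ ℚ_S` when `p ∈ S`. -/
theorem fixingSubgroup_cycloField_le_cycV1 :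
    (Cyclo.cycloField (p ^ 2)).fixingSubgroup ≤ cycV1 p := by
  intro s hs
  have h1 : Cyclo.modChar (p ^ 2) s = 1 :=
    Cyclo.modChar_eq_one_of_fix_cycloField (p ^ 2) s fun x hx =>
      (IntermediateField.mem_fixingSubgroup_iff _ _).1 hs x hx
  rw [mem_cycV1, h1, one_pow]

/-- `V = Gal(ℚ̄/ℚ_1)` is open in `G_S` when `p ∈ S`. -/
theorem cycV1_isOpen {S : Finset Nat.Primes} (hpS : pPrime p ∈ S) :
    (levelsS S).IsOpen (cycV1 p) := by
  have hp : p.Prime := Fact.out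
  refine ⟨(Cyclo.cycloField (p ^ 2)).fixingSubgroup,
    Loc.cycloField_mem_levelsS (p ^ 2) S ?_, fixingSubgroup_cycloField_le_cycV1 p⟩
  intro ℓ hℓ
  have h1 : (ℓ : ℕ) ∣ p := ℓ.2.dvd_of_dvd_pow hℓ
  have h2 : (ℓ : ℕ) = p := (Nat.prime_dvd_prime_iff_eq ℓ.2 hp).1 h1
  have h3 : ℓ = pPrime p := Subtype.ext h2
  rw [h3]; exact hpS

/-- `(⊤, V, σ)` is a cyclic layer of degree `p` for every `σ ∉ V`. -/
theorem isCyc_cycV1 {σ : GQ} (hσ : σ ∉ cycV1 p) : IsCyc p ⊤ (cycV1 p) σ where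
  le := le_top
  normal := fun u _ v hv => (cycV1_normal p).conj_mem v hv u
  mem := Subgroup.mem_top σ
  not_mem := hσ
  pow_mem := by
    rw [mem_cycV1, map_pow, ← pow_mul, mul_comm, pow_mul]
    exact rc1_pow_pow_eq_one p _
  gen := fun u _ => by
    obtain ⟨i, hi, h⟩ := rc1_exists_pow p (rc1_pow_pow_eq_one p (Cyclo.modChar (p ^ 2) σ))
      (fun h => hσ ((mem_cycV1 p σ).2 h)) (rc1_pow_pow_eq_one p (Cyclo.modChar (p ^ 2) u))
    refine ⟨i, hi, ?_⟩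
    rw [mem_cycV1, map_mul, map_inv, map_pow, mul_pow, inv_pow, ← pow_mul, mul_comm i, pow_mul,
      h, inv_mul_cancel]

/-- The value of `χ ^ (p - 1)` at a Frobenius element at `ℓ ≠ p`. -/
theorem modChar_pow_frob {ℓ : ℕ} (hℓ : ℓ.Prime) (hℓp : ℓ ≠ p)
    (A : ValuationSubring (AlgebraicClosure ℚ)) (hA : A.LiesOverPrime ℓ) (τ : GQ)
    (hτ : A.IsFrobeniusAt τ ℓ) :
    (((Cyclo.modChar (p ^ 2) τ) ^ (p - 1) : (ZMod (p ^ 2))ˣ) : ZMod (p ^ 2)) =
      (ℓ : ZMod (p ^ 2)) ^ (p - 1) := by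
  have hp : p.Prime := Fact.out
  have hn : ¬ ℓ ∣ p ^ 2 := fun h =>
    hℓp ((Nat.prime_dvd_prime_iff_eq hℓ hp).1 (hℓ.dvd_of_dvd_pow h))
  rw [Units.val_pow_eq_pow_val, Cyclo.modChar_frobenius (p ^ 2) hℓ hn A hA τ hτ]

/-- **`ℓ` inert in `ℚ_1`**: the Frobenius elements at a prime `ℓ ≠ p` with
`ℓ ^ (p - 1) ≢ 1 mod p²` are not in `V`. -/
theorem frob_not_mem_cycV1 {ℓ : ℕ} (hℓ : ℓ.Prime) (hℓp : ℓ ≠ p)
    (hin : (ℓ : ZMod (p ^ 2)) ^ (p - 1) ≠ 1)
    (A : ValuationSubring (AlgebraicClosure ℚ)) (hA : A.LiesOverPrime ℓ) (τ : GQ)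
    (hτ : A.IsFrobeniusAt τ ℓ) : τ ∉ cycV1 p := by
  intro hmem
  apply hin
  rw [← modChar_pow_frob p hℓ hℓp A hA τ hτ, (mem_cycV1 p τ).1 hmem, Units.val_one]

/-- `ℓ` split in `ℚ_1`: the Frobenius elements at a prime `ℓ ≠ p` with `ℓ ^ (p - 1) ≡ 1 mod p²`
are in `V`. -/
theorem mem_cycV1_of_frob {ℓ : ℕ} (hℓ : ℓ.Prime) (hℓp : ℓ ≠ p)
    (hsp : (ℓ : ZMod (p ^ 2)) ^ (p - 1) = 1)
    (A : ValuationSubring (AlgebraicClosure ℚ)) (hA : A.LiesOverPrime ℓ) (τ : GQ)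
    (hτ : A.IsFrobeniusAt τ ℓ) : τ ∈ cycV1 p := by
  rw [mem_cycV1]
  apply Units.ext
  rw [modChar_pow_frob p hℓ hℓp A hA τ hτ, hsp, Units.val_one]

/-- The inertia groups at the primes `ℓ ≠ p` are contained in `V` (`ℚ_1/ℚ` is unramified outside
`p`). -/
theorem inertia_le_cycV1 {ℓ : ℕ} (hℓ : ℓ.Prime) (hℓp : ℓ ≠ p)
    (A : ValuationSubring (AlgebraicClosure ℚ)) (hA : A.LiesOverPrime ℓ) (τ : GQ)
    (hτ : τ ∈ A.inertiaSubgroupIn ℚ) : τ ∈ cycV1 p := by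
  have hp : p.Prime := Fact.out
  have hn : ¬ ℓ ∣ p ^ 2 := fun h =>
    hℓp ((Nat.prime_dvd_prime_iff_eq hℓ hp).1 (hℓ.dvd_of_dvd_pow h))
  rw [mem_cycV1, Cyclo.modChar_inertia (p ^ 2) hℓ hn A hA τ hτ, one_pow]

end Layer

/-! ### An inert prime outside `S` -/

section Inert

variable (p : ℕ) [Fact p.Prime]

omit [Fact p.Prime] in
/-- A natural number `m ≠ 0` with `m ^ (p - 1) ≠ 1` in `ZMod (p ^ 2)` has a prime factor with the
same property. -/
theorem rc1_exists_prime_factor (m : ℕ) (hm0 : m ≠ 0) (hm : (m : ZMod (p ^ 2)) ^ (p - 1) ≠ 1) :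
    ∃ ℓ : ℕ, ℓ.Prime ∧ ℓ ∣ m ∧ (ℓ : ZMod (p ^ 2)) ^ (p - 1) ≠ 1 := by
  induction m using Nat.recOnMul with
  | zero => exact absurd rfl hm0
  | one => exact absurd (by simp) hm
  | prime ℓ hℓ => exact ⟨ℓ, hℓ, dvd_rfl, hm⟩
  | mul a b iha ihb =>
    have ha0 : a ≠ 0 := fun h => hm0 (by rw [h, zero_mul])
    have hb0 : b ≠ 0 := fun h => hm0 (by rw [h, mul_zero])
    by_cases ha : (a : ZMod (p ^ 2)) ^ (p - 1) = 1
    · have hb : (b : ZMod (p ^ 2)) ^ (p - 1) ≠ 1 := by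
        intro hb
        apply hm
        rw [Nat.cast_mul, mul_pow, ha, hb, one_mul]
      obtain ⟨ℓ, hℓ, hd, h⟩ := ihb hb0 hb
      exact ⟨ℓ, hℓ, hd.trans (dvd_mul_left b a), h⟩
    · obtain ⟨ℓ, hℓ, hd, h⟩ := iha ha0 ha
      exact ⟨ℓ, hℓ, hd.trans (dvd_mul_right a b), h⟩

/-- **An inert prime outside `S`**: there is a prime `ℓ ∉ S`, `ℓ ≠ p`, with
`ℓ ^ (p - 1) ≢ 1 mod p²`. -/
theorem exists_inert_prime (S : Finset Nat.Primes) :
    ∃ ℓ : Nat.Primes, ℓ ∉ S ∧ (ℓ : ℕ) ≠ p ∧ ((ℓ : ℕ) : ZMod (p ^ 2)) ^ (p - 1) ≠ 1 := by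
  classical
  have hp : p.Prime := Fact.out
  set N : ℕ := ∏ q ∈ S.erase (pPrime p), (q : ℕ) with hN
  have hpN : ¬ p ∣ N := by
    intro h
    rw [hN] at h
    obtain ⟨q, hq, hpq⟩ := (Prime.dvd_finsetProd_iff (Nat.prime_iff.1 hp) _).1 h
    have h1 : p = (q : ℕ) := (Nat.prime_dvd_prime_iff_eq hp q.2).1 hpq
    have h2 : q = pPrime p := Subtype.ext h1.symm
    exact (Finset.mem_erase.1 hq).1 h2
  have hx : ((p * N : ℕ) : ZMod (p ^ 2)) ^ 2 = 0 := by
    rw [← Nat.cast_pow, ZMod.natCast_eq_zero_iff]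
    exact ⟨N ^ 2, by ring⟩
  have hm : ((1 + p * N : ℕ) : ZMod (p ^ 2)) ^ (p - 1) ≠ 1 := by
    intro h
    rw [Nat.cast_add, Nat.cast_one, rc1_one_add_pow hx] at h
    have h1 : (((p - 1) * (p * N) : ℕ) : ZMod (p ^ 2)) = 0 := by
      have h2 : (1 : ZMod (p ^ 2)) + ((p - 1 : ℕ) : ZMod (p ^ 2)) * ((p * N : ℕ) : ZMod (p ^ 2))
          = 1 + 0 := by rw [h, add_zero]
      rw [Nat.cast_mul]
      exact add_left_cancel h2
    rw [ZMod.natCast_eq_zero_iff, pow_two] at h1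
    have h3 : p * p ∣ p * ((p - 1) * N) := by
      have e : (p - 1) * (p * N) = p * ((p - 1) * N) := by ring
      rwa [e] at h1
    have h4 : p ∣ (p - 1) * N := (Nat.mul_dvd_mul_iff_left hp.pos).1 h3
    rcases (Nat.Prime.dvd_mul hp).1 h4 with h5 | h5
    · have h6 : 0 < p - 1 := by have := hp.two_le; omega
      have := Nat.le_of_dvd h6 h5
      omega
    · exact hpN h5
  obtain ⟨ℓ, hℓ, hd, hne⟩ := rc1_exists_prime_factor p (1 + p * N) (by omega) hm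
  refine ⟨⟨ℓ, hℓ⟩, ?_, ?_, hne⟩
  · intro hS
    by_cases hℓp : (⟨ℓ, hℓ⟩ : Nat.Primes) = pPrime p
    · have h1 : ℓ = p := congrArg Subtype.val hℓp
      rw [h1] at hd
      have h2 : p ∣ 1 := (Nat.dvd_add_left (dvd_mul_right p N)).1 hd
      exact hp.one_lt.ne' (Nat.dvd_one.1 h2)
    · have hmem : (⟨ℓ, hℓ⟩ : Nat.Primes) ∈ S.erase (pPrime p) := Finset.mem_erase.2 ⟨hℓp, hS⟩
      have h1 : ℓ ∣ N := Finset.dvd_prod_of_mem (fun q : Nat.Primes => (q : ℕ)) hmem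
      have h2 : ℓ ∣ 1 := (Nat.dvd_add_left (h1.trans (dvd_mul_left N p))).1 hd
      exact hℓ.one_lt.ne' (Nat.dvd_one.1 h2)
  · intro h1
    have h1' : ℓ = p := h1
    rw [h1'] at hd
    have h2 : p ∣ 1 := (Nat.dvd_add_left (dvd_mul_right p N)).1 hd
    exact hp.one_lt.ne' (Nat.dvd_one.1 h2)

end Inert

/-! ### The package -/

/-- **R-C1b.**  The cyclic layer of `dict_local` at `q = p`: `U = ⊤`, `V = cycV1 p` (open for
`levelsS S`), a prime `ℓ ∉ S` all of whose Frobenius elements lie outside `V` (`ℓ` is inert in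
`ℚ_1`), and `σ` a Frobenius element at `ℓ`. -/
theorem exists_layer_at_p (p : ℕ) [Fact p.Prime] {S : Finset Nat.Primes} (hpS : pPrime p ∈ S) :
    ∃ (σ : GQ) (ℓ : Nat.Primes) (A : ValuationSubring (AlgebraicClosure ℚ)),
      (levelsS S).IsOpen (cycV1 p) ∧ IsCyc p ⊤ (cycV1 p) σ ∧ ℓ ∉ S ∧ (ℓ : ℕ) ≠ p ∧
      ((ℓ : ℕ) : ZMod (p ^ 2)) ^ (p - 1) ≠ 1 ∧
      A.LiesOverPrime (ℓ : ℕ) ∧ A.IsFrobeniusAt σ (ℓ : ℕ) ∧
      (∀ A' : ValuationSubring (AlgebraicClosure ℚ), A'.LiesOverPrime (ℓ : ℕ) →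
        ∀ τ : GQ, A'.IsFrobeniusAt τ (ℓ : ℕ) → τ ∉ cycV1 p) ∧
      (∀ (q : ℕ), q.Prime → q ≠ p → ∀ A' : ValuationSubring (AlgebraicClosure ℚ),
        A'.LiesOverPrime q → ∀ τ : GQ, τ ∈ A'.inertiaSubgroupIn ℚ → τ ∈ cycV1 p) := by
  obtain ⟨ℓ, hℓS, hℓp, hin⟩ := exists_inert_prime p S
  obtain ⟨A, σ, hA, hσ⟩ := Fermat.Agent.FrobExists.exists_frobenius (ℓ : ℕ) ℓ.2
  have hnot := frob_not_mem_cycV1 p ℓ.2 hℓp hin
  exact ⟨σ, ℓ, A, cycV1_isOpen p hpS, isCyc_cycV1 p (hnot A hA σ hσ), hℓS, hℓp, hin, hA, hσ,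
    hnot, fun q hq hqp A' hA' τ hτ => inertia_le_cycV1 p hq hqp A' hA' τ hτ⟩

end Fermat.Agent.F4Cf
end MergeWrap_F4_Cf_RecipC1

section MergeWrap_F4_Cf_RecipC2eq -- from F4/Cf/RecipC2eq.lean

/-!
# F4 / Cf / RecipC2eq : seat RC2-EQ — `dict_local` at the prime `q = p`  (helper31)
-/

set_option autoImplicit false
set_option synthInstance.maxHeartbeats 400000
set_option linter.style.haveILetI false
set_option linter.unusedSectionVars false
set_option linter.unusedVariables false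

open CategoryTheory groupCohomology ExtCitation
open NumberField IsDedekindDomain

namespace Fermat.Agent.F4Cf

open Fermat.Agent.F4

attribute [local instance] fact_prime_coe86

variable {p : ℕ} {S : Finset Nat.Primes}

/-- **RC2-EQ.**  `dict_local` at the prime `q = p`. -/
theorem dict_local_eq [Fact p.Prime] (hp2 : p ≠ 2) (hpS : pPrime p ∈ S) (q : ↥S)
    (hq : ((q : Nat.Primes) : ℕ) = p) :
    ∃ (U V : Subgroup GQ) (σ : GQ) (j : Jrep S), (levelsS S).IsOpen V ∧ IsCyc p U V σ ∧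
      Fix (Jrep S) U j ∧ (∀ q' : ↥S, q' ≠ q → j q' = 0) ∧
      ¬ IsNormFrom (Crep S) p V σ (CMk S j) := by
  classical
  have hp : p.Prime := Fact.out
  obtain ⟨σ, r, A, hVopen, hcyc, hrS, hrp, hin, hA, hσ, hnot, hinertia⟩ :=
    exists_layer_at_p p hpS
  set ℓ : LayerS p S := LayerS.ofCyc hVopen hcyc with hℓ
  have hS : S.Nonempty := ⟨_, hpS⟩
  have hID : ℓ.LcInertDiv := fun t ht f hfe v hv hin' =>
    ℓ.dvd_log_of_inert ht f hfe v hv hin'
  have hrn : ¬ (r : ℕ) ∣ p ^ 2 := fun h =>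
    hrp ((Nat.prime_dvd_prime_iff_eq r.2 hp).1 (r.2.dvd_of_dvd_pow h))
  have hker : ∀ g : GQ, Cyclo.modChar (p ^ 2) g = 1 → g ∈ ℓ.top.U := by
    intro g hg
    show g ∈ cycV1 p
    rw [mem_cycV1, hg, one_pow]
  have hσr : ((Cyclo.modChar (p ^ 2) ℓ.σ : (ZMod (p ^ 2))ˣ) : ZMod (p ^ 2)) =
      ((r : ℕ) : ZMod (p ^ 2)) :=
    Cyclo.modChar_frobenius (p ^ 2) r.2 hrn A hA σ hσ
  -- the primes of `F` over `p`
  set Tp : Finset (HeightOneSpectrum (𝓞 ℓ.bot.field)) :=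
    ℓ.bot.T.filter (fun v => ((p : ℕ) : 𝓞 ℓ.bot.field) ∈ v.asIdeal) with hTpdef
  have hTsub : Tp ⊆ ℓ.bot.T := Finset.filter_subset _ _
  have hqp : (((q : Nat.Primes) : ℕ) : 𝓞 ℓ.bot.field) = ((p : ℕ) : 𝓞 ℓ.bot.field) :=
    congrArg (fun n : ℕ => (n : 𝓞 ℓ.bot.field)) hq
  have hqTp : ∀ g : GQ, F4G.primeOf (ℓ.bot.emb q.1 g) ∈ Tp := by
    intro g
    rw [hTpdef, Finset.mem_filter]
    refine ⟨ja_primeOf_mem_T ℓ.bot q g, ?_⟩
    rw [← hqp]
    exact F4G.natCast_mem_primeOf (ℓ.bot.emb q.1 g)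
  have hTp : Tp.Nonempty := ⟨_, hqTp 1⟩
  have hunr : F4Rec.UnramOutside ℓ.bot.field ℓ.top.field Tp := by
    refine ℓ.unramOutside_cyclo (p ^ 2) hker Tp (fun v hv => ?_)
    have hpv : ((p : ℕ) : 𝓞 ℓ.bot.field) ∈ v.asIdeal := by
      have h2 : (((p : ℕ) : 𝓞 ℓ.bot.field)) ^ 2 ∈ v.asIdeal := by
        have e : (((p ^ 2 : ℕ) : ℕ) : 𝓞 ℓ.bot.field) = (((p : ℕ) : 𝓞 ℓ.bot.field)) ^ 2 := by
          push_cast; rfl
        rw [← e]; exact hv
      exact v.isPrime.mem_of_pow_mem 2 h2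
    rw [hTpdef, Finset.mem_filter]
    refine ⟨(ℓ.bot.mem_T v).2 ⟨pPrime p, hpS, hpv⟩, hpv⟩
  -- the prime `P` of `F` over `r`, and the prime `Q` of `M` above it
  set P : HeightOneSpectrum (𝓞 ℓ.bot.field) := ℓ.bot.primeBelowAt r A hA with hPdef
  have hPT : P ∉ ℓ.bot.T := ℓ.bot.primeBelowAt_not_mem_T r hrS A hA
  have hP : P ∉ Tp := fun h => hPT (hTsub h)
  set Qw : HeightOneSpectrum (𝓞 ℓ.top.field) := ℓ.top.primeBelowAt r A hA with hQwdef
  have hQP : Qw.asIdeal.under (𝓞 ℓ.bot.field) = P.asIdeal := (ℓ.primeBelow_bot A).symm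
  have hrQ : (((r : ℕ) : ℕ) : 𝓞 ℓ.top.field) ∈ Qw.asIdeal :=
    Fermat.Agent.KFin.natCast_mem_primeBelow ℓ.top.field A r hA
  have hFr : ∀ τ : ℓ.top.field ≃ₐ[ℓ.bot.field] ℓ.top.field,
      F4Rec.IsFrobRel τ Qw.asIdeal (Ideal.absNorm (Qw.asIdeal.under (𝓞 ℓ.bot.field))) → τ ≠ 1 :=
    fun τ hτ => ℓ.frob_ne_one (p ^ 2) hker r.2 hrn hσr Qw.asIdeal Qw.isPrime hrQ τ hτ
  -- the idele `j`: `r` at the places over `q`, `1` elsewhere
  have hr0 : (((r : ℕ) : ℕ) : @PadicAlgCl ((q : Nat.Primes) : ℕ) ⟨(q : Nat.Primes).2⟩) ≠ 0 :=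
    Nat.cast_ne_zero.2 r.2.ne_zero
  set y : (@PadicAlgCl ((q : Nat.Primes) : ℕ) ⟨(q : Nat.Primes).2⟩)ˣ := Units.mk0 _ hr0 with hydef
  have hy : ∀ d ∈ ℓ.bot.Dsub q.1 1,
      locAct q.1 d (y : @PadicAlgCl ((q : Nat.Primes) : ℕ) ⟨(q : Nat.Primes).2⟩) = y :=
    fun d _ => map_natCast (locAct q.1 d) r
  set j : Jrep S := ℓ.bot.single q 1 y hy with hjdef
  have hj : j ∈ ℓ.bot.JU := ℓ.bot.single_mem_JU q 1 y hy
  have hjq : ∀ g : GQ, Jval j q g =
      (((r : ℕ) : ℕ) : @PadicAlgCl ((q : Nat.Primes) : ℕ) ⟨(q : Nat.Primes).2⟩) := by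
    intro g
    rw [Jval_def, hjdef, OpenS.Jfun_single_self]
    have e : g = primeLocalToGlobal q.1 1 * 1 * g := by rw [map_one, one_mul, one_mul]
    conv_lhs => rw [e]
    rw [ℓ.bot.singleFun_eq q 1 y hy 1 g (Subgroup.mem_top g), map_one, Module.End.one_apply]
    rfl
  have hjne : ∀ (q' : ↥S), q' ≠ q → ∀ g : GQ, Jval j q' g = 1 := by
    intro q' hq' g
    rw [Jval_def, hjdef, OpenS.Jfun_single_of_ne _ _ _ _ _ _ hq', smUnits.val_zero]
    rfl
  have hsupp : ∀ q' : ↥S, q' ≠ q → j q' = 0 := by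
    intro q' hq'
    rw [hjdef]
    unfold OpenS.single
    rw [dif_neg hq']
  -- the global element `c = r`
  have hrF : (((r : ℕ) : ℕ) : ℓ.bot.field) ≠ 0 := Nat.cast_ne_zero.2 r.2.ne_zero
  set c : (ℓ.bot.field)ˣ := Units.mk0 _ hrF with hcdef
  have hcval : ∀ (q' : ↥S) (g : GQ), ℓ.bot.emb q'.1 g (c : ℓ.bot.field) =
      (((r : ℕ) : ℕ) : @PadicAlgCl ((q' : Nat.Primes) : ℕ) ⟨(q' : Nat.Primes).2⟩) :=
    fun q' g => map_natCast (ℓ.bot.emb q'.1 g) r
  -- a place in `Tp` is a place over `q`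
  have hq_of_Tp : ∀ (q' : ↥S) (g : GQ), F4G.primeOf (ℓ.bot.emb q'.1 g) ∈ Tp → q' = q := by
    intro q' g hmem
    rw [hTpdef, Finset.mem_filter] at hmem
    have h1 : (((q' : Nat.Primes) : ℕ) : 𝓞 ℓ.bot.field) ∈
        (F4G.primeOf (ℓ.bot.emb q'.1 g)).asIdeal := F4G.natCast_mem_primeOf (ℓ.bot.emb q'.1 g)
    haveI := (F4G.primeOf (ℓ.bot.emb q'.1 g)).isPrime
    have e : ((q' : Nat.Primes) : ℕ) = p :=
      div_prime_unique (F4G.primeOf (ℓ.bot.emb q'.1 g)).asIdeal q'.1.2 hp h1 hmem.2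
    exact Subtype.ext (Subtype.ext (e.trans hq.symm))
  have hjTp : ∀ (q' : ↥S) (g : GQ), F4G.primeOf (ℓ.bot.emb q'.1 g) ∈ Tp →
      Jval j q' g = ℓ.bot.emb q'.1 g (c : ℓ.bot.field) := by
    intro q' g hmem
    have hq'q := hq_of_Tp q' g hmem
    rw [hcval, hq'q]
    exact hjq g
  -- `r` is a unit at the places of `S`
  have hr_notMem : ∀ (q' : ↥S) (g : GQ),
      (((r : ℕ) : ℕ) : 𝓞 ℓ.bot.field) ∉ (F4G.primeOf (ℓ.bot.emb q'.1 g)).asIdeal := by
    intro q' g hmem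
    have h1 : (((q' : Nat.Primes) : ℕ) : 𝓞 ℓ.bot.field) ∈
        (F4G.primeOf (ℓ.bot.emb q'.1 g)).asIdeal := F4G.natCast_mem_primeOf (ℓ.bot.emb q'.1 g)
    haveI := (F4G.primeOf (ℓ.bot.emb q'.1 g)).isPrime
    have e : ((q' : Nat.Primes) : ℕ) = (r : ℕ) :=
      div_prime_unique (F4G.primeOf (ℓ.bot.emb q'.1 g)).asIdeal q'.1.2 r.2 h1 hmem
    exact hrS ((Subtype.ext e : q'.1 = r) ▸ q'.2)
  have hjT : ∀ (q' : ↥S) (g : GQ), F4G.primeOf (ℓ.bot.emb q'.1 g) ∉ Tp →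
      F4G.primeOf (ℓ.bot.emb q'.1 g) ≠ P →
      ‖Jval j q' g‖ = ‖ℓ.bot.emb q'.1 g (c : ℓ.bot.field)‖ := by
    intro q' g hnotTp _
    have hq'q : q' ≠ q := fun h => hnotTp (h ▸ hqTp g)
    rw [hjne q' hq'q g, norm_one]
    have h1 := F4G.norm_eq_one_of_notMem (ℓ.bot.emb q'.1 g) (hr_notMem q' g)
    rw [← h1]
    congr 1
  -- `r` is a unit outside `P` and `S`
  have hc : ∀ v : HeightOneSpectrum (𝓞 ℓ.bot.field), v ∉ ℓ.bot.T → v ≠ P →
      F4Rec.ordV v c = 0 := by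
    intro v _ hvP
    have hnm : (((r : ℕ) : ℕ) : 𝓞 ℓ.bot.field) ∉ v.asIdeal := by
      intro hmem
      obtain ⟨A', hA', hvA'⟩ := ℓ.bot.exists_primeBelowAt_of_mem v r hmem
      obtain ⟨g, hg⟩ := Fermat.Agent.F4.exists_smul_eq_of_liesOverPrime A A' r.2 hA hA'
      apply hvP
      rw [hvA']
      apply HeightOneSpectrum.ext
      rw [OpenS.primeBelowAt_asIdeal, hPdef, OpenS.primeBelowAt_asIdeal, ← hg]
      have h1 := ℓ.bot.primeBelow_inv_smul_of_mem g⁻¹ (Subgroup.mem_top _) A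
      rwa [inv_inv] at h1
    apply F4Rec.ordV_eq_zero_of_valuation_eq_one
    have e : ((c : (ℓ.bot.field)ˣ) : ℓ.bot.field) =
        algebraMap (𝓞 ℓ.bot.field) ℓ.bot.field (((r : ℕ) : ℕ) : 𝓞 ℓ.bot.field) := by
      rw [map_natCast]
      rfl
    rw [e]
    exact (HeightOneSpectrum.valuation_eq_one_iff_notMem v).2 hnm
  -- the order of `r` at `P` is `1`
  have hordc : F4Rec.ordV P c = 1 := by
    have h1 := ℓ.bot.capit_valuation_natCast_field r hrS A hA P rfl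
    show -(WithZero.log (P.valuation ℓ.bot.field (((r : ℕ) : ℕ) : ℓ.bot.field))) = 1
    rw [h1, WithZero.log_exp]
    norm_num
  have hPj : ∀ f : (ℓ.bot.field)ˣ,
      (∀ (q' : ↥S) (g : GQ), F4G.primeOf (ℓ.bot.emb q'.1 g) = P →
        ‖ℓ.bot.emb q'.1 g (f : ℓ.bot.field)‖ = ‖Jval j q' g‖) →
      (P ∉ ℓ.bot.T → (p : ℤ) ∣ F4Rec.ordV P f) → ¬ (p : ℤ) ∣ F4Rec.ordV P (f / c) := by
    intro f _ h2 hdiv
    have h3 := h2 hPT
    rw [lc_ordV_div, hordc] at hdiv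
    have h4 : (p : ℤ) ∣ 1 := by
      have h5 := dvd_sub h3 hdiv
      simpa using h5
    have h6 : p ∣ 1 := by exact_mod_cast h4
    exact hp.one_lt.ne' (Nat.dvd_one.1 h6)
  have hcore := ℓ.not_isNormFrom_core hp2 hS hID Tp hTp hTsub hunr P hP Qw.asIdeal Qw.isPrime
    Qw.ne_bot hQP hFr hj c hjTp hjT hc hPj
  exact ⟨⊤, cycV1 p, σ, j, hVopen, hcyc, hj, hsupp, hcore⟩

end Fermat.Agent.F4Cf
end MergeWrap_F4_Cf_RecipC2eq

section MergeWrap_F4_Cf_Recip -- from F4/Cf/Recip.lean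

/-!
# F4 / Cf / Recip : the reciprocity law `GlobalDatum.recip`, by rescaling the local invariants
(STUBS — layer RECIP of GLOB; statements by helper53, blueprint `NOTES/blueprint-F4-GLOB.md`)

`GlobalDatum.recip` :  `inv (g z) = Σ_{q ∈ S} inv_q (ev_q (res_q z))`  for `z ∈ ZZ²(G_S, KJ)`.

GLOB is free to choose `inv` (ANY injective linear form on `HH²(G_S, KC)` has the duality
properties, `F4/Cf/Assembly.lean`) and to rescale the local invariants `inv_q` by units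
(`rescaleLoc`: all fields of `LocalDatum` are invariant).  By Shapiro (`shapiro2`, injectivity of
`inv_q`) the forms `λ_q = inv_q ∘ ev_q ∘ res_q` separate the points of `HH²(G_S, KJ)`, hence
`inv ∘ g = Σ c_q λ_q`; the ONLY arithmetic input is `c_q ≠ 0` for every `q ∈ S`:

  **T3**  for every `q ∈ S` there is a class `z_q` of `KJ`, locally trivial away from `q`,
          with `g z_q ≠ 0` in `HH²(G_S, KC)`.

Seats.
 R-A  `rescaleLoc` (Prop-fields), `exists_rescale_recip`      linear algebra + Shapiro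
 R-B  `t3_of_nonNorm`                                          `z_q = cor_U (α¹(j) ∪ χ)`
 R-C  `dict_local`                                             number theory (Artin symbol)
 R-C0 `exists_char_GQ`                                         `ℚ_1 ⊂ ℚ(μ_{p²}) ⊂ ℚ_S`
 R-Q  `quotHyp_of_packs`                                       `E` is `p`-divisible, `E[p] = μ_p`
 R-D  assembly `F4/Cf/Final.lean`                              (helper53)

DEFINITIONS: `F4/Cf/RecipDefs.lean` (provers import THAT file).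

INTERFACE WITH LOC (`LocPack`): LOC delivers, for ONE global root map `φ : μ_p → E` (DK1,
`exists_rootMap`), at every `q ∈ S` a local datum `loc` TOGETHER WITH its universal-coefficient
datum `dat : UCData p loc.K (LqS S q) I Q` (`K = hullK`, `I = hullI`), `I` smooth, and the
compatibility `dat.i0 (ε m) = dat.ι (ι_q (φ m))`  (`ε` is "`μ_p ⊂ L_q` via `φ`").

R-B: `j ∈ J^U` supported at `q`, `a = [j] ∈ C^U` not a norm from the cyclic layer `(U, V, σ)`,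
`χ : U → 𝔽_p` the character of the layer.  Then `z_U = α¹_J(j) ∪ χ ∈ ZZ²(U, KJ)` (`UC.cupχ`,
`Rel1α` of `F4/UC/Seq1.lean`, chosen supported at `q`), `g z_U = α¹_C(a) ∪ χ`
(`rel1α_quot0`), whose image under `β²` is the cyclic cocycle `carryCo χ a` (`rel2_cupχ`), not a
coboundary (`carryCo_inj` for the formation of `U`); `z = cor_U z_U` (`corT2`) is supported at
`q`, and `inv (g z) = inv (cor_U (g z_U)) ≠ 0` since `inv ∘ cor_U` is injective (`A2InjU`).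

R-C: `q ≠ p`: `U = Gal(ℚ̄/ℚ_n)`, `V = Gal(ℚ̄/ℚ_{n+1})` (layers of the cyclotomic `ℤ_p`-extension,
ramified only at `p ∈ S`) with `n` such that the places over `q` of `ℚ_n` are inert in `ℚ_{n+1}`
(`q^{p-1} ∈ 1 + p^{n+1}ℤ_p ∖ 1 + p^{n+2}ℤ_p`); `j` = a uniformizer at ONE place `v | q` of `ℚ_n`.
If `[j] = N c'` then (as in the derivation of `first`/`distinct`) `v^m · (f)^S · N 𝔄 = 1` with
`f` a local norm at the places over `p`, so the Artin symbol of `v` is trivial: contradiction.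
`q = p`: `U = G`, `V = Gal(ℚ̄/ℚ_1)`; `ℓ ∉ S` a prime inert in `ℚ_1`; `[diagJ ℓ] = cl((ℓ))` is not a
norm (Artin symbol) and `diagJ ℓ ≡ (ℓ at p)` modulo local norms (units at unramified places):
`j = (ℓ at p)`.
-/

set_option autoImplicit false

open CategoryTheory groupCohomology ExtCitation

namespace Fermat.Agent.F4Cf

open Fermat.Agent.F4

variable {p : ℕ} [Fact p.Prime] {S : Finset Nat.Primes}

/-! ### R-A : reciprocity up to units -/

/-- **R-A.**  Reciprocity up to units.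
Proof: `λ_q(z) := inv_q (ev_q res_q z)`; `inv_q` is injective on `HH²(D_q, K_q)` (`a2inj` for
`U = ⊤`); if `λ_q(z) = 0` for all `q` then `[z] = 0` (`shapiro2` for `N = 𝔽_p`).  With `z_q` of
`T3`: `λ_{q'}(z_q) = 0` for `q' ≠ q`, so `λ_q(z_q) ≠ 0`; `c_q := inv (g z_q) / λ_q(z_q)`;
`z - Σ (λ_q(z)/λ_q(z_q)) z_q` is killed by all `λ_q`. -/
theorem exists_rescale_recip {loc : ∀ q : ↥S, LocalDatum p S q.1} (C : CoindDatum p S loc)
    (inv : HH2 (levelsS S) C.KC →ₗ[ZMod p] ZMod p) (hT3 : T3 C inv) :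
    ∃ c : ↥S → (ZMod p)ˣ, ∀ z : ↥(ZZ2 (levelsS S) C.KJ),
      inv (HH2π _ _ (C.g.mapZZ2 _ z)) =
        ∑ q : ↥S, (c q : ZMod p) * (loc q).inv (HH2π _ _ ((C.ev q).mapZZ2 _
          ⟨resT2 (primeLocalToGlobal q.1) C.KJ z.1, resT2_mem_ZZ2 _ _ C.KJ z.2⟩)) :=
  exists_rescale_recip_pf C inv hT3

/-! ### R-B : a class from a local non-norm -/

/-- **R-B.**  A non-norm `[j]`, `j ∈ J^U` supported at `q`, gives a class of `KJ` locally trivial
away from `q` with non-zero image in `HH²(G_S, KC)`. -/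
theorem t3_of_nonNorm (hpS : pPrime p ∈ S) (loc : ∀ q : ↥S, LocalDatum p S q.1)
    {I Q : ∀ q : ↥S, Rep.{0} ℤ (primeLocalGaloisGroup q.1)}
    (Dat : ∀ q : ↥S, UCData p (loc q).K (LqS S q.1) (I q) (Q q))
    (hI : ∀ q : ↥S, IsSmooth (locLevelsS S q.1) (I q))
    (hQ : (datJ loc Dat hI).QuotHyp (coindF loc (isSmooth_Fp1 S hpS)) (EinJ S))
    {U₀ : Subgroup GQ} (h : PCF p (levelsS S) (Crep S) U₀)
    (inv : HH2 (levelsS S) (coindKC loc (isSmooth_Fp1 S hpS)) →ₗ[ZMod p] ZMod p)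
    (hA2 : ∀ (W : Subgroup GQ) [Fintype (GQ ⧸ W)] (hW : (levelsS S).IsOpen W),
      A2InjU W (coindKC loc (isSmooth_Fp1 S hpS)) inv hW)
    (q : ↥S) (U V : Subgroup GQ) (σ : GQ) (hV : (levelsS S).IsOpen V) (hc : IsCyc p U V σ)
    (j : Jrep S) (hj : Fix (Jrep S) U j) (hsupp : ∀ q' : ↥S, q' ≠ q → j q' = 0)
    (hnn : ¬ IsNormFrom (Crep S) p V σ (CMk S j)) :
    ∃ z : ↥(ZZ2 (levelsS S) (coindKJ loc)),
      LocTrivAway (coindDatum hpS loc) q z ∧
        inv (HH2π _ _ ((coindG loc (isSmooth_Fp1 S hpS)).mapZZ2 _ z)) ≠ 0 :=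
  t3_of_nonNorm_pf hpS loc Dat hI hQ h inv hA2 q U V σ hV hc j hj hsupp hnn

/-! ### R-Q : the quotient hypotheses (helper9, `F4/Cf/RecipQ.lean`) -/

/-- **R-Q.**  `E ≤ J` is `p`-divisible (`EsRep_div`) and `E[p] = f(μ_p)` (`IsRootMap`, `compat`,
pointwise: `(datJ).ι`, `(datJ).i0`, `coindF`, `diagJ` are all given by `(q, g) ↦ …`). -/
theorem quotHyp_of_packs (hpS : pPrime p ∈ S) {φ : Fp1 p →+ EsRep S} (hφ : IsRootMap φ)
    (P : ∀ q : ↥S, LocPack p S φ q.1) :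
    (datJ (fun q => (P q).loc) (fun q => (P q).dat) (fun q => (P q).smoothI)).QuotHyp
      (coindF (fun q => (P q).loc) (isSmooth_Fp1 S hpS)) (EinJ S) :=
  quotHyp_of_packs_pf hpS hφ P

/-! ### R-C : the arithmetic input -/

/-- **R-C0.**  `G_S` has a non-zero smooth character of order `p` (`p ∈ S`): the Fermat quotient
of the cyclotomic character modulo `p²`. -/
theorem exists_char_GQ (hp2 : p ≠ 2) (hpS : pPrime p ∈ S) :
    ∃ χ : GQ → ZMod p, IsSmChar (levelsS S) χ ∧ χ ≠ 0 :=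
  exists_char_GQ_pf hp2 hpS

/-- **R-C.**  For every `q ∈ S` there are a cyclic layer `(U, V, σ)` of degree `p` of `G_S` and
`j ∈ J^U`, supported at `q`, whose class in `C = J / E` is not a norm from `V`. -/
theorem dict_local (hp2 : p ≠ 2) (hpS : pPrime p ∈ S) (q : ↥S) :
    ∃ (U V : Subgroup GQ) (σ : GQ) (j : Jrep S), (levelsS S).IsOpen V ∧ IsCyc p U V σ ∧
      Fix (Jrep S) U j ∧ (∀ q' : ↥S, q' ≠ q → j q' = 0) ∧
      ¬ IsNormFrom (Crep S) p V σ (CMk S j) := by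
  by_cases hq : ((q : Nat.Primes) : ℕ) = p
  · exact dict_local_eq hp2 hpS q hq
  · exact dict_local_ne hp2 hpS q hq

end Fermat.Agent.F4Cf
end MergeWrap_F4_Cf_Recip

section MergeWrap_F4_Cf_Final -- from F4/Cf/Final.lean

/-!
# F4 / Cf / Final : the global datum from the local packs (seat R-D, helper53)

`globalDatum_of_packs` : `Nonempty (GlobalDatum p S)` from `LocPack`s at all `q ∈ S` (LOC),
the class formation `pcf_Crep` (DICT), the abstract theory (ACF) and reciprocity (RECIP).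
-/

set_option autoImplicit false

open CategoryTheory groupCohomology ExtCitation

namespace Fermat.Agent.F4Cf

open Fermat.Agent.F4

/-- A space all of whose pairs of vectors are dependent has an injective linear form. -/
theorem exists_injective_of_KF1 {G : Type} [Group G] {p : ℕ} [Fact p.Prime] {𝓤 : Levels G}
    {K : Cx (ZMod p) G} (h : UC.KF1 𝓤 K) :
    ∃ inv : HH2 𝓤 K →ₗ[ZMod p] ZMod p, Function.Injective inv := by
  by_cases h0 : ∀ v : HH2 𝓤 K, v = 0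
  · exact ⟨0, fun a b _ => (h0 a).trans (h0 b).symm⟩
  · obtain ⟨v, hv⟩ := not_forall.1 h0
    obtain ⟨c, rfl⟩ := Submodule.mkQ_surjective _ v
    have hspan : ∀ w : HH2 𝓤 K, ∃ a : ZMod p, w = a • HH2π 𝓤 K c := by
      intro w
      obtain ⟨c', rfl⟩ := Submodule.mkQ_surjective _ w
      obtain ⟨x, y, hxy, hB⟩ := h c.1 c'.1 c.2 c'.2
      have hsum : x • HH2π 𝓤 K c + y • HH2π 𝓤 K c' = 0 := by
        rw [← map_smul, ← map_smul, ← map_add]
        exact (HH2π_eq_zero_iff 𝓤 K _).2 hB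
      have hy : y ≠ 0 := by
        rintro rfl
        rw [zero_smul, add_zero] at hsum
        rcases hxy with hx | hy
        · exact hv ((smul_eq_zero.1 hsum).resolve_left hx)
        · exact hy rfl
      refine ⟨-(y⁻¹ * x), ?_⟩
      have h1 : y • HH2π 𝓤 K c' = -(x • HH2π 𝓤 K c) := eq_neg_of_add_eq_zero_right hsum
      calc HH2π 𝓤 K c' = y⁻¹ • (y • HH2π 𝓤 K c') := by rw [smul_smul, inv_mul_cancel₀ hy, one_smul]
        _ = -(y⁻¹ * x) • HH2π 𝓤 K c := by rw [h1, smul_neg, smul_smul, neg_smul]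
    let f : ZMod p →ₗ[ZMod p] HH2 𝓤 K := LinearMap.toSpanSingleton (ZMod p) _ (HH2π 𝓤 K c)
    have hf : LinearMap.ker f = ⊥ := by
      rw [LinearMap.ker_eq_bot']
      intro a ha
      exact (smul_eq_zero.1 ha).resolve_right hv
    obtain ⟨g, hg⟩ := LinearMap.exists_leftInverse_of_injective f hf
    refine ⟨g, (injective_iff_map_eq_zero g).2 fun w hw => ?_⟩
    obtain ⟨a, rfl⟩ := hspan w
    have h2 : g (f a) = a := by
      have := congrArg (fun φ : ZMod p →ₗ[ZMod p] ZMod p => φ a) hg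
      simpa using this
    have h3 : f a = a • HH2π 𝓤 K c := rfl
    rw [← h3, h2] at hw
    rw [hw, zero_smul]

section

variable {p : ℕ} [Fact p.Prime] {S : Finset Nat.Primes}

/-- The product of coinduced modules is smooth. -/
lemma smooth_piCoind (A : ∀ q : ↥S, Rep.{0} ℤ (primeLocalGaloisGroup q.1)) :
    IsSmooth (levelsS S)
      (cxPiRep fun q : ↥S => coInd (primeLocalToGlobal q.1) (levelsS S) (A q)) := by
  classical
  intro x
  have h : ∀ q : ↥S, ∃ U ∈ (levelsS S).sets, ∀ g ∈ U,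
      (coInd (primeLocalToGlobal q.1) (levelsS S) (A q)).ρ g (x q) = x q :=
    fun q => coInd_smooth (A q) (x q)
  obtain ⟨U, hU, hUq⟩ := (levelsS S).coind_exists_le_of_finite (Set.univ : Set ↥S)
    Set.finite_univ
    (fun q V => ∀ g ∈ V, (coInd (primeLocalToGlobal q.1) (levelsS S) (A q)).ρ g (x q) = x q)
    (fun q _ => h q) (fun q U V hVU hP g hg => hP g (hVU hg))
  exact ⟨U, hU, fun g hg => funext fun q => hUq q (Set.mem_univ _) g hg⟩

/-- **GLOB**: the global datum from the local packs. -/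
theorem globalDatum_of_packs (hp2 : p ≠ 2) (hpS : pPrime p ∈ S) {φ : Fp1 p →+ EsRep S}
    (hφ : IsRootMap φ) (P : ∀ q : ↥S, LocPack p S φ q.1) : Nonempty (GlobalDatum p S) := by
  classical
  -- the algebra
  have hQ := quotHyp_of_packs hpS hφ P
  have hIJ := smooth_piCoind (S := S) (fun q => (P q).I)
  have hIC : IsSmooth (levelsS S) hQ.IC := hQ.smoothIC hIJ
  have DC : UCData p (coindKC (fun q => (P q).loc) (isSmooth_Fp1 S hpS)) (Crep S) hQ.IC _ :=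
    (datJ (fun q => (P q).loc) (fun q => (P q).dat) (fun q => (P q).smoothI)).quot0 hQ
  -- the class formation
  have h := pcf_Crep p S hp2 hpS
  have hχ := exists_char_GQ (S := S) hp2 hpS
  have hfin : ∀ U : Subgroup GQ, (levelsS S).IsOpen U → ¬ p ∣ U.index →
      Module.Finite (ZMod p) ↥(Z1 ((levelsS S).sub U) (Rep.trivial (ZMod p) ↥U (ZMod p))) := by
    intro U hU _
    have := Fermat.Agent.F4Fin.finH1 (p := p) S U hU
    exact Module.Finite.equiv (shH1Equiv U hU)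
  -- the invariant
  obtain ⟨inv, hinv⟩ := exists_injective_of_KF1
    (DC.kF1_of_H1p0 hIC (h1slack h).h1p0 (f1sm h))
  -- reciprocity
  have hA2 : ∀ (W : Subgroup GQ) [Fintype (GQ ⧸ W)] (hW : (levelsS S).IsOpen W),
      A2InjU W (coindKC (fun q => (P q).loc) (isSmooth_Fp1 S hpS)) inv hW :=
    fun W _ hW => a2injU_all DC hIC h inv hinv hχ hfin W hW
  have hT3 : T3 (coindDatum hpS (fun q => (P q).loc)) inv := by
    intro q
    obtain ⟨U, V, σ, j, hV, hc, hj, hsupp, hnn⟩ := dict_local hp2 hpS q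
    exact t3_of_nonNorm hpS (fun q => (P q).loc) (fun q => (P q).dat) (fun q => (P q).smoothI)
      hQ h inv hA2 q U V σ hV hc j hj hsupp hnn
  obtain ⟨c, hc⟩ := exists_rescale_recip (coindDatum hpS (fun q => (P q).loc)) inv hT3
  -- the datum
  exact ⟨GlobalDatum.ofCoind
    (coindDatum hpS (fun q => rescaleLoc (P q).loc (c q))) inv
    (fun z => by
      refine (hc z).trans (Finset.sum_congr rfl fun q _ => ?_)
      rfl)
    (fun U hU hidx => a2inj_of_PCF DC hIC h inv hinv hχ U hU hidx)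
    (fun U hU hidx => a1surj_of_PCF DC hIC h inv hinv hχ U hU hidx (hfin U hU hidx))
    (fun V hV => a1inj_of_PCF DC hIC h inv hinv hχ hfin V ((levelsS S).isOpen_of_mem hV))
    (fun U hU _ => Fermat.Agent.F4Fin.finH1 (p := p) S U hU)⟩

/-- **GLOB + LOC**: the global datum, given the local packs for every root map
(`exists_locPack`, LOC seat DATUM) — the statement of `exists_globalDatum` (`F4/Glob/Main.lean`). -/
theorem exists_globalDatum_of_locPack (hp2 : p ≠ 2) (hpS : pPrime p ∈ S)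
    (hloc : ∀ φ : Fp1 p →+ EsRep S, IsRootMap φ → ∀ q : Nat.Primes,
      Nonempty (LocPack p S φ q)) : Nonempty (GlobalDatum p S) := by
  obtain ⟨φ, hinj, hcomm, hsurj⟩ := exists_rootMap (p := p) (S := S) hpS
  have hφ : IsRootMap φ := ⟨hinj, hcomm, hsurj⟩
  exact globalDatum_of_packs hp2 hpS hφ (fun q => (hloc φ hφ q.1).some)

end

end Fermat.Agent.F4Cf
end MergeWrap_F4_Cf_Final
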